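-- P-CFT layer L1a (helper59): finite extensions of complete discrete valuation rings.
import Mathlib
import Fermat.Prelude.Thm_Algebra_finite_maximalSpectrum_and_bijective_localization_of_module_finite
import Fermat.Prelude.Thm_IsLocalRing_isAdicComplete_of_module_finite

set_option autoImplicit false
set_option linter.unusedSectionVars false

open IsLocalRing

namespace Fermat.Agent.Lib.CFT.Local

/-- A module-finite domain over a complete noetherian local ring is local. -/
theorem isLocalRing_of_finite_of_isDomain (A : Type) [CommRing A] [IsLocalRing A]
    [IsNoetherianRing A] [IsAdicComplete (maximalIdeal A) A]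
    (B : Type) [CommRing B] [IsDomain B] [Algebra A B] [Module.Finite A B] : IsLocalRing B := by
  classical
  obtain ⟨-, hbij, -, -⟩ :=
    Algebra.finite_maximalSpectrum_and_bijective_localization_of_module_finite (𝒪 := A) B
  have key : ∀ I J : MaximalSpectrum B, I = J := by
    intro I J
    by_contra hIJ
    let e : ∀ I' : MaximalSpectrum B, Localization.AtPrime I'.asIdeal := Pi.single I 1
    obtain ⟨b, hb⟩ := hbij.2 e
    have h0 : b * (1 - b) = 0 := by
      apply hbij.1
      rw [map_mul, map_sub, map_one, map_zero, hb]
      funext I'
      by_cases h : I' = I
      · subst h; simp [e]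
      · simp [e, Pi.single_eq_of_ne h]
    rcases mul_eq_zero.mp h0 with h | h
    · have := congrFun hb I
      rw [h, map_zero] at this
      simp [e] at this
    · have hb1 : b = 1 := (sub_eq_zero.mp h).symm
      have := congrFun hb J
      rw [hb1, map_one] at this
      simp [e, Pi.single_eq_of_ne (Ne.symm hIJ)] at this
  obtain ⟨m, hm⟩ := Ideal.exists_maximal B
  refine IsLocalRing.of_unique_max_ideal ⟨m, hm, ?_⟩
  intro m' hm'
  exact congrArg MaximalSpectrum.asIdeal (key ⟨m', hm'⟩ ⟨m, hm⟩)

section AKLB

/-! `A` a complete discrete valuation ring with fraction field `K`, `L / K` finite separable,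
`B` the integral closure of `A` in `L`. -/

variable (A K L B : Type) [CommRing A] [IsDomain A] [IsDiscreteValuationRing A]
  [IsAdicComplete (maximalIdeal A) A]
  [Field K] [Algebra A K] [IsFractionRing A K]
  [Field L] [Algebra K L] [FiniteDimensional K L] [Algebra.IsSeparable K L]
  [Algebra A L] [IsScalarTower A K L]
  [CommRing B] [IsDomain B] [Algebra A B] [Algebra B L] [IsScalarTower A B L]
  [IsIntegralClosure B A L]

include A K L

theorem ext_finite : Module.Finite A B := IsIntegralClosure.finite A K L B

theorem ext_isLocalRing : IsLocalRing B :=
  have := ext_finite A K L B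
  isLocalRing_of_finite_of_isDomain A B

theorem ext_isDedekindDomain : IsDedekindDomain B :=
  IsIntegralClosure.isDedekindDomain A K L B

theorem ext_isFractionRing : IsFractionRing B L :=
  IsIntegralClosure.isFractionRing_of_finite_extension A K L B

theorem ext_algebraMap_injective' : Function.Injective (algebraMap A L) := by
  rw [IsScalarTower.algebraMap_eq A K L]
  exact (algebraMap K L).injective.comp (IsFractionRing.injective A K)

theorem ext_algebraMap_injective : Function.Injective (algebraMap A B) := by
  have h := ext_algebraMap_injective' A K L
  rw [IsScalarTower.algebraMap_eq A B L] at h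
  exact Function.Injective.of_comp h

theorem ext_isTorsionFree' : Module.IsTorsionFree A L :=
  Module.isTorsionFree_iff_algebraMap_injective.mpr (ext_algebraMap_injective' A K L)

theorem ext_isTorsionFree : Module.IsTorsionFree A B :=
  Module.isTorsionFree_iff_algebraMap_injective.mpr (ext_algebraMap_injective A K L B)

theorem ext_isIntegral : Algebra.IsIntegral A B := IsIntegralClosure.isIntegral_algebra A L

theorem ext_not_isField : ¬ IsField B := by
  intro h
  have := ext_isIntegral A K L B
  exact IsDiscreteValuationRing.not_isField A
    (isField_of_isIntegral_of_isField (ext_algebraMap_injective A K L B) h)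

theorem ext_isDiscreteValuationRing : IsDiscreteValuationRing B := by
  have h1 := ext_isLocalRing A K L B
  have h2 := ext_isDedekindDomain A K L B
  have h3 := (IsDiscreteValuationRing.TFAE B (ext_not_isField A K L B)).out 0 2
  exact h3.mpr h2

theorem ext_isLocalHom : IsLocalHom (algebraMap A B) := by
  have := ext_isIntegral A K L B
  have := (faithfulSMul_iff_algebraMap_injective A B).mpr (ext_algebraMap_injective A K L B)
  infer_instance

theorem ext_isAdicComplete [IsLocalRing B] : IsAdicComplete (maximalIdeal B) B := by
  have := ext_finite A K L B
  have := ext_isLocalHom A K L B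
  exact IsLocalRing.isAdicComplete_of_module_finite (𝒪 := A) (T := B)

theorem ext_free : Module.Free A B :=
  have := ext_isTorsionFree' A K L
  IsIntegralClosure.module_free A K L B

theorem ext_finrank : Module.finrank A B = Module.finrank K L :=
  have := ext_isTorsionFree' A K L
  IsIntegralClosure.rank A K L B

end AKLB

end Fermat.Agent.Lib.CFT.Local
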