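import Mathlib

/-!
# P-CFT, Local/UnitsFiltration (helper44)

Units of a (complete) discrete valuation ring `B` with fraction field `L`:

* `ord : Lˣ → ℤ` (group hom `ordHom : Lˣ →* Multiplicative ℤ`), `Lˣ = Bˣ × ϖ^ℤ`;
* the filtration `principalUnits B i = 1 + m^i` (any local ring), graded pieces
  `U/U^(1) = kˣ`, `U^(i)/U^(i+1) = k` (`i ≥ 1`), functoriality for local homomorphisms;
* successive approximation in complete local rings;
* `n`-th powers: if `n = w ϖ^c` and `c < i` then `x ↦ x^n : U^(i) → U^(i+c)` is bijective.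
-/

set_option autoImplicit false
set_option linter.unusedSectionVars false
set_option linter.unnecessarySimpa false

namespace Fermat.Agent.Lib.CFT.Local.UnitsFiltration

open IsLocalRing IsDedekindDomain IsDedekindDomain.HeightOneSpectrum
open scoped WithZero

/-! ## Part 1: the normalized valuation on `Lˣ` -/

section Ord

variable (B : Type*) [CommRing B] [IsDomain B] [IsDiscreteValuationRing B]
variable (L : Type*) [Field L] [Algebra B L] [IsFractionRing B L]

/-- The adic valuation of the fraction field of a discrete valuation ring. -/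
noncomputable abbrev dvrVal : Valuation L ℤᵐ⁰ :=
  (IsDiscreteValuationRing.maximalIdeal B).valuation L

/-- The normalized additive valuation on the units of the fraction field, as a group
homomorphism with values in `Multiplicative ℤ`; `ord ϖ = 1` for a uniformizer `ϖ`. -/
noncomputable def ordHom : Lˣ →* Multiplicative ℤ :=
  ((WithZero.unitsWithZeroEquiv (α := Multiplicative ℤ)).toMonoidHom.comp
    (Units.map (dvrVal B L).toMonoidWithZeroHom.toMonoidHom))⁻¹

/-- The integer valued `ord`. -/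
noncomputable def ord (x : Lˣ) : ℤ := Multiplicative.toAdd (ordHom B L x)

variable {B L}

theorem ordHom_apply (x : Lˣ) : ordHom B L x = Multiplicative.ofAdd (ord B L x) := rfl

theorem dvrVal_eq_exp_neg_ord (x : Lˣ) :
    dvrVal B L (x : L) = WithZero.exp (-(ord B L x)) := by
  unfold ord ordHom
  simp only [MonoidHom.inv_apply, MonoidHom.coe_comp, Function.comp_apply, toAdd_inv, neg_neg]
  rw [WithZero.exp, ofAdd_toAdd, MulEquiv.toMonoidHom_eq_coe, MonoidHom.coe_coe,
    WithZero.coe_unitsWithZeroEquiv_eq_units_val]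
  rfl

theorem ord_eq_iff (x : Lˣ) (n : ℤ) :
    ord B L x = n ↔ dvrVal B L (x : L) = WithZero.exp (-n) := by
  rw [dvrVal_eq_exp_neg_ord, WithZero.exp_inj]
  omega

@[simp] theorem ord_one : ord B L 1 = 0 := by simp [ord]

theorem ord_mul (x y : Lˣ) : ord B L (x * y) = ord B L x + ord B L y := by simp [ord]

theorem ord_inv (x : Lˣ) : ord B L x⁻¹ = - ord B L x := by simp [ord]

theorem ord_div (x y : Lˣ) : ord B L (x / y) = ord B L x - ord B L y := by simp [ord]

theorem ord_pow (x : Lˣ) (n : ℕ) : ord B L (x ^ n) = n * ord B L x := by simp [ord]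

theorem ord_zpow (x : Lˣ) (n : ℤ) : ord B L (x ^ n) = n * ord B L x := by simp [ord]

/-- `0 ≤ ord x` iff `x` is integral. -/
theorem ord_nonneg_iff (x : Lˣ) : 0 ≤ ord B L x ↔ (x : L) ∈ Set.range (algebraMap B L) := by
  have h := dvrVal_eq_exp_neg_ord (B := B) x
  constructor
  · intro h0
    have : dvrVal B L (x : L) ≤ 1 := by
      rw [h, ← WithZero.exp_zero, WithZero.exp_le_exp]; omega
    obtain ⟨a, ha⟩ := IsDiscreteValuationRing.exists_lift_of_le_one this
    exact ⟨a, ha⟩
  · rintro ⟨a, ha⟩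
    have : dvrVal B L (x : L) ≤ 1 := by rw [← ha]; exact valuation_le_one _ _
    rw [h, ← WithZero.exp_zero, WithZero.exp_le_exp] at this
    omega

/-- The valuation of a unit of `B` is zero. -/
theorem ord_of_unit (x : Lˣ) (u : Bˣ) (h : (x : L) = algebraMap B L u) : ord B L x = 0 := by
  rw [ord_eq_iff, h, neg_zero, WithZero.exp_zero, valuation_eq_one_iff_notMem]
  simp [IsDiscreteValuationRing.maximalIdeal]

/-- The valuation of a uniformizer is one. -/
theorem ord_of_irreducible (x : Lˣ) {ϖ : B} (hϖ : Irreducible ϖ)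
    (h : (x : L) = algebraMap B L ϖ) : ord B L x = 1 := by
  rw [ord_eq_iff, h, valuation_of_algebraMap]
  exact intValuation_singleton _ hϖ.ne_zero hϖ.maximalIdeal_eq

/-- `ord x = 0` iff `x` is a unit of `B`. -/
theorem ord_eq_zero_iff (x : Lˣ) : ord B L x = 0 ↔ ∃ u : Bˣ, algebraMap B L u = x := by
  constructor
  · intro h
    have h1 : (x : L) ∈ MonoidHom.mker (dvrVal B L) := by
      rw [MonoidHom.mem_mker]
      have := (ord_eq_iff (B := B) x 0).mp h
      simpa using this
    rw [IsDiscreteValuationRing.mker_valuation_eq_isUnitSubmonoid] at h1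
    obtain ⟨b, hb, hbx⟩ := h1
    have hb' : IsUnit b := hb
    exact ⟨hb'.unit, by rw [IsUnit.unit_spec]; exact hbx⟩
  · rintro ⟨u, hu⟩
    exact ord_of_unit x u hu.symm

/-- The valuation of `u * ϖ ^ n`. -/
theorem ord_of_unit_mul_pow (x : Lˣ) (u : Bˣ) {ϖ : B} (hϖ : Irreducible ϖ) (n : ℕ)
    (h : (x : L) = algebraMap B L (u * ϖ ^ n)) : ord B L x = n := by
  have hϖ0 : algebraMap B L ϖ ≠ 0 := by
    simpa using hϖ.ne_zero
  have hx : x = Units.map (algebraMap B L).toMonoidHom u * (Units.mk0 _ hϖ0) ^ n := by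
    ext
    simp [h]
  rw [hx, ord_mul, ord_pow, ord_of_unit _ u rfl, ord_of_irreducible _ hϖ rfl]
  simp

variable (B L) in
/-- The inclusion of the units of `B` into the units of its fraction field. -/
noncomputable def unitsIncl : Bˣ →* Lˣ := Units.map (algebraMap B L).toMonoidHom

@[simp] theorem coe_unitsIncl (u : Bˣ) : ((unitsIncl B L u : Lˣ) : L) = algebraMap B L u := rfl

theorem unitsIncl_injective : Function.Injective (unitsIncl B L) := by
  intro u v h
  have h1 : algebraMap B L u = algebraMap B L v := by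
    rw [← coe_unitsIncl, ← coe_unitsIncl, h]
  exact Units.ext (IsFractionRing.injective B L h1)

@[simp] theorem ord_unitsIncl (u : Bˣ) : ord B L (unitsIncl B L u) = 0 :=
  ord_of_unit _ u rfl

theorem ord_eq_zero_iff_mem_range (x : Lˣ) : ord B L x = 0 ↔ x ∈ (unitsIncl B L).range := by
  rw [ord_eq_zero_iff]
  constructor
  · rintro ⟨u, hu⟩
    exact ⟨u, Units.ext hu⟩
  · rintro ⟨u, rfl⟩
    exact ⟨u, rfl⟩

/-- The kernel of `ord` is the unit group of `B`. -/
theorem ker_ordHom : (ordHom B L).ker = (unitsIncl B L).range := by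
  ext x
  rw [MonoidHom.mem_ker, ← ord_eq_zero_iff_mem_range]
  unfold ord
  constructor
  · intro h; rw [h]; rfl
  · intro h
    exact Multiplicative.toAdd.injective h

/-- A uniformizer of `B`, as a unit of the fraction field. -/
noncomputable def unifUnit {ϖ : B} (hϖ : Irreducible ϖ) : Lˣ :=
  Units.mk0 (algebraMap B L ϖ) (by simpa using hϖ.ne_zero)

@[simp] theorem coe_unifUnit {ϖ : B} (hϖ : Irreducible ϖ) :
    ((unifUnit (L := L) hϖ : Lˣ) : L) = algebraMap B L ϖ := rfl

@[simp] theorem ord_unifUnit {ϖ : B} (hϖ : Irreducible ϖ) :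
    ord B L (unifUnit (L := L) hϖ) = 1 :=
  ord_of_irreducible _ hϖ rfl

theorem ord_surjective : Function.Surjective (ord B L) := by
  obtain ⟨ϖ, hϖ⟩ := IsDiscreteValuationRing.exists_irreducible B
  intro n
  exact ⟨unifUnit hϖ ^ n, by rw [ord_zpow, ord_unifUnit, mul_one]⟩

theorem ordHom_surjective : Function.Surjective (ordHom B L) := by
  intro n
  obtain ⟨x, hx⟩ := ord_surjective (B := B) (L := L) (Multiplicative.toAdd n)
  exact ⟨x, by rw [ordHom_apply, hx, ofAdd_toAdd]⟩

/-- Every unit of the fraction field is a unit of `B` times a power of the uniformizer. -/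
theorem exists_eq_unitsIncl_mul_zpow {ϖ : B} (hϖ : Irreducible ϖ) (x : Lˣ) :
    ∃ u : Bˣ, x = unitsIncl B L u * unifUnit hϖ ^ ord B L x := by
  have h : ord B L (x * (unifUnit hϖ ^ ord B L x)⁻¹) = 0 := by
    rw [ord_mul, ord_inv, ord_zpow, ord_unifUnit]; ring
  rw [ord_eq_zero_iff_mem_range] at h
  obtain ⟨u, hu⟩ := h
  exact ⟨u, by rw [hu]; group⟩

/-- `Lˣ = Bˣ × ϖ^ℤ`. -/
noncomputable def unitsProdEquiv {ϖ : B} (hϖ : Irreducible ϖ) :
    Bˣ × Multiplicative ℤ ≃* Lˣ :=
  MulEquiv.ofBijective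
    ((unitsIncl B L).coprod (zpowersHom Lˣ (unifUnit hϖ)))
    (by
      constructor
      · rw [← MonoidHom.ker_eq_bot_iff, eq_bot_iff]
        rintro ⟨u, n⟩ h
        rw [MonoidHom.mem_ker, MonoidHom.coprod_apply, zpowersHom_apply] at h
        have h1 := congrArg (ord B L) h
        rw [ord_mul, ord_unitsIncl, ord_zpow, ord_unifUnit, ord_one, zero_add, mul_one] at h1
        have hn : n = 1 := Multiplicative.toAdd.injective h1
        subst hn
        simp only [toAdd_one, zpow_zero, mul_one] at h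
        have hu : u = 1 := unitsIncl_injective (B := B) (L := L) (by rw [h, map_one])
        subst hu
        exact Subgroup.mem_bot.mpr rfl
      · intro x
        obtain ⟨u, hu⟩ := exists_eq_unitsIncl_mul_zpow hϖ x
        exact ⟨(u, Multiplicative.ofAdd (ord B L x)), by
          rw [MonoidHom.coprod_apply, zpowersHom_apply]; exact hu.symm⟩)

@[simp] theorem unitsProdEquiv_apply {ϖ : B} (hϖ : Irreducible ϖ) (u : Bˣ)
    (n : Multiplicative ℤ) :
    unitsProdEquiv (L := L) hϖ (u, n) = unitsIncl B L u * unifUnit hϖ ^ Multiplicative.toAdd n :=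
  rfl

end Ord

/-! ## Part 2: the filtration `U^(i) = 1 + m^i` -/

section PrincipalUnits

variable (B : Type*) [CommRing B] [IsLocalRing B]

/-- The higher unit groups `U^(i) = 1 + m^i` of a local ring (`U^(0) = Bˣ`). -/
def principalUnits (i : ℕ) : Subgroup Bˣ :=
  (Units.map (Ideal.Quotient.mk (maximalIdeal B ^ i)).toMonoidHom).ker

variable {B}

theorem mem_principalUnits_iff {i : ℕ} {u : Bˣ} :
    u ∈ principalUnits B i ↔ (u : B) - 1 ∈ maximalIdeal B ^ i := by
  unfold principalUnits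
  rw [MonoidHom.mem_ker, Units.ext_iff, Units.coe_map, Units.val_one]
  simp only [RingHom.toMonoidHom_eq_coe, MonoidHom.coe_coe]
  rw [← map_one (Ideal.Quotient.mk (maximalIdeal B ^ i)), Ideal.Quotient.eq]

theorem principalUnits_zero : principalUnits B 0 = ⊤ := by
  ext u
  simp [mem_principalUnits_iff]

theorem principalUnits_antitone : Antitone (principalUnits B) := by
  intro i j hij u hu
  rw [mem_principalUnits_iff] at hu ⊢
  exact Ideal.pow_le_pow_right hij hu

theorem principalUnits_le {i j : ℕ} (hij : i ≤ j) : principalUnits B j ≤ principalUnits B i :=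
  principalUnits_antitone hij

theorem mul_inv_mem_principalUnits_iff {n : ℕ} {u v : Bˣ} :
    u * v⁻¹ ∈ principalUnits B n ↔ (u : B) - v ∈ maximalIdeal B ^ n := by
  rw [mem_principalUnits_iff]
  have h1 : ((u * v⁻¹ : Bˣ) : B) - 1 = ((u : B) - v) * ((v⁻¹ : Bˣ) : B) := by
    push_cast
    rw [sub_mul, Units.mul_inv]
  rw [h1]
  constructor
  · intro h
    have := Ideal.mul_mem_right (v : B) _ h
    rwa [mul_assoc, Units.inv_mul, mul_one] at this
  · intro h
    exact Ideal.mul_mem_right _ _ h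

/-- An element congruent to `1` modulo the maximal ideal is a unit. -/
theorem isUnit_of_sub_one_mem {x : B} {i : ℕ} (hi : 1 ≤ i) (h : x - 1 ∈ maximalIdeal B ^ i) :
    IsUnit x := by
  have h1 : x - 1 ∈ maximalIdeal B := by
    have := Ideal.pow_le_pow_right hi h
    rwa [pow_one] at this
  by_contra hx
  have hx' : x ∈ maximalIdeal B := (mem_maximalIdeal x).mpr hx
  have : (1 : B) ∈ maximalIdeal B := by
    have := (maximalIdeal B).sub_mem hx' h1
    simpa using this
  exact (maximalIdeal.isMaximal B).ne_top ((Ideal.eq_top_iff_one _).mpr this)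

/-- The element `1 + a` of `U^(i)` for `a ∈ m^i`, `i ≥ 1`. -/
noncomputable def oneAddUnit {i : ℕ} (hi : 1 ≤ i) (a : B) (ha : a ∈ maximalIdeal B ^ i) : Bˣ :=
  (isUnit_of_sub_one_mem (x := 1 + a) hi (by simpa using ha)).unit

@[simp] theorem coe_oneAddUnit {i : ℕ} (hi : 1 ≤ i) (a : B) (ha : a ∈ maximalIdeal B ^ i) :
    ((oneAddUnit hi a ha : Bˣ) : B) = 1 + a := rfl

theorem oneAddUnit_mem {i : ℕ} (hi : 1 ≤ i) (a : B) (ha : a ∈ maximalIdeal B ^ i) :
    oneAddUnit hi a ha ∈ principalUnits B i := by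
  rw [mem_principalUnits_iff]; simpa using ha

variable (B) in
/-- Reduction of units modulo the maximal ideal. -/
noncomputable def unitsResidue : Bˣ →* (ResidueField B)ˣ := Units.map (residue B).toMonoidHom

@[simp] theorem coe_unitsResidue (u : Bˣ) :
    ((unitsResidue B u : (ResidueField B)ˣ) : ResidueField B) = residue B u := rfl

theorem unitsResidue_surjective : Function.Surjective (unitsResidue B) := by
  intro y
  obtain ⟨x, hx⟩ := residue_surjective (y : ResidueField B)
  have hu : IsUnit x := by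
    by_contra h
    have : residue B x = 0 := (residue_eq_zero_iff x).mpr ((mem_maximalIdeal x).mpr h)
    rw [hx] at this
    exact y.ne_zero this
  exact ⟨hu.unit, Units.ext (by simpa using hx)⟩

theorem ker_unitsResidue : (unitsResidue B).ker = principalUnits B 1 := by
  ext u
  rw [MonoidHom.mem_ker, mem_principalUnits_iff, pow_one, Units.ext_iff, coe_unitsResidue,
    Units.val_one, ← sub_eq_zero, ← map_one (residue B), ← map_sub, residue_eq_zero_iff]

variable (B) in
/-- `U / U^(1) = kˣ`. -/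
noncomputable def unitsQuotientEquiv : Bˣ ⧸ principalUnits B 1 ≃* (ResidueField B)ˣ :=
  (QuotientGroup.quotientMulEquivOfEq ker_unitsResidue.symm).trans
    (QuotientGroup.quotientKerEquivOfSurjective (unitsResidue B) unitsResidue_surjective)

/-- The canonical map `U^(i) → m^i / m^(i+1) ⊆ B / m^(i+1)`, `u ↦ u - 1`, a homomorphism for
`i ≥ 1`. -/
noncomputable def gradedHom (i : ℕ) (hi : 1 ≤ i) :
    principalUnits B i →* Multiplicative (B ⧸ maximalIdeal B ^ (i + 1)) where
  toFun u := Multiplicative.ofAdd (Ideal.Quotient.mk _ ((u : Bˣ) - 1 : B))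
  map_one' := by simp
  map_mul' u v := by
    rw [← ofAdd_add, ← map_add]
    congr 1
    rw [Ideal.Quotient.eq]
    have hu := mem_principalUnits_iff.mp u.2
    have hv := mem_principalUnits_iff.mp v.2
    have h2 : ((u : Bˣ) - 1 : B) * ((v : Bˣ) - 1 : B) ∈ maximalIdeal B ^ (i + 1) := by
      have := Ideal.mul_mem_mul hu hv
      rw [← pow_add] at this
      exact Ideal.pow_le_pow_right (by omega) this
    have : (((u * v : principalUnits B i) : Bˣ) : B) - 1 -
        (((u : Bˣ) : B) - 1 + (((v : Bˣ) : B) - 1))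
        = ((u : Bˣ) - 1 : B) * ((v : Bˣ) - 1 : B) := by
      push_cast
      ring
    rw [this]
    exact h2

theorem gradedHom_apply (i : ℕ) (hi : 1 ≤ i) (u : principalUnits B i) :
    gradedHom i hi u = Multiplicative.ofAdd (Ideal.Quotient.mk _ ((u : Bˣ) - 1 : B)) := rfl

theorem ker_gradedHom (i : ℕ) (hi : 1 ≤ i) :
    (gradedHom (B := B) i hi).ker =
      (principalUnits B (i + 1)).subgroupOf (principalUnits B i) := by
  ext u
  rw [MonoidHom.mem_ker, Subgroup.mem_subgroupOf, mem_principalUnits_iff, gradedHom_apply]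
  rw [← ofAdd_zero, Multiplicative.ofAdd.apply_eq_iff_eq, Ideal.Quotient.eq_zero_iff_mem]

theorem mem_range_gradedHom_iff (i : ℕ) (hi : 1 ≤ i)
    (y : Multiplicative (B ⧸ maximalIdeal B ^ (i + 1))) :
    y ∈ (gradedHom (B := B) i hi).range ↔
      ∃ a ∈ maximalIdeal B ^ i, Multiplicative.ofAdd (Ideal.Quotient.mk _ a) = y := by
  constructor
  · rintro ⟨u, rfl⟩
    exact ⟨_, mem_principalUnits_iff.mp u.2, rfl⟩
  · rintro ⟨a, ha, rfl⟩
    refine ⟨⟨oneAddUnit hi a ha, oneAddUnit_mem hi a ha⟩, ?_⟩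
    rw [gradedHom_apply]
    simp

/-! ### Functoriality -/

section Functorial

variable {B' : Type*} [CommRing B'] [IsLocalRing B']

theorem map_mem_maximalIdeal_pow (σ : B →+* B') [IsLocalHom σ] {i : ℕ} {a : B}
    (ha : a ∈ maximalIdeal B ^ i) : σ a ∈ maximalIdeal B' ^ i := by
  have h1 : Ideal.map σ (maximalIdeal B) ≤ maximalIdeal B' := by
    rw [Ideal.map_le_iff_le_comap]
    intro x hx
    rw [Ideal.mem_comap, mem_maximalIdeal, mem_nonunits_iff] at *
    exact fun h => hx (isUnit_of_map_unit σ x h)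
  have h2 : σ a ∈ Ideal.map σ (maximalIdeal B ^ i) := Ideal.mem_map_of_mem σ ha
  rw [Ideal.map_pow] at h2
  exact Ideal.pow_right_mono h1 i h2

/-- A local homomorphism respects the unit filtrations. -/
theorem map_mem_principalUnits (σ : B →+* B') [IsLocalHom σ] {i : ℕ} {u : Bˣ}
    (hu : u ∈ principalUnits B i) : Units.map (σ : B →* B') u ∈ principalUnits B' i := by
  rw [mem_principalUnits_iff] at hu ⊢
  have := map_mem_maximalIdeal_pow σ hu
  simpa using this

/-- A ring isomorphism identifies the unit filtrations. -/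
theorem map_mem_principalUnits_iff (σ : B ≃+* B') {i : ℕ} {u : Bˣ} :
    Units.map ((σ : B →+* B') : B →* B') u ∈ principalUnits B' i ↔ u ∈ principalUnits B i := by
  constructor
  · intro h
    have h1 := map_mem_principalUnits (σ.symm : B' →+* B) h
    have h2 : Units.map (((σ.symm : B' →+* B)) : B' →* B)
        (Units.map ((σ : B →+* B') : B →* B') u) = u := by
      ext; simp
    rwa [h2] at h1
  · exact map_mem_principalUnits (σ : B →+* B')

end Functorial

end PrincipalUnits

/-! ### Graded pieces in a discrete valuation ring -/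

section DVR

variable {B : Type*} [CommRing B] [IsDomain B] [IsDiscreteValuationRing B]

theorem mem_maximalIdeal_pow_iff {ϖ : B} (hϖ : Irreducible ϖ) (i : ℕ) (a : B) :
    a ∈ maximalIdeal B ^ i ↔ ∃ x, a = ϖ ^ i * x := by
  rw [hϖ.maximalIdeal_eq, Ideal.span_singleton_pow, Ideal.mem_span_singleton']
  constructor
  · rintro ⟨x, hx⟩; exact ⟨x, by rw [← hx, mul_comm]⟩
  · rintro ⟨x, hx⟩; exact ⟨x, by rw [hx, mul_comm]⟩

theorem pow_mul_mem_maximalIdeal_pow {ϖ : B} (hϖ : Irreducible ϖ) (i : ℕ) (x : B) :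
    ϖ ^ i * x ∈ maximalIdeal B ^ i :=
  (mem_maximalIdeal_pow_iff hϖ i _).mpr ⟨x, rfl⟩

theorem exists_eq_one_add_pow_mul {ϖ : B} (hϖ : Irreducible ϖ) {i : ℕ} {u : Bˣ}
    (hu : u ∈ principalUnits B i) : ∃ x : B, (u : B) = 1 + ϖ ^ i * x := by
  obtain ⟨x, hx⟩ := (mem_maximalIdeal_pow_iff hϖ i _).mp (mem_principalUnits_iff.mp hu)
  exact ⟨x, by rw [← hx]; ring⟩

/-- The coefficient `x` in `u = 1 + ϖ^i x`. -/
noncomputable def unitCoeff {ϖ : B} (hϖ : Irreducible ϖ) (i : ℕ) (u : principalUnits B i) : B :=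
  Classical.choose (exists_eq_one_add_pow_mul hϖ u.2)

theorem unitCoeff_spec {ϖ : B} (hϖ : Irreducible ϖ) (i : ℕ) (u : principalUnits B i) :
    ((u : Bˣ) : B) = 1 + ϖ ^ i * unitCoeff hϖ i u :=
  Classical.choose_spec (exists_eq_one_add_pow_mul hϖ u.2)

theorem unitCoeff_eq_of_eq {ϖ : B} (hϖ : Irreducible ϖ) (i : ℕ) (u : principalUnits B i) {x : B}
    (h : ((u : Bˣ) : B) = 1 + ϖ ^ i * x) : unitCoeff hϖ i u = x := by
  have h1 := unitCoeff_spec hϖ i u
  rw [h] at h1
  have h2 : ϖ ^ i * x = ϖ ^ i * unitCoeff hϖ i u := add_left_cancel h1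
  exact (mul_left_cancel₀ (pow_ne_zero i hϖ.ne_zero) h2).symm

/-- The map `U^(i) → k`, `1 + ϖ^i x ↦ x mod m`, a homomorphism for `i ≥ 1`. -/
noncomputable def gradedResidueHom {ϖ : B} (hϖ : Irreducible ϖ) (i : ℕ) (hi : 1 ≤ i) :
    principalUnits B i →* Multiplicative (ResidueField B) where
  toFun u := Multiplicative.ofAdd (residue B (unitCoeff hϖ i u))
  map_one' := by
    have : unitCoeff hϖ i (1 : principalUnits B i) = 0 :=
      unitCoeff_eq_of_eq hϖ i 1 (by simp)
    rw [this, map_zero, ofAdd_zero]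
  map_mul' u v := by
    have huv : unitCoeff hϖ i (u * v) =
        unitCoeff hϖ i u + unitCoeff hϖ i v + ϖ ^ i * (unitCoeff hϖ i u * unitCoeff hϖ i v) := by
      apply unitCoeff_eq_of_eq
      have hu := unitCoeff_spec hϖ i u
      have hv := unitCoeff_spec hϖ i v
      push_cast
      rw [hu, hv]
      ring
    have h0 : residue B (ϖ ^ i) = 0 := by
      rw [residue_eq_zero_iff]
      have := pow_mul_mem_maximalIdeal_pow hϖ i 1
      rw [mul_one] at this
      have h2 := Ideal.pow_le_pow_right hi this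
      rwa [pow_one] at h2
    have hres : residue B (unitCoeff hϖ i (u * v)) =
        residue B (unitCoeff hϖ i u) + residue B (unitCoeff hϖ i v) := by
      rw [huv, map_add, map_add, map_mul, h0, zero_mul, add_zero]
    rw [hres, ofAdd_add]

theorem gradedResidueHom_apply_of_eq {ϖ : B} (hϖ : Irreducible ϖ) (i : ℕ) (hi : 1 ≤ i)
    (u : principalUnits B i) {x : B} (h : ((u : Bˣ) : B) = 1 + ϖ ^ i * x) :
    gradedResidueHom hϖ i hi u = Multiplicative.ofAdd (residue B x) := by
  show Multiplicative.ofAdd (residue B (unitCoeff hϖ i u)) = _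
  rw [unitCoeff_eq_of_eq hϖ i u h]

theorem gradedResidueHom_surjective {ϖ : B} (hϖ : Irreducible ϖ) (i : ℕ) (hi : 1 ≤ i) :
    Function.Surjective (gradedResidueHom hϖ i hi) := by
  intro y
  obtain ⟨x, hx⟩ := residue_surjective (Multiplicative.toAdd y)
  refine ⟨⟨oneAddUnit hi (ϖ ^ i * x) (pow_mul_mem_maximalIdeal_pow hϖ i x),
    oneAddUnit_mem hi _ _⟩, ?_⟩
  rw [gradedResidueHom_apply_of_eq hϖ i hi _ (x := x) (by simp), hx, ofAdd_toAdd]

theorem ker_gradedResidueHom {ϖ : B} (hϖ : Irreducible ϖ) (i : ℕ) (hi : 1 ≤ i) :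
    (gradedResidueHom hϖ i hi).ker =
      (principalUnits B (i + 1)).subgroupOf (principalUnits B i) := by
  ext u
  rw [MonoidHom.mem_ker, Subgroup.mem_subgroupOf, mem_principalUnits_iff]
  have hu := unitCoeff_spec hϖ i u
  rw [gradedResidueHom_apply_of_eq hϖ i hi u hu, ← ofAdd_zero,
    Multiplicative.ofAdd.apply_eq_iff_eq, residue_eq_zero_iff, hu,
    mem_maximalIdeal_pow_iff hϖ (i + 1)]
  have h1 : maximalIdeal B = maximalIdeal B ^ 1 := (pow_one _).symm
  rw [h1, mem_maximalIdeal_pow_iff hϖ 1]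
  constructor
  · rintro ⟨z, hz⟩
    exact ⟨z, by rw [hz]; ring⟩
  · rintro ⟨z, hz⟩
    refine ⟨z, ?_⟩
    have : ϖ ^ i * unitCoeff hϖ i u = ϖ ^ i * (ϖ ^ 1 * z) := by
      have : ϖ ^ i * unitCoeff hϖ i u = ϖ ^ (i + 1) * z := by rw [← hz]; ring
      rw [this]; ring
    exact mul_left_cancel₀ (pow_ne_zero i hϖ.ne_zero) this

/-- `U^(i) / U^(i+1) = k` for `i ≥ 1`. -/
noncomputable def gradedEquiv {ϖ : B} (hϖ : Irreducible ϖ) (i : ℕ) (hi : 1 ≤ i) :
    principalUnits B i ⧸ (principalUnits B (i + 1)).subgroupOf (principalUnits B i) ≃*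
      Multiplicative (ResidueField B) :=
  (QuotientGroup.quotientMulEquivOfEq (ker_gradedResidueHom hϖ i hi).symm).trans
    (QuotientGroup.quotientKerEquivOfSurjective _ (gradedResidueHom_surjective hϖ i hi))

/-- Functoriality of the graded residue maps for a local homomorphism of discrete valuation
rings that sends the chosen uniformizer to the chosen uniformizer (e.g. an automorphism fixing
`ϖ`, or an unramified extension). -/
theorem gradedResidueHom_map {B' : Type*} [CommRing B'] [IsDomain B'] [IsDiscreteValuationRing B']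
    (σ : B →+* B') [IsLocalHom σ] {ϖ : B} (hϖ : Irreducible ϖ) (hϖ' : Irreducible (σ ϖ))
    (i : ℕ) (hi : 1 ≤ i) (u : principalUnits B i) :
    gradedResidueHom hϖ' i hi ⟨Units.map (σ : B →* B') u, map_mem_principalUnits σ u.2⟩ =
      Multiplicative.ofAdd (ResidueField.map σ
        (Multiplicative.toAdd (gradedResidueHom hϖ i hi u))) := by
  have hu := unitCoeff_spec hϖ i u
  rw [gradedResidueHom_apply_of_eq hϖ i hi u hu,
    gradedResidueHom_apply_of_eq hϖ' i hi _ (x := σ (unitCoeff hϖ i u))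
      (by
        show ((Units.map (σ : B →* B') (u : Bˣ) : B'ˣ) : B') = _
        rw [Units.coe_map]
        show σ ((u : Bˣ) : B) = _
        rw [hu, map_add, map_one, map_mul, map_pow])]
  rw [toAdd_ofAdd, ResidueField.map_residue]

end DVR

/-! ## Part 3: completeness and successive approximation -/

section Complete

/-- Limits of Cauchy sequences in a precomplete ring, in elementary terms. -/
theorem exists_limit_of_cauchy {R : Type*} [CommRing R] (I : Ideal R) [IsPrecomplete I R]
    (f : ℕ → R) (hf : ∀ m n, m ≤ n → f n - f m ∈ I ^ m) : ∃ x, ∀ n, x - f n ∈ I ^ n := by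
  have h := IsPrecomplete.prec (I := I) (M := R) inferInstance (f := f) (by
    intro m n hmn
    rw [SModEq.sub_mem, smul_eq_mul, Ideal.mul_top]
    have := hf m n hmn
    rw [← neg_sub]
    exact (I ^ m).neg_mem this)
  obtain ⟨x, hx⟩ := h
  refine ⟨x, fun n => ?_⟩
  have := hx n
  rw [SModEq.sub_mem, smul_eq_mul, Ideal.mul_top] at this
  rw [← neg_sub]
  exact (I ^ n).neg_mem this

/-- Separatedness in elementary terms. -/
theorem eq_of_forall_sub_mem_pow {R : Type*} [CommRing R] (I : Ideal R) [IsHausdorff I R]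
    {x y : R} (h : ∀ n, x - y ∈ I ^ n) : x = y := by
  rw [← sub_eq_zero]
  apply IsHausdorff.haus (I := I) (M := R) inferInstance
  intro n
  rw [SModEq.sub_mem, smul_eq_mul, Ideal.mul_top, sub_zero]
  exact h n

variable {B : Type*} [CommRing B] [IsLocalRing B]

/-- A multiplicatively Cauchy sequence of units of a complete local ring converges. -/
theorem exists_unit_limit [IsPrecomplete (maximalIdeal B) B] (v : ℕ → Bˣ)
    (hv : ∀ m n, m ≤ n → v n * (v m)⁻¹ ∈ principalUnits B m) :
    ∃ w : Bˣ, ∀ n, w * (v n)⁻¹ ∈ principalUnits B n := by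
  obtain ⟨x, hx⟩ := exists_limit_of_cauchy (maximalIdeal B) (fun n => ((v n : Bˣ) : B))
    (fun m n hmn => mul_inv_mem_principalUnits_iff.mp (hv m n hmn))
  have hxu : IsUnit x := by
    have h1 : x * ((v 1)⁻¹ : Bˣ) - 1 ∈ maximalIdeal B ^ 1 := by
      have : x * ((v 1)⁻¹ : Bˣ) - 1 = (x - (v 1 : Bˣ)) * ((v 1)⁻¹ : Bˣ) := by
        rw [sub_mul, Units.mul_inv]
      rw [this]
      exact Ideal.mul_mem_right _ _ (hx 1)
    have h2 := isUnit_of_sub_one_mem le_rfl h1
    have h3 : x = x * ((v 1)⁻¹ : Bˣ) * (v 1 : Bˣ) := by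
      rw [mul_assoc, Units.inv_mul, mul_one]
    rw [h3]
    exact h2.mul (v 1).isUnit
  refine ⟨hxu.unit, fun n => ?_⟩
  rw [mul_inv_mem_principalUnits_iff]
  exact hx n

/-- The unit filtration of a separated local ring is separated. -/
theorem eq_one_of_forall_mem_principalUnits [IsHausdorff (maximalIdeal B) B] {u : Bˣ}
    (h : ∀ n, u ∈ principalUnits B n) : u = 1 := by
  apply Units.ext
  rw [Units.val_one]
  exact eq_of_forall_sub_mem_pow (maximalIdeal B) (fun n => mem_principalUnits_iff.mp (h n))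

end Complete

section Approx

variable {A : Type*} [CommRing A] [IsLocalRing A]
variable {B : Type*} [CommRing B] [IsLocalRing B]

/-- **Successive approximation (surjectivity).** Let `f : Bˣ → Aˣ` be a homomorphism, `B` complete,
`A` separated, and let `s k`, `t k` be levels with `f (U_B^(s k)) ⊆ U_A^(t k)` such that `f` is
surjective on the graded pieces `U_B^(s k) → U_A^(t k) / U_A^(t (k+1))`. Then
`U_A^(t 0) ⊆ f (U_B^(s 0))`. -/
theorem exists_preimage_of_graded_surjective
    [IsHausdorff (maximalIdeal A) A] [IsPrecomplete (maximalIdeal B) B]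
    (f : Bˣ →* Aˣ) (s t : ℕ → ℕ) (hs : Monotone s) (hs' : ∀ k, k ≤ s k)
    (ht' : ∀ k, k ≤ t k)
    (hmap : ∀ k, ∀ x ∈ principalUnits B (s k), f x ∈ principalUnits A (t k))
    (hgr : ∀ k, ∀ y ∈ principalUnits A (t k), ∃ x ∈ principalUnits B (s k),
      y * (f x)⁻¹ ∈ principalUnits A (t (k + 1)))
    {y : Aˣ} (hy : y ∈ principalUnits A (t 0)) :
    ∃ x ∈ principalUnits B (s 0), f x = y := by
  classical
  -- the invariant
  let Q : ℕ → Bˣ → Prop := fun k p => y * (f p)⁻¹ ∈ principalUnits A (t (k + 1))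
  have step : ∀ k p, Q k p → ∃ p', Q (k + 1) p' ∧ p' * p⁻¹ ∈ principalUnits B (s (k + 1)) := by
    intro k p hp
    obtain ⟨x, hx, hxy⟩ := hgr (k + 1) _ hp
    refine ⟨x * p, ?_, ?_⟩
    · show y * (f (x * p))⁻¹ ∈ _
      rw [map_mul, mul_inv_rev, ← mul_assoc]
      exact hxy
    · rw [mul_inv_cancel_right]
      exact hx
  obtain ⟨x0, hx0, hx0y⟩ := hgr 0 y hy
  let p : ℕ → Bˣ := fun n => Nat.rec x0
    (fun k pk => if h : Q k pk then Classical.choose (step k pk h) else pk) n
  have hp0 : p 0 = x0 := rfl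
  have hpsucc : ∀ k, p (k + 1) =
      if h : Q k (p k) then Classical.choose (step k (p k) h) else p k := fun k => rfl
  have hQ : ∀ k, Q k (p k) := by
    intro k
    induction k with
    | zero => exact hx0y
    | succ k ih =>
      rw [hpsucc, dif_pos ih]
      exact (Classical.choose_spec (step k (p k) ih)).1
  have hstep : ∀ k, p (k + 1) * (p k)⁻¹ ∈ principalUnits B (s (k + 1)) := by
    intro k
    rw [hpsucc, dif_pos (hQ k)]
    exact (Classical.choose_spec (step k (p k) (hQ k))).2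
  -- Cauchy
  have hcauchy : ∀ m n, m < n → p n * (p m)⁻¹ ∈ principalUnits B (s (m + 1)) := by
    intro m n hmn
    induction n with
    | zero => omega
    | succ n ih =>
      rcases Nat.lt_succ_iff_lt_or_eq.mp hmn with h | h
      · have h1 := ih h
        have h2 := principalUnits_le (hs (by omega : m + 1 ≤ n + 1)) (hstep n)
        have : p (n + 1) * (p m)⁻¹ = (p (n + 1) * (p n)⁻¹) * (p n * (p m)⁻¹) := by group
        rw [this]
        exact Subgroup.mul_mem _ h2 h1
      · subst h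
        exact hstep m
  have hcauchy' : ∀ m n, m ≤ n → p n * (p m)⁻¹ ∈ principalUnits B m := by
    intro m n hmn
    rcases Nat.lt_or_eq_of_le hmn with h | h
    · exact principalUnits_le (by have := hs' (m + 1); omega) (hcauchy m n h)
    · subst h
      rw [mul_inv_cancel]
      exact Subgroup.one_mem _
  obtain ⟨w, hw⟩ := exists_unit_limit p hcauchy'
  have hwk : ∀ k, w * (p k)⁻¹ ∈ principalUnits B (s (k + 1)) := by
    intro k
    set n := max (k + 1) (s (k + 1)) with hn
    have h1 : w * (p n)⁻¹ ∈ principalUnits B (s (k + 1)) :=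
      principalUnits_le (le_max_right _ _) (hw n)
    have h2 : p n * (p k)⁻¹ ∈ principalUnits B (s (k + 1)) :=
      hcauchy k n (by have := le_max_left (k + 1) (s (k + 1)); omega)
    have : w * (p k)⁻¹ = (w * (p n)⁻¹) * (p n * (p k)⁻¹) := by group
    rw [this]
    exact Subgroup.mul_mem _ h1 h2
  refine ⟨w, ?_, ?_⟩
  · have h1 : w = (w * (p 0)⁻¹) * p 0 := by group
    rw [h1]
    refine Subgroup.mul_mem _ (principalUnits_le (hs (Nat.zero_le 1)) (hwk 0)) ?_
    rw [hp0]
    exact hx0
  · have hall : ∀ n, y * (f w)⁻¹ ∈ principalUnits A n := by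
      intro n
      have h1 : f (w * (p n)⁻¹) ∈ principalUnits A (t (n + 1)) := hmap _ _ (hwk n)
      have h2 : y * (f (p n))⁻¹ ∈ principalUnits A (t (n + 1)) := hQ n
      have h3 : y * (f w)⁻¹ = (y * (f (p n))⁻¹) * (f (w * (p n)⁻¹))⁻¹ := by
        rw [map_mul, map_inv]
        group
      rw [h3]
      have h4 := Subgroup.mul_mem _ h2 (Subgroup.inv_mem _ h1)
      exact principalUnits_le (by have := ht' (n + 1); omega) h4
    have := eq_one_of_forall_mem_principalUnits hall
    rw [mul_inv_eq_one] at this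
    exact this.symm

/-- **Successive approximation (injectivity).** If `f` is injective on the graded pieces
`U_B^(s k) / U_B^(s (k+1)) → U_A^(t k) / U_A^(t (k+1))` then `f` is injective on `U_B^(s 0)`. -/
theorem eq_one_of_graded_injective [IsHausdorff (maximalIdeal B) B]
    (f : Bˣ →* Aˣ) (s t : ℕ → ℕ) (hs' : ∀ k, k ≤ s k)
    (hinj : ∀ k, ∀ x ∈ principalUnits B (s k), f x ∈ principalUnits A (t (k + 1)) →
      x ∈ principalUnits B (s (k + 1)))
    {x : Bˣ} (hx : x ∈ principalUnits B (s 0)) (hfx : f x = 1) : x = 1 := by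
  have hall : ∀ k, x ∈ principalUnits B (s k) := by
    intro k
    induction k with
    | zero => exact hx
    | succ k ih =>
      exact hinj k x ih (by rw [hfx]; exact Subgroup.one_mem _)
  exact eq_one_of_forall_mem_principalUnits (fun n => principalUnits_le (hs' n) (hall n))

end Approx

/-! ## Part 4: `n`-th powers -/

section Powers

/-- `(1 + z)^n = 1 + n z + z^2 c`. -/
theorem exists_one_add_pow_eq {R : Type*} [CommRing R] (z : R) (n : ℕ) :
    ∃ c : R, (1 + z) ^ n = 1 + n * z + z ^ 2 * c := by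
  induction n with
  | zero => exact ⟨0, by simp⟩
  | succ n ih =>
    obtain ⟨c, hc⟩ := ih
    refine ⟨n + c + z * c, ?_⟩
    rw [pow_succ, hc]
    push_cast
    ring

variable {B : Type*} [CommRing B] [IsDomain B] [IsDiscreteValuationRing B]

/-- A nonzero natural number is a unit times a power of the uniformizer. -/
theorem exists_natCast_eq_unit_mul_pow {ϖ : B} (hϖ : Irreducible ϖ) {n : ℕ} (hn : (n : B) ≠ 0) :
    ∃ (w : Bˣ) (c : ℕ), (n : B) = w * ϖ ^ c := by
  obtain ⟨c, w, h⟩ := IsDiscreteValuationRing.eq_unit_mul_pow_irreducible hn hϖ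
  exact ⟨w, c, h⟩

/-- The `n`-th power of an element of `U^(j)` in terms of `n = w ϖ^c`. -/
theorem pow_mem_principalUnits {ϖ : B} (hϖ : Irreducible ϖ) (n : ℕ) (w : Bˣ) (c : ℕ)
    (hn : (n : B) = w * ϖ ^ c) {j : ℕ} (hj : c ≤ j) {x : Bˣ} (hx : x ∈ principalUnits B j) :
    x ^ n ∈ principalUnits B (j + c) := by
  rw [mem_principalUnits_iff] at hx ⊢
  obtain ⟨d, hd⟩ := exists_one_add_pow_eq ((x : B) - 1) n
  have h1 : ((x ^ n : Bˣ) : B) - 1 = n * ((x : B) - 1) + ((x : B) - 1) ^ 2 * d := by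
    push_cast
    have : (x : B) = 1 + ((x : B) - 1) := by ring
    rw [this, hd]
    ring
  rw [h1]
  refine Ideal.add_mem _ ?_ ?_
  · rw [hn, mul_assoc, add_comm j c, pow_add]
    refine Ideal.mul_mem_left _ _ (Ideal.mul_mem_mul ?_ hx)
    exact (mem_maximalIdeal_pow_iff hϖ c _).mpr ⟨1, by ring⟩
  · refine Ideal.mul_mem_right _ _ ?_
    rw [pow_two]
    have := Ideal.mul_mem_mul hx hx
    rw [← pow_add] at this
    exact Ideal.pow_le_pow_right (by omega) this

/-- Graded surjectivity of the `n`-th power map `U^(j) → U^(j+c) / U^(j+c+1)`, `n = w ϖ^c`,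
`c < j`. -/
theorem exists_pow_approx {ϖ : B} (hϖ : Irreducible ϖ) (n : ℕ) (w : Bˣ) (c : ℕ)
    (hn : (n : B) = w * ϖ ^ c) {j : ℕ} (hj : c < j) {y : Bˣ}
    (hy : y ∈ principalUnits B (j + c)) :
    ∃ x ∈ principalUnits B j, y * (x ^ n)⁻¹ ∈ principalUnits B (j + c + 1) := by
  obtain ⟨a', ha'⟩ := (mem_maximalIdeal_pow_iff hϖ (j + c) _).mp (mem_principalUnits_iff.mp hy)
  have hzmem : ϖ ^ j * (((w⁻¹ : Bˣ) : B) * a') ∈ maximalIdeal B ^ j :=
    (mem_maximalIdeal_pow_iff hϖ j _).mpr ⟨_, rfl⟩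
  have hxu : IsUnit (1 + ϖ ^ j * (((w⁻¹ : Bˣ) : B) * a')) :=
    isUnit_of_sub_one_mem (i := j) (by omega) (by simpa using hzmem)
  refine ⟨hxu.unit, ?_, ?_⟩
  · rw [mem_principalUnits_iff, IsUnit.unit_spec]
    simpa using hzmem
  · rw [mul_inv_mem_principalUnits_iff]
    obtain ⟨d, hd⟩ := exists_one_add_pow_eq (ϖ ^ j * (((w⁻¹ : Bˣ) : B) * a')) n
    have h1 : ((hxu.unit ^ n : Bˣ) : B) =
        1 + n * (ϖ ^ j * (((w⁻¹ : Bˣ) : B) * a')) +
          (ϖ ^ j * (((w⁻¹ : Bˣ) : B) * a')) ^ 2 * d := by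
      push_cast
      rw [IsUnit.unit_spec, hd]
    have h2 : (n : B) * (ϖ ^ j * (((w⁻¹ : Bˣ) : B) * a')) = (y : B) - 1 := by
      rw [ha', hn, pow_add]
      have : (w : B) * ((w⁻¹ : Bˣ) : B) = 1 := Units.mul_inv w
      calc (w : B) * ϖ ^ c * (ϖ ^ j * (((w⁻¹ : Bˣ) : B) * a'))
          = ((w : B) * ((w⁻¹ : Bˣ) : B)) * (ϖ ^ j * ϖ ^ c * a') := by ring
        _ = ϖ ^ j * ϖ ^ c * a' := by rw [this, one_mul]
    have h3 : (y : B) - ((hxu.unit ^ n : Bˣ) : B) =
        -((ϖ ^ j * (((w⁻¹ : Bˣ) : B) * a')) ^ 2 * d) := by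
      rw [h1, h2]; ring
    rw [h3]
    refine Ideal.neg_mem_iff _ |>.mpr (Ideal.mul_mem_right _ _ ?_)
    rw [pow_two]
    have := Ideal.mul_mem_mul hzmem hzmem
    rw [← pow_add] at this
    exact Ideal.pow_le_pow_right (by omega) this

/-- Graded injectivity of the `n`-th power map. -/
theorem mem_principalUnits_succ_of_pow_mem {ϖ : B} (hϖ : Irreducible ϖ) (n : ℕ) (w : Bˣ) (c : ℕ)
    (hn : (n : B) = w * ϖ ^ c) {j : ℕ} (hj : c < j) {x : Bˣ}
    (hx : x ∈ principalUnits B j) (hxn : x ^ n ∈ principalUnits B (j + c + 1)) :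
    x ∈ principalUnits B (j + 1) := by
  rw [mem_principalUnits_iff] at hx hxn ⊢
  obtain ⟨d, hd⟩ := exists_one_add_pow_eq ((x : B) - 1) n
  have h1 : ((x ^ n : Bˣ) : B) - 1 = n * ((x : B) - 1) + ((x : B) - 1) ^ 2 * d := by
    push_cast
    have : (x : B) = 1 + ((x : B) - 1) := by ring
    rw [this, hd]
    ring
  have h2 : ((x : B) - 1) ^ 2 * d ∈ maximalIdeal B ^ (j + c + 1) := by
    refine Ideal.mul_mem_right _ _ ?_
    rw [pow_two]
    have := Ideal.mul_mem_mul hx hx
    rw [← pow_add] at this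
    exact Ideal.pow_le_pow_right (by omega) this
  have h3 : (n : B) * ((x : B) - 1) ∈ maximalIdeal B ^ (j + c + 1) := by
    have : (n : B) * ((x : B) - 1) = (((x ^ n : Bˣ) : B) - 1) - ((x : B) - 1) ^ 2 * d := by
      rw [h1]; ring
    rw [this]
    exact Ideal.sub_mem _ hxn h2
  obtain ⟨b, hb⟩ := (mem_maximalIdeal_pow_iff hϖ _ _).mp h3
  rw [mem_maximalIdeal_pow_iff hϖ]
  refine ⟨((w⁻¹ : Bˣ) : B) * b, ?_⟩
  have h4 : ϖ ^ c * ((x : B) - 1) = ϖ ^ c * (ϖ ^ (j + 1) * (((w⁻¹ : Bˣ) : B) * b)) := by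
    have h5 : (w : B) * (ϖ ^ c * ((x : B) - 1)) = ϖ ^ (j + c + 1) * b := by
      rw [← hb, hn]; ring
    have h6 : ϖ ^ c * ((x : B) - 1) = ((w⁻¹ : Bˣ) : B) * (ϖ ^ (j + c + 1) * b) := by
      rw [← h5, ← mul_assoc, Units.inv_mul, one_mul]
    rw [h6]
    ring
  exact mul_left_cancel₀ (pow_ne_zero c hϖ.ne_zero) h4

/-- **`n`-th powers of higher units.** If `n = w ϖ^c` in a complete discrete valuation ring
and `c < i`, then `x ↦ x^n` maps `U^(i)` bijectively onto `U^(i + c)`. -/
theorem pow_bijOn_principalUnits [IsAdicComplete (maximalIdeal B) B] {ϖ : B}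
    (hϖ : Irreducible ϖ) (n : ℕ) (w : Bˣ) (c : ℕ) (hn : (n : B) = w * ϖ ^ c) {i : ℕ}
    (hi : c < i) :
    Set.BijOn (fun x : Bˣ => x ^ n) (principalUnits B i) (principalUnits B (i + c)) := by
  refine ⟨fun x hx => pow_mem_principalUnits hϖ n w c hn hi.le hx, ?_, ?_⟩
  · -- injectivity
    intro x hx x' hx' hxx
    have hq : x * x'⁻¹ ∈ principalUnits B i :=
      Subgroup.mul_mem _ hx (Subgroup.inv_mem _ hx')
    have h1 : (powMonoidHom n : Bˣ →* Bˣ) (x * x'⁻¹) = 1 := by
      have hxx' : x ^ n = x' ^ n := hxx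
      rw [powMonoidHom_apply, mul_pow, inv_pow, hxx', mul_inv_cancel]
    have := eq_one_of_graded_injective (A := B) (B := B) (powMonoidHom n)
      (fun k => i + k) (fun k => i + c + k) (fun k => by omega)
      (fun k x hx hxn => by
        have := mem_principalUnits_succ_of_pow_mem hϖ n w c hn (j := i + k) (by omega) hx
          (by
            have h2 : i + k + c + 1 = i + c + (k + 1) := by ring
            rw [h2]; exact hxn)
        exact this)
      (x := x * x'⁻¹) (by simpa using hq) h1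
    exact mul_inv_eq_one.mp this
  · -- surjectivity
    intro y hy
    obtain ⟨x, hx, hxy⟩ := exists_preimage_of_graded_surjective (A := B) (B := B)
      (powMonoidHom n) (fun k => i + k) (fun k => i + c + k)
      (fun a b hab => by simpa using hab) (fun k => by omega) (fun k => by omega)
      (fun k x hx => by
        have := pow_mem_principalUnits hϖ n w c hn (j := i + k) (by omega) hx
        have h2 : i + k + c = i + c + k := by ring
        rw [h2] at this
        exact this)
      (fun k y hy => by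
        have h2 : i + c + k = i + k + c := by ring
        rw [h2] at hy
        obtain ⟨x, hx, hxy⟩ := exists_pow_approx hϖ n w c hn (j := i + k) (by omega) hy
        refine ⟨x, hx, ?_⟩
        have h3 : i + c + (k + 1) = i + k + c + 1 := by ring
        rw [h3]
        exact hxy)
      (y := y) (by simpa using hy)
    exact ⟨x, by simpa using hx, hxy⟩

/-- The `n`-th power homomorphism `U^(i) → U^(i + c)`. -/
noncomputable def powHom {ϖ : B}
    (hϖ : Irreducible ϖ) (n : ℕ) (w : Bˣ) (c : ℕ) (hn : (n : B) = w * ϖ ^ c) {i : ℕ}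
    (hi : c ≤ i) : principalUnits B i →* principalUnits B (i + c) where
  toFun x := ⟨(x : Bˣ) ^ n, pow_mem_principalUnits hϖ n w c hn hi x.2⟩
  map_one' := by ext; simp
  map_mul' x y := by ext; simp [mul_pow]

@[simp] theorem coe_powHom {ϖ : B}
    (hϖ : Irreducible ϖ) (n : ℕ) (w : Bˣ) (c : ℕ) (hn : (n : B) = w * ϖ ^ c) {i : ℕ}
    (hi : c ≤ i) (x : principalUnits B i) :
    ((powHom hϖ n w c hn hi x : principalUnits B (i + c)) : Bˣ) = (x : Bˣ) ^ n := rfl

theorem powHom_bijective [IsAdicComplete (maximalIdeal B) B] {ϖ : B}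
    (hϖ : Irreducible ϖ) (n : ℕ) (w : Bˣ) (c : ℕ) (hn : (n : B) = w * ϖ ^ c) {i : ℕ}
    (hi : c < i) : Function.Bijective (powHom hϖ n w c hn hi.le) := by
  have hb := pow_bijOn_principalUnits hϖ n w c hn hi
  constructor
  · intro x y hxy
    have : (x : Bˣ) ^ n = (y : Bˣ) ^ n := congrArg Subtype.val hxy
    exact Subtype.ext (hb.injOn x.2 y.2 this)
  · intro y
    obtain ⟨x, hx, hxy⟩ := hb.surjOn y.2
    exact ⟨⟨x, hx⟩, Subtype.ext hxy⟩

/-- The `n`-th power isomorphism `U^(i) ≃ U^(i + c)`. -/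
noncomputable def powEquiv [IsAdicComplete (maximalIdeal B) B] {ϖ : B}
    (hϖ : Irreducible ϖ) (n : ℕ) (w : Bˣ) (c : ℕ) (hn : (n : B) = w * ϖ ^ c) {i : ℕ}
    (hi : c < i) : principalUnits B i ≃* principalUnits B (i + c) :=
  MulEquiv.ofBijective (powHom hϖ n w c hn hi.le) (powHom_bijective hϖ n w c hn hi)

@[simp] theorem coe_powEquiv [IsAdicComplete (maximalIdeal B) B] {ϖ : B}
    (hϖ : Irreducible ϖ) (n : ℕ) (w : Bˣ) (c : ℕ) (hn : (n : B) = w * ϖ ^ c) {i : ℕ}
    (hi : c < i) (x : principalUnits B i) :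
    ((powEquiv hϖ n w c hn hi x : principalUnits B (i + c)) : Bˣ) = (x : Bˣ) ^ n := rfl

/-- If `n` is invertible in `B` then every `U^(i)`, `i ≥ 1`, is uniquely `n`-divisible. -/
theorem pow_bijOn_principalUnits_of_isUnit [IsAdicComplete (maximalIdeal B) B] (n : ℕ)
    (hn : IsUnit (n : B)) {i : ℕ} (hi : 1 ≤ i) :
    Set.BijOn (fun x : Bˣ => x ^ n) (principalUnits B i) (principalUnits B i) := by
  obtain ⟨ϖ, hϖ⟩ := IsDiscreteValuationRing.exists_irreducible B
  have := pow_bijOn_principalUnits hϖ n hn.unit 0 (by simp) (i := i) (by omega)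
  simpa using this

/-- `n`-th powers are open: if `n ≠ 0` in `B`, all elements of `U^(i)` for `i` large are `n`-th
powers (of elements of `U^(i - c)`). -/
theorem exists_forall_mem_principalUnits_exists_pow_eq [IsAdicComplete (maximalIdeal B) B]
    {n : ℕ} (hn : (n : B) ≠ 0) :
    ∃ i : ℕ, ∀ y ∈ principalUnits B i, ∃ x ∈ principalUnits B 1, x ^ n = y := by
  obtain ⟨ϖ, hϖ⟩ := IsDiscreteValuationRing.exists_irreducible B
  obtain ⟨w, c, hwc⟩ := exists_natCast_eq_unit_mul_pow hϖ hn
  refine ⟨c + 1 + c, fun y hy => ?_⟩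
  obtain ⟨x, hx, hxy⟩ := (pow_bijOn_principalUnits hϖ n w c hwc (i := c + 1) (by omega)).surjOn hy
  exact ⟨x, principalUnits_le (by omega) hx, hxy⟩

end Powers

/-! ## Invariance of `ord` under isomorphisms -/

section OrdMap

variable {B : Type*} [CommRing B] [IsDomain B] [IsDiscreteValuationRing B]
variable {L : Type*} [Field L] [Algebra B L] [IsFractionRing B L]
variable {B' : Type*} [CommRing B'] [IsDomain B'] [IsDiscreteValuationRing B']
variable {L' : Type*} [Field L'] [Algebra B' L'] [IsFractionRing B' L']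

/-- `ord` is invariant under isomorphisms: if `τ : L ≃+* L'` restricts to `σ : B ≃+* B'`
then `ord (τ x) = ord x`. In particular every automorphism of `L` preserving `B` preserves
`ord`. -/
theorem ord_map (σ : B ≃+* B') (τ : L ≃+* L')
    (h : ∀ b, τ (algebraMap B L b) = algebraMap B' L' (σ b)) (x : Lˣ) :
    ord B' L' (Units.map ((τ : L →+* L') : L →* L') x) = ord B L x := by
  obtain ⟨ϖ, hϖ⟩ := IsDiscreteValuationRing.exists_irreducible B
  have hϖ' : Irreducible (σ ϖ) := (MulEquiv.irreducible_iff (σ : B ≃* B')).mpr hϖ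
  obtain ⟨u, hu⟩ := exists_eq_unitsIncl_mul_zpow (L := L) hϖ x
  have h1 : Units.map ((τ : L →+* L') : L →* L') (unitsIncl B L u) =
      unitsIncl B' L' (Units.map ((σ : B →+* B') : B →* B') u) := by
    ext
    simp [h]
  have h2 : Units.map ((τ : L →+* L') : L →* L') (unifUnit (L := L) hϖ) =
      unifUnit (L := L') hϖ' := by
    ext
    simp [h]
  conv_lhs => rw [hu]
  rw [map_mul, map_zpow, h1, h2, ord_mul, ord_unitsIncl, ord_zpow, ord_unifUnit]
  ring

end OrdMap

end Fermat.Agent.Lib.CFT.Local.UnitsFiltration
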