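import Mathlib.Algebra.Group.Subgroup.Basic
import Mathlib.Algebra.BigOperators.Group.Finset.Basic
import Mathlib.Algebra.BigOperators.Intervals

/-!
Successive approximation for filtered commutative groups.

`FV`, `FW` are decreasing filtrations by subgroups on `V`, `W`.  If `V` is complete for `FV`,
`W` is separated for `FW`, and a filtered homomorphism `g : V → W` is surjective on every
graded piece, then `g` maps `FV 0` onto `FW 0`.
-/

set_option autoImplicit false

namespace Fermat.Agent.Lib.CFT.LocalUnits

open Finset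

/-- Completeness of a commutative group for a filtration by subgroups: every sequence
`y i ∈ F i` has a convergent infinite product. -/
@[to_additive IsAddFiltComplete /-- Completeness of an additive commutative group for a
filtration by subgroups: every sequence `y i ∈ F i` has a convergent infinite sum. -/]
def IsFiltComplete {V : Type*} [CommGroup V] (F : ℕ → Subgroup V) : Prop :=
  ∀ y : ℕ → V, (∀ i, y i ∈ F i) → ∃ s : V, ∀ n, s / ∏ i ∈ range n, y i ∈ F n

/-- Separatedness of a filtration. -/
@[to_additive IsAddFiltSeparated /-- Separatedness of a filtration. -/]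
def IsFiltSeparated {W : Type*} [CommGroup W] (F : ℕ → Subgroup W) : Prop :=
  ∀ w : W, (∀ i, w ∈ F i) → w = 1

@[to_additive add_surj_of_graded_surj]
theorem surj_of_graded_surj {V W : Type*} [CommGroup V] [CommGroup W]
    {FV : ℕ → Subgroup V} {FW : ℕ → Subgroup W} (g : V →* W)
    (hV : IsFiltComplete FV) (hW : IsFiltSeparated FW)
    (hg : ∀ i v, v ∈ FV i → g v ∈ FW i)
    (hgr : ∀ i w, w ∈ FW i → ∃ v ∈ FV i, w / g v ∈ FW (i + 1))
    (w : W) (hw : w ∈ FW 0) : ∃ v ∈ FV 0, g v = w := by
  classical
  -- choose approximating elements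
  choose! φ hφ1 hφ2 using hgr
  -- sequence of remainders and corrections
  let r : ℕ → W := fun n => Nat.rec w (fun i ri => ri / g (φ i ri)) n
  have hr0 : r 0 = w := rfl
  have hrs : ∀ n, r (n + 1) = r n / g (φ n (r n)) := fun n => rfl
  have hrmem : ∀ n, r n ∈ FW n := by
    intro n
    induction n with
    | zero => exact hw
    | succ n ih => rw [hrs]; exact hφ2 n _ ih
  let y : ℕ → V := fun n => φ n (r n)
  have hy : ∀ n, y n ∈ FV n := fun n => hφ1 n _ (hrmem n)
  obtain ⟨s, hs⟩ := hV y hy
  have hprod : ∀ n, r n = w / g (∏ i ∈ range n, y i) := by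
    intro n
    induction n with
    | zero => simp [hr0]
    | succ n ih =>
      rw [hrs, prod_range_succ, map_mul, ← div_div, ← ih]
  refine ⟨s, by simpa using hs 0, ?_⟩
  have hsep : w / g s = 1 := by
    apply hW
    intro n
    have h1 : w / g s = r n / g (s / ∏ i ∈ range n, y i) := by
      rw [hprod n, map_div]
      rw [div_div, mul_div_cancel]
    rw [h1]
    exact (FW n).div_mem (hrmem n) (hg n _ (hs n))
  exact (div_eq_one.mp hsep).symm

/-- Exactness version: `f ∘ g = 1`, graded exactness implies exactness on `FV 0`. -/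
@[to_additive add_exact_of_graded_exact]
theorem exact_of_graded_exact {V : Type*} [CommGroup V]
    {FV : ℕ → Subgroup V} (f g : V →* V)
    (hV : IsFiltComplete FV) (hsep : IsFiltSeparated FV)
    (hfg : ∀ v, f (g v) = 1)
    (hg : ∀ i v, v ∈ FV i → g v ∈ FV i)
    (hgr : ∀ i x, x ∈ FV i → f x = 1 → ∃ y ∈ FV i, x / g y ∈ FV (i + 1))
    (x : V) (hx : x ∈ FV 0) (hfx : f x = 1) : ∃ y ∈ FV 0, g y = x := by
  let FW : ℕ → Subgroup f.ker := fun i => (FV i).subgroupOf f.ker
  let g' : V →* f.ker := g.codRestrict f.ker (fun v => MonoidHom.mem_ker.mpr (hfg v))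
  have hW : IsFiltSeparated FW := by
    intro w hw
    have : (w : V) = 1 := hsep w (fun i => hw i)
    exact Subtype.ext this
  obtain ⟨y, hy, hgy⟩ := surj_of_graded_surj (FV := FV) (FW := FW) g' hV hW
    (fun i v hv => hg i v hv)
    (fun i w hw => by
      obtain ⟨y, hy, hxy⟩ := hgr i w hw (MonoidHom.mem_ker.mp w.2)
      exact ⟨y, hy, hxy⟩)
    ⟨x, MonoidHom.mem_ker.mpr hfx⟩ hx
  exact ⟨y, hy, congrArg Subtype.val hgy⟩

end Fermat.Agent.Lib.CFT.LocalUnits
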