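import Mathlib
import Fermat.Agent.Lib.CFT.Local.FiltExact

/-!
Cohomological triviality (in the Herbrand sense) of the groups of principal units
`1 + π ^ (c + i) M` attached to a `G`-stable lattice `M` of a local ring `B` whose reduction
mod `π` is an induced module.
-/

set_option autoImplicit false

namespace Fermat.Agent.Lib.CFT.LocalUnits

open Finset IsLocalRing

section Generic

variable {B : Type*} [CommRing B]

theorem prod_one_add_sub_mem_sq {ι : Type*} (I : Ideal B) (s : Finset ι) (z : ι → B)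
    (hz : ∀ i ∈ s, z i ∈ I) :
    ∏ i ∈ s, (1 + z i) - 1 - ∑ i ∈ s, z i ∈ I ^ 2 := by
  classical
  induction s using Finset.induction_on with
  | empty => simp
  | insert a s ha ih =>
    have hza : z a ∈ I := hz a (mem_insert_self a s)
    have hzs : ∀ i ∈ s, z i ∈ I := fun i hi => hz i (mem_insert_of_mem hi)
    have ih' := ih hzs
    rw [prod_insert ha, sum_insert ha]
    have hsum : ∑ i ∈ s, z i ∈ I := I.sum_mem hzs
    have h1 : (1 + z a) * ∏ i ∈ s, (1 + z i) - 1 - (z a + ∑ i ∈ s, z i)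
        = (1 + z a) * (∏ i ∈ s, (1 + z i) - 1 - ∑ i ∈ s, z i) + z a * ∑ i ∈ s, z i := by ring
    rw [h1]
    refine (I ^ 2).add_mem ((I ^ 2).mul_mem_left _ ih') ?_
    rw [pow_two]
    exact Ideal.mul_mem_mul hza hsum

theorem sq_dvd_prod_one_add_sub {ι : Type*} (d : B) (s : Finset ι) (z : ι → B)
    (hz : ∀ i ∈ s, d ∣ z i) :
    d ^ 2 ∣ ∏ i ∈ s, (1 + z i) - 1 - ∑ i ∈ s, z i := by
  have h := prod_one_add_sub_mem_sq (Ideal.span {d}) s z
    (fun i hi => Ideal.mem_span_singleton.mpr (hz i hi))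
  rw [Ideal.span_singleton_pow] at h
  exact Ideal.mem_span_singleton.mp h

end Generic

section LatY

variable {B : Type*} [CommRing B]

/-- `Y j = π ^ (c + j) M`. -/
def latY (π : B) (M : AddSubgroup B) (c j : ℕ) : AddSubgroup B :=
  M.map (AddMonoidHom.mulLeft (π ^ (c + j)))

theorem mem_latY {π : B} {M : AddSubgroup B} {c j : ℕ} {x : B} :
    x ∈ latY π M c j ↔ ∃ m ∈ M, π ^ (c + j) * m = x := by
  simp [latY, AddSubgroup.mem_map]

theorem dvd_of_mem_latY {π : B} {M : AddSubgroup B} {c j : ℕ} {x : B}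
    (hx : x ∈ latY π M c j) : π ^ (c + j) ∣ x := by
  obtain ⟨m, _, rfl⟩ := mem_latY.mp hx
  exact dvd_mul_right _ _

end LatY

section Maps

variable {G : Type*} (B : Type*) [Group G] [CommRing B] [MulSemiringAction G B]

/-- The action of `g` on the unit group, as a monoid homomorphism. -/
def unitsSmul (g : G) : Bˣ →* Bˣ := Units.map (MulSemiringAction.toRingHom G B g : B →* B)

@[simp] theorem coe_unitsSmul (g : G) (u : Bˣ) : ((unitsSmul B g u : Bˣ) : B) = g • (u : B) := rfl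

/-- `u ↦ σ u / u` on the unit group. -/
def unitsTwist (σ : G) : Bˣ →* Bˣ := unitsSmul B σ / MonoidHom.id Bˣ

theorem unitsTwist_apply (σ : G) (u : Bˣ) : unitsTwist B σ u = unitsSmul B σ u / u := rfl

variable (G) [Fintype G]

/-- The norm `u ↦ ∏ g, g u` on the unit group. -/
def unitsNorm : Bˣ →* Bˣ := ∏ g : G, unitsSmul B g

theorem coe_unitsNorm (u : Bˣ) : ((unitsNorm G B u : Bˣ) : B) = ∏ g : G, g • (u : B) := by
  simp [unitsNorm, Units.coe_prod]

variable {G}

theorem unitsSmul_unitsNorm (σ : G) (u : Bˣ) : unitsSmul B σ (unitsNorm G B u) = unitsNorm G B u := by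
  apply Units.ext
  rw [coe_unitsSmul, coe_unitsNorm, Finset.smul_prod']
  simp_rw [← mul_smul]
  exact Fintype.prod_equiv (Equiv.mulLeft σ) _ _ (fun g => rfl)

theorem unitsNorm_unitsSmul (σ : G) (u : Bˣ) : unitsNorm G B (unitsSmul B σ u) = unitsNorm G B u := by
  apply Units.ext
  rw [coe_unitsNorm, coe_unitsNorm]
  simp_rw [coe_unitsSmul, ← mul_smul]
  exact Fintype.prod_equiv (Equiv.mulRight σ) _ _ (fun g => rfl)

theorem unitsTwist_unitsNorm (σ : G) (u : Bˣ) : unitsTwist B σ (unitsNorm G B u) = 1 := by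
  rw [unitsTwist_apply, unitsSmul_unitsNorm, div_self']

theorem unitsNorm_unitsTwist (σ : G) (u : Bˣ) : unitsNorm G B (unitsTwist B σ u) = 1 := by
  rw [unitsTwist_apply, map_div, unitsNorm_unitsSmul, div_self']

variable (G)

/-- The subgroup of `G`-fixed units. -/
def fixedUnits : Subgroup Bˣ where
  carrier := {u | ∀ g : G, g • (u : B) = u}
  one_mem' := by simp
  mul_mem' := by
    intro u v hu hv g
    rw [Units.val_mul, smul_mul', hu g, hv g]
  inv_mem' := by
    intro u hu g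
    have h1 : g • (u : B) * g • ((u⁻¹ : Bˣ) : B) = 1 := by
      rw [← smul_mul']; simp
    rw [hu g] at h1
    have h2 : (u : B) * ((u⁻¹ : Bˣ) : B) = 1 := by simp
    exact (u.isUnit.mul_right_injective (h1.trans h2.symm))

omit [Fintype G] in
theorem mem_fixedUnits {u : Bˣ} : u ∈ fixedUnits G B ↔ ∀ g : G, g • (u : B) = u := Iff.rfl

theorem unitsNorm_mem_fixedUnits (u : Bˣ) : unitsNorm G B u ∈ fixedUnits G B := by
  intro g
  have := congrArg (fun x : Bˣ => (x : B)) (unitsSmul_unitsNorm B g u)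
  simpa using this

end Maps

section Lattice

/-- A `G`-stable additive subgroup `M` of a local ring `B` with `π ^ c B ⊆ M`, `π M ⊆ M`, which is
`π`-adically complete; `π` is a `G`-fixed regular element of the maximal ideal. -/
structure LatticeData (G : Type*) {B : Type*} [Group G] [CommRing B] [IsLocalRing B]
    [MulSemiringAction G B] (π : B) (M : AddSubgroup B) (c : ℕ) : Prop where
  pi_mem : π ∈ maximalIdeal B
  pi_fixed : ∀ g : G, g • π = π
  pi_reg : ∀ b : B, π * b = 0 → b = 0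
  sep : ∀ b : B, (∀ j : ℕ, π ^ j ∣ b) → b = 0
  smul_mem : ∀ (g : G), ∀ m ∈ M, g • m ∈ M
  pi_mul_mem : ∀ m ∈ M, π * m ∈ M
  pow_mul_mem : ∀ b : B, π ^ c * b ∈ M
  complete : ∀ m : ℕ → B, (∀ j, m j ∈ M) →
    ∃ t ∈ M, ∀ n, ∃ r ∈ M, t - ∑ j ∈ range n, π ^ j * m j = π ^ n * r

variable {G B : Type*} [Group G] [CommRing B] [IsLocalRing B] [MulSemiringAction G B]
  {π : B} {M : AddSubgroup B} {c : ℕ}

namespace LatticeData

variable (h : LatticeData G π M c)
include h

theorem pow_mul_mem' (k : ℕ) {m : B} (hm : m ∈ M) : π ^ k * m ∈ M := by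
  induction k with
  | zero => simpa using hm
  | succ k ih => rw [pow_succ', mul_assoc]; exact h.pi_mul_mem _ ih

theorem pow_reg (k : ℕ) {b : B} (hb : π ^ k * b = 0) : b = 0 := by
  induction k with
  | zero => simpa using hb
  | succ k ih =>
    apply ih
    apply h.pi_reg
    rw [← mul_assoc, ← pow_succ']
    exact hb

theorem pow_cancel (k : ℕ) {a b : B} (hab : π ^ k * a = π ^ k * b) : a = b := by
  have : π ^ k * (a - b) = 0 := by rw [mul_sub, hab, sub_self]
  exact sub_eq_zero.mp (h.pow_reg k this)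

theorem latY_anti {j j' : ℕ} (hjj : j ≤ j') : latY π M c j' ≤ latY π M c j := by
  intro x hx
  obtain ⟨m, hm, rfl⟩ := mem_latY.mp hx
  refine mem_latY.mpr ⟨π ^ (j' - j) * m, h.pow_mul_mem' _ hm, ?_⟩
  rw [← mul_assoc, ← pow_add]
  congr 2
  omega

theorem mem_latY_of_dvd {j : ℕ} {x : B} (hx : π ^ (2 * c + j) ∣ x) : x ∈ latY π M c j := by
  obtain ⟨b, rfl⟩ := hx
  refine mem_latY.mpr ⟨π ^ c * b, h.pow_mul_mem b, ?_⟩
  rw [← mul_assoc, ← pow_add]
  congr 2
  omega

theorem mul_mem_latY {j j' : ℕ} {x y : B} (hx : x ∈ latY π M c j) (hy : y ∈ latY π M c j') :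
    x * y ∈ latY π M c (j + j') := by
  apply h.mem_latY_of_dvd
  have := mul_dvd_mul (dvd_of_mem_latY hx) (dvd_of_mem_latY hy)
  rw [← pow_add] at this
  convert this using 2
  omega

theorem smul_mem_latY (g : G) {j : ℕ} {x : B} (hx : x ∈ latY π M c j) :
    g • x ∈ latY π M c j := by
  obtain ⟨m, hm, rfl⟩ := mem_latY.mp hx
  refine mem_latY.mpr ⟨g • m, h.smul_mem g m hm, ?_⟩
  rw [smul_mul', smul_pow', h.pi_fixed]

theorem latY_le_maximalIdeal {j : ℕ} (hj : 1 ≤ c + j) {x : B} (hx : x ∈ latY π M c j) :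
    x ∈ maximalIdeal B := by
  obtain ⟨m, _, rfl⟩ := mem_latY.mp hx
  apply Ideal.mul_mem_right
  exact Ideal.pow_mem_of_mem _ h.pi_mem _ (by omega)

/-- The subgroup `1 + π ^ (c + j) M` of the unit group. -/
def unitsV (j : ℕ) : Subgroup Bˣ where
  carrier := {u | (u : B) - 1 ∈ latY π M c j}
  one_mem' := by simp
  mul_mem' := by
    intro u u' hu hu'
    simp only [Set.mem_ofPred_eq] at hu hu' ⊢
    have h1 : ((u * u' : Bˣ) : B) - 1 = ((u : B) - 1) + ((u' : B) - 1)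
        + ((u : B) - 1) * ((u' : B) - 1) := by push_cast; ring
    rw [h1]
    refine add_mem (add_mem hu hu') ?_
    exact h.latY_anti (Nat.le_add_right j j) (h.mul_mem_latY hu hu')
  inv_mem' := by
    intro u hu
    simp only [Set.mem_ofPred_eq] at hu ⊢
    have hinv : ((u⁻¹ : Bˣ) : B) - 1 = -(((u : B) - 1) * ((u⁻¹ : Bˣ) : B)) := by
      have : (u : B) * ((u⁻¹ : Bˣ) : B) = 1 := by simp
      linear_combination this
    have hdvd : π ^ (c + j) ∣ ((u⁻¹ : Bˣ) : B) - 1 := by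
      rw [hinv]
      exact (dvd_mul_of_dvd_left (dvd_of_mem_latY hu) _).neg_right
    have h2 : ((u⁻¹ : Bˣ) : B) - 1 = -((u : B) - 1) - ((u : B) - 1) * (((u⁻¹ : Bˣ) : B) - 1) := by
      have : (u : B) * ((u⁻¹ : Bˣ) : B) = 1 := by simp
      linear_combination this
    rw [h2]
    refine sub_mem (neg_mem hu) ?_
    apply h.mem_latY_of_dvd
    have := mul_dvd_mul (dvd_of_mem_latY hu) hdvd
    rw [← pow_add] at this
    refine dvd_trans (pow_dvd_pow π ?_) this
    omega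

theorem mem_unitsV {j : ℕ} {u : Bˣ} : u ∈ h.unitsV j ↔ (u : B) - 1 ∈ latY π M c j := Iff.rfl

theorem unitsV_anti {j j' : ℕ} (hjj : j ≤ j') : h.unitsV j' ≤ h.unitsV j :=
  fun _ hu => h.latY_anti hjj hu

/-- If `u - u' ∈ Y j` and `u' ∈ V 0` then `u / u' ∈ V j`. -/
theorem div_mem_unitsV {j : ℕ} {u u' : Bˣ} (hu' : u' ∈ h.unitsV 0)
    (huu : (u : B) - u' ∈ latY π M c j) : u / u' ∈ h.unitsV j := by
  rw [mem_unitsV]
  have hinv : ((u'⁻¹ : Bˣ) : B) - 1 ∈ latY π M c 0 := (h.unitsV 0).inv_mem hu'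
  have h1 : ((u / u' : Bˣ) : B) - 1 = ((u : B) - u') + ((u : B) - u') * (((u'⁻¹ : Bˣ) : B) - 1) := by
    have : (u' : B) * ((u'⁻¹ : Bˣ) : B) = 1 := by simp
    rw [div_eq_mul_inv]
    push_cast
    linear_combination this
  rw [h1]
  refine add_mem huu ?_
  simpa using h.mul_mem_latY huu hinv

theorem smul_sub_one_mem (g : G) {j : ℕ} {x : B} (hx : x - 1 ∈ latY π M c j) :
    g • x - 1 ∈ latY π M c j := by
  have := h.smul_mem_latY g hx
  rwa [smul_sub, smul_one] at this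

theorem prod_mem_unitsV {i : ℕ} {y : ℕ → Bˣ} (hy : ∀ n, y n ∈ h.unitsV (i + n)) (n : ℕ) :
    ∏ k ∈ range n, y k ∈ h.unitsV i :=
  Subgroup.prod_mem _ fun k _ => h.unitsV_anti (Nat.le_add_right i k) (hy k)

theorem isUnit_one_add {x : B} {j : ℕ} (hj : 1 ≤ c + j) (hx : x ∈ latY π M c j) :
    IsUnit (1 + x) := by
  apply isUnit_of_mem_nonunits_one_sub_self
  have : (1 : B) - (1 + x) = -x := by ring
  rw [this, ← mem_maximalIdeal]
  exact neg_mem (h.latY_le_maximalIdeal hj hx)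

theorem isFiltComplete_unitsV (i : ℕ) (hi : 1 ≤ c + i) :
    IsFiltComplete (fun n => h.unitsV (i + n)) := by
  intro y hy
  set p : ℕ → Bˣ := fun n => ∏ k ∈ range n, y k with hpdef
  have hp : ∀ n, p n ∈ h.unitsV i := fun n => h.prod_mem_unitsV hy n
  have hsucc : ∀ n, p (n + 1) = p n * y n := fun n => prod_range_succ _ _
  have hstep : ∀ n, ((p (n + 1) : Bˣ) : B) - p n ∈ latY π M c (i + n) := by
    intro n
    have h1 : ((p (n + 1) : Bˣ) : B) - p n = ((y n : B) - 1) + ((p n : B) - 1) * ((y n : B) - 1) := by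
      rw [hsucc]; push_cast; ring
    rw [h1]
    refine add_mem (hy n) ?_
    exact h.latY_anti (Nat.le_add_left _ _) (h.mul_mem_latY (hp n) (hy n))
  choose m' hm' hm'eq using fun n => mem_latY.mp (hstep n)
  obtain ⟨t, ht, htn⟩ := h.complete m' hm'
  have hpn : ∀ n, ((p n : Bˣ) : B) - 1 = π ^ (c + i) * ∑ k ∈ range n, π ^ k * m' k := by
    intro n
    induction n with
    | zero => simp [hpdef]
    | succ n ih =>
      have : ((p (n + 1) : Bˣ) : B) - 1 = (((p (n + 1) : Bˣ) : B) - p n) + ((p n : B) - 1) := by ring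
      rw [this, ih, ← hm'eq n, sum_range_succ, mul_add]
      have : π ^ (c + (i + n)) = π ^ (c + i) * π ^ n := by rw [← pow_add, add_assoc]
      rw [this]; ring
  have hs : IsUnit (1 + π ^ (c + i) * t) :=
    h.isUnit_one_add hi (mem_latY.mpr ⟨t, ht, rfl⟩)
  refine ⟨hs.unit, fun n => ?_⟩
  apply h.div_mem_unitsV (h.unitsV_anti (Nat.zero_le i) (hp n))
  obtain ⟨r, hr, hreq⟩ := htn n
  refine mem_latY.mpr ⟨r, hr, ?_⟩
  have h2 : ((hs.unit : Bˣ) : B) - p n
      = π ^ (c + i) * (t - ∑ k ∈ range n, π ^ k * m' k) := by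
    have := hpn n
    rw [IsUnit.unit_spec]
    linear_combination (-1 : B) * this
  rw [h2, hreq, ← mul_assoc, ← pow_add, add_assoc]

theorem isFiltSeparated_unitsV (i : ℕ) : IsFiltSeparated (fun n => h.unitsV (i + n)) := by
  intro u hu
  have : (u : B) - 1 = 0 := by
    apply h.sep
    intro j
    have := dvd_of_mem_latY (hu j)
    exact dvd_trans (pow_dvd_pow π (by omega)) this
  exact Units.ext (by simpa using sub_eq_zero.mp this)

theorem unitsSmul_mem_unitsV (g : G) {j : ℕ} {u : Bˣ} (hu : u ∈ h.unitsV j) :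
    unitsSmul B g u ∈ h.unitsV j := by
  rw [mem_unitsV, coe_unitsSmul]
  exact h.smul_sub_one_mem g hu

theorem unitsTwist_mem_unitsV (σ : G) {j : ℕ} {u : Bˣ} (hu : u ∈ h.unitsV j) :
    unitsTwist B σ u ∈ h.unitsV j :=
  (h.unitsV j).div_mem (h.unitsSmul_mem_unitsV σ hu) hu

variable [Fintype G]

theorem unitsNorm_mem_unitsV {j : ℕ} {u : Bˣ} (hu : u ∈ h.unitsV j) :
    unitsNorm G B u ∈ h.unitsV j := by
  rw [unitsNorm, MonoidHom.finsetProd_apply]
  exact Subgroup.prod_mem _ fun g _ => h.unitsSmul_mem_unitsV g hu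

/-- Norm of `1 + π ^ (c + j) m` is `1 + π ^ (c + j) Tr m` up to `π ^ (2 (c + j))`. -/
theorem norm_one_add_expansion (j : ℕ) (m : B) :
    π ^ (2 * (c + j)) ∣ ∏ g : G, g • (1 + π ^ (c + j) * m) - 1 - π ^ (c + j) * ∑ g : G, g • m := by
  have h1 : ∀ g : G, g • (1 + π ^ (c + j) * m) = 1 + π ^ (c + j) * g • m := by
    intro g
    rw [smul_add, smul_one, smul_mul', smul_pow', h.pi_fixed]
  simp_rw [h1, mul_sum]
  have := sq_dvd_prod_one_add_sub (π ^ (c + j)) (univ : Finset G)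
    (fun g => π ^ (c + j) * g • m) (fun g _ => dvd_mul_right _ _)
  rwa [← pow_mul, mul_comm (c + j) 2] at this

/-- graded step for the zeroth Tate group -/
theorem graded_H0 (hT : ∀ m ∈ M, (∀ g : G, g • m = m) →
      ∃ m' ∈ M, ∃ r ∈ M, m - ∑ g : G, g • m' = π * r)
    {j : ℕ} (hj : 1 ≤ j) {u : Bˣ} (hu : u ∈ h.unitsV j) (hfix : ∀ g : G, g • (u : B) = u) :
    ∃ v ∈ h.unitsV j, u / unitsNorm G B v ∈ h.unitsV (j + 1) := by
  obtain ⟨m, hm, hmu⟩ := mem_latY.mp hu
  have hmfix : ∀ g : G, g • m = m := by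
    intro g
    apply h.pow_cancel (c + j)
    have := hfix g
    have hu' : (u : B) = 1 + π ^ (c + j) * m := by rw [hmu]; ring
    rw [hu', smul_add, smul_one, smul_mul', smul_pow', h.pi_fixed] at this
    exact add_left_cancel this
  obtain ⟨m', hm', r, hr, hmr⟩ := hT m hm hmfix
  have hx : π ^ (c + j) * m' ∈ latY π M c j := mem_latY.mpr ⟨m', hm', rfl⟩
  have hv : IsUnit (1 + π ^ (c + j) * m') := h.isUnit_one_add (by omega) hx
  have hvmem : hv.unit ∈ h.unitsV j := by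
    rw [mem_unitsV, IsUnit.unit_spec]; simpa using hx
  refine ⟨hv.unit, hvmem, ?_⟩
  apply h.div_mem_unitsV (h.unitsV_anti (Nat.zero_le j) (h.unitsNorm_mem_unitsV hvmem))
  rw [coe_unitsNorm, IsUnit.unit_spec]
  obtain ⟨b, hb⟩ := h.norm_one_add_expansion (G := G) j m'
  have hu' : (u : B) = 1 + π ^ (c + j) * m := by rw [hmu]; ring
  have h2 : (u : B) - ∏ g : G, g • (1 + π ^ (c + j) * m')
      = π ^ (c + (j + 1)) * r - π ^ (2 * (c + j)) * b := by
    rw [← hb, hu']
    have : π ^ (c + (j + 1)) = π ^ (c + j) * π := by rw [← pow_succ, add_assoc]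
    rw [this]
    linear_combination π ^ (c + j) * hmr
  rw [h2]
  refine sub_mem (mem_latY.mpr ⟨r, hr, rfl⟩) ?_
  apply h.mem_latY_of_dvd
  exact dvd_mul_of_dvd_left (pow_dvd_pow π (by omega)) _

/-- graded step for the minus first Tate group -/
theorem graded_H1 (σ : G) (hT1 : ∀ m ∈ M, (∃ r ∈ M, ∑ g : G, g • m = π * r) →
      ∃ m' ∈ M, ∃ r' ∈ M, m - (σ • m' - m') = π * r')
    {j : ℕ} (hj : 1 ≤ j) {u : Bˣ} (hu : u ∈ h.unitsV j) (hN : unitsNorm G B u = 1) :
    ∃ v ∈ h.unitsV j, u / unitsTwist B σ v ∈ h.unitsV (j + 1) := by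
  obtain ⟨m, hm, hmu⟩ := mem_latY.mp hu
  have hu' : (u : B) = 1 + π ^ (c + j) * m := by rw [hmu]; ring
  have hN' : ∏ g : G, g • (1 + π ^ (c + j) * m) = 1 := by
    rw [← hu', ← coe_unitsNorm, hN, Units.val_one]
  obtain ⟨b, hb⟩ := h.norm_one_add_expansion (G := G) j m
  rw [hN', sub_self, zero_sub] at hb
  have htr : ∑ g : G, g • m = π * (π ^ (j - 1) * (π ^ c * (-b))) := by
    apply h.pow_cancel (c + j)
    have : π ^ (c + j) * (π * (π ^ (j - 1) * (π ^ c * -b))) = -(π ^ (2 * (c + j)) * b) := by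
      have e : 2 * (c + j) = (c + j) + 1 + (j - 1) + c := by omega
      rw [e]
      ring
    rw [this, ← hb, neg_neg]
  obtain ⟨m', hm', r', hr', hmr⟩ := hT1 m hm
    ⟨_, h.pow_mul_mem' _ (h.pow_mul_mem _), htr⟩
  have hx : π ^ (c + j) * m' ∈ latY π M c j := mem_latY.mpr ⟨m', hm', rfl⟩
  have hv : IsUnit (1 + π ^ (c + j) * m') := h.isUnit_one_add (by omega) hx
  have hvmem : hv.unit ∈ h.unitsV j := by
    rw [mem_unitsV, IsUnit.unit_spec]; simpa using hx
  refine ⟨hv.unit, hvmem, ?_⟩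
  have htw : unitsTwist B σ hv.unit ∈ h.unitsV j := h.unitsTwist_mem_unitsV σ hvmem
  apply h.div_mem_unitsV (h.unitsV_anti (Nat.zero_le j) htw)
  -- compute σ v / v - 1
  have hinv : ((hv.unit⁻¹ : Bˣ) : B) - 1 ∈ latY π M c j := (h.unitsV j).inv_mem hvmem
  have hd : σ • (1 + π ^ (c + j) * m') - (1 + π ^ (c + j) * m') = π ^ (c + j) * (σ • m' - m') := by
    rw [smul_add, smul_one, smul_mul', smul_pow', h.pi_fixed]; ring
  have hdmem : π ^ (c + j) * (σ • m' - m') ∈ latY π M c j :=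
    mem_latY.mpr ⟨_, sub_mem (h.smul_mem σ m' hm') hm', rfl⟩
  have h3 : ((unitsTwist B σ hv.unit : Bˣ) : B)
      = 1 + π ^ (c + j) * (σ • m' - m')
        + π ^ (c + j) * (σ • m' - m') * (((hv.unit⁻¹ : Bˣ) : B) - 1) := by
    rw [unitsTwist_apply, div_eq_mul_inv, Units.val_mul, coe_unitsSmul, IsUnit.unit_spec, ← hd]
    have : (1 + π ^ (c + j) * m') * ((hv.unit⁻¹ : Bˣ) : B) = 1 := by
      have := hv.unit.mul_inv
      rwa [IsUnit.unit_spec] at this
    linear_combination this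
  have h4 : (u : B) - ((unitsTwist B σ hv.unit : Bˣ) : B)
      = π ^ (c + (j + 1)) * r'
        - π ^ (c + j) * (σ • m' - m') * (((hv.unit⁻¹ : Bˣ) : B) - 1) := by
    rw [h3, hu']
    have : π ^ (c + (j + 1)) = π ^ (c + j) * π := by rw [← pow_succ, add_assoc]
    rw [this]
    linear_combination π ^ (c + j) * hmr
  rw [h4]
  refine sub_mem (mem_latY.mpr ⟨r', hr', rfl⟩) ?_
  exact h.latY_anti (by omega) (h.mul_mem_latY hdmem hinv)

/-- Vanishing of the zeroth Tate group of `1 + π ^ (c + i) M`, `i ≥ 1`. -/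
theorem exists_unitsNorm_eq (hT : ∀ m ∈ M, (∀ g : G, g • m = m) →
      ∃ m' ∈ M, ∃ r ∈ M, m - ∑ g : G, g • m' = π * r)
    {i : ℕ} (hi : 1 ≤ i) {u : Bˣ} (hu : u ∈ h.unitsV i) (hfix : ∀ g : G, g • (u : B) = u) :
    ∃ v ∈ h.unitsV i, unitsNorm G B v = u := by
  let FV : ℕ → Subgroup Bˣ := fun n => h.unitsV (i + n)
  let FW : ℕ → Subgroup (fixedUnits G B) := fun n => (FV n).subgroupOf (fixedUnits G B)
  let g' : Bˣ →* fixedUnits G B :=
    (unitsNorm G B).codRestrict (fixedUnits G B) (unitsNorm_mem_fixedUnits G B)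
  have hW : IsFiltSeparated FW := by
    intro w hw
    exact Subtype.ext (h.isFiltSeparated_unitsV i w (fun n => hw n))
  obtain ⟨v, hv, hgv⟩ := surj_of_graded_surj (FV := FV) (FW := FW) g'
    (h.isFiltComplete_unitsV i (by omega)) hW
    (fun n v hv => h.unitsNorm_mem_unitsV hv)
    (fun n w hw => by
      obtain ⟨v, hv, hv'⟩ := h.graded_H0 hT (j := i + n) (by omega) hw w.2
      exact ⟨v, hv, hv'⟩)
    ⟨u, hfix⟩ hu
  exact ⟨v, hv, congrArg Subtype.val hgv⟩

/-- Vanishing of the minus first Tate group of `1 + π ^ (c + i) M`, `i ≥ 1`. -/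
theorem exists_unitsTwist_eq (σ : G) (hT1 : ∀ m ∈ M, (∃ r ∈ M, ∑ g : G, g • m = π * r) →
      ∃ m' ∈ M, ∃ r' ∈ M, m - (σ • m' - m') = π * r')
    {i : ℕ} (hi : 1 ≤ i) {u : Bˣ} (hu : u ∈ h.unitsV i) (hN : unitsNorm G B u = 1) :
    ∃ v ∈ h.unitsV i, unitsTwist B σ v = u :=
  exact_of_graded_exact (FV := fun n => h.unitsV (i + n)) (unitsNorm G B) (unitsTwist B σ)
    (h.isFiltComplete_unitsV i (by omega)) (h.isFiltSeparated_unitsV i)
    (unitsNorm_unitsTwist B σ)
    (fun n v hv => h.unitsTwist_mem_unitsV σ hv)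
    (fun n x hx hNx => h.graded_H1 σ hT1 (j := i + n) (by omega) hx hNx)
    u hu hN

end LatticeData

end Lattice

end Fermat.Agent.Lib.CFT.LocalUnits
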