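import Mathlib
import Fermat.Agent.Lib.CFT.Local.PrincipalUnits

/-!
# Units of unramified extensions of complete local rings: vanishing of the Tate groups

`B` is a complete local ring whose maximal ideal is generated by a regular element `π`, `G` a
finite group acting on `B`, fixing `π`, and acting FAITHFULLY on the finite residue field
(this is the abstract form of an unramified Galois extension of local fields with group `G`).
Then every `G`-fixed unit of `B` is a norm `∏ g, g v` of a unit (`unram_exists_unitsNorm_eq`),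
and, if `σ` generates `G`, every unit of norm one is of the form `σ v / v`
(`unram_exists_unitsTwist_eq`).
-/

set_option autoImplicit false

namespace Fermat.Agent.Lib.CFT.LocalUnits

open Finset IsLocalRing

section Counting

/-- In a finite commutative group, if `g ∘ f = 1` and `ker f ≤ im g` then `ker g ≤ im f`. -/
@[to_additive add_ker_le_range_of_finite]
theorem ker_le_range_of_finite {A : Type*} [CommGroup A] [Finite A] (f g : A →* A)
    (hgf : ∀ x, g (f x) = 1) (hker : f.ker ≤ g.range) : g.ker ≤ f.range := by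
  have hle : f.range ≤ g.ker := by
    rintro _ ⟨x, rfl⟩
    exact hgf x
  have c1 : Nat.card f.ker * Nat.card f.range = Nat.card A := by
    rw [← Subgroup.index_ker f]
    exact Subgroup.card_mul_index f.ker
  have c2 : Nat.card g.ker * Nat.card g.range = Nat.card A := by
    rw [← Subgroup.index_ker g]
    exact Subgroup.card_mul_index g.ker
  have h1 : Nat.card f.ker ≤ Nat.card g.range := Subgroup.card_le_of_le hker
  have hpos : 0 < Nat.card f.ker := Nat.card_pos
  have h3 : Nat.card g.ker ≤ Nat.card f.range := by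
    by_contra hlt
    rw [not_le] at hlt
    have : Nat.card f.ker * Nat.card f.range < Nat.card g.ker * Nat.card g.range := by
      calc Nat.card f.ker * Nat.card f.range < Nat.card f.ker * Nat.card g.ker :=
            Nat.mul_lt_mul_of_pos_left hlt hpos
        _ ≤ Nat.card g.range * Nat.card g.ker := Nat.mul_le_mul_right _ h1
        _ = Nat.card g.ker * Nat.card g.range := mul_comm _ _
    rw [c1, c2] at this
    exact lt_irrefl _ this
  exact (Subgroup.eq_of_le_of_card_ge hle h3).ge

end Counting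

section GaloisSums

variable {G K L : Type*} [Group G] [Fintype G] [Field K] [Field L] [Algebra K L]
  [MulSemiringAction G L] [IsGaloisGroup G K L]

theorem sum_smul_eq_algebraMap_trace (x : L) :
    ∑ g : G, g • x = algebraMap K L (Algebra.trace K L x) := by
  have := IsGaloisGroup.isGalois G K L
  have := IsGaloisGroup.finiteDimensional G K L
  rw [trace_eq_sum_automorphisms]
  exact Fintype.sum_equiv (IsGaloisGroup.mulEquivAlgEquiv G K L).toEquiv _ _ (fun g => rfl)

theorem prod_smul_eq_algebraMap_norm (x : L) :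
    ∏ g : G, g • x = algebraMap K L (Algebra.norm K x) := by
  have := IsGaloisGroup.isGalois G K L
  have := IsGaloisGroup.finiteDimensional G K L
  rw [Algebra.norm_eq_prod_automorphisms]
  exact Fintype.prod_equiv (IsGaloisGroup.mulEquivAlgEquiv G K L).toEquiv _ _ (fun g => rfl)

end GaloisSums

section FiniteField

variable {G ℓ : Type*} [Group G] [Fintype G] [Field ℓ] [MulSemiringAction G ℓ]
  [FaithfulSMul G ℓ]

/-- (T): invariants of a field under a faithful finite group action are traces. -/
theorem finField_exists_sum_smul_eq {x : ℓ} (hx : ∀ g : G, g • x = x) :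
    ∃ y : ℓ, ∑ g : G, g • y = x := by
  have := IsGaloisGroup.isGalois G (FixedPoints.subfield G ℓ) ℓ
  have := IsGaloisGroup.finiteDimensional G (FixedPoints.subfield G ℓ) ℓ
  obtain ⟨y, hy⟩ := Algebra.trace_surjective (FixedPoints.subfield G ℓ) ℓ ⟨x, hx⟩
  refine ⟨y, ?_⟩
  rw [sum_smul_eq_algebraMap_trace (K := FixedPoints.subfield G ℓ), hy]
  rfl

omit [Fintype G] [FaithfulSMul G ℓ] in
theorem smul_eq_of_zpowers {σ : G} (hσ : ∀ g, g ∈ Subgroup.zpowers σ) {α : Type*} [MulAction G α]
    {x : α} (hx : σ • x = x) (g : G) : g • x = x := by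
  have h1 : Subgroup.zpowers σ ≤ MulAction.stabilizer G x := by
    rw [Subgroup.zpowers_le]
    exact hx
  exact h1 (hσ g)

variable [Finite ℓ]

/-- (N): invariants of a finite field are norms. -/
theorem finField_exists_prod_smul_eq {x : ℓ} (hx : ∀ g : G, g • x = x) :
    ∃ y : ℓ, ∏ g : G, g • y = x := by
  obtain ⟨y, hy⟩ := FiniteField.norm_surjective (FixedPoints.subfield G ℓ) ℓ ⟨x, hx⟩
  refine ⟨y, ?_⟩
  rw [prod_smul_eq_algebraMap_norm (K := FixedPoints.subfield G ℓ), hy]
  rfl

/-- (T1): additive Hilbert 90 for a finite field. -/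
theorem finField_exists_smul_sub_eq {σ : G} (hσ : ∀ g, g ∈ Subgroup.zpowers σ) {x : ℓ}
    (hx : ∑ g : G, g • x = 0) : ∃ y : ℓ, σ • y - y = x := by
  let f : ℓ →+ ℓ := DistribSMul.toAddMonoidHom ℓ σ - AddMonoidHom.id ℓ
  let t : ℓ →+ ℓ := ∑ g : G, DistribSMul.toAddMonoidHom ℓ g
  have hf : ∀ y, f y = σ • y - y := fun y => rfl
  have ht : ∀ y, t y = ∑ g : G, g • y := fun y => by
    simp [t]
  have hgf : ∀ y, t (f y) = 0 := by
    intro y
    rw [ht, hf]
    simp_rw [smul_sub, ← mul_smul]
    rw [Finset.sum_sub_distrib, sub_eq_zero]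
    exact Fintype.sum_equiv (Equiv.mulRight σ) _ _ (fun g => rfl)
  have hker : f.ker ≤ t.range := by
    intro y hy
    have hy' : σ • y = y := sub_eq_zero.mp ((hf y).symm.trans hy)
    obtain ⟨z, hz⟩ := finField_exists_sum_smul_eq (G := G) (smul_eq_of_zpowers hσ hy')
    exact ⟨z, (ht z).trans hz⟩
  have := add_ker_le_range_of_finite f t hgf hker
  obtain ⟨y, hy⟩ := this (show x ∈ t.ker from (ht x).trans hx)
  exact ⟨y, hy⟩

/-- (N1): Hilbert 90 for a finite field. -/
theorem finField_exists_smul_eq_mul {σ : G} (hσ : ∀ g, g ∈ Subgroup.zpowers σ) {x : ℓ}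
    (hx : ∏ g : G, g • x = 1) : ∃ y : ℓ, y ≠ 0 ∧ σ • y = x * y := by
  have hx0 : x ≠ 0 := by
    rintro rfl
    simp at hx
  have hker : (unitsTwist ℓ σ).ker ≤ (unitsNorm G ℓ).range := by
    intro u hu
    have hu' : unitsSmul ℓ σ u = u := div_eq_one.mp hu
    have hu'' : σ • (u : ℓ) = u := congrArg Units.val hu'
    obtain ⟨z, hz⟩ := finField_exists_prod_smul_eq (G := G) (smul_eq_of_zpowers hσ hu'')
    have hz0 : z ≠ 0 := by
      rintro rfl
      simp at hz
      exact u.ne_zero hz.symm
    refine ⟨Units.mk0 z hz0, Units.ext ?_⟩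
    rw [coe_unitsNorm]
    exact hz
  have := ker_le_range_of_finite (unitsTwist ℓ σ) (unitsNorm G ℓ)
    (unitsNorm_unitsTwist ℓ σ) hker
  obtain ⟨y, hy⟩ := this (show Units.mk0 x hx0 ∈ (unitsNorm G ℓ).ker from
    Units.ext (by rw [coe_unitsNorm]; exact hx))
  refine ⟨y, y.ne_zero, ?_⟩
  have h1 : unitsSmul ℓ σ y = Units.mk0 x hx0 * y := by
    rw [← hy, unitsTwist_apply, div_mul_cancel]
  exact congrArg Units.val h1

end FiniteField

section Top

variable {G B : Type*} [Group G] [CommRing B] [IsLocalRing B] [MulSemiringAction G B]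

/-- The lattice data of the full ring `M = B` for a complete local ring with principal maximal
ideal generated by a `G`-fixed regular element. -/
theorem latticeData_top [IsAdicComplete (maximalIdeal B) B] {π : B}
    (hπ : maximalIdeal B = Ideal.span {π}) (hfix : ∀ g : G, g • π = π)
    (hreg : ∀ b : B, π * b = 0 → b = 0) : LatticeData G π (⊤ : AddSubgroup B) 0 where
  pi_mem := by rw [hπ]; exact Ideal.mem_span_singleton_self π
  pi_fixed := hfix
  pi_reg := hreg
  sep := by
    intro b hb
    apply IsHausdorff.haus (inferInstance : IsHausdorff (maximalIdeal B) B)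
    intro n
    rw [SModEq.zero, smul_eq_mul, Ideal.mul_top, hπ, Ideal.span_singleton_pow,
      Ideal.mem_span_singleton]
    exact hb n
  smul_mem := fun _ _ _ => AddSubgroup.mem_top _
  pi_mul_mem := fun _ _ => AddSubgroup.mem_top _
  pow_mul_mem := fun _ => AddSubgroup.mem_top _
  complete := by
    intro m _
    have hcauchy : ∀ {a b : ℕ}, a ≤ b →
        (∑ j ∈ range a, π ^ j * m j) ≡ (∑ j ∈ range b, π ^ j * m j)
          [SMOD ((maximalIdeal B) ^ a • ⊤ : Submodule B B)] := by
      intro a b hab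
      rw [SModEq.sub_mem, smul_eq_mul, Ideal.mul_top, hπ, Ideal.span_singleton_pow,
        Ideal.mem_span_singleton]
      rw [← Finset.sum_range_add_sum_Ico _ hab, sub_add_cancel_left]
      apply Dvd.dvd.neg_right
      apply Finset.dvd_sum
      intro j hj
      exact dvd_mul_of_dvd_left (pow_dvd_pow π (Finset.mem_Ico.mp hj).1) _
    obtain ⟨t, ht⟩ := IsPrecomplete.prec (inferInstance : IsPrecomplete (maximalIdeal B) B) hcauchy
    refine ⟨t, AddSubgroup.mem_top _, fun n => ?_⟩
    have := (ht n).symm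
    rw [SModEq.sub_mem, smul_eq_mul, Ideal.mul_top, hπ, Ideal.span_singleton_pow,
      Ideal.mem_span_singleton] at this
    obtain ⟨r, hr⟩ := this
    exact ⟨r, AddSubgroup.mem_top _, hr⟩

theorem exists_eq_pi_mul_of_residue_eq_zero {π : B} (hπ : maximalIdeal B = Ideal.span {π})
    {b : B} (hb : residue B b = 0) : ∃ r : B, b = π * r := by
  rw [residue_eq_zero_iff, hπ, Ideal.mem_span_singleton] at hb
  exact hb

theorem residue_sum_smul (s : Finset G) (b : B) :
    residue B (∑ g ∈ s, g • b) = ∑ g ∈ s, g • residue B b := by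
  rw [map_sum]
  rfl

theorem residue_prod_smul (s : Finset G) (b : B) :
    residue B (∏ g ∈ s, g • b) = ∏ g ∈ s, g • residue B b := by
  rw [map_prod]
  rfl

variable [Fintype G] [FaithfulSMul G (ResidueField B)]

/-- `hT` for the full lattice. -/
theorem hT_top {π : B} (hπ : maximalIdeal B = Ideal.span {π}) :
    ∀ m ∈ (⊤ : AddSubgroup B), (∀ g : G, g • m = m) →
      ∃ m' ∈ (⊤ : AddSubgroup B), ∃ r ∈ (⊤ : AddSubgroup B), m - ∑ g : G, g • m' = π * r := by
  intro m _ hm
  have hm' : ∀ g : G, g • residue B m = residue B m := fun g => by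
    rw [← ResidueField.residue_smul, hm g]
  obtain ⟨y, hy⟩ := finField_exists_sum_smul_eq (G := G) hm'
  obtain ⟨m', rfl⟩ := residue_surjective y
  obtain ⟨r, hr⟩ := exists_eq_pi_mul_of_residue_eq_zero hπ
    (b := m - ∑ g : G, g • m') (by rw [map_sub, residue_sum_smul, hy, sub_self])
  exact ⟨m', AddSubgroup.mem_top _, r, AddSubgroup.mem_top _, hr⟩

variable [Finite (ResidueField B)]

/-- `hT1` for the full lattice. -/
theorem hT1_top {π : B} (hπ : maximalIdeal B = Ideal.span {π}) {σ : G}
    (hσ : ∀ g, g ∈ Subgroup.zpowers σ) :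
    ∀ m ∈ (⊤ : AddSubgroup B), (∃ r ∈ (⊤ : AddSubgroup B), ∑ g : G, g • m = π * r) →
      ∃ m' ∈ (⊤ : AddSubgroup B), ∃ r' ∈ (⊤ : AddSubgroup B),
        m - (σ • m' - m') = π * r' := by
  rintro m _ ⟨r, _, hr⟩
  have hπ0 : residue B π = 0 := by
    rw [residue_eq_zero_iff, hπ]; exact Ideal.mem_span_singleton_self π
  have hm' : ∑ g : G, g • residue B m = 0 := by
    rw [← residue_sum_smul, hr, map_mul, hπ0, zero_mul]
  obtain ⟨y, hy⟩ := finField_exists_smul_sub_eq hσ hm'
  obtain ⟨m', rfl⟩ := residue_surjective y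
  obtain ⟨r', hr'⟩ := exists_eq_pi_mul_of_residue_eq_zero hπ
    (b := m - (σ • m' - m')) (by
      rw [map_sub, map_sub, ResidueField.residue_smul, hy, sub_self])
  exact ⟨m', AddSubgroup.mem_top _, r', AddSubgroup.mem_top _, hr'⟩

end Top

section Main

variable {G B : Type*} [Group G] [CommRing B] [IsLocalRing B] [MulSemiringAction G B]

/-- Reduction of units to the residue field. -/
noncomputable def resUnits (B : Type*) [CommRing B] [IsLocalRing B] : Bˣ →* (ResidueField B)ˣ :=
  Units.map (residue B : B →* ResidueField B)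

@[simp] theorem coe_resUnits (u : Bˣ) : ((resUnits B u : (ResidueField B)ˣ) : ResidueField B)
    = residue B (u : B) := rfl

theorem mem_unitsV_one_top {π : B} (h : LatticeData G π (⊤ : AddSubgroup B) 0)
    (hπ : maximalIdeal B = Ideal.span {π}) {u : Bˣ} :
    u ∈ h.unitsV 1 ↔ resUnits B u = 1 := by
  rw [LatticeData.mem_unitsV, mem_latY, Units.ext_iff, coe_resUnits, Units.val_one,
    ← sub_eq_zero, ← map_one (residue B), ← map_sub, residue_eq_zero_iff, hπ,
    Ideal.mem_span_singleton]
  constructor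
  · rintro ⟨m, _, hm⟩
    exact ⟨m, by rw [← hm]; ring⟩
  · rintro ⟨m, hm⟩
    exact ⟨m, AddSubgroup.mem_top _, by rw [hm]; ring⟩

theorem resUnits_unitsTwist (σ : G) (w : Bˣ) :
    ((resUnits B (unitsTwist B σ w) : (ResidueField B)ˣ) : ResidueField B)
      = σ • residue B (w : B) / residue B (w : B) := by
  rw [unitsTwist_apply, map_div, Units.val_div_eq_div_val, coe_resUnits, coe_resUnits,
    coe_unitsSmul, ResidueField.residue_smul]

variable [Fintype G]

theorem resUnits_unitsNorm (w : Bˣ) :
    ((resUnits B (unitsNorm G B w) : (ResidueField B)ˣ) : ResidueField B)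
      = ∏ g : G, g • residue B (w : B) := by
  rw [coe_resUnits, coe_unitsNorm, residue_prod_smul]

variable [IsAdicComplete (maximalIdeal B) B] [Finite (ResidueField B)]
  [FaithfulSMul G (ResidueField B)]

/-- **Unramified extensions, `Ĥ⁰(G, U) = 0`**: every `G`-fixed unit is a norm of a unit. -/
theorem unram_exists_unitsNorm_eq {π : B} (hπ : maximalIdeal B = Ideal.span {π})
    (hfix : ∀ g : G, g • π = π) (hreg : ∀ b : B, π * b = 0 → b = 0)
    {u : Bˣ} (hu : ∀ g : G, g • (u : B) = u) :
    ∃ v : Bˣ, unitsNorm G B v = u := by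
  have h := latticeData_top (G := G) hπ hfix hreg
  have hu' : ∀ g : G, g • residue B (u : B) = residue B (u : B) := fun g => by
    rw [← ResidueField.residue_smul, hu g]
  obtain ⟨y, hy⟩ := finField_exists_prod_smul_eq hu'
  obtain ⟨b, rfl⟩ := residue_surjective y
  have hb : IsUnit b := by
    rw [← residue_ne_zero_iff_isUnit]
    intro hb0
    rw [hb0] at hy
    rw [Finset.prod_eq_zero (mem_univ (1 : G)) (by simp)] at hy
    exact (residue_ne_zero_iff_isUnit (u : B)).mpr u.isUnit hy.symm
  have h1 : u / unitsNorm G B hb.unit ∈ h.unitsV 1 := by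
    rw [mem_unitsV_one_top h hπ, map_div, div_eq_one]
    apply Units.ext
    rw [resUnits_unitsNorm, IsUnit.unit_spec, hy, coe_resUnits]
  have h2 : ∀ g : G, g • ((u / unitsNorm G B hb.unit : Bˣ) : B)
      = (u / unitsNorm G B hb.unit : Bˣ) :=
    (fixedUnits G B).div_mem hu (unitsNorm_mem_fixedUnits G B hb.unit)
  obtain ⟨v, _, hv⟩ := h.exists_unitsNorm_eq (hT_top hπ) le_rfl h1 h2
  exact ⟨hb.unit * v, by rw [map_mul, hv, mul_div_cancel]⟩

/-- **Unramified extensions, `Ĥ⁻¹(G, U) = 0`** (`G` generated by `σ`): every unit of norm one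
is of the form `σ v / v`. -/
theorem unram_exists_unitsTwist_eq {π : B} (hπ : maximalIdeal B = Ideal.span {π})
    (hfix : ∀ g : G, g • π = π) (hreg : ∀ b : B, π * b = 0 → b = 0)
    {σ : G} (hσ : ∀ g, g ∈ Subgroup.zpowers σ) {u : Bˣ} (hu : unitsNorm G B u = 1) :
    ∃ v : Bˣ, unitsTwist B σ v = u := by
  have h := latticeData_top (G := G) hπ hfix hreg
  have hu' : ∏ g : G, g • residue B (u : B) = 1 := by
    rw [← resUnits_unitsNorm, hu, map_one, Units.val_one]
  obtain ⟨y, hy0, hy⟩ := finField_exists_smul_eq_mul hσ hu'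
  obtain ⟨b, rfl⟩ := residue_surjective y
  have hb : IsUnit b := (residue_ne_zero_iff_isUnit b).mp hy0
  have h1 : u / unitsTwist B σ hb.unit ∈ h.unitsV 1 := by
    rw [mem_unitsV_one_top h hπ, map_div, div_eq_one]
    apply Units.ext
    rw [resUnits_unitsTwist, IsUnit.unit_spec, hy, coe_resUnits, mul_div_assoc, div_self hy0,
      mul_one]
  have h2 : unitsNorm G B (u / unitsTwist B σ hb.unit) = 1 := by
    rw [map_div, hu, unitsNorm_unitsTwist, div_one]
  obtain ⟨v, _, hv⟩ := h.exists_unitsTwist_eq σ (hT1_top hπ hσ) le_rfl h1 h2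
  exact ⟨hb.unit * v, by rw [map_mul, hv, mul_div_cancel]⟩

end Main

end Fermat.Agent.Lib.CFT.LocalUnits
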