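import Mathlib

/-!
# P-CFT, Local layer: Hensel lifting of simple roots and Teichmüller lifts

Mathlib-only.  For a Henselian local ring `R`:

* `existsUnique_root` : a simple root in the residue field of a monic polynomial lifts uniquely;
* `bijective_restrictRootsOfUnity` : for `m` invertible in the residue field, reduction is a
  bijection `μ_m(R) → μ_m(κ)`;
* for finite residue field of cardinality `Q`: `rootsOfUnityEquiv : μ_{Q-1}(R) ≃* κˣ`,
  the Teichmüller character `teich : κˣ →* Rˣ`, and for a domain `R` the existence of primitive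
  `(Q^n-1)`-th roots of unity as soon as the residue field contains them.
-/

set_option autoImplicit false

open IsLocalRing Polynomial

namespace Fermat.Agent.Lib.CFT.Local.Teichmuller

variable {R : Type*} [CommRing R]

section Hensel

variable [HenselianLocalRing R]

lemma aeval_residue (f : R[X]) (a : R) :
    aeval (residue R a) f = residue R (f.eval a) := by
  rw [← ResidueField.algebraMap_eq, aeval_algebraMap_apply_eq_algebraMap_eval]

/-- Uniqueness of lifts of simple roots (no Henselian hypothesis needed, only local). -/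
theorem root_unique {S : Type*} [CommRing S] [IsLocalRing S] (f : S[X]) {a b : S}
    (ha : f.IsRoot a) (hb : f.IsRoot b)
    (hab : residue S a = residue S b) (h1 : aeval (residue S a) (derivative f) ≠ 0) : a = b := by
  refine IsLocalRing.eq_of_eval_eq_zero_of_not_isUnit_sub ha hb ?_ ?_
  · rw [← mem_nonunits_iff, ← mem_maximalIdeal, ← residue_eq_zero_iff, map_sub, hab, sub_self]
  · rw [← ResidueField.algebraMap_eq, aeval_algebraMap_apply_eq_algebraMap_eval,
      ResidueField.algebraMap_eq] at h1
    by_contra h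
    exact h1 ((residue_eq_zero_iff _).mpr (mem_nonunits_iff.mpr h))

/-- **Hensel's lemma** with uniqueness: a simple root in the residue field of a monic polynomial
over a Henselian local ring lifts uniquely. -/
theorem existsUnique_root (f : R[X]) (hf : f.Monic) (a₀ : ResidueField R)
    (h0 : aeval a₀ f = 0) (h1 : aeval a₀ (derivative f) ≠ 0) :
    ∃! a : R, f.IsRoot a ∧ residue R a = a₀ := by
  have H : ∀ f : R[X], f.Monic → ∀ a₀ : ResidueField R, aeval a₀ f = 0 →
      aeval a₀ (derivative f) ≠ 0 → ∃ a : R, f.IsRoot a ∧ residue R a = a₀ := by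
    have h01 := (HenselianLocalRing.TFAE R).out 0 1
    exact h01.mp inferInstance
  obtain ⟨a, ha, ha'⟩ := H f hf a₀ h0 h1
  refine ⟨a, ⟨ha, ha'⟩, ?_⟩
  rintro b ⟨hb, hb'⟩
  exact root_unique f hb ha (hb'.trans ha'.symm) (by rw [hb']; exact h1)

end Hensel

section RootsOfUnity

lemma aeval_derivative_X_pow_sub_one {κ : Type*} [Field κ] [Algebra R κ] (m : ℕ) (x : κ) :
    aeval x (derivative (X ^ m - 1 : R[X])) = (m : κ) * x ^ (m - 1) := by
  simp [derivative_X_pow]

lemma aeval_X_pow_sub_one {κ : Type*} [Field κ] [Algebra R κ] (m : ℕ) (x : κ) :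
    aeval x (X ^ m - 1 : R[X]) = x ^ m - 1 := by
  simp

lemma monic_X_pow_sub_one [Nontrivial R] {m : ℕ} (hm : m ≠ 0) : (X ^ m - 1 : R[X]).Monic := by
  simpa using monic_X_pow_sub_C (1 : R) hm

lemma isRoot_X_pow_sub_one_iff {m : ℕ} {a : R} : (X ^ m - 1 : R[X]).IsRoot a ↔ a ^ m = 1 := by
  simp [sub_eq_zero]

lemma coe_pow_eq_one {M : Type*} [CommMonoid M] {m : ℕ} (a : rootsOfUnity m M) :
    ((a : Mˣ) : M) ^ m = 1 := by
  have := a.2
  rw [mem_rootsOfUnity] at this
  rw [← Units.val_pow_eq_pow_val, this, Units.val_one]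

variable [HenselianLocalRing R]

/-- For `m` invertible in the residue field of a Henselian local ring, reduction induces a
bijection on `m`-th roots of unity. -/
theorem bijective_restrictRootsOfUnity (m : ℕ) (hm : (m : ResidueField R) ≠ 0) :
    Function.Bijective (restrictRootsOfUnity (residue R) m) := by
  have hm0 : m ≠ 0 := by rintro rfl; simp at hm
  constructor
  · intro a b hab
    have hab' : residue R ((a : Rˣ) : R) = residue R ((b : Rˣ) : R) := by
      have := congrArg (fun x : rootsOfUnity m (ResidueField R) =>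
        ((x : (ResidueField R)ˣ) : ResidueField R)) hab
      simpa using this
    have ha : ((a : Rˣ) : R) ^ m = 1 := coe_pow_eq_one a
    have hb : ((b : Rˣ) : R) ^ m = 1 := coe_pow_eq_one b
    have hu : IsUnit (residue R ((a : Rˣ) : R)) := (a : Rˣ).isUnit.map (residue R)
    ext
    refine root_unique (X ^ m - 1) (isRoot_X_pow_sub_one_iff.mpr ha)
      (isRoot_X_pow_sub_one_iff.mpr hb) hab' ?_
    rw [aeval_derivative_X_pow_sub_one]
    exact mul_ne_zero hm (pow_ne_zero _ hu.ne_zero)
  · intro x
    have hx : ((x : (ResidueField R)ˣ) : ResidueField R) ^ m = 1 := coe_pow_eq_one x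
    obtain ⟨a, ⟨ha, ha'⟩, -⟩ := existsUnique_root (X ^ m - 1 : R[X]) (monic_X_pow_sub_one hm0)
      ((x : (ResidueField R)ˣ) : ResidueField R)
      (by rw [aeval_X_pow_sub_one, hx, sub_self])
      (by rw [aeval_derivative_X_pow_sub_one]
          exact mul_ne_zero hm (pow_ne_zero _ (x : (ResidueField R)ˣ).ne_zero))
    rw [isRoot_X_pow_sub_one_iff] at ha
    have hau : IsUnit a := IsUnit.of_pow_eq_one ha hm0
    refine ⟨⟨hau.unit, ?_⟩, ?_⟩
    · rw [mem_rootsOfUnity]
      ext
      simpa using ha
    · ext
      simpa using ha'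

/-- Reduction as a group isomorphism `μ_m(R) ≃* μ_m(κ)`. -/
noncomputable def rootsOfUnityEquivResidue (m : ℕ) (hm : (m : ResidueField R) ≠ 0) :
    rootsOfUnity m R ≃* rootsOfUnity m (ResidueField R) :=
  MulEquiv.ofBijective (restrictRootsOfUnity (residue R) m) (bijective_restrictRootsOfUnity m hm)

@[simp]
lemma rootsOfUnityEquivResidue_apply (m : ℕ) (hm : (m : ResidueField R) ≠ 0)
    (a : rootsOfUnity m R) :
    (((rootsOfUnityEquivResidue m hm a : rootsOfUnity m (ResidueField R)) :
      (ResidueField R)ˣ) : ResidueField R) = residue R ((a : Rˣ) : R) := by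
  simp [rootsOfUnityEquivResidue]

end RootsOfUnity

section FiniteField

variable (κ : Type*) [Field κ] [Finite κ]

lemma natCard_pos : 0 < Nat.card κ := Nat.card_pos

lemma natCast_natCard_eq_zero : ((Nat.card κ : ℕ) : κ) = 0 := by
  have := Fintype.ofFinite κ
  rw [Nat.card_eq_fintype_card]
  exact FiniteField.cast_card_eq_zero κ

lemma natCast_natCard_pow_sub_one (n : ℕ) (hn : n ≠ 0) :
    ((Nat.card κ ^ n - 1 : ℕ) : κ) = -1 := by
  have h1 : 1 ≤ Nat.card κ ^ n := Nat.one_le_pow _ _ (natCard_pos κ)
  rw [Nat.cast_sub h1, Nat.cast_pow, natCast_natCard_eq_zero, zero_pow hn, Nat.cast_one, zero_sub]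

lemma natCast_natCard_pow_sub_one_ne_zero (n : ℕ) (hn : n ≠ 0) :
    ((Nat.card κ ^ n - 1 : ℕ) : κ) ≠ 0 := by
  rw [natCast_natCard_pow_sub_one κ n hn]
  exact neg_ne_zero.mpr one_ne_zero

lemma natCast_natCard_sub_one_ne_zero : ((Nat.card κ - 1 : ℕ) : κ) ≠ 0 := by
  simpa using natCast_natCard_pow_sub_one_ne_zero κ 1 one_ne_zero

lemma pow_natCard_sub_one_eq_one {x : κ} (hx : x ≠ 0) : x ^ (Nat.card κ - 1) = 1 := by
  have := Fintype.ofFinite κ
  rw [Nat.card_eq_fintype_card]
  exact FiniteField.pow_card_sub_one_eq_one x hx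

lemma one_lt_natCard : 1 < Nat.card κ := Finite.one_lt_card

lemma rootsOfUnity_natCard_sub_one_eq_top : rootsOfUnity (Nat.card κ - 1) κ = ⊤ := by
  rw [eq_top_iff]
  intro x _
  rw [mem_rootsOfUnity]
  ext
  simpa using pow_natCard_sub_one_eq_one κ x.ne_zero

/-- A finite field with `Q` elements has all `(Q-1)`-th roots of unity. -/
theorem hasEnoughRootsOfUnity_finiteField :
    HasEnoughRootsOfUnity κ (Nat.card κ - 1) := by
  by_cases h2 : Nat.card κ - 1 = 0
  · exfalso
    have := one_lt_natCard κ
    omega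
  have : NeZero (Nat.card κ - 1) := ⟨h2⟩
  refine HasEnoughRootsOfUnity.of_card_le ?_
  rw [rootsOfUnity_natCard_sub_one_eq_top, Nat.card_congr (Subgroup.topEquiv (G := κˣ)).toEquiv,
    Nat.card_units]

end FiniteField

section Teichmuller

variable [HenselianLocalRing R] [Finite (ResidueField R)]

/-- In a Henselian local ring with finite residue field `κ` of cardinality `Q`, reduction is an
isomorphism `μ_{Q-1}(R) ≃* κˣ`. -/
noncomputable def rootsOfUnityEquivUnits :
    rootsOfUnity (Nat.card (ResidueField R) - 1) R ≃* (ResidueField R)ˣ :=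
  (rootsOfUnityEquivResidue (Nat.card (ResidueField R) - 1)
    (natCast_natCard_sub_one_ne_zero (ResidueField R))).trans
    ((MulEquiv.subgroupCongr (rootsOfUnity_natCard_sub_one_eq_top (ResidueField R))).trans
      Subgroup.topEquiv)

lemma rootsOfUnityEquivUnits_apply (a : rootsOfUnity (Nat.card (ResidueField R) - 1) R) :
    ((rootsOfUnityEquivUnits a : (ResidueField R)ˣ) : ResidueField R) =
      residue R ((a : Rˣ) : R) := by
  simp [rootsOfUnityEquivUnits]

/-- The Teichmüller character `κˣ →* Rˣ`. -/
noncomputable def teich : (ResidueField R)ˣ →* Rˣ :=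
  (Subgroup.subtype _).comp (rootsOfUnityEquivUnits (R := R)).symm.toMonoidHom

lemma residue_teich (x : (ResidueField R)ˣ) : residue R (teich x : Rˣ) = x := by
  have := rootsOfUnityEquivUnits_apply (R := R) ((rootsOfUnityEquivUnits (R := R)).symm x)
  rw [MulEquiv.apply_symm_apply] at this
  exact this.symm

lemma teich_pow_card_sub_one (x : (ResidueField R)ˣ) :
    (teich x : Rˣ) ^ (Nat.card (ResidueField R) - 1) = 1 := by
  have := ((rootsOfUnityEquivUnits (R := R)).symm x).2
  rwa [mem_rootsOfUnity] at this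

lemma teich_injective : Function.Injective (teich (R := R)) := by
  intro x y h
  ext
  rw [← residue_teich x, ← residue_teich y, h]

/-- Uniqueness of the Teichmüller lift. -/
lemma eq_teich_of_pow_eq_one {a : Rˣ} {x : (ResidueField R)ˣ}
    (ha : a ^ (Nat.card (ResidueField R) - 1) = 1) (hx : residue R (a : R) = x) :
    a = teich x := by
  have hmem : a ∈ rootsOfUnity (Nat.card (ResidueField R) - 1) R := by
    rw [mem_rootsOfUnity]; exact ha
  have : rootsOfUnityEquivUnits (R := R) ⟨a, hmem⟩ = x := by
    ext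
    rw [rootsOfUnityEquivUnits_apply]
    exact hx
  rw [teich, ← this]
  simp

/-- Every unit is uniquely a Teichmüller representative times a principal unit. -/
lemma exists_teich_mul_one_add (u : Rˣ) :
    ∃ y ∈ maximalIdeal R, (u : R) = (teich (Units.map (residue R).toMonoidHom u) : Rˣ) * (1 + y) := by
  set t : Rˣ := teich (Units.map (residue R).toMonoidHom u) with ht
  refine ⟨((t⁻¹ * u : Rˣ) : R) - 1, ?_, ?_⟩
  · rw [← residue_eq_zero_iff, map_sub, map_one, Units.val_mul, map_mul, sub_eq_zero]
    have h1 : residue R (t : R) = residue R (u : R) := by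
      rw [ht, residue_teich]; rfl
    have h2 : residue R ((t⁻¹ : Rˣ) : R) * residue R (t : R) = 1 := by
      rw [← map_mul, ← Units.val_mul, inv_mul_cancel, Units.val_one, map_one]
    rw [← h1, h2]
  · rw [add_sub_cancel, ← Units.val_mul, mul_inv_cancel_left]

/-- A Henselian local ring with finite residue field `κ` has all `(#κ - 1)`-th roots of unity. -/
theorem hasEnoughRootsOfUnity :
    HasEnoughRootsOfUnity R (Nat.card (ResidueField R) - 1) := by
  have h2 : Nat.card (ResidueField R) - 1 ≠ 0 := by
    have := one_lt_natCard (ResidueField R)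
    omega
  have : NeZero (Nat.card (ResidueField R) - 1) := ⟨h2⟩
  have := hasEnoughRootsOfUnity_finiteField (ResidueField R)
  exact MulEquiv.hasEnoughRootsOfUnity
    (rootsOfUnityEquivResidue (R := R) (Nat.card (ResidueField R) - 1)
      (natCast_natCard_sub_one_ne_zero (ResidueField R))).symm

end Teichmuller

end Fermat.Agent.Lib.CFT.Local.Teichmuller
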