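import Mathlib
import Fermat.Agent.Lib.CFT.Local.Teichmuller

/-!
# P-CFT, Local layer: unramified extensions of Henselian discretely valued fields (core)

Setting (`AKLB` with `A` a discrete valuation ring with finite residue field of cardinality `Q`,
`L/K` finite separable, `B` the integral closure of `A` in `L`), plus the single extra
hypothesis `[HenselianLocalRing B]` (supplied by `Local/Basic` when `A` is complete).
-/

set_option autoImplicit false
set_option linter.unusedSectionVars false
set_option linter.unusedVariables false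

open IsLocalRing Polynomial Module

namespace Fermat.Agent.Lib.CFT.Local.Unramified

variable (A K L B : Type*)
  [CommRing A] [IsDomain A] [IsDiscreteValuationRing A]
  [Field K] [Algebra A K] [IsFractionRing A K]
  [Field L] [Algebra K L] [FiniteDimensional K L] [Algebra.IsSeparable K L]
  [Algebra A L] [IsScalarTower A K L]
  [CommRing B] [Algebra A B] [Algebra B L] [IsScalarTower A B L] [IsIntegralClosure B A L]

section basics

include A K L B

lemma isDomain_B : IsDomain B :=
  (IsIntegralClosure.equiv A B L (integralClosure A L)).toMulEquiv.isDomain (integralClosure A L)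

lemma isTorsionFree_AL : IsTorsionFree A L := .trans_faithfulSMul A K L

lemma finite_B : Module.Finite A B := IsIntegralClosure.finite A K L B

lemma free_B : Module.Free A B :=
  have := isTorsionFree_AL A K L B
  IsIntegralClosure.module_free A K L B

lemma finrank_B : finrank A B = finrank K L :=
  have := isTorsionFree_AL A K L B
  IsIntegralClosure.rank A K L B

lemma isIntegral_B : Algebra.IsIntegral A B := IsIntegralClosure.isIntegral_algebra A L

lemma isTorsionFree_AB : IsTorsionFree A B :=
  have := isTorsionFree_AL A K L B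
  IsIntegralClosure.isTorsionFree A L

lemma faithfulSMul_B : FaithfulSMul A B := by
  have := isTorsionFree_AB A K L B
  have := isDomain_B A K L B
  infer_instance

end basics

section localDefs

variable {R S : Type*} [CommRing R] [CommRing S] [Algebra R S] [IsLocalRing R] [IsLocalRing S]

variable (R S) in
/-- `S/R` is unramified: the maximal ideal of `R` generates the maximal ideal of `S`
(the residue fields will always be finite, hence the residue extension separable). -/
def IsUnram : Prop := (maximalIdeal R).map (algebraMap R S) = maximalIdeal S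

variable (R S) in
/-- The residue degree of a local extension. -/
noncomputable def resDegree [IsLocalHom (algebraMap R S)] : ℕ :=
  finrank (ResidueField R) (ResidueField S)

lemma map_maximalIdeal_le [IsLocalHom (algebraMap R S)] :
    (maximalIdeal R).map (algebraMap R S) ≤ maximalIdeal S :=
  ((local_hom_TFAE (algebraMap R S)).out 0 2 rfl rfl).mp ‹_›

attribute [local instance] Ideal.Quotient.field in
lemma natCard_quotient_map [Module.Finite R S] [Module.Free R S] [Finite (ResidueField R)] :
    Nat.card (S ⧸ (maximalIdeal R).map (algebraMap R S)) =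
      Nat.card (ResidueField R) ^ finrank R S := by
  have : Module.Finite (R ⧸ maximalIdeal R) (S ⧸ (maximalIdeal R).map (algebraMap R S)) :=
    Module.Finite.of_restrictScalars_finite R _ _
  rw [Module.natCard_eq_pow_finrank (K := R ⧸ maximalIdeal R), IsLocalRing.finrank_quotient_map]
  rfl

lemma natCard_residueField [IsLocalHom (algebraMap R S)] [Module.Finite R S]
    [Finite (ResidueField R)] :
    Nat.card (ResidueField S) = Nat.card (ResidueField R) ^ resDegree R S := by
  rw [resDegree, Module.natCard_eq_pow_finrank (K := ResidueField R)]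

lemma finite_residueField [IsLocalHom (algebraMap R S)] [Module.Finite R S]
    [Finite (ResidueField R)] : Finite (ResidueField S) :=
  IsLocalRing.ResidueField.finite_of_finite ‹_›

/-- `f ≤ n`, with equality iff unramified. -/
theorem resDegree_le_finrank [IsLocalHom (algebraMap R S)] [Module.Finite R S] [Module.Free R S]
    [Finite (ResidueField R)] : resDegree R S ≤ finrank R S := by
  have hfin : Finite (S ⧸ (maximalIdeal R).map (algebraMap R S)) := by
    apply Nat.finite_of_card_ne_zero
    rw [natCard_quotient_map]
    exact pow_ne_zero _ Nat.card_pos.ne'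
  have hsurj := Ideal.Quotient.factor_surjective (map_maximalIdeal_le (R := R) (S := S))
  have hle : Nat.card (ResidueField S) ≤ Nat.card (S ⧸ (maximalIdeal R).map (algebraMap R S)) :=
    Nat.card_le_card_of_surjective _ hsurj
  rw [natCard_residueField (R := R), natCard_quotient_map] at hle
  exact (Nat.pow_le_pow_iff_right Finite.one_lt_card).mp hle

theorem isUnram_iff_resDegree_eq [IsLocalHom (algebraMap R S)] [Module.Finite R S] [Module.Free R S]
    [Finite (ResidueField R)] : IsUnram R S ↔ resDegree R S = finrank R S := by
  have hfin : Finite (S ⧸ (maximalIdeal R).map (algebraMap R S)) := by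
    apply Nat.finite_of_card_ne_zero
    rw [natCard_quotient_map]
    exact pow_ne_zero _ Nat.card_pos.ne'
  have hsurj := Ideal.Quotient.factor_surjective (map_maximalIdeal_le (R := R) (S := S))
  constructor
  · intro h
    have h1 : Nat.card (ResidueField S) =
        Nat.card (S ⧸ (maximalIdeal R).map (algebraMap R S)) := by
      rw [IsUnram] at h
      rw [h]
      rfl
    rw [natCard_residueField (R := R), natCard_quotient_map] at h1
    exact Nat.pow_right_injective (Finite.one_lt_card : 1 < Nat.card (ResidueField R)) h1
  · intro h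
    have h1 : Nat.card (S ⧸ (maximalIdeal R).map (algebraMap R S)) =
        Nat.card (S ⧸ maximalIdeal S) := by
      rw [natCard_quotient_map, ← h, ← natCard_residueField]
      rfl
    have hbij : Function.Bijective
        (Ideal.Quotient.factor (map_maximalIdeal_le (R := R) (S := S))) :=
      (Nat.bijective_iff_surjective_and_card _).mpr ⟨hsurj, h1⟩
    refine le_antisymm map_maximalIdeal_le fun x hx => ?_
    have : Ideal.Quotient.factor (map_maximalIdeal_le (R := R) (S := S))
        (Ideal.Quotient.mk _ x) = 0 := by
      rw [Ideal.Quotient.factor_mk, Ideal.Quotient.eq_zero_iff_mem]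
      exact hx
    have h0 := hbij.1 (this.trans (map_zero _).symm)
    exact Ideal.Quotient.eq_zero_iff_mem.mp h0

end localDefs

section residuePrimitive

variable {R : Type*} [CommRing R] [HenselianLocalRing R]

/-- The residue of a primitive `m`-th root of unity is primitive when `m` is invertible in the
residue field. -/
lemma isPrimitiveRoot_residue {m : ℕ} (hm : (m : ResidueField R) ≠ 0) {ζ : R}
    (hζ : IsPrimitiveRoot ζ m) : IsPrimitiveRoot (residue R ζ) m := by
  have hm0 : m ≠ 0 := by rintro rfl; simp at hm
  have : NeZero m := ⟨hm0⟩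
  refine ⟨by rw [← map_pow, hζ.pow_eq_one, map_one], fun l hl => ?_⟩
  have hinj := (Teichmuller.bijective_restrictRootsOfUnity (R := R) m hm).1
  have h1 : (hζ.toRootsOfUnity ^ l : rootsOfUnity m R) = 1 := by
    apply hinj
    ext
    simp only [map_pow, map_one, restrictRootsOfUnity_coe_apply, Subgroup.coe_pow,
      Units.val_pow_eq_pow_val, IsPrimitiveRoot.val_toRootsOfUnity_coe, OneMemClass.coe_one,
      Units.val_one]
    exact hl
  have h2 : ζ ^ l = 1 := by
    have := congrArg (fun x : rootsOfUnity m R => ((x : Rˣ) : R)) h1
    simpa using this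
  exact hζ.dvd_of_pow_eq_one l h2

end residuePrimitive

section finiteFieldGen

/-- In a finite field with `N` elements, a primitive `(N-1)`-th root of unity generates the field
as an algebra over any subfield. -/
lemma adjoin_primitiveRoot_eq_top (k κ : Type*) [Field k] [Field κ] [Algebra k κ] [Finite κ]
    {z : κ} (hz : IsPrimitiveRoot z (Nat.card κ - 1)) : Algebra.adjoin k {z} = ⊤ := by
  have hN : Nat.card κ - 1 ≠ 0 := by
    have := Teichmuller.one_lt_natCard κ
    omega
  have : NeZero (Nat.card κ - 1) := ⟨hN⟩
  rw [eq_top_iff]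
  intro x _
  by_cases hx : x = 0
  · rw [hx]; exact Subalgebra.zero_mem _
  · have hx' : x ^ (Nat.card κ - 1) = 1 := Teichmuller.pow_natCard_sub_one_eq_one κ hx
    obtain ⟨i, -, rfl⟩ := hz.eq_pow_of_pow_eq_one hx'
    exact Subalgebra.pow_mem _ (Algebra.subset_adjoin (Set.mem_singleton z)) i

end finiteFieldGen

section cyclo

/-- A field generated by a primitive `m`-th root of unity is an `m`-th cyclotomic extension. -/
theorem isCyclotomicExtension_of_adjoin_eq_top (F E : Type*) [Field F] [Field E] [Algebra F E]
    {m : ℕ} (hm0 : m ≠ 0) {z : E}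
    (hz : IsPrimitiveRoot z m) (hgen : IntermediateField.adjoin F {z} = ⊤) :
    IsCyclotomicExtension {m} F E := by
  have : NeZero m := ⟨hm0⟩
  have halg : IsAlgebraic F z := (hz.isIntegral (NeZero.pos m)).tower_top.isAlgebraic
  have hgen' : Algebra.adjoin F {z} = ⊤ := by
    have h1 := IntermediateField.adjoin_simple_toSubalgebra_of_isAlgebraic halg
    rw [hgen, IntermediateField.top_toSubalgebra] at h1
    exact h1.symm
  refine (IsCyclotomicExtension.iff_singleton m F E).mpr ⟨⟨z, hz⟩, fun x => ?_⟩
  have hx : x ∈ Algebra.adjoin F {z} := by rw [hgen']; exact Algebra.mem_top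
  have hsub : ({z} : Set E) ⊆ {b : E | b ^ m = 1} := by
    intro y hy
    rw [Set.mem_singleton_iff] at hy
    subst hy
    exact hz.pow_eq_one
  exact Algebra.adjoin_mono hsub hx

lemma pow_sub_one_dvd_pow_sub_one_iff {Q : ℕ} (hQ : 1 < Q) (n j : ℕ) (hn : n ≠ 0) :
    Q ^ n - 1 ∣ Q ^ j - 1 ↔ n ∣ j := by
  rw [Nat.dvd_iff_mod_eq_zero, Nat.pow_sub_one_mod_pow_sub_one, Nat.dvd_iff_mod_eq_zero]
  constructor
  · intro h
    by_contra h0
    have : 1 < Q ^ (j % n) := Nat.one_lt_pow h0 hQ
    omega
  · intro h
    rw [h, pow_zero, Nat.sub_self]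

end cyclo

section T1

variable [HenselianLocalRing B] [IsLocalHom (algebraMap A B)] [Finite (ResidueField A)]

include A K L B

lemma finite_residueField_B : Finite (ResidueField B) :=
  have := finite_B A K L B
  finite_residueField (R := A) (S := B)

lemma natCard_residueField_B :
    Nat.card (ResidueField B) = Nat.card (ResidueField A) ^ resDegree A B :=
  have := finite_B A K L B
  natCard_residueField (R := A) (S := B)

lemma resDegree_pos : 0 < resDegree A B := by
  have := finite_B A K L B
  exact finrank_pos

lemma isUnram_iff_resDegree_eq_finrank : IsUnram A B ↔ resDegree A B = finrank K L := by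
  have := finite_B A K L B
  have := free_B A K L B
  rw [isUnram_iff_resDegree_eq, finrank_B A K L B]

lemma resDegree_le_finrank_KL : resDegree A B ≤ finrank K L := by
  have := finite_B A K L B
  have := free_B A K L B
  rw [← finrank_B A K L B]
  exact resDegree_le_finrank

/-- `B` contains a primitive `(Q^f - 1)`-th root of unity, `f` the residue degree. -/
lemma exists_isPrimitiveRoot_B :
    ∃ ζ : B, IsPrimitiveRoot ζ (Nat.card (ResidueField A) ^ resDegree A B - 1) := by
  have := finite_residueField_B A K L B
  have h := Teichmuller.hasEnoughRootsOfUnity (R := B)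
  rw [natCard_residueField_B A K L B] at h
  exact h.prim

lemma formallyUnramified_of_isUnram (h : IsUnram A B) : Algebra.FormallyUnramified A B := by
  have := finite_B A K L B
  have := finite_residueField_B A K L B
  exact Algebra.FormallyUnramified.of_map_maximalIdeal h

/-- **Unramified extensions are generated by a root of unity** (integral version):
if `B/A` is unramified then `B = A[ζ]` for every primitive `(Q^n-1)`-th root of unity `ζ`,
`n = [L:K]`. -/
theorem adjoin_eq_top_of_isUnram (h : IsUnram A B) {ζ : B}
    (hζ : IsPrimitiveRoot ζ (Nat.card (ResidueField A) ^ finrank K L - 1)) :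
    Algebra.adjoin A {ζ} = ⊤ := by
  have := finite_B A K L B
  have := faithfulSMul_B A K L B
  have := finite_residueField_B A K L B
  have := formallyUnramified_of_isUnram A K L B h
  have hf : resDegree A B = finrank K L := (isUnram_iff_resDegree_eq_finrank A K L B).mp h
  have hcard : Nat.card (ResidueField B) = Nat.card (ResidueField A) ^ finrank K L := by
    rw [natCard_residueField_B A K L B, hf]
  rw [← IsLocalRing.adjoin_residue_eq_top_iff_adjoin_eq_top]
  apply adjoin_primitiveRoot_eq_top
  rw [hcard]
  refine isPrimitiveRoot_residue ?_ hζ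
  rw [← hcard]
  exact Teichmuller.natCast_natCard_sub_one_ne_zero (ResidueField B)

lemma one_le_card_pow_sub_one (n : ℕ) (hn : n ≠ 0) :
    Nat.card (ResidueField A) ^ n - 1 ≠ 0 := by
  have h1 : 1 < Nat.card (ResidueField A) := Finite.one_lt_card
  have h2 : 1 < Nat.card (ResidueField A) ^ n := Nat.one_lt_pow hn h1
  omega

lemma finrank_KL_ne_zero : finrank K L ≠ 0 := (finrank_pos (R := K) (M := L)).ne'

/-- The image in `L` of `B` lies in the `K`-subalgebra generated by any generator of `B`. -/
lemma algebraMap_mem_adjoin_of_adjoin_eq_top {ζ : B} (hζ : Algebra.adjoin A {ζ} = ⊤)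
    (S : Subalgebra K L) (hS : algebraMap B L ζ ∈ S) (b : B) : algebraMap B L b ∈ S := by
  have hb : b ∈ Algebra.adjoin A {ζ} := by rw [hζ]; trivial
  induction hb using Algebra.adjoin_induction with
  | mem x hx =>
    rw [Set.mem_singleton_iff] at hx
    rw [hx]; exact hS
  | algebraMap r =>
    rw [← IsScalarTower.algebraMap_apply A B L, IsScalarTower.algebraMap_apply A K L]
    exact Subalgebra.algebraMap_mem _ _
  | add x y _ _ hx hy => rw [map_add]; exact Subalgebra.add_mem _ hx hy
  | mul x y _ _ hx hy => rw [map_mul]; exact Subalgebra.mul_mem _ hx hy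

/-- Every element of `L` is of the form `b / a` with `b ∈ B`, `a ∈ A` nonzero. -/
lemma exists_eq_div (x : L) : ∃ (b : B) (a : A), a ≠ 0 ∧
    x = algebraMap B L b * (algebraMap K L (algebraMap A K a))⁻¹ := by
  have := IsIntegralClosure.isLocalization A K L B
  obtain ⟨⟨b, ⟨s, a, ha, rfl⟩⟩, hx⟩ :=
    IsLocalization.surj (Algebra.algebraMapSubmonoid B (nonZeroDivisors A)) x
  have ha0 : a ≠ 0 := nonZeroDivisors.ne_zero ha
  refine ⟨b, a, ha0, ?_⟩
  have h1 : algebraMap B L (algebraMap A B a) = algebraMap K L (algebraMap A K a) := by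
    rw [← IsScalarTower.algebraMap_apply A B L, IsScalarTower.algebraMap_apply A K L]
  have h2 : algebraMap K L (algebraMap A K a) ≠ 0 := by
    rw [Ne, map_eq_zero_iff _ (algebraMap K L).injective,
      map_eq_zero_iff _ (IsFractionRing.injective A K)]
    exact ha0
  simp only at hx
  rw [h1] at hx
  rw [← hx, mul_assoc, mul_inv_cancel₀ h2, mul_one]

/-- **Unramified extensions are cyclotomic**: if `B/A` is unramified of degree `n` then
`L = K(μ_{Q^n-1})`. -/
theorem isCyclotomicExtension_of_isUnram (h : IsUnram A B) :
    IsCyclotomicExtension {Nat.card (ResidueField A) ^ finrank K L - 1} K L := by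
  have hm := one_le_card_pow_sub_one A K L B (finrank K L) (finrank_KL_ne_zero A K L B)
  have : NeZero (Nat.card (ResidueField A) ^ finrank K L - 1) := ⟨hm⟩
  have hf : resDegree A B = finrank K L := (isUnram_iff_resDegree_eq_finrank A K L B).mp h
  obtain ⟨ζ, hζ⟩ := exists_isPrimitiveRoot_B A K L B
  rw [hf] at hζ
  have hadj := adjoin_eq_top_of_isUnram A K L B h hζ
  have hζ' : IsPrimitiveRoot (algebraMap B L ζ) (Nat.card (ResidueField A) ^ finrank K L - 1) :=
    hζ.map_of_injective (IsIntegralClosure.algebraMap_injective B A L)
  rw [IsCyclotomicExtension.iff_singleton]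
  refine ⟨⟨_, hζ'⟩, fun x => ?_⟩
  obtain ⟨b, a, ha, rfl⟩ := exists_eq_div A K L B x
  refine Subalgebra.mul_mem _ ?_ ?_
  · exact algebraMap_mem_adjoin_of_adjoin_eq_top A K L B hadj _
      (Algebra.subset_adjoin hζ'.pow_eq_one) b
  · rw [← map_inv₀]
    exact Subalgebra.algebraMap_mem _ _

end T1

section residueGal

variable [IsLocalRing B] [IsLocalHom (algebraMap A B)]

/-- The action of `Gal(L/K)` on the residue field of `B`. -/
noncomputable def residueGalHom :
    (L ≃ₐ[K] L) →* (ResidueField B ≃ₐ[ResidueField A] ResidueField B) where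
  toFun σ := ResidueField.mapAlgEquiv' (galRestrict A K L B σ)
  map_one' := by
    ext x
    obtain ⟨x, rfl⟩ := residue_surjective x
    simp
  map_mul' σ τ := by
    ext x
    obtain ⟨x, rfl⟩ := residue_surjective x
    simp

@[simp]
lemma residueGalHom_residue (σ : L ≃ₐ[K] L) (b : B) :
    residueGalHom A K L B σ (residue B b) = residue B (galRestrict A K L B σ b) := rfl

/-- The **inertia group** of `L/K`: automorphisms acting trivially on the residue field. -/
noncomputable def inertiaGroup : Subgroup (L ≃ₐ[K] L) := (residueGalHom A K L B).ker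

lemma mem_inertiaGroup_iff (σ : L ≃ₐ[K] L) :
    σ ∈ inertiaGroup A K L B ↔
      ∀ b : B, galRestrict A K L B σ b - b ∈ maximalIdeal B := by
  rw [inertiaGroup, MonoidHom.mem_ker]
  constructor
  · intro h b
    rw [← residue_eq_zero_iff, map_sub, ← residueGalHom_residue, h, AlgEquiv.one_apply, sub_self]
  · intro h
    ext x
    obtain ⟨b, rfl⟩ := residue_surjective x
    rw [residueGalHom_residue, AlgEquiv.one_apply, ← sub_eq_zero, ← map_sub, residue_eq_zero_iff]
    exact h b

instance : (inertiaGroup A K L B).Normal := by
  rw [inertiaGroup]; infer_instance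

end residueGal

section T2

variable [HenselianLocalRing B] [IsLocalHom (algebraMap A B)] [Finite (ResidueField A)]

/-- Two roots of unity of order invertible in the residue field which are congruent modulo the
maximal ideal are equal. -/
lemma eq_of_pow_eq_one_of_residue_eq {R : Type*} [CommRing R] [IsLocalRing R] {m : ℕ}
    (hm : (m : ResidueField R) ≠ 0) {z w : R} (hz : z ^ m = 1) (hw : w ^ m = 1)
    (h : residue R z = residue R w) : z = w := by
  have hm0 : m ≠ 0 := by rintro rfl; simp at hm
  refine Teichmuller.root_unique (X ^ m - 1) (Teichmuller.isRoot_X_pow_sub_one_iff.mpr hz)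
    (Teichmuller.isRoot_X_pow_sub_one_iff.mpr hw) h ?_
  rw [Teichmuller.aeval_derivative_X_pow_sub_one]
  have hu : IsUnit (residue R z) := (IsUnit.of_pow_eq_one hz hm0).map (residue R)
  exact mul_ne_zero hm (pow_ne_zero _ hu.ne_zero)

lemma natCast_card_pow_sub_one_ne_zero_B (n : ℕ) (hn : n ≠ 0) :
    ((Nat.card (ResidueField A) ^ n - 1 : ℕ) : ResidueField B) ≠ 0 := by
  have h := Teichmuller.natCast_natCard_pow_sub_one (ResidueField A) n hn
  have : ((Nat.card (ResidueField A) ^ n - 1 : ℕ) : ResidueField B) =
      algebraMap (ResidueField A) (ResidueField B)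
        ((Nat.card (ResidueField A) ^ n - 1 : ℕ) : ResidueField A) := by
    rw [map_natCast]
  rw [this, h, map_neg, map_one]
  exact neg_ne_zero.mpr one_ne_zero

/-- If `L` is generated over `K` by (the image of) a primitive `m`-th root of unity of `B` with
`m` invertible in the residue field, then `Gal(L/K)` acts faithfully on the residue field. -/
theorem residueGalHom_injective_of_isPrimitiveRoot {m : ℕ} (hm : (m : ResidueField B) ≠ 0)
    {ζ : B} (hζ : IsPrimitiveRoot ζ m) [IsCyclotomicExtension {m} K L] :
    Function.Injective (residueGalHom A K L B) := by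
  intro σ τ hστ
  have hζ' : IsPrimitiveRoot (algebraMap B L ζ) m :=
    hζ.map_of_injective (IsIntegralClosure.algebraMap_injective B A L)
  refine IsCyclotomicExtension.algEquiv_eq_of_apply_eq {m} K L ?_
  intro n hn' _
  rw [Set.mem_singleton_iff] at hn'
  subst hn'
  refine ⟨_, hζ', ?_⟩
  rw [← algebraMap_galRestrict_apply A, ← algebraMap_galRestrict_apply A]
  congr 1
  refine eq_of_pow_eq_one_of_residue_eq hm ?_ ?_ ?_
  · rw [← map_pow, hζ.pow_eq_one, map_one]
  · rw [← map_pow, hζ.pow_eq_one, map_one]
  · have := congrArg (fun e => e (residue B ζ)) hστ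
    simpa using this

theorem residueGalHom_injective (h : IsUnram A B) :
    Function.Injective (residueGalHom A K L B) := by
  have hn := finrank_KL_ne_zero A K L B
  have hf : resDegree A B = finrank K L := (isUnram_iff_resDegree_eq_finrank A K L B).mp h
  have := isCyclotomicExtension_of_isUnram A K L B h
  obtain ⟨ζ, hζ⟩ := exists_isPrimitiveRoot_B A K L B
  rw [hf] at hζ
  exact residueGalHom_injective_of_isPrimitiveRoot A K L B
    (natCast_card_pow_sub_one_ne_zero_B A B _ hn) hζ

theorem isGalois_of_isUnram (h : IsUnram A B) : IsGalois K L := by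
  have hn := finrank_KL_ne_zero A K L B
  have hm := one_le_card_pow_sub_one A K L B (finrank K L) hn
  have : NeZero (Nat.card (ResidueField A) ^ finrank K L - 1) := ⟨hm⟩
  have := isCyclotomicExtension_of_isUnram A K L B h
  exact IsCyclotomicExtension.isGalois {Nat.card (ResidueField A) ^ finrank K L - 1} K L

include K L in
lemma natCard_residueGal :
    Nat.card (ResidueField B ≃ₐ[ResidueField A] ResidueField B) = resDegree A B := by
  have := finite_residueField_B A K L B
  exact IsGalois.card_aut_eq_finrank (ResidueField A) (ResidueField B)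

theorem residueGalHom_bijective (h : IsUnram A B) :
    Function.Bijective (residueGalHom A K L B) := by
  have := finite_residueField_B A K L B
  have := isGalois_of_isUnram A K L B h
  have hf : resDegree A B = finrank K L := (isUnram_iff_resDegree_eq_finrank A K L B).mp h
  refine (Nat.bijective_iff_injective_and_card _).mpr ⟨residueGalHom_injective A K L B h, ?_⟩
  rw [natCard_residueGal A K L B, hf, IsGalois.card_aut_eq_finrank]

/-- For an unramified extension, `Gal(L/K) ≃* Gal(κ_B/κ_A)`. -/
noncomputable def residueGalEquiv (h : IsUnram A B) :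
    (L ≃ₐ[K] L) ≃* (ResidueField B ≃ₐ[ResidueField A] ResidueField B) :=
  MulEquiv.ofBijective (residueGalHom A K L B) (residueGalHom_bijective A K L B h)

@[simp]
lemma residueGalEquiv_apply (h : IsUnram A B) (σ : L ≃ₐ[K] L) :
    residueGalEquiv A K L B h σ = residueGalHom A K L B σ := rfl

/-- The Frobenius automorphism `x ↦ x ^ #κ_A` of the residue field extension. -/
noncomputable def frobRes : ResidueField B ≃ₐ[ResidueField A] ResidueField B :=
  have := finite_residueField_B A K L B
  letI := Fintype.ofFinite (ResidueField A)
  FiniteField.frobeniusAlgEquivOfAlgebraic (ResidueField A) (ResidueField B)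

lemma frobRes_apply (x : ResidueField B) :
    frobRes A K L B x = x ^ Nat.card (ResidueField A) := by
  have := finite_residueField_B A K L B
  let := Fintype.ofFinite (ResidueField A)
  rw [Nat.card_eq_fintype_card]
  rfl

lemma orderOf_frobRes : orderOf (frobRes A K L B) = resDegree A B := by
  have := finite_residueField_B A K L B
  let := Fintype.ofFinite (ResidueField A)
  exact FiniteField.orderOf_frobeniusAlgEquivOfAlgebraic (ResidueField A) (ResidueField B)

lemma exists_frobRes_pow_eq (g : ResidueField B ≃ₐ[ResidueField A] ResidueField B) :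
    ∃ i < resDegree A B, frobRes A K L B ^ i = g := by
  have := finite_residueField_B A K L B
  let := Fintype.ofFinite (ResidueField A)
  obtain ⟨⟨i, hi⟩, rfl⟩ := (FiniteField.bijective_frobeniusAlgEquivOfAlgebraic_pow
    (ResidueField A) (ResidueField B)).2 g
  exact ⟨i, hi, rfl⟩

/-- The **Frobenius element** of an unramified extension. -/
noncomputable def frob (h : IsUnram A B) : L ≃ₐ[K] L :=
  (residueGalEquiv A K L B h).symm (frobRes A K L B)

lemma residueGalHom_frob (h : IsUnram A B) :
    residueGalHom A K L B (frob A K L B h) = frobRes A K L B := by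
  rw [← residueGalEquiv_apply A K L B h, frob, MulEquiv.apply_symm_apply]

/-- The Frobenius element acts as `x ↦ x ^ Q` modulo the maximal ideal. -/
theorem residue_frob (h : IsUnram A B) (b : B) :
    residue B (galRestrict A K L B (frob A K L B h) b) =
      residue B b ^ Nat.card (ResidueField A) := by
  rw [← residueGalHom_residue, residueGalHom_frob, frobRes_apply]

theorem frob_sub_pow_mem (h : IsUnram A B) (b : B) :
    galRestrict A K L B (frob A K L B h) b - b ^ Nat.card (ResidueField A) ∈ maximalIdeal B := by
  rw [← residue_eq_zero_iff, map_sub, map_pow, residue_frob, sub_self]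

/-- Characterisation of the Frobenius element. -/
theorem eq_frob_iff (h : IsUnram A B) (σ : L ≃ₐ[K] L) :
    σ = frob A K L B h ↔
      ∀ b : B, residue B (galRestrict A K L B σ b) = residue B b ^ Nat.card (ResidueField A) := by
  constructor
  · rintro rfl b
    exact residue_frob A K L B h b
  · intro hσ
    apply residueGalHom_injective A K L B h
    rw [residueGalHom_frob]
    ext x
    obtain ⟨b, rfl⟩ := residue_surjective x
    rw [residueGalHom_residue, hσ, frobRes_apply]

theorem orderOf_frob (h : IsUnram A B) : orderOf (frob A K L B h) = finrank K L := by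
  have hf : resDegree A B = finrank K L := (isUnram_iff_resDegree_eq_finrank A K L B).mp h
  rw [← hf, ← orderOf_frobRes A K L B, frob]
  exact (residueGalEquiv A K L B h).symm.orderOf_eq _

theorem exists_frob_pow_eq (h : IsUnram A B) (σ : L ≃ₐ[K] L) :
    ∃ i < finrank K L, frob A K L B h ^ i = σ := by
  have hf : resDegree A B = finrank K L := (isUnram_iff_resDegree_eq_finrank A K L B).mp h
  obtain ⟨i, hi, hi'⟩ := exists_frobRes_pow_eq A K L B (residueGalEquiv A K L B h σ)
  refine ⟨i, hf ▸ hi, ?_⟩
  apply (residueGalEquiv A K L B h).injective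
  rw [map_pow, ← hi', residueGalEquiv_apply, residueGalHom_frob]

theorem isCyclic_of_isUnram (h : IsUnram A B) : IsCyclic (L ≃ₐ[K] L) :=
  ⟨⟨frob A K L B h, fun σ => by
    obtain ⟨i, -, hi⟩ := exists_frob_pow_eq A K L B h σ
    exact ⟨i, by simpa using hi⟩⟩⟩

/-- The Frobenius element raises roots of unity of order prime to the residue characteristic
to the `Q`-th power. -/
theorem frob_apply_of_pow_eq_one (h : IsUnram A B) {m : ℕ} (hm : (m : ResidueField B) ≠ 0)
    {z : B} (hz : z ^ m = 1) :
    galRestrict A K L B (frob A K L B h) z = z ^ Nat.card (ResidueField A) := by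
  refine eq_of_pow_eq_one_of_residue_eq hm ?_ ?_ ?_
  · rw [← map_pow, hz, map_one]
  · rw [← pow_mul, mul_comm, pow_mul, hz, one_pow]
  · rw [residue_frob, map_pow]

/-- `eq_frob_iff` for powers of the Frobenius element. -/
theorem eq_frob_pow_iff (h : IsUnram A B) (σ : L ≃ₐ[K] L) (j : ℕ) :
    σ = frob A K L B h ^ j ↔ ∀ b : B, residue B (galRestrict A K L B σ b) =
      residue B b ^ (Nat.card (ResidueField A) ^ j) := by
  have key : ∀ b : B, residue B (galRestrict A K L B (frob A K L B h ^ j) b) =
      residue B b ^ (Nat.card (ResidueField A) ^ j) := by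
    intro b
    rw [← residueGalHom_residue, map_pow, residueGalHom_frob]
    induction j generalizing b with
    | zero => simp
    | succ j ih =>
      rw [pow_succ, AlgEquiv.mul_apply, frobRes_apply, map_pow, ih, ← pow_mul, ← pow_succ]
  constructor
  · rintro rfl b
    exact key b
  · intro hσ
    apply residueGalHom_injective A K L B h
    ext x
    obtain ⟨b, rfl⟩ := residue_surjective x
    rw [residueGalHom_residue, residueGalHom_residue, hσ, key]

theorem frob_pow_apply_of_pow_eq_one (h : IsUnram A B) {m : ℕ} (hm : (m : ResidueField B) ≠ 0)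
    {z : B} (hz : z ^ m = 1) (j : ℕ) :
    galRestrict A K L B (frob A K L B h ^ j) z = z ^ (Nat.card (ResidueField A) ^ j) := by
  induction j generalizing z with
  | zero => simp
  | succ j ih =>
    rw [pow_succ, map_mul, AlgEquiv.mul_apply, frob_apply_of_pow_eq_one A K L B h hm hz,
      ih (by rw [← pow_mul, mul_comm, pow_mul, hz, one_pow]), ← pow_mul, ← pow_succ']

end T2

section T3

variable [HenselianLocalRing B] [IsLocalHom (algebraMap A B)] [Finite (ResidueField A)]

/-- **Adjoining a root of unity of order prime to the residue characteristic gives an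
unramified extension.** -/
theorem isUnram_of_adjoin_eq_top {m : ℕ} (hm : (m : ResidueField B) ≠ 0) {ζ : B}
    (hζ : IsPrimitiveRoot ζ m) (hgen : IntermediateField.adjoin K {algebraMap B L ζ} = ⊤) :
    IsUnram A B := by
  have hm0 : m ≠ 0 := by rintro rfl; simp at hm
  have hζ' : IsPrimitiveRoot (algebraMap B L ζ) m :=
    hζ.map_of_injective (IsIntegralClosure.algebraMap_injective B A L)
  have := isCyclotomicExtension_of_adjoin_eq_top K L hm0 hζ' hgen
  have : NeZero m := ⟨hm0⟩
  have hgal : IsGalois K L := IsCyclotomicExtension.isGalois {m} K L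
  have hinj := residueGalHom_injective_of_isPrimitiveRoot A K L B hm hζ
  have := finite_residueField_B A K L B
  have hle : Nat.card (L ≃ₐ[K] L) ≤
      Nat.card (ResidueField B ≃ₐ[ResidueField A] ResidueField B) :=
    Nat.card_le_card_of_injective _ hinj
  rw [natCard_residueGal A K L B, IsGalois.card_aut_eq_finrank] at hle
  rw [isUnram_iff_resDegree_eq_finrank A K L B]
  exact le_antisymm (resDegree_le_finrank_KL A K L B) hle

/-- The degree of `K(ζ_m)/K` is the multiplicative order of `Q` modulo `m`. -/
theorem finrank_dvd_iff_of_adjoin_eq_top {m : ℕ} (hm : (m : ResidueField B) ≠ 0) {ζ : B}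
    (hζ : IsPrimitiveRoot ζ m) (hgen : IntermediateField.adjoin K {algebraMap B L ζ} = ⊤)
    (j : ℕ) : finrank K L ∣ j ↔ m ∣ Nat.card (ResidueField A) ^ j - 1 := by
  have hm0 : m ≠ 0 := by rintro rfl; simp at hm
  have hζ' : IsPrimitiveRoot (algebraMap B L ζ) m :=
    hζ.map_of_injective (IsIntegralClosure.algebraMap_injective B A L)
  have := isCyclotomicExtension_of_adjoin_eq_top K L hm0 hζ' hgen
  have h := isUnram_of_adjoin_eq_top A K L B hm hζ hgen
  have hQ : 1 ≤ Nat.card (ResidueField A) ^ j := Nat.one_le_pow _ _ Nat.card_pos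
  rw [← orderOf_frob A K L B h, orderOf_dvd_iff_pow_eq_one]
  have key : galRestrict A K L B (frob A K L B h ^ j) ζ = ζ ↔
      m ∣ Nat.card (ResidueField A) ^ j - 1 := by
    rw [frob_pow_apply_of_pow_eq_one A K L B h hm hζ.pow_eq_one, ← hζ.pow_eq_one_iff_dvd]
    have hu : IsUnit ζ := hζ.isUnit hm0
    constructor
    · intro h1
      have h2 : ζ ^ (Nat.card (ResidueField A) ^ j - 1) * ζ = 1 * ζ := by
        rw [← pow_succ, Nat.sub_add_cancel hQ, h1, one_mul]
      exact hu.mul_right_cancel h2
    · intro h1
      calc ζ ^ (Nat.card (ResidueField A) ^ j)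
          = ζ ^ (Nat.card (ResidueField A) ^ j - 1 + 1) := by rw [Nat.sub_add_cancel hQ]
        _ = ζ := by rw [pow_succ, h1, one_mul]
  rw [← key]
  constructor
  · intro h1
    rw [h1, map_one]
    rfl
  · intro h1
    refine IsCyclotomicExtension.algEquiv_eq_of_apply_eq {m} K L ?_
    intro n hn' _
    rw [Set.mem_singleton_iff] at hn'
    subst hn'
    refine ⟨_, hζ', ?_⟩
    rw [← algebraMap_galRestrict_apply A, h1]
    rfl

/-- `K(μ_{Q^n-1})/K` is unramified of degree `n`. -/
theorem finrank_eq_of_adjoin_eq_top {n : ℕ} (hn : n ≠ 0) {ζ : B}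
    (hζ : IsPrimitiveRoot ζ (Nat.card (ResidueField A) ^ n - 1))
    (hgen : IntermediateField.adjoin K {algebraMap B L ζ} = ⊤) : finrank K L = n := by
  have hm := natCast_card_pow_sub_one_ne_zero_B A B n hn
  apply Nat.dvd_antisymm
  · rw [finrank_dvd_iff_of_adjoin_eq_top A K L B hm hζ hgen]
  · rw [← pow_sub_one_dvd_pow_sub_one_iff (Finite.one_lt_card : 1 < Nat.card (ResidueField A)) n _ hn,
      ← finrank_dvd_iff_of_adjoin_eq_top A K L B hm hζ hgen]

end T3

end Fermat.Agent.Lib.CFT.Local.Unramified
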