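import Mathlib
import Fermat.Agent.Lib.CFT.Local.Basic
import Fermat.Agent.Lib.CFT.Local.UnramifiedCore
import Fermat.Agent.Lib.CFT.Local.UnramUnits
import Fermat.Agent.Lib.CFT.HerbrandMul

/-!
# Norms of units in unramified extensions of local fields

* `unram_hIndexMul_eq_one`: Herbrand form of `Local/UnramUnits`: both Tate indices of the unit
  group of an (abstract) unramified extension are `1`.
* `exists_norm_eq_of_isUnram`: for `L / K` unramified (helper42's `IsUnram A B`, `A` a complete
  discrete valuation ring with finite residue field), every unit of `A` is the norm of a unit of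
  `B`.
-/

set_option autoImplicit false

namespace Fermat.Agent.Lib.CFT.LocalUnits

open IsLocalRing Fermat.Agent.Lib.CFT.Herbrand

section Herbrand

variable {G B : Type*} [Group G] [Fintype G] [CommRing B] [IsLocalRing B] [MulSemiringAction G B]
  [IsAdicComplete (maximalIdeal B) B] [Finite (ResidueField B)]
  [FaithfulSMul G (ResidueField B)]

/-- Both Tate indices `[ker (σ - 1) : im N]` and `[ker N : im (σ - 1)]` of the unit group of an
unramified extension are `1`. -/
theorem unram_hIndexMul_eq_one {π : B} (hπ : maximalIdeal B = Ideal.span {π})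
    (hfix : ∀ g : G, g • π = π) (hreg : ∀ b : B, π * b = 0 → b = 0)
    {σ : G} (hσ : ∀ g, g ∈ Subgroup.zpowers σ) :
    hIndexMul (unitsTwist B σ) (unitsNorm G B) = 1 ∧
      hIndexMul (unitsNorm G B) (unitsTwist B σ) = 1 := by
  unfold hIndexMul
  rw [Subgroup.relIndex_eq_one, Subgroup.relIndex_eq_one]
  constructor
  · intro u hu
    have hu' : unitsSmul B σ u = u := div_eq_one.mp hu
    have hu'' : σ • (u : B) = u := congrArg Units.val hu'
    obtain ⟨v, hv⟩ := unram_exists_unitsNorm_eq (G := G) hπ hfix hreg
      (u := u) (smul_eq_of_zpowers hσ hu'')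
    exact ⟨v, hv⟩
  · intro u hu
    obtain ⟨v, hv⟩ := unram_exists_unitsTwist_eq hπ hfix hreg hσ (u := u) hu
    exact ⟨v, hv⟩

end Herbrand

section Henselian

theorem henselianLocalRing_of_isAdicComplete (B : Type*) [CommRing B] [IsLocalRing B]
    [IsAdicComplete (maximalIdeal B) B] : HenselianLocalRing B where
  is_henselian f hf a₀ h₁ h₂ :=
    HenselianRing.is_henselian (I := maximalIdeal B) f hf a₀ h₁
      (h₂.map (Ideal.Quotient.mk (maximalIdeal B)))

end Henselian

section AKLB

open Fermat.Agent.Lib.CFT.Local Fermat.Agent.Lib.CFT.Local.Unramified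

variable (A K L B : Type) [CommRing A] [IsDomain A] [IsDiscreteValuationRing A]
  [IsAdicComplete (maximalIdeal A) A]
  [Field K] [Algebra A K] [IsFractionRing A K]
  [Field L] [Algebra K L] [FiniteDimensional K L] [Algebra.IsSeparable K L]
  [Algebra A L] [IsScalarTower A K L]
  [CommRing B] [IsDomain B] [Algebra A B] [Algebra B L] [IsScalarTower A B L]
  [IsIntegralClosure B A L] [Finite (ResidueField A)] [IsLocalRing B]

/-- **Norms of units, unramified case**: if `L / K` is an unramified extension of complete
discretely valued fields with finite residue fields, every unit of `A` is the norm of a unit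
of `B`. -/
theorem exists_norm_eq_of_isUnram (h : IsUnram A B) (u : Aˣ) :
    ∃ v : Bˣ, Algebra.norm K (algebraMap B L (v : B)) = algebraMap A K (u : A) := by
  classical
  have hfinAB := ext_finite A K L B
  have hcomp := ext_isAdicComplete A K L B
  have hlochom := ext_isLocalHom A K L B
  have hens : HenselianLocalRing B := henselianLocalRing_of_isAdicComplete B
  have hgalois : IsGalois K L := isGalois_of_isUnram A K L B h
  have hresB : Finite (ResidueField B) := finite_residueField_B A K L B
  let _ : MulSemiringAction Gal(L/K) B := IsIntegralClosure.MulSemiringAction A K L B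
  have hfaith : FaithfulSMul Gal(L/K) (ResidueField B) := by
    refine ⟨fun {g g'} hgg => residueGalHom_injective A K L B h (AlgEquiv.ext fun x => ?_)⟩
    obtain ⟨b, rfl⟩ := residue_surjective x
    exact hgg (residue B b)
  obtain ⟨ϖ, hϖ⟩ := IsDiscreteValuationRing.exists_irreducible A
  have hπ : maximalIdeal B = Ideal.span {algebraMap A B ϖ} := by
    rw [← h, hϖ.maximalIdeal_eq, Ideal.map_span, Set.image_singleton]
  have hfix : ∀ g : Gal(L/K), g • algebraMap A B ϖ = algebraMap A B ϖ := by
    intro g
    exact (galRestrict A K L B g).commutes ϖ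
  have hπ0 : algebraMap A B ϖ ≠ 0 := by
    intro h0
    exact hϖ.ne_zero (ext_algebraMap_injective A K L B (h0.trans (map_zero _).symm))
  have hreg : ∀ b : B, algebraMap A B ϖ * b = 0 → b = 0 := fun b hb =>
    (mul_eq_zero.mp hb).resolve_left hπ0
  have hu : ∀ g : Gal(L/K), g • ((Units.map (algebraMap A B : A →* B) u : Bˣ) : B)
      = (Units.map (algebraMap A B : A →* B) u : Bˣ) := by
    intro g
    exact (galRestrict A K L B g).commutes (u : A)
  obtain ⟨v, hv⟩ := unram_exists_unitsNorm_eq (G := Gal(L/K)) hπ hfix hreg hu
  refine ⟨v, ?_⟩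
  apply (algebraMap K L).injective
  rw [Algebra.norm_eq_prod_automorphisms]
  have hv' := congrArg (fun w : Bˣ => algebraMap B L (w : B)) hv
  simp only [coe_unitsNorm, map_prod, Units.coe_map, MonoidHom.coe_coe] at hv'
  rw [← IsScalarTower.algebraMap_apply, IsScalarTower.algebraMap_apply A B L, ← hv']
  refine Finset.prod_congr rfl fun g _ => ?_
  exact (algebraMap_galRestrict_apply A g (v : B)).symm

end AKLB

end Fermat.Agent.Lib.CFT.LocalUnits
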