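import Fermat.Agent.Lib.CFT.Coh.EquivariantMap
import Fermat.Agent.Lib.CFT.Global.GaloisTransport
import Fermat.Agent.Lib.CFT.Local.LocalBrauer.UnramInv

/-!
# The contract between local and global class field theory: `LocalInvTheory p`

A `LocalInvTheory p` is a system of *canonical local invariants* in **action form**: for every
field `F` finite over `ℚ_[p]` and every finite group `D` acting faithfully and `ℚ_[p]`-linearly on
`F` (so that `F / F^D` is a finite Galois extension of local fields with group `D`), an additive map

`inv F D : H²(D, Fˣ) →+ ℚ/ℤ`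

which is injective with image the `|D|`-torsion, compatible with inflation, multiplied by the
index under restriction, and given by the explicit unramified invariant `invUnr` (`helper59`'s
`Local/LocalBrauer/UnramInv.lean`) on unramified layers, for *any* presentation of the layer by
complete discrete valuation rings.

The global theory (`Global/ClassFormation/*`) is developed relative to
`T : ∀ q : Nat.Primes, LocalInvTheory q`; the local theory provides the term.
-/

set_option autoImplicit false

namespace Fermat.Agent.Lib.CFT.Local

open IsLocalRing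
open Fermat.Agent.Lib.CFT.Global (unitsRepHomAlong)
open Fermat.Agent.Lib.CFT.Global.LocalFieldAt (unitsCohomologyIso)
open Fermat.Agent.Lib.CFT.Local.LocalBrauer (QZ invUnr)
open Fermat.Agent.Lib.CFT.Local.Unramified (IsUnram)

attribute [local instance] Units.mulDistribMulActionRight

/-- A system of canonical local invariants over `ℚ_[p]`, in action form. -/
structure LocalInvTheory (p : ℕ) [Fact p.Prime] where
  /-- The invariant map `H²(D, Fˣ) →+ ℚ/ℤ` of the layer `F / F^D`. -/
  inv : ∀ (F : Type) [Field F] [Algebra ℚ_[p] F] [FiniteDimensional ℚ_[p] F]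
    (D : Type) [Group D] [Finite D] [MulSemiringAction D F] [FaithfulSMul D F]
    [SMulCommClass D ℚ_[p] F],
    groupCohomology (Rep.ofMulDistribMulAction D Fˣ) 2 →+ QZ
  /-- The invariant map is injective. -/
  inv_injective : ∀ (F : Type) [Field F] [Algebra ℚ_[p] F] [FiniteDimensional ℚ_[p] F]
    (D : Type) [Group D] [Finite D] [MulSemiringAction D F] [FaithfulSMul D F]
    [SMulCommClass D ℚ_[p] F], Function.Injective (inv F D)
  /-- The invariants are killed by the degree `|D|`. -/
  card_nsmul_inv : ∀ (F : Type) [Field F] [Algebra ℚ_[p] F] [FiniteDimensional ℚ_[p] F]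
    (D : Type) [Group D] [Finite D] [MulSemiringAction D F] [FaithfulSMul D F]
    [SMulCommClass D ℚ_[p] F] (x : groupCohomology (Rep.ofMulDistribMulAction D Fˣ) 2),
    Nat.card D • inv F D x = 0
  /-- Every `|D|`-torsion element of `ℚ/ℤ` is an invariant. -/
  exists_inv_eq : ∀ (F : Type) [Field F] [Algebra ℚ_[p] F] [FiniteDimensional ℚ_[p] F]
    (D : Type) [Group D] [Finite D] [MulSemiringAction D F] [FaithfulSMul D F]
    [SMulCommClass D ℚ_[p] F] (y : QZ), Nat.card D • y = 0 → ∃ x, inv F D x = y
  /-- **Inflation**: for `F ⊆ F'` (via `ι`) and `f : D' → D` surjective with `ι` equivariant and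
  such that every `D'`-fixed element of `F'` comes from `F` (so both layers have the same base
  field), inflation preserves invariants. -/
  inv_infl : ∀ (F : Type) [Field F] [Algebra ℚ_[p] F] [FiniteDimensional ℚ_[p] F]
    (D : Type) [Group D] [Finite D] [MulSemiringAction D F] [FaithfulSMul D F]
    [SMulCommClass D ℚ_[p] F]
    (F' : Type) [Field F'] [Algebra ℚ_[p] F'] [FiniteDimensional ℚ_[p] F']
    (D' : Type) [Group D'] [Finite D'] [MulSemiringAction D' F'] [FaithfulSMul D' F']
    [SMulCommClass D' ℚ_[p] F']
    (f : D' →* D) (_ : Function.Surjective f) (ι : F →ₐ[ℚ_[p]] F')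
    (hι : ∀ (d : D') (x : F), (ι : F →+* F') (f d • x) = d • (ι : F →+* F') x)
    (_ : ∀ y : F', (∀ d : D', d • y = y) → ∃ x : F, ι x = y)
    (x : groupCohomology (Rep.ofMulDistribMulAction D Fˣ) 2),
    inv F' D' (groupCohomology.map f (unitsRepHomAlong f (ι : F →+* F') hι) 2 x) = inv F D x
  /-- **Restriction**: for `f : D' → D` injective and `ι : F → F'` a bijection equivariant along
  `f`, restriction multiplies invariants by the index `|D| / |D'|` (the degree of the extension
  of base fields). -/
  inv_res : ∀ (F : Type) [Field F] [Algebra ℚ_[p] F] [FiniteDimensional ℚ_[p] F]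
    (D : Type) [Group D] [Finite D] [MulSemiringAction D F] [FaithfulSMul D F]
    [SMulCommClass D ℚ_[p] F]
    (F' : Type) [Field F'] [Algebra ℚ_[p] F'] [FiniteDimensional ℚ_[p] F']
    (D' : Type) [Group D'] [Finite D'] [MulSemiringAction D' F'] [FaithfulSMul D' F']
    [SMulCommClass D' ℚ_[p] F']
    (f : D' →* D) (_ : Function.Injective f) (ι : F →ₐ[ℚ_[p]] F')
    (hι : ∀ (d : D') (x : F), (ι : F →+* F') (f d • x) = d • (ι : F →+* F') x)
    (_ : Function.Bijective ι)
    (x : groupCohomology (Rep.ofMulDistribMulAction D Fˣ) 2),
    inv F' D' (groupCohomology.map f (unitsRepHomAlong f (ι : F →+* F') hι) 2 x) =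
      (Nat.card D / Nat.card D') • inv F D x
  /-- **Unramified formula**: if the layer is presented as `Frac A = K ⊆ F = Frac B` with `A`, `B`
  complete discrete valuation rings, `B` the integral closure of `A` in `F` (and integral over
  `ℤ_[p]`), `D` a Galois group of `F / K`, and `B / A` unramified, then the canonical invariant is
  the explicit unramified invariant `invUnr` ("sum of the valuations of the cocycle along the
  Frobenius row, divided by the degree"). -/
  inv_unram : ∀ (F : Type) [Field F] [Algebra ℚ_[p] F] [FiniteDimensional ℚ_[p] F]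
    (D : Type) [Group D] [Finite D] [MulSemiringAction D F] [FaithfulSMul D F]
    [SMulCommClass D ℚ_[p] F]
    (A K B : Type) [CommRing A] [IsDomain A] [IsDiscreteValuationRing A]
    [IsAdicComplete (maximalIdeal A) A] [Finite (ResidueField A)]
    [Field K] [Algebra A K] [IsFractionRing A K]
    [Algebra K F] [FiniteDimensional K F] [IsGalois K F]
    [Algebra A F] [IsScalarTower A K F]
    [CommRing B] [IsDomain B] [IsDiscreteValuationRing B] [Algebra A B] [Algebra B F]
    [IsScalarTower A B F] [IsIntegralClosure B A F] [IsFractionRing B F]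
    [HenselianLocalRing B] [IsLocalHom (algebraMap A B)]
    [IsGaloisGroup D K F]
    (_ : ∀ b : B, ((algebraMap ℚ_[p] F).comp (algebraMap ℤ_[p] ℚ_[p])).IsIntegralElem
      (algebraMap B F b))
    (h : IsUnram A B)
    (x : groupCohomology (Rep.ofMulDistribMulAction D Fˣ) 2),
    inv F D x = invUnr A K F B h ((unitsCohomologyIso D K F 2).hom x)

end Fermat.Agent.Lib.CFT.Local
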