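/-
helper89 (P-CFT, L4 duality layer, package Local/LqModule).  The local multiplicative module:
for a prime `q`, `Lq q` is the unit group of the algebraic closure `PadicAlgCl q` of `ℚ_q`, as a
`ℤ`-linear representation of the local Galois group `G_q = primeLocalGaloisGroup q`.

* `isDiscrete_Lq` : every element is fixed by an open subgroup (a level of `primeLocalLevels q`);
* `exists_nsmul_eq` : `Lq q` is divisible;
* `torsionMap p q : ZMod p →+ Lq q`, `a ↦ ζ ^ a` for the image `ζ` in `PadicAlgCl q` of a primitive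
  `p`-th root of unity of `ℚ̄`: injective, with image the `p`-torsion, and equivariant for the
  action of `G_q` on `ZMod p` through the mod `p` cyclotomic character `cycloChar p ∘ φ_q`.
-/
import Mathlib
import Fermat.Agent.Lib.CFT.Duality.LocDatum

set_option autoImplicit false

namespace Fermat.Agent.Lib.CFT.Local.LqModule

open ExtCitation Fermat.Agent.Lib.CFT.Profinite Fermat.Agent.Lib.CFT.Duality

variable (q : Nat.Primes)

/-- The algebraic closure of `ℚ_q` used by the Prelude. -/
abbrev Qqbar : Type :=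
  letI : Fact (q : ℕ).Prime := ⟨q.2⟩
  PadicAlgCl (q : ℕ)

/-- **(1)** The multiplicative group of the algebraic closure of `ℚ_q`, as a `ℤ`-linear
representation of the local Galois group (written additively). -/
noncomputable def Lq : Rep ℤ (primeLocalGaloisGroup q) :=
  letI : Fact (q : ℕ).Prime := ⟨q.2⟩
  Rep.ofAlgebraAutOnUnits ℚ_[(q : ℕ)] (PadicAlgCl (q : ℕ))

/-- The element of `Lq q` attached to a unit. -/
noncomputable def ofUnit (u : (Qqbar q)ˣ) : Lq q := Additive.ofMul u

/-- The unit underlying an element of `Lq q`. -/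
noncomputable def toUnit (x : Lq q) : (Qqbar q)ˣ := Additive.toMul (show Additive (Qqbar q)ˣ from x)

@[simp] theorem toUnit_ofUnit (u : (Qqbar q)ˣ) : toUnit q (ofUnit q u) = u := rfl

@[simp] theorem ofUnit_toUnit (x : Lq q) : ofUnit q (toUnit q x) = x := rfl

theorem ofUnit_mul (u v : (Qqbar q)ˣ) : ofUnit q (u * v) = ofUnit q u + ofUnit q v := rfl

theorem ofUnit_one : ofUnit q 1 = 0 := rfl

theorem ofUnit_pow (u : (Qqbar q)ˣ) (n : ℕ) : ofUnit q (u ^ n) = n • ofUnit q u := rfl

theorem ofUnit_injective : Function.Injective (ofUnit q) := fun _ _ h => h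

/-- An element of the local Galois group, as an automorphism of the algebraic closure. -/
def aut (s : primeLocalGaloisGroup q) :
    letI : Fact (q : ℕ).Prime := ⟨q.2⟩
    PadicAlgCl (q : ℕ) ≃ₐ[ℚ_[(q : ℕ)]] PadicAlgCl (q : ℕ) := s

/-- The action of the local Galois group on `Lq q` is the action on the units. -/
theorem coe_toUnit_ρ (s : primeLocalGaloisGroup q) (x : Lq q) :
    ((toUnit q ((Lq q).ρ s x) : (Qqbar q)ˣ) : Qqbar q) = aut q s ((toUnit q x : (Qqbar q)ˣ) : Qqbar q) :=
  rfl

theorem ρ_eq_iff (s : primeLocalGaloisGroup q) (x y : Lq q) :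
    (Lq q).ρ s x = y ↔
      aut q s ((toUnit q x : (Qqbar q)ˣ) : Qqbar q) = ((toUnit q y : (Qqbar q)ˣ) : Qqbar q) := by
  rw [← coe_toUnit_ρ]
  constructor
  · intro h
    rw [h]
  · intro h
    exact ofUnit_injective q (Units.ext h)

/-- **(2)** `Lq q` is a discrete module: every element is fixed by an open subgroup. -/
theorem isDiscrete_Lq : (primeLocalLevels q).IsDiscrete (Lq q) := by
  have : Fact (q : ℕ).Prime := ⟨q.2⟩
  intro x
  set α : PadicAlgCl (q : ℕ) := ((toUnit q x : (Qqbar q)ˣ) : Qqbar q) with hα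
  have halg : IsAlgebraic ℚ_[(q : ℕ)] α := Algebra.IsAlgebraic.isAlgebraic α
  have hfd : FiniteDimensional ℚ_[(q : ℕ)] (IntermediateField.adjoin ℚ_[(q : ℕ)] {α}) :=
    IntermediateField.adjoin.finiteDimensional halg.isIntegral
  refine ⟨(IntermediateField.adjoin ℚ_[(q : ℕ)] {α}).fixingSubgroup,
    ⟨IntermediateField.adjoin ℚ_[(q : ℕ)] {α}, hfd, rfl⟩, fun s hs => ?_⟩
  rw [ρ_eq_iff]
  exact hs ⟨α, IntermediateField.mem_adjoin_simple_self _ α⟩

/-- **(3)** `Lq q` is divisible. -/
theorem exists_nsmul_eq {n : ℕ} (hn : n ≠ 0) (x : Lq q) : ∃ y : Lq q, n • y = x := by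
  have : Fact (q : ℕ).Prime := ⟨q.2⟩
  set u : (PadicAlgCl (q : ℕ))ˣ := toUnit q x with hu
  obtain ⟨β, hβ⟩ := IsAlgClosed.exists_pow_nat_eq (u : PadicAlgCl (q : ℕ)) (Nat.pos_of_ne_zero hn)
  have hβ0 : β ≠ 0 := by
    rintro rfl
    rw [zero_pow hn] at hβ
    exact u.ne_zero hβ.symm
  refine ⟨ofUnit q (Units.mk0 β hβ0), ?_⟩
  rw [← ofUnit_pow]
  apply congrArg (ofUnit q)
  exact Units.ext hβ

/-! ### (4) The `p`-torsion of `Lq q` -/

section Torsion

variable (p : ℕ) [Fact p.Prime]

local notation "Γℚ" => (AlgebraicClosure ℚ ≃ₐ[ℚ] AlgebraicClosure ℚ)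

theorem exists_isPrimitiveRoot_qbar : ∃ ζ : AlgebraicClosure ℚ, IsPrimitiveRoot ζ p := by
  haveI : NeZero (p : AlgebraicClosure ℚ) :=
    ⟨Nat.cast_ne_zero.mpr (Fact.out : p.Prime).ne_zero⟩
  exact HasEnoughRootsOfUnity.exists_primitiveRoot (AlgebraicClosure ℚ) p

/-- A chosen primitive `p`-th root of unity of `ℚ̄`. -/
noncomputable def zetaQbar : AlgebraicClosure ℚ := (exists_isPrimitiveRoot_qbar p).choose

theorem isPrimitiveRoot_zetaQbar : IsPrimitiveRoot (zetaQbar p) p :=
  (exists_isPrimitiveRoot_qbar p).choose_spec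

/-- The defining property of the mod `p` cyclotomic character on the chosen root of unity. -/
theorem apply_zetaQbar (σ : Γℚ) :
    σ (zetaQbar p) = zetaQbar p ^ ((cycloChar p σ : (ZMod p)ˣ) : ZMod p).val := by
  have : NeZero p := ⟨(Fact.out : p.Prime).ne_zero⟩
  have hζ := isPrimitiveRoot_zetaQbar p
  have h0 : zetaQbar p ≠ 0 := hζ.ne_zero (Fact.out : p.Prime).ne_zero
  have hmem : Units.mk0 (zetaQbar p) h0 ∈ rootsOfUnity p (AlgebraicClosure ℚ) := by
    rw [mem_rootsOfUnity]
    exact Units.ext (by simpa using hζ.pow_eq_one)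
  have := modularCyclotomicCharacter.spec (AlgebraicClosure ℚ) (card_rootsOfUnity_eq_self p)
    (σ : AlgebraicClosure ℚ ≃+* AlgebraicClosure ℚ) hmem
  have hc : ((cycloChar p σ : (ZMod p)ˣ) : ZMod p) =
      ((modularCyclotomicCharacter (AlgebraicClosure ℚ) (card_rootsOfUnity_eq_self p)
        (σ : AlgebraicClosure ℚ ≃+* AlgebraicClosure ℚ) : (ZMod p)ˣ) : ZMod p) := rfl
  rw [hc]
  simpa using this

/-- The image in the algebraic closure of `ℚ_q` of the chosen root of unity. -/
noncomputable def zetaLoc : Qqbar q :=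
  letI : Fact (q : ℕ).Prime := ⟨q.2⟩
  padicEmbedding (q : ℕ) (zetaQbar p)

theorem isPrimitiveRoot_zetaLoc : IsPrimitiveRoot (zetaLoc q p) p := by
  have : Fact (q : ℕ).Prime := ⟨q.2⟩
  exact (isPrimitiveRoot_zetaQbar p).map_of_injective (padicEmbedding (q : ℕ)).injective

theorem zetaLoc_ne_zero : zetaLoc q p ≠ 0 :=
  (isPrimitiveRoot_zetaLoc q p).ne_zero (Fact.out : p.Prime).ne_zero

/-- The local root of unity as a unit. -/
noncomputable def zetaUnit : (Qqbar q)ˣ := Units.mk0 (zetaLoc q p) (zetaLoc_ne_zero q p)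

theorem zetaUnit_pow_eq_one : zetaUnit q p ^ p = 1 :=
  Units.ext (by simpa [zetaUnit] using (isPrimitiveRoot_zetaLoc q p).pow_eq_one)

/-- The value of the local mod `p` cyclotomic character, in `ZMod p`. -/
noncomputable def chiLoc (s : primeLocalGaloisGroup q) : ZMod p :=
  ((cycloChar p (primeLocalToGlobal q s) : (ZMod p)ˣ) : ZMod p)

/-- The local Galois group acts on the root of unity through the cyclotomic character. -/
theorem aut_zetaLoc (s : primeLocalGaloisGroup q) :
    aut q s (zetaLoc q p) = zetaLoc q p ^ (chiLoc q p s).val := by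
  have : Fact (q : ℕ).Prime := ⟨q.2⟩
  have h1 := padicEmbedding_localGaloisToGlobal (q : ℕ) (aut q s) (zetaQbar p)
  have h2 := apply_zetaQbar p (primeLocalToGlobal q s)
  have h3 : primeLocalToGlobal q s = localGaloisToGlobal (q : ℕ) (aut q s) := rfl
  rw [h3] at h2
  rw [h2, map_pow] at h1
  exact h1.symm

/-- **(4)** The embedding of `μ_p`: `a ↦ ζ ^ a`. -/
noncomputable def torsionMap : ZMod p →+ Lq q :=
  ZMod.lift p ⟨zmultiplesHom (Lq q) (ofUnit q (zetaUnit q p)), by
    rw [zmultiplesHom_apply, natCast_zsmul, ← ofUnit_pow, zetaUnit_pow_eq_one, ofUnit_one]⟩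

theorem torsionMap_natCast (n : ℕ) :
    torsionMap q p (n : ZMod p) = ofUnit q (zetaUnit q p ^ n) := by
  have h : ((n : ℤ) : ZMod p) = (n : ZMod p) := by push_cast; rfl
  rw [← h, torsionMap, ZMod.lift_coe, zmultiplesHom_apply, natCast_zsmul, ofUnit_pow]

theorem torsionMap_apply (a : ZMod p) :
    torsionMap q p a = ofUnit q (zetaUnit q p ^ a.val) := by
  have : NeZero p := ⟨(Fact.out : p.Prime).ne_zero⟩
  conv_lhs => rw [← ZMod.natCast_zmod_val a]
  exact torsionMap_natCast q p a.val

theorem coe_toUnit_torsionMap (a : ZMod p) :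
    ((toUnit q (torsionMap q p a) : (Qqbar q)ˣ) : Qqbar q) = zetaLoc q p ^ a.val := by
  rw [torsionMap_apply, toUnit_ofUnit, Units.val_pow_eq_pow_val]
  rfl

theorem torsionMap_injective : Function.Injective (torsionMap q p) := by
  have : NeZero p := ⟨(Fact.out : p.Prime).ne_zero⟩
  intro a b hab
  have h1 : zetaLoc q p ^ a.val = zetaLoc q p ^ b.val := by
    rw [← coe_toUnit_torsionMap, ← coe_toUnit_torsionMap, hab]
  exact ZMod.val_injective p
    ((isPrimitiveRoot_zetaLoc q p).pow_inj (ZMod.val_lt a) (ZMod.val_lt b) h1)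

/-- The image of `torsionMap` is the `p`-torsion of `Lq q`. -/
theorem range_torsionMap : Set.range (torsionMap q p) = {x : Lq q | p • x = 0} := by
  have : NeZero p := ⟨(Fact.out : p.Prime).ne_zero⟩
  ext x
  constructor
  · rintro ⟨a, rfl⟩
    show p • torsionMap q p a = 0
    rw [← map_nsmul, nsmul_eq_mul, ZMod.natCast_self, zero_mul, map_zero]
  · intro hx
    have hx' : p • x = 0 := hx
    have h1 : (toUnit q x) ^ p = 1 := by
      have h2 : ofUnit q ((toUnit q x) ^ p) = ofUnit q 1 := by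
        rw [ofUnit_pow, ofUnit_toUnit, hx', ofUnit_one]
      exact ofUnit_injective q h2
    have h3 : ((toUnit q x : (Qqbar q)ˣ) : Qqbar q) ^ p = 1 := by
      rw [← Units.val_pow_eq_pow_val, h1, Units.val_one]
    obtain ⟨i, hi, hpow⟩ := (isPrimitiveRoot_zetaLoc q p).eq_pow_of_pow_eq_one h3
    refine ⟨(i : ZMod p), ?_⟩
    rw [torsionMap_natCast]
    conv_rhs => rw [← ofUnit_toUnit q x]
    apply congrArg (ofUnit q)
    apply Units.ext
    rw [Units.val_pow_eq_pow_val]
    exact hpow

/-- The map `torsionMap` is equivariant: the local Galois group acts on `ZMod p` through the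
mod `p` cyclotomic character (composed with `φ_q`). -/
theorem ρ_torsionMap (s : primeLocalGaloisGroup q) (a : ZMod p) :
    (Lq q).ρ s (torsionMap q p a) = torsionMap q p (chiLoc q p s * a) := by
  have : NeZero p := ⟨(Fact.out : p.Prime).ne_zero⟩
  rw [ρ_eq_iff, coe_toUnit_torsionMap, map_pow, aut_zetaLoc, ← pow_mul]
  have h : chiLoc q p s * a = (((chiLoc q p s).val * a.val : ℕ) : ZMod p) := by
    push_cast
    rw [ZMod.natCast_zmod_val, ZMod.natCast_zmod_val]
  rw [h, torsionMap_natCast, toUnit_ofUnit, Units.val_pow_eq_pow_val]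
  rfl

end Torsion

end Fermat.Agent.Lib.CFT.Local.LqModule
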