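/-
P-CFT, package Local/LocalLayer (helper17): the DICTIONARY between the finite layers of the level
family of a Galois group and finite Galois extensions, for the local class formation
(`Global/SVersion/LocalFormation.lean`, helper66).  No cohomological input.

Generic setting: `Ω / K₀` a Galois extension (in the application `K₀ = ℚ_[q]`,
`Ω = PadicAlgCl q`), `W` a subgroup of `Ω ≃ₐ[K₀] Ω`, `U` a normal subgroup of `W`.

* `E W U`: the fixed field of `U` (an `IntermediateField K₀ Ω`); instances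
  `MulSemiringAction (↥W ⧸ U) ↥(E W U)` (`coe_mk_smul`: `(w mod U) • x = w x`) and
  `SMulCommClass (↥W ⧸ U) K₀ ↥(E W U)`;
* `IsLevel W U : Prop := U.map W.subtype ∈ (fixingLevels K₀ Ω).levels`, with
  `IsLevel.finiteDimensional`, `IsLevel.finite_quotient`, `IsLevel.faithfulSMul`,
  `IsLevel.fixingSubgroup_E`, `isLevel_of_mem_restrict`, `mem_restrict_of_isLevel`;
* `CW W := Rep.res W.subtype (Rep.ofAlgebraAutOnUnits K₀ Ω)` and the layer dictionary
  `layerIso W U : (CW W).quotientToInvariants U ≅ Rep.ofMulDistribMulAction (↥W ⧸ U) (↥(E W U))ˣ`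
  (action on units: `Units.mulDistribMulActionRight`), `layerIso_hom_apply`, `layerIso_inv_apply`;
* inflation: for normal `U'' ≤ U`: `inclE`, `quotMap`, `inclE_smul`, `exists_inclE_eq_of_fixed`,
  `exists_inclE_eq_of_fixed_ker`, `layerIso_invariantsInclusion_apply`,
  `invariantsInclusion_comp_layerIso`;
* Hilbert 90 on the layers: `IsLevel.isZero_H1_res`.

REMARK on `primeLocalGaloisGroup q`: this Prelude type is a (non reducible) definition unfolding
to `PadicAlgCl q ≃ₐ[ℚ_[q]] PadicAlgCl q`; instance search does not see through it.  Develop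
everything for `W : Subgroup (PadicAlgCl q ≃ₐ[ℚ_[q]] PadicAlgCl q)` and cast only at the very end
(a term of type `X W'` with `W' : Subgroup (PadicAlgCl q ≃ₐ[ℚ_[q]] PadicAlgCl q) := W` is accepted
where `X W` is expected); see the section `Padic` at the end.
-/
import Mathlib
import Fermat.Agent.Lib.CFT.Profinite.BridgeLocalLevels
import Fermat.Agent.Lib.CFT.Profinite.LES
import Fermat.Agent.Lib.CFT.Coh.EquivariantMap
import Fermat.Agent.Lib.CFT.Global.EtaleAlgHilbert90
import Fermat.Agent.Lib.CFT.Profinite.LevelFinite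
import Fermat.Agent.Lib.CFT.Local.LqModule

set_option autoImplicit false

noncomputable section

namespace Fermat.Agent.Lib.CFT.Local.LocalLayer

open CategoryTheory Fermat.Agent.Lib.CFT.Profinite Fermat.Agent.Lib.CFT.Profinite.Bridge

section Generic

variable {K₀ Ω : Type} [Field K₀] [Field Ω] [Algebra K₀ Ω]

variable (W : Subgroup (Ω ≃ₐ[K₀] Ω)) (U : Subgroup ↥W)

/-- The fixed field of (the image in the Galois group of) a subgroup `U` of `W`. -/
def E : IntermediateField K₀ Ω := IntermediateField.fixedField (U.map W.subtype)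

variable {W U}

theorem mem_E_iff {x : Ω} : x ∈ E W U ↔ ∀ u : ↥W, u ∈ U → (u : Ω ≃ₐ[K₀] Ω) x = x := by
  rw [E, IntermediateField.mem_fixedField_iff]
  constructor
  · intro h u hu
    exact h _ ⟨u, hu, rfl⟩
  · rintro h _ ⟨u, hu, rfl⟩
    exact h u hu

theorem apply_mem_E [U.Normal] (w : ↥W) {x : Ω} (hx : x ∈ E W U) :
    (w : Ω ≃ₐ[K₀] Ω) x ∈ E W U := by
  rw [mem_E_iff] at hx ⊢
  intro u hu
  have h1 : w⁻¹ * u * w ∈ U := by
    have := Subgroup.Normal.conj_mem (inferInstance : U.Normal) u hu w⁻¹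
    simpa using this
  have h2 := hx _ h1
  have h3 : ((w⁻¹ * u * w : ↥W) : Ω ≃ₐ[K₀] Ω) x =
      (w : Ω ≃ₐ[K₀] Ω).symm ((u : Ω ≃ₐ[K₀] Ω) ((w : Ω ≃ₐ[K₀] Ω) x)) := rfl
  rw [h3] at h2
  have h4 := congrArg (w : Ω ≃ₐ[K₀] Ω) h2
  rwa [AlgEquiv.apply_symm_apply] at h4

variable (W U)

/-- The restriction of `w ∈ W` to the fixed field of the normal subgroup `U` of `W`. -/
def resAlgHom [U.Normal] (w : ↥W) : ↥(E W U) →ₐ[K₀] ↥(E W U) where
  toFun x := ⟨(w : Ω ≃ₐ[K₀] Ω) x, apply_mem_E w x.2⟩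
  map_one' := Subtype.ext (map_one _)
  map_mul' _ _ := Subtype.ext (map_mul _ _ _)
  map_zero' := Subtype.ext (map_zero _)
  map_add' _ _ := Subtype.ext (map_add _ _ _)
  commutes' c := Subtype.ext ((w : Ω ≃ₐ[K₀] Ω).commutes c)

/-- The restriction homomorphism `W → Aut(E_U / K₀)`. -/
def resHom [U.Normal] : ↥W →* (↥(E W U) ≃ₐ[K₀] ↥(E W U)) where
  toFun w := AlgEquiv.ofAlgHom (resAlgHom W U w) (resAlgHom W U w⁻¹)
    (AlgHom.ext fun x => Subtype.ext (by
      change (w : Ω ≃ₐ[K₀] Ω) (((w⁻¹ : ↥W) : Ω ≃ₐ[K₀] Ω) x) = x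
      rw [Subgroup.coe_inv]
      exact AlgEquiv.apply_symm_apply _ _))
    (AlgHom.ext fun x => Subtype.ext (by
      change ((w⁻¹ : ↥W) : Ω ≃ₐ[K₀] Ω) ((w : Ω ≃ₐ[K₀] Ω) x) = x
      rw [Subgroup.coe_inv]
      exact AlgEquiv.symm_apply_apply _ _))
  map_one' := AlgEquiv.ext fun x => Subtype.ext rfl
  map_mul' w w' := AlgEquiv.ext fun x => Subtype.ext rfl

@[simp] theorem coe_resHom_apply [U.Normal] (w : ↥W) (x : ↥(E W U)) :
    ((resHom W U w x : ↥(E W U)) : Ω) = (w : Ω ≃ₐ[K₀] Ω) x := rfl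

theorem le_ker_resHom [U.Normal] : U ≤ (resHom W U).ker := by
  intro u hu
  rw [MonoidHom.mem_ker]
  ext x
  rw [coe_resHom_apply]
  exact mem_E_iff.1 x.2 u hu

/-- The action of `W ⧸ U` on the fixed field of `U`, as a homomorphism. -/
def quotHom [U.Normal] : ↥W ⧸ U →* (↥(E W U) ≃ₐ[K₀] ↥(E W U)) :=
  QuotientGroup.lift U (resHom W U) (le_ker_resHom W U)

@[simp] theorem quotHom_mk [U.Normal] (w : ↥W) :
    quotHom W U (w : ↥W ⧸ U) = resHom W U w := rfl

instance instMulSemiringAction [U.Normal] : MulSemiringAction (↥W ⧸ U) ↥(E W U) :=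
  MulSemiringAction.compHom _ (quotHom W U)

theorem smul_def [U.Normal] (d : ↥W ⧸ U) (x : ↥(E W U)) : d • x = quotHom W U d x := rfl

@[simp] theorem coe_mk_smul [U.Normal] (w : ↥W) (x : ↥(E W U)) :
    (((w : ↥W ⧸ U) • x : ↥(E W U)) : Ω) = (w : Ω ≃ₐ[K₀] Ω) x := rfl

instance instSMulCommClass [U.Normal] : SMulCommClass (↥W ⧸ U) K₀ ↥(E W U) where
  smul_comm d c x := by
    rw [smul_def, smul_def, map_smul]

end Generic

section Levels

variable {K₀ Ω : Type} [Field K₀] [Field Ω] [Algebra K₀ Ω] [IsGalois K₀ Ω]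

variable {W : Subgroup (Ω ≃ₐ[K₀] Ω)} {U : Subgroup ↥W}

/-- `U` is (the trace on `W` of) an open subgroup. -/
def IsLevel (W : Subgroup (Ω ≃ₐ[K₀] Ω)) (U : Subgroup ↥W) : Prop :=
  U.map W.subtype ∈ (fixingLevels K₀ Ω).levels

theorem IsLevel.exists_eq (hU : IsLevel W U) : ∃ E₀ : IntermediateField K₀ Ω,
    FiniteDimensional K₀ E₀ ∧ U.map W.subtype = E₀.fixingSubgroup := hU

theorem E_eq_of_map_eq {E₀ : IntermediateField K₀ Ω}
    (h : U.map W.subtype = E₀.fixingSubgroup) : E W U = E₀ := by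
  rw [E, h]
  exact InfiniteGalois.fixedField_fixingSubgroup E₀

theorem IsLevel.finiteDimensional (hU : IsLevel W U) : FiniteDimensional K₀ ↥(E W U) := by
  obtain ⟨E₀, hfd, h⟩ := hU.exists_eq
  rw [E_eq_of_map_eq h]
  exact hfd

theorem IsLevel.fixingSubgroup_E (hU : IsLevel W U) :
    (E W U).fixingSubgroup = U.map W.subtype := by
  obtain ⟨E₀, hfd, h⟩ := hU.exists_eq
  rw [E_eq_of_map_eq h, h]

theorem IsLevel.finite_quotient (hU : IsLevel W U) : Finite (↥W ⧸ U) := by
  have h1 : (U.map W.subtype).FiniteIndex := (fixingLevels K₀ Ω).finiteIndex _ hU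
  have h2 : U = (U.map W.subtype).subgroupOf W := by
    rw [Subgroup.subgroupOf, Subgroup.comap_map_eq_self_of_injective W.subtype_injective]
  have h3 : U.FiniteIndex := by
    rw [h2]
    infer_instance
  exact Subgroup.finite_quotient_of_finiteIndex

/-- The levels of the restricted family on an open subgroup `W` are levels in the sense above. -/
theorem isLevel_of_mem_restrict (hW : W ∈ (fixingLevels K₀ Ω).levels)
    (hU : U ∈ (LES.restrict (fixingLevels K₀ Ω) W).levels) : IsLevel W U := by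
  obtain ⟨V, hV, rfl⟩ := hU
  obtain ⟨E₁, hfd₁, rfl⟩ := hV
  obtain ⟨E₂, hfd₂, rfl⟩ := hW
  have := hfd₁; have := hfd₂
  refine ⟨E₁ ⊔ E₂, inferInstance, ?_⟩
  rw [IntermediateField.fixingSubgroup_sup]
  ext g
  constructor
  · rintro ⟨w, hw, rfl⟩
    exact ⟨hw, w.2⟩
  · rintro ⟨h1, h2⟩
    exact ⟨⟨g, h2⟩, h1, rfl⟩

/-- Conversely, a level `U` of `W` in the sense above belongs to the restricted family. -/
theorem mem_restrict_of_isLevel (hU : IsLevel W U) :
    U ∈ (LES.restrict (fixingLevels K₀ Ω) W).levels := by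
  refine ⟨U.map W.subtype, hU, ?_⟩
  exact Subgroup.comap_map_eq_self_of_injective W.subtype_injective U

end Levels

section Faithful

variable {K₀ Ω : Type} [Field K₀] [Field Ω] [Algebra K₀ Ω] [IsGalois K₀ Ω]

variable {W : Subgroup (Ω ≃ₐ[K₀] Ω)} {U : Subgroup ↥W} [U.Normal]

theorem IsLevel.faithfulSMul (hU : IsLevel W U) : FaithfulSMul (↥W ⧸ U) ↥(E W U) := by
  constructor
  intro d₁ d₂ h
  induction d₁ using QuotientGroup.induction_on with
  | H w₁ =>
  induction d₂ using QuotientGroup.induction_on with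
  | H w₂ =>
  rw [QuotientGroup.eq]
  have hmem : ((w₁⁻¹ * w₂ : ↥W) : Ω ≃ₐ[K₀] Ω) ∈ (E W U).fixingSubgroup := by
    rw [IntermediateField.mem_fixingSubgroup_iff]
    intro x hx
    have h1 := congrArg (fun y : ↥(E W U) => (y : Ω)) (h ⟨x, hx⟩)
    simp only [coe_mk_smul] at h1
    change (w₁ : Ω ≃ₐ[K₀] Ω).symm ((w₂ : Ω ≃ₐ[K₀] Ω) x) = x
    rw [← h1, AlgEquiv.symm_apply_apply]
  rw [hU.fixingSubgroup_E] at hmem
  obtain ⟨u, hu, hue⟩ := hmem
  have : u = w₁⁻¹ * w₂ := W.subtype_injective hue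
  rwa [← this]

end Faithful


section Iso

attribute [local instance] Units.mulDistribMulActionRight

variable {K₀ Ω : Type} [Field K₀] [Field Ω] [Algebra K₀ Ω]
variable (W : Subgroup (Ω ≃ₐ[K₀] Ω)) (U : Subgroup ↥W) [U.Normal]

/-- The module of the formation: `Ωˣ` as a representation of `W`. -/
abbrev CW : Rep ℤ ↥W := Rep.res W.subtype (Rep.ofAlgebraAutOnUnits K₀ Ω)

/-- The unit of `Ω` underlying an element of the module. -/
def unitOf (x : CW W) : Ωˣ := Additive.toMul (show Additive Ωˣ from x)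

theorem coe_unitOf_ρ (w : ↥W) (x : CW W) :
    ((unitOf W ((CW W).ρ w x) : Ωˣ) : Ω) = (w : Ω ≃ₐ[K₀] Ω) ((unitOf W x : Ωˣ) : Ω) := rfl

theorem unitOf_add (x y : CW W) : unitOf W (x + y) = unitOf W x * unitOf W y := rfl

theorem unitOf_zero : unitOf W (0 : CW W) = 1 := rfl

theorem unitOf_injective : Function.Injective (unitOf W) := fun _ _ h => h

theorem coe_unitOf_mem_E (x : (CW W).quotientToInvariants U) :
    ((unitOf W x.1 : Ωˣ) : Ω) ∈ E W U := by
  rw [mem_E_iff]
  intro u hu
  have h := x.2 ⟨u, hu⟩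
  have h2 := congrArg (fun y => ((unitOf W y : Ωˣ) : Ω)) h
  exact h2

/-- The unit of the fixed field `E_U` attached to a `U`-invariant element of the module. -/
def toUnitsE (x : (CW W).quotientToInvariants U) : (↥(E W U))ˣ where
  val := ⟨((unitOf W x.1 : Ωˣ) : Ω), coe_unitOf_mem_E W U x⟩
  inv := ⟨(((unitOf W x.1)⁻¹ : Ωˣ) : Ω), by
    rw [Units.val_inv_eq_inv_val]
    exact (E W U).inv_mem (coe_unitOf_mem_E W U x)⟩
  val_inv := Subtype.ext (Units.mul_inv _)
  inv_val := Subtype.ext (Units.inv_mul _)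

@[simp] theorem coe_toUnitsE (x : (CW W).quotientToInvariants U) :
    (((toUnitsE W U x : (↥(E W U))ˣ) : ↥(E W U)) : Ω) = ((unitOf W x.1 : Ωˣ) : Ω) := rfl

/-- The `U`-invariant element of the module attached to a unit of the fixed field `E_U`. -/
def ofUnitsE (y : (↥(E W U))ˣ) : (CW W).quotientToInvariants U :=
  ⟨(show CW W from Additive.ofMul (Units.map ((E W U).val : ↥(E W U) →* Ω) y)), by
    intro u
    apply unitOf_injective W
    apply Units.ext
    exact mem_E_iff.1 (y : ↥(E W U)).2 u.1 u.2⟩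

@[simp] theorem coe_unitOf_ofUnitsE (y : (↥(E W U))ˣ) :
    ((unitOf W (ofUnitsE W U y).1 : Ωˣ) : Ω) = ((y : ↥(E W U)) : Ω) := rfl

/-- The additive equivalence underlying `layerIso`. -/
def layerAddEquiv : (CW W).quotientToInvariants U ≃+ Additive (↥(E W U))ˣ where
  toFun x := Additive.ofMul (toUnitsE W U x)
  invFun y := ofUnitsE W U y.toMul
  left_inv x := by
    apply Subtype.ext
    apply unitOf_injective W
    apply Units.ext
    rfl
  right_inv y := by
    apply congrArg Additive.ofMul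
    apply Units.ext
    apply Subtype.ext
    rfl
  map_add' x y := by
    apply congrArg Additive.ofMul
    apply Units.ext
    apply Subtype.ext
    rfl

/-- **The layer dictionary**: the `W ⧸ U`-module `(Ωˣ)^U` is the unit group of the fixed field of
`U`, with the action of `W ⧸ U` on the fixed field. -/
def layerEquiv : ((CW W).ρ.quotientToInvariants U).Equiv
    (Representation.ofMulDistribMulAction (↥W ⧸ U) (↥(E W U))ˣ) :=
  Representation.Equiv.mk (layerAddEquiv W U).toIntLinearEquiv (by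
    intro d
    induction d using QuotientGroup.induction_on with
    | H w =>
      ext x
      rfl)

/-- **The layer dictionary**, as an isomorphism of representations of `W ⧸ U`. -/
def layerIso : (CW W).quotientToInvariants U ≅ Rep.ofMulDistribMulAction (↥W ⧸ U) (↥(E W U))ˣ :=
  Rep.mkIso (layerEquiv W U)

theorem layerIso_hom_apply (x : (CW W).quotientToInvariants U) :
    (layerIso W U).hom.hom x = Additive.ofMul (toUnitsE W U x) := rfl

theorem layerIso_inv_apply (y : Additive (↥(E W U))ˣ) :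
    (layerIso W U).inv.hom y = ofUnitsE W U y.toMul := rfl

end Iso


section Infl

attribute [local instance] Units.mulDistribMulActionRight

open Fermat.Agent.Lib.CFT.Global (unitsRepHomAlong)

variable {K₀ Ω : Type} [Field K₀] [Field Ω] [Algebra K₀ Ω]
variable (W : Subgroup (Ω ≃ₐ[K₀] Ω)) (U U'' : Subgroup ↥W) (hle : U'' ≤ U)

include hle in
theorem E_mono : E W U ≤ E W U'' := by
  intro x hx
  rw [mem_E_iff] at hx ⊢
  exact fun u hu => hx u (hle hu)

/-- The inclusion of the fixed fields `E_U ⊆ E_{U''}` for `U'' ≤ U`. -/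
def inclE : ↥(E W U) →ₐ[K₀] ↥(E W U'') := IntermediateField.inclusion (E_mono W U U'' hle)

@[simp] theorem coe_inclE (x : ↥(E W U)) : ((inclE W U U'' hle x : ↥(E W U'')) : Ω) = x := rfl

variable [U.Normal] [U''.Normal]

/-- The transition map `W ⧸ U'' → W ⧸ U`. -/
abbrev quotMap : ↥W ⧸ U'' →* ↥W ⧸ U := QuotientGroup.map U'' U (MonoidHom.id ↥W) hle

theorem inclE_smul (d : ↥W ⧸ U'') (x : ↥(E W U)) :
    ((inclE W U U'' hle : ↥(E W U) →ₐ[K₀] ↥(E W U'')) : ↥(E W U) →+* ↥(E W U''))
        (quotMap W U U'' hle d • x) =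
      d • ((inclE W U U'' hle : ↥(E W U) →ₐ[K₀] ↥(E W U'')) : ↥(E W U) →+* ↥(E W U'')) x := by
  induction d using QuotientGroup.induction_on with
  | H w => exact Subtype.ext rfl

omit [U.Normal] in
/-- Every element of `E_{U''}` fixed by `W ⧸ U''` comes from `E_U`. -/
theorem exists_inclE_eq_of_fixed (y : ↥(E W U'')) (hy : ∀ d : ↥W ⧸ U'', d • y = y) :
    ∃ x : ↥(E W U), inclE W U U'' hle x = y := by
  have hmem : (y : Ω) ∈ E W U := by
    rw [mem_E_iff]
    intro u _
    have := congrArg (fun z : ↥(E W U'') => (z : Ω)) (hy (u : ↥W ⧸ U''))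
    exact this
  exact ⟨⟨y, hmem⟩, Subtype.ext rfl⟩

/-- The more precise form: an element of `E_{U''}` fixed by the kernel of `W ⧸ U'' → W ⧸ U` comes
from `E_U`. -/
theorem exists_inclE_eq_of_fixed_ker (y : ↥(E W U''))
    (hy : ∀ d ∈ (quotMap W U U'' hle).ker, d • y = y) :
    ∃ x : ↥(E W U), inclE W U U'' hle x = y := by
  have hmem : (y : Ω) ∈ E W U := by
    rw [mem_E_iff]
    intro u hu
    have hk : ((u : ↥W) : ↥W ⧸ U'') ∈ (quotMap W U U'' hle).ker := by
      rw [MonoidHom.mem_ker]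
      exact (QuotientGroup.eq_one_iff u).2 hu
    have := congrArg (fun z : ↥(E W U'') => (z : Ω)) (hy _ hk)
    exact this
  exact ⟨⟨y, hmem⟩, Subtype.ext rfl⟩

/-- **Compatibility of the layer dictionary with inflation** (elementwise). -/
theorem layerIso_invariantsInclusion_apply (x : (CW W).quotientToInvariants U) :
    (layerIso W U'').hom.hom ((invariantsInclusion (CW W) U U'' hle).hom x) =
      (unitsRepHomAlong (quotMap W U U'' hle)
        ((inclE W U U'' hle : ↥(E W U) →ₐ[K₀] ↥(E W U'')) : ↥(E W U) →+* ↥(E W U''))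
        (inclE_smul W U U'' hle)).hom ((layerIso W U).hom.hom x) := by
  apply congrArg Additive.ofMul
  apply Units.ext
  apply Subtype.ext
  rfl

/-- **Compatibility of the layer dictionary with inflation**, as a commutative square of
representations of `W ⧸ U''`. -/
theorem invariantsInclusion_comp_layerIso :
    invariantsInclusion (CW W) U U'' hle ≫ (layerIso W U'').hom =
      (Rep.resFunctor (quotMap W U U'' hle)).map (layerIso W U).hom ≫
        unitsRepHomAlong (quotMap W U U'' hle)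
          ((inclE W U U'' hle : ↥(E W U) →ₐ[K₀] ↥(E W U'')) : ↥(E W U) →+* ↥(E W U''))
          (inclE_smul W U U'' hle) := by
  apply Rep.hom_ext
  ext x
  exact layerIso_invariantsInclusion_apply W U U'' hle x

end Infl

section Hilbert90

attribute [local instance] Units.mulDistribMulActionRight

variable {K₀ Ω : Type} [Field K₀] [Field Ω] [Algebra K₀ Ω] [IsGalois K₀ Ω]
variable {W : Subgroup (Ω ≃ₐ[K₀] Ω)} {U : Subgroup ↥W} [U.Normal]

/-- **Hilbert 90 on the layers**, for every subgroup of `W ⧸ U`. -/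
theorem IsLevel.isZero_H1_res (hU : IsLevel W U) (H : Subgroup (↥W ⧸ U)) :
    Limits.IsZero (groupCohomology
      (Rep.res H.subtype (Rep.ofMulDistribMulAction (↥W ⧸ U) (↥(E W U))ˣ)) 1) := by
  have := hU.finite_quotient
  have := hU.faithfulSMul
  exact Global.EtaleAlg.isZero_H1_of_forall_isMulCoboundary₁ (G := ↥H) (M := (↥(E W U))ˣ)
    fun f hf => Global.EtaleAlg.isMulCoboundary₁_of_faithful f hf

end Hilbert90


/-! ### Specialisation to the local Galois groups -/

section Padic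

open ExtCitation Fermat.Agent.Lib.CFT.Duality Fermat.Agent.Lib.CFT.Local.LqModule

section Nat

variable (q : ℕ) [Fact q.Prime] {W : Subgroup (PadicAlgCl q ≃ₐ[ℚ_[q]] PadicAlgCl q)}
  {U : Subgroup ↥W}

theorem isLevel_iff_localLevels :
    IsLevel W U ↔ U.map W.subtype ∈ (Bridge.localLevels q).levels := Iff.rfl

theorem isLevel_of_mem_restrict_localLevels (hW : W ∈ (Bridge.localLevels q).levels)
    (hU : U ∈ (LES.restrict (Bridge.localLevels q) W).levels) : IsLevel W U :=
  isLevel_of_mem_restrict hW hU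

theorem mem_restrict_localLevels_of_isLevel (hU : IsLevel W U) :
    U ∈ (LES.restrict (Bridge.localLevels q) W).levels :=
  mem_restrict_of_isLevel hU

end Nat

section Primes

variable (q : Nat.Primes)

local instance factPrime : Fact (q : ℕ).Prime := ⟨q.2⟩

variable (W : Subgroup (primeLocalGaloisGroup q)) (U : Subgroup ↥W)

/-- The module of the local formation is `Lq q` restricted to `W`. -/
theorem CW_eq : CW (K₀ := ℚ_[(q : ℕ)]) (Ω := PadicAlgCl (q : ℕ)) W = Rep.res W.subtype (Lq q) := rfl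

theorem isLevel_iff_padic :
    IsLevel (K₀ := ℚ_[(q : ℕ)]) (Ω := PadicAlgCl (q : ℕ)) W U ↔
      U.map W.subtype ∈ (primeLocalLevels q).levels := Iff.rfl

variable {W U}

theorem isLevel_of_mem_restrict_padic (hW : W ∈ (primeLocalLevels q).levels)
    (hU : U ∈ (LES.restrict (primeLocalLevels q) W).levels) :
    IsLevel (K₀ := ℚ_[(q : ℕ)]) (Ω := PadicAlgCl (q : ℕ)) W U :=
  isLevel_of_mem_restrict hW hU

theorem mem_restrict_of_isLevel_padic
    (hU : IsLevel (K₀ := ℚ_[(q : ℕ)]) (Ω := PadicAlgCl (q : ℕ)) W U) :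
    U ∈ (LES.restrict (primeLocalLevels q) W).levels :=
  mem_restrict_of_isLevel hU

end Primes

end Padic

end Fermat.Agent.Lib.CFT.Local.LocalLayer
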