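-- P-CFT layer L1a (helper59): valuations, ramification index and residue degree for finite
-- extensions of discrete valuation rings.
import Mathlib

set_option autoImplicit false
set_option linter.unusedSectionVars false

open IsLocalRing IsDedekindDomain WithZero

namespace Fermat.Agent.Lib.CFT.Local

section DVRVal

variable (R : Type*) [CommRing R] [IsDomain R] [IsDiscreteValuationRing R]
  (F : Type*) [Field F] [Algebra R F] [IsFractionRing R F]

/-- The closed point of the spectrum of a discrete valuation ring. -/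
def maxSpec : HeightOneSpectrum R :=
  ⟨maximalIdeal R, inferInstance, IsDiscreteValuationRing.not_a_field R⟩

theorem heightOneSpectrum_eq (v : HeightOneSpectrum R) : v = maxSpec R := by
  have : v.asIdeal.IsMaximal := v.isMaximal
  exact HeightOneSpectrum.ext (IsLocalRing.eq_maximalIdeal this)

/-- The normalised discrete valuation on the fraction field of a discrete valuation ring. -/
noncomputable def dvrVal : Valuation F ℤᵐ⁰ := (maxSpec R).valuation F

theorem dvrVal_algebraMap_le_one (r : R) : dvrVal R F (algebraMap R F r) ≤ 1 :=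
  (maxSpec R).valuation_le_one r

theorem dvrVal_le_one_iff {x : F} : dvrVal R F x ≤ 1 ↔ x ∈ (algebraMap R F).range := by
  constructor
  · intro h
    refine HeightOneSpectrum.mem_integers_of_valuation_le_one F x fun v => ?_
    rw [heightOneSpectrum_eq R v]
    exact h
  · rintro ⟨r, rfl⟩
    exact dvrVal_algebraMap_le_one R F r

theorem dvrVal_algebraMap_lt_one_iff (r : R) :
    dvrVal R F (algebraMap R F r) < 1 ↔ r ∈ maximalIdeal R :=
  (maxSpec R).valuation_lt_one_iff_mem r

theorem dvrVal_algebraMap_eq_one_iff (r : R) :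
    dvrVal R F (algebraMap R F r) = 1 ↔ IsUnit r := by
  rw [← not_iff_not, ← mem_nonunits_iff, ← mem_maximalIdeal, ← dvrVal_algebraMap_lt_one_iff R F]
  have := dvrVal_algebraMap_le_one R F r
  constructor
  · intro h; exact lt_of_le_of_ne this h
  · intro h; exact ne_of_lt h

theorem dvrVal_eq_one_iff {x : F} :
    dvrVal R F x = 1 ↔ ∃ u : Rˣ, algebraMap R F u = x := by
  constructor
  · intro h
    obtain ⟨r, rfl⟩ := (dvrVal_le_one_iff R F).mp h.le
    obtain ⟨u, rfl⟩ := (dvrVal_algebraMap_eq_one_iff R F r).mp h
    exact ⟨u, rfl⟩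
  · rintro ⟨u, rfl⟩
    exact (dvrVal_algebraMap_eq_one_iff R F u).mpr u.isUnit

theorem dvrVal_irreducible {ϖ : R} (h : Irreducible ϖ) :
    dvrVal R F (algebraMap R F ϖ) = exp (-1 : ℤ) := by
  unfold dvrVal
  rw [HeightOneSpectrum.valuation_of_algebraMap]
  apply HeightOneSpectrum.intValuation_singleton
  · exact h.ne_zero
  · exact (IsDiscreteValuationRing.irreducible_iff_uniformizer ϖ).mp h

/-- The integer valued order homomorphism on the units of the fraction field
(normalised so that a uniformiser has order `ofAdd (-1)`, i.e. it is the valuation). -/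
noncomputable def ordHom : Fˣ →* Multiplicative ℤ :=
  (WithZero.unitsWithZeroEquiv (α := Multiplicative ℤ)).toMonoidHom.comp
    (Units.map (dvrVal R F).toMonoidWithZeroHom.toMonoidHom)

theorem coe_ordHom (x : Fˣ) : ((ordHom R F x : Multiplicative ℤ) : ℤᵐ⁰) = dvrVal R F x := by
  simp [ordHom, WithZero.unitsWithZeroEquiv]

theorem ordHom_eq_one_iff (x : Fˣ) :
    ordHom R F x = 1 ↔ ∃ u : Rˣ, Units.map (algebraMap R F : R →* F) u = x := by
  rw [← WithZero.coe_inj, coe_ordHom, WithZero.coe_one, dvrVal_eq_one_iff]
  constructor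
  · rintro ⟨u, hu⟩
    exact ⟨u, Units.ext hu⟩
  · rintro ⟨u, hu⟩
    exact ⟨u, congrArg Units.val hu⟩

theorem ordHom_irreducible {ϖ : R} (h : Irreducible ϖ) (x : Fˣ)
    (hx : (x : F) = algebraMap R F ϖ) : ordHom R F x = Multiplicative.ofAdd (-1 : ℤ) := by
  rw [← WithZero.coe_inj, coe_ordHom, hx, dvrVal_irreducible R F h]
  rfl

theorem ordHom_surjective : Function.Surjective (ordHom R F) := by
  obtain ⟨ϖ, hϖ⟩ := IsDiscreteValuationRing.exists_irreducible R
  have hne : algebraMap R F ϖ ≠ 0 := by
    simpa using (IsFractionRing.injective R F).ne hϖ.ne_zero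
  let x : Fˣ := Units.mk0 _ hne
  have hx : ordHom R F x = Multiplicative.ofAdd (-1 : ℤ) := ordHom_irreducible R F hϖ x rfl
  intro n
  refine ⟨x ^ (-(Multiplicative.toAdd n)), ?_⟩
  rw [map_zpow, hx, ← ofAdd_zsmul]
  simp

end DVRVal

section Ram

variable (A B : Type*) [CommRing A] [IsDomain A] [IsDiscreteValuationRing A]
  [CommRing B] [IsDomain B] [IsDiscreteValuationRing B] [Algebra A B]
  [Module.Finite A B] [Module.IsTorsionFree A B]

/-- Ramification index of a finite extension of discrete valuation rings. -/
noncomputable def ramIdx : ℕ := (maximalIdeal B).ramificationIdx A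

/-- Residue degree of a finite extension of discrete valuation rings. -/
noncomputable def resDeg : ℕ := (maximalIdeal B).inertiaDeg A

theorem ramIdx_pos : 0 < ramIdx A B := Ideal.ramificationIdx_pos _ _

theorem resDeg_pos : 0 < resDeg A B := Ideal.inertiaDeg_pos _ _

theorem isLocalHom_of_finite : IsLocalHom (algebraMap A B) := by
  have : Algebra.IsIntegral A B := Algebra.IsIntegral.of_finite A B
  infer_instance

theorem primesOver_maximalIdeal :
    (maximalIdeal A).primesOver B = {maximalIdeal B} := by
  have := isLocalHom_of_finite A B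
  ext P
  simp only [Ideal.primesOver, Set.mem_ofPred_eq, Set.mem_singleton_iff]
  constructor
  · rintro ⟨hP, hPo⟩
    have hne : P ≠ ⊥ := Ideal.ne_bot_of_liesOver_of_ne_bot
      (IsDiscreteValuationRing.not_a_field A) P
    have := hP.isMaximal hne
    exact IsLocalRing.eq_maximalIdeal this
  · rintro rfl
    exact ⟨inferInstance, inferInstance⟩

/-- The fundamental identity `e * f = n` for an extension of discrete valuation rings. -/
theorem ramIdx_mul_resDeg : ramIdx A B * resDeg A B = Module.finrank A B := by
  have := isLocalHom_of_finite A B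
  have hfin : Fintype ((maximalIdeal A).primesOver B) := by
    rw [primesOver_maximalIdeal]; infer_instance
  have h := Ideal.sum_ramification_inertia_eq_finrank (maximalIdeal A) B
  rw [← h]
  have huniq : ∀ q : (maximalIdeal A).primesOver B, q.1 = maximalIdeal B := by
    intro q
    exact (Set.ext_iff.mp (primesOver_maximalIdeal A B) q.1).mp q.2
  let q0 : (maximalIdeal A).primesOver B :=
    ⟨maximalIdeal B, by rw [primesOver_maximalIdeal]; rfl⟩
  rw [Fintype.sum_eq_single q0]
  · rfl
  · intro q hq
    exact absurd (Subtype.ext (huniq q)) hq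

theorem map_maximalIdeal_ne_bot : (maximalIdeal A).map (algebraMap A B) ≠ ⊥ :=
  Ideal.map_ne_bot_of_ne_bot (IsDiscreteValuationRing.not_a_field A)

theorem map_maximalIdeal_eq_pow :
    (maximalIdeal A).map (algebraMap A B) = maximalIdeal B ^ ramIdx A B := by
  have := isLocalHom_of_finite A B
  have hne := map_maximalIdeal_ne_bot A B
  obtain ⟨n, hn⟩ := exists_maximalIdeal_pow_eq_of_principal B
    (IsPrincipalIdealRing.principal _) _ hne
  have hirr : Irreducible (maximalIdeal B) :=
    (Ideal.prime_of_isPrime (IsDiscreteValuationRing.not_a_field B) inferInstance).irreducible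
  have h1 : ramIdx A B = n := by
    unfold ramIdx
    rw [Ideal.IsDedekindDomain.ramificationIdx_eq_normalizedFactors_count (maximalIdeal A)
      (maximalIdeal B) hne, hn, UniqueFactorizationMonoid.normalizedFactors_pow,
      UniqueFactorizationMonoid.normalizedFactors_irreducible hirr, normalize_eq,
      Multiset.count_nsmul, Multiset.count_singleton_self, mul_one]
  rw [h1, hn]

theorem relNorm_maximalIdeal :
    Ideal.relNorm A (maximalIdeal B) = maximalIdeal A ^ resDeg A B := by
  have := isLocalHom_of_finite A B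
  obtain ⟨s, hs⟩ := Ideal.exists_relNorm_eq_pow_of_isPrime (maximalIdeal B) (maximalIdeal A)
  have h1 := Ideal.relNorm_algebraMap B (maximalIdeal A)
  rw [map_maximalIdeal_eq_pow, map_pow, hs, ← pow_mul, ← ramIdx_mul_resDeg A B] at h1
  have hinj : Function.Injective (fun n : ℕ => maximalIdeal A ^ n) :=
    (Ideal.pow_right_strictAnti (maximalIdeal A) (IsDiscreteValuationRing.not_a_field A)
      (Ideal.IsPrime.ne_top inferInstance)).injective
  have h2 : s * ramIdx A B = ramIdx A B * resDeg A B := hinj h1
  have h3 : s = resDeg A B := by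
    have := ramIdx_pos A B
    nlinarith
  rw [hs, h3]

end Ram

section ExtVal

variable (A K L B : Type*) [CommRing A] [IsDomain A] [IsDiscreteValuationRing A]
  [Field K] [Algebra A K] [IsFractionRing A K]
  [Field L] [Algebra K L] [FiniteDimensional K L] [Algebra A L] [IsScalarTower A K L]
  [CommRing B] [IsDomain B] [IsDiscreteValuationRing B] [Algebra A B]
  [Algebra B L] [IsScalarTower A B L] [IsIntegralClosure B A L] [IsFractionRing B L]
  [Module.Finite A B] [Module.IsTorsionFree A B]

/-- The valuation of `L` restricted to `K` is the `e`-th power of the valuation of `K`. -/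
theorem dvrVal_algebraMap (x : K) :
    dvrVal B L (algebraMap K L x) = dvrVal A K x ^ ramIdx A B := by
  have := isLocalHom_of_finite A B
  have : (maxSpec B).asIdeal.LiesOver (maxSpec A).asIdeal :=
    inferInstanceAs ((maximalIdeal B).LiesOver (maximalIdeal A))
  have h := HeightOneSpectrum.valuation_liesOver (K := K) L (maxSpec A) (maxSpec B) x
  rw [Ideal.ramificationIdx'_eq_ramificationIdx (maxSpec A).asIdeal (maxSpec B).asIdeal
    (maxSpec A).ne_bot] at h
  exact h.symm

theorem dvrVal_intNorm_irreducible {ϖ : B} (h : Irreducible ϖ) :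
    dvrVal A K (algebraMap A K (Algebra.intNorm A B ϖ)) = exp (-(resDeg A B : ℤ)) := by
  obtain ⟨π, hπ⟩ := IsDiscreteValuationRing.exists_irreducible A
  have h1 : Ideal.span {Algebra.intNorm A B ϖ} = Ideal.span {π ^ resDeg A B} := by
    rw [← Ideal.relNorm_singleton, ← (IsDiscreteValuationRing.irreducible_iff_uniformizer ϖ).mp h,
      relNorm_maximalIdeal, (IsDiscreteValuationRing.irreducible_iff_uniformizer π).mp hπ,
      Ideal.span_singleton_pow]
  obtain ⟨u, hu⟩ := Ideal.span_singleton_eq_span_singleton.mp h1
  have h2 := congrArg (fun a => dvrVal A K (algebraMap A K a)) hu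
  simp only [map_mul, map_pow] at h2
  rw [(dvrVal_algebraMap_eq_one_iff A K _).mpr u.isUnit, mul_one, dvrVal_irreducible A K hπ,
    ← exp_nsmul] at h2
  rw [h2]
  simp

theorem dvrVal_norm_algebraMap (b : B) :
    dvrVal A K (Algebra.norm K (algebraMap B L b)) =
      dvrVal B L (algebraMap B L b) ^ resDeg A B := by
  rw [← Algebra.algebraMap_intNorm (A := A) (K := K) (L := L) (B := B)]
  rcases eq_or_ne b 0 with rfl | hb
  · have : resDeg A B ≠ 0 := (resDeg_pos A B).ne'
    simp [this]
  obtain ⟨ϖ, hϖ⟩ := IsDiscreteValuationRing.exists_irreducible B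
  obtain ⟨n, u, hu⟩ := IsDiscreteValuationRing.eq_unit_mul_pow_irreducible hb hϖ
  rw [hu]
  simp only [map_mul, map_pow]
  rw [dvrVal_intNorm_irreducible A K B hϖ, dvrVal_irreducible B L hϖ,
    (dvrVal_algebraMap_eq_one_iff B L _).mpr u.isUnit,
    (dvrVal_algebraMap_eq_one_iff A K _).mpr (u.isUnit.map (Algebra.intNorm A B)), one_mul,
    one_mul, ← exp_nsmul, ← exp_nsmul, ← exp_nsmul]
  congr 1
  simp
  ring

/-- The valuation of a norm is the `f`-th power of the valuation. -/
theorem dvrVal_norm (y : L) :
    dvrVal A K (Algebra.norm K y) = dvrVal B L y ^ resDeg A B := by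
  obtain ⟨b, c, hc, rfl⟩ := IsFractionRing.div_surjective (A := B) y
  have hc0 : algebraMap B L c ≠ 0 := by
    simpa using (IsFractionRing.injective B L).ne (nonZeroDivisors.ne_zero hc)
  have h1 : algebraMap B L b / algebraMap B L c * algebraMap B L c = algebraMap B L b :=
    div_mul_cancel₀ _ hc0
  have h2 := congrArg (fun z => dvrVal A K (Algebra.norm K z)) h1
  simp only [map_mul] at h2
  rw [dvrVal_norm_algebraMap, dvrVal_norm_algebraMap, ← h1, map_mul, mul_pow] at h2
  have hne : dvrVal B L (algebraMap B L c) ^ resDeg A B ≠ 0 :=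
    pow_ne_zero _ ((Valuation.ne_zero_iff _).mpr hc0)
  rw [h1] at h2
  exact mul_right_cancel₀ hne h2

include A in
/-- Automorphisms over `K` preserve the valuation of `L`. -/
theorem dvrVal_algEquiv (σ : L ≃ₐ[K] L) (y : L) : dvrVal B L (σ y) = dvrVal B L y := by
  have hf : resDeg A B ≠ 0 := (resDeg_pos A B).ne'
  have h := dvrVal_norm A K L B (σ y)
  rw [Algebra.norm_eq_of_algEquiv, dvrVal_norm A K L B y] at h
  exact ((pow_left_inj₀ zero_le zero_le hf).mp h).symm

end ExtVal

end Fermat.Agent.Lib.CFT.Local
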