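import Mathlib
import Fermat.Agent.Lib.CFT.Local.Basic
import Fermat.Agent.Lib.CFT.Local.UnramifiedCore

/-!
# P-CFT, Local layer: unramified extensions of complete discretely valued fields

`A` a complete discrete valuation ring with finite residue field of cardinality `Q`,
`K = Frac A`.  Built on `Local/Basic` (helper59: the integral closure of `A` in a finite separable
extension is a complete DVR) and `Local/UnramifiedCore`.
-/

set_option autoImplicit false
set_option linter.unusedSectionVars false
set_option linter.unusedVariables false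

open IsLocalRing Polynomial Module

namespace Fermat.Agent.Lib.CFT.Local.Unramified

/-- A local ring which is complete for its maximal ideal is a Henselian local ring. -/
theorem henselianLocalRing_of_isAdicComplete (R : Type*) [CommRing R] [IsLocalRing R]
    [IsAdicComplete (maximalIdeal R) R] : HenselianLocalRing R where
  is_henselian f hf a₀ h₁ h₂ :=
    HenselianRing.is_henselian f hf a₀ h₁ (h₂.map (Ideal.Quotient.mk (maximalIdeal R)))

section helpers

lemma natCast_residue_ne_zero (R S : Type*) [CommRing R] [CommRing S] [IsLocalRing R]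
    [IsLocalRing S] [Algebra R S] [IsLocalHom (algebraMap R S)]
    {m : ℕ} (hm : (m : ResidueField R) ≠ 0) : (m : ResidueField S) ≠ 0 := by
  have : (m : ResidueField S) =
      algebraMap (ResidueField R) (ResidueField S) (m : ResidueField R) := by
    rw [map_natCast]
  rw [this, Ne, map_eq_zero_iff _ (algebraMap (ResidueField R) (ResidueField S)).injective]
  exact hm

/-- A primitive root of unity in `L` comes from the integral closure `B`. -/
lemma exists_isPrimitiveRoot_of_isPrimitiveRoot (R L B : Type*) [CommRing R] [Field L]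
    [Algebra R L] [CommRing B] [Algebra R B] [Algebra B L] [IsScalarTower R B L]
    [IsIntegralClosure B R L] {m : ℕ} (hm0 : m ≠ 0) {z : L}
    (hz : IsPrimitiveRoot z m) : ∃ ζ : B, algebraMap B L ζ = z ∧ IsPrimitiveRoot ζ m := by
  have hint : IsIntegral R z := (hz.isIntegral (Nat.pos_of_ne_zero hm0)).tower_top
  obtain ⟨ζ, hζ⟩ := (IsIntegralClosure.isIntegral_iff (A := B)).mp hint
  refine ⟨ζ, hζ, ?_⟩
  refine IsPrimitiveRoot.of_map_of_injective (f := algebraMap B L) ?_
    (IsIntegralClosure.algebraMap_injective B R L)
  rw [hζ]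
  exact hz

end helpers

section AKLB

variable (A K L B : Type) [CommRing A] [IsDomain A] [IsDiscreteValuationRing A]
  [IsAdicComplete (maximalIdeal A) A]
  [Field K] [Algebra A K] [IsFractionRing A K]
  [Field L] [Algebra K L] [FiniteDimensional K L] [Algebra.IsSeparable K L]
  [Algebra A L] [IsScalarTower A K L]
  [CommRing B] [Algebra A B] [Algebra B L] [IsScalarTower A B L]
  [IsIntegralClosure B A L]

include A K L in
/-- `B` is a Henselian local ring (from `Local/Basic`). -/
theorem henselian_B : HenselianLocalRing B := by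
  have := isDomain_B A K L B
  have := ext_isLocalRing A K L B
  have := ext_isAdicComplete A K L B
  exact henselianLocalRing_of_isAdicComplete B

include A K L in
theorem isLocalHom_B : IsLocalHom (algebraMap A B) := by
  have := isDomain_B A K L B
  exact ext_isLocalHom A K L B

section cyclotomic

variable [Finite (ResidueField A)] [IsLocalRing B] [IsLocalHom (algebraMap A B)]

include A K L B

/-- **Cyclotomic extensions of order prime to the residue characteristic are unramified.** -/
theorem isUnram_of_isCyclotomicExtension {m : ℕ} (hm : (m : ResidueField A) ≠ 0)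
    [IsCyclotomicExtension {m} K L] : IsUnram A B := by
  have := henselian_B A K L B
  have hm0 : m ≠ 0 := by rintro rfl; simp at hm
  have : NeZero m := ⟨hm0⟩
  obtain ⟨z, hz⟩ := IsCyclotomicExtension.exists_isPrimitiveRoot K L (Set.mem_singleton m) hm0
  obtain ⟨ζ, rfl, hζ⟩ := exists_isPrimitiveRoot_of_isPrimitiveRoot A L B hm0 hz
  have hgen : IntermediateField.adjoin K {algebraMap B L ζ} = ⊤ := by
    have halg : IsAlgebraic K (algebraMap B L ζ) := Algebra.IsAlgebraic.isAlgebraic _
    apply IntermediateField.toSubalgebra_injective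
    rw [IntermediateField.adjoin_simple_toSubalgebra_of_isAlgebraic halg,
      IntermediateField.top_toSubalgebra]
    exact IsCyclotomicExtension.adjoin_primitive_root_eq_top hz
  exact isUnram_of_adjoin_eq_top A K L B (natCast_residue_ne_zero A B hm) hζ hgen

/-- The degree of a cyclotomic extension of order `m` prime to the residue characteristic is the
multiplicative order of `Q` modulo `m`. -/
theorem finrank_dvd_iff_of_isCyclotomicExtension {m : ℕ} (hm : (m : ResidueField A) ≠ 0)
    [IsCyclotomicExtension {m} K L] (j : ℕ) :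
    finrank K L ∣ j ↔ m ∣ Nat.card (ResidueField A) ^ j - 1 := by
  have := henselian_B A K L B
  have hm0 : m ≠ 0 := by rintro rfl; simp at hm
  have : NeZero m := ⟨hm0⟩
  obtain ⟨z, hz⟩ := IsCyclotomicExtension.exists_isPrimitiveRoot K L (Set.mem_singleton m) hm0
  obtain ⟨ζ, rfl, hζ⟩ := exists_isPrimitiveRoot_of_isPrimitiveRoot A L B hm0 hz
  have hgen : IntermediateField.adjoin K {algebraMap B L ζ} = ⊤ := by
    have halg : IsAlgebraic K (algebraMap B L ζ) := Algebra.IsAlgebraic.isAlgebraic _
    apply IntermediateField.toSubalgebra_injective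
    rw [IntermediateField.adjoin_simple_toSubalgebra_of_isAlgebraic halg,
      IntermediateField.top_toSubalgebra]
    exact IsCyclotomicExtension.adjoin_primitive_root_eq_top hz
  exact finrank_dvd_iff_of_adjoin_eq_top A K L B (natCast_residue_ne_zero A B hm) hζ hgen j

/-- `K(μ_{Q^n-1})` has degree `n` over `K`. -/
theorem finrank_eq_of_isCyclotomicExtension {n : ℕ} (hn : n ≠ 0)
    [IsCyclotomicExtension {Nat.card (ResidueField A) ^ n - 1} K L] : finrank K L = n := by
  have hm := Teichmuller.natCast_natCard_pow_sub_one_ne_zero (ResidueField A) n hn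
  apply Nat.dvd_antisymm
  · rw [finrank_dvd_iff_of_isCyclotomicExtension A K L B hm]
  · rw [← pow_sub_one_dvd_pow_sub_one_iff
      (Finite.one_lt_card : 1 < Nat.card (ResidueField A)) n _ hn,
      ← finrank_dvd_iff_of_isCyclotomicExtension A K L B hm]

/-- **Characterisation of unramified extensions**: `L/K` is unramified iff
`L = K(μ_{Q^n-1})`, `n = [L:K]`. -/
theorem isUnram_iff_isCyclotomicExtension :
    IsUnram A B ↔ IsCyclotomicExtension {Nat.card (ResidueField A) ^ finrank K L - 1} K L := by
  have := henselian_B A K L B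
  constructor
  · exact isCyclotomicExtension_of_isUnram A K L B
  · intro h
    exact isUnram_of_isCyclotomicExtension A K L B
      (Teichmuller.natCast_natCard_pow_sub_one_ne_zero (ResidueField A) _
        (finrank_KL_ne_zero A K L B))

end cyclotomic

end AKLB

section fieldLevel

/-- `L/K` is unramified with respect to the local ring `A ⊆ K`: the maximal ideal of `A`
generates a maximal ideal of the integral closure of `A` in `L`. -/
def IsUnramifiedExt (A L : Type*) [CommRing A] [IsLocalRing A] [Field L] [Algebra A L] : Prop :=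
  ((maximalIdeal A).map (algebraMap A (integralClosure A L))).IsMaximal

/-- Transport of `IsUnramifiedExt` to an arbitrary integral closure `B`. -/
theorem isUnramifiedExt_iff_isUnram (A L B : Type*) [CommRing A] [IsLocalRing A] [Field L]
    [Algebra A L] [CommRing B] [Algebra A B] [Algebra B L] [IsScalarTower A B L]
    [IsIntegralClosure B A L] [IsLocalRing B] : IsUnramifiedExt A L ↔ IsUnram A B := by
  let e : integralClosure A L ≃ₐ[A] B := IsIntegralClosure.equiv A (integralClosure A L) L B
  have hmap : ((maximalIdeal A).map (algebraMap A (integralClosure A L))).map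
      (e : integralClosure A L →+* B) = (maximalIdeal A).map (algebraMap A B) := by
    rw [Ideal.map_map]
    congr 1
    ext x
    simp
  rw [IsUnramifiedExt, IsUnram, ← hmap]
  constructor
  · intro h
    have h2 : (Ideal.map (e : integralClosure A L →+* B)
        ((maximalIdeal A).map (algebraMap A (integralClosure A L)))).IsMaximal :=
      Ideal.map_isMaximal_of_equiv e.toRingEquiv
    exact IsLocalRing.eq_maximalIdeal h2
  · intro h
    have h3 : ((maximalIdeal A).map (algebraMap A (integralClosure A L))) =
        (maximalIdeal B).comap (e : integralClosure A L →+* B) := by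
      rw [← h]
      exact (Ideal.comap_map_of_bijective _ e.bijective).symm
    rw [h3]
    exact Ideal.comap_isMaximal_of_equiv e.toRingEquiv

end fieldLevel

section intermediate

variable (A K : Type) [CommRing A] [IsDomain A] [IsDiscreteValuationRing A]
  [IsAdicComplete (maximalIdeal A) A] [Field K] [Algebra A K] [IsFractionRing A K]
  [Finite (ResidueField A)]
  (Ω : Type) [Field Ω] [Algebra K Ω] [Algebra A Ω] [IsScalarTower A K Ω]

section oneField

variable (E : IntermediateField K Ω) [FiniteDimensional K E] [Algebra.IsSeparable K E]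

/-- Field-level characterisation: `E/K` is unramified iff `E = K(μ_{Q^n-1})`, `n = [E:K]`. -/
theorem isUnramifiedExt_iff_isCyclotomicExtension :
    IsUnramifiedExt A E ↔
      IsCyclotomicExtension {Nat.card (ResidueField A) ^ finrank K E - 1} K E := by
  have := henselian_B A K E (integralClosure A E)
  have := isLocalHom_B A K E (integralClosure A E)
  rw [isUnramifiedExt_iff_isUnram A E (integralClosure A E)]
  exact isUnram_iff_isCyclotomicExtension A K E (integralClosure A E)

/-- Adjoining roots of unity of order prime to the residue characteristic is unramified. -/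
theorem isUnramifiedExt_of_isCyclotomicExtension {m : ℕ} (hm : (m : ResidueField A) ≠ 0)
    [IsCyclotomicExtension {m} K E] : IsUnramifiedExt A E := by
  have := henselian_B A K E (integralClosure A E)
  have := isLocalHom_B A K E (integralClosure A E)
  rw [isUnramifiedExt_iff_isUnram A E (integralClosure A E)]
  exact isUnram_of_isCyclotomicExtension A K E (integralClosure A E) hm

theorem finrank_dvd_iff_of_isCyclotomicExtension' {m : ℕ} (hm : (m : ResidueField A) ≠ 0)
    [IsCyclotomicExtension {m} K E] (j : ℕ) :
    finrank K E ∣ j ↔ m ∣ Nat.card (ResidueField A) ^ j - 1 := by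
  have := henselian_B A K E (integralClosure A E)
  have := isLocalHom_B A K E (integralClosure A E)
  exact finrank_dvd_iff_of_isCyclotomicExtension A K E (integralClosure A E) hm j

theorem finrank_eq_of_isCyclotomicExtension' {n : ℕ} (hn : n ≠ 0)
    [IsCyclotomicExtension {Nat.card (ResidueField A) ^ n - 1} K E] : finrank K E = n := by
  have := henselian_B A K E (integralClosure A E)
  have := isLocalHom_B A K E (integralClosure A E)
  exact finrank_eq_of_isCyclotomicExtension A K E (integralClosure A E) hn

end oneField

section unramifiedExt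

/-- The unramified extension of `K` of degree `n` inside `Ω`, namely `K(μ_{Q^n-1}(Ω))`
(it has the expected properties as soon as `Ω` contains a primitive `(Q^n-1)`-th root of unity).
-/
def unramifiedExt (n : ℕ) : IntermediateField K Ω :=
  IntermediateField.adjoin K {x : Ω | x ^ (Nat.card (ResidueField A) ^ n - 1) = 1}

omit [IsDomain A] [IsDiscreteValuationRing A] [IsAdicComplete (maximalIdeal A) A]
  [IsFractionRing A K] [Finite (ResidueField A)] [IsScalarTower A K Ω] [Algebra A K]
  [Algebra A Ω] in
lemma adjoin_pow_eq_one_eq_adjoin_simple {m : ℕ} (hm0 : m ≠ 0) {z : Ω}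
    (hz : IsPrimitiveRoot z m) :
    IntermediateField.adjoin K {x : Ω | x ^ m = 1} = IntermediateField.adjoin K {z} := by
  have : NeZero m := ⟨hm0⟩
  apply le_antisymm
  · rw [IntermediateField.adjoin_le_iff]
    intro x hx
    obtain ⟨i, -, rfl⟩ := hz.eq_pow_of_pow_eq_one hx
    exact pow_mem (IntermediateField.mem_adjoin_simple_self K z) i
  · apply IntermediateField.adjoin.mono
    intro x hx
    rw [Set.mem_singleton_iff] at hx
    subst hx
    exact hz.pow_eq_one

variable {n : ℕ} (hn : n ≠ 0) {z : Ω}
  (hz : IsPrimitiveRoot z (Nat.card (ResidueField A) ^ n - 1))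

include hn hz

lemma card_pow_sub_one_ne_zero : Nat.card (ResidueField A) ^ n - 1 ≠ 0 := by
  have h1 : 1 < Nat.card (ResidueField A) := Finite.one_lt_card
  have h2 : 1 < Nat.card (ResidueField A) ^ n := Nat.one_lt_pow hn h1
  omega

theorem unramifiedExt_eq_adjoin :
    unramifiedExt A K Ω n = IntermediateField.adjoin K {z} :=
  adjoin_pow_eq_one_eq_adjoin_simple K Ω (card_pow_sub_one_ne_zero A Ω hn hz) hz

theorem isCyclotomicExtension_unramifiedExt :
    IsCyclotomicExtension {Nat.card (ResidueField A) ^ n - 1} K (unramifiedExt A K Ω n) := by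
  have : NeZero (Nat.card (ResidueField A) ^ n - 1) := ⟨card_pow_sub_one_ne_zero A Ω hn hz⟩
  exact (IntermediateField.isCyclotomicExtension_singleton_iff_eq_adjoin _ K Ω _ hz).mpr
    (unramifiedExt_eq_adjoin A K Ω hn hz)

theorem finiteDimensional_unramifiedExt : FiniteDimensional K (unramifiedExt A K Ω n) := by
  have := isCyclotomicExtension_unramifiedExt A K Ω hn hz
  exact IsCyclotomicExtension.finiteDimensional {Nat.card (ResidueField A) ^ n - 1} K _

theorem isGalois_unramifiedExt : IsGalois K (unramifiedExt A K Ω n) := by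
  have := isCyclotomicExtension_unramifiedExt A K Ω hn hz
  have : NeZero (Nat.card (ResidueField A) ^ n - 1) := ⟨card_pow_sub_one_ne_zero A Ω hn hz⟩
  exact IsCyclotomicExtension.isGalois {Nat.card (ResidueField A) ^ n - 1} K _

/-- **Existence**: `K(μ_{Q^n-1}(Ω))` has degree `n` over `K`. -/
theorem finrank_unramifiedExt : finrank K (unramifiedExt A K Ω n) = n := by
  have := isCyclotomicExtension_unramifiedExt A K Ω hn hz
  have := finiteDimensional_unramifiedExt A K Ω hn hz
  have := isGalois_unramifiedExt A K Ω hn hz
  exact finrank_eq_of_isCyclotomicExtension' A K Ω (unramifiedExt A K Ω n) hn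

/-- **Existence**: `K(μ_{Q^n-1}(Ω))` is unramified over `K`. -/
theorem isUnramifiedExt_unramifiedExt : IsUnramifiedExt A (unramifiedExt A K Ω n) := by
  have := isCyclotomicExtension_unramifiedExt A K Ω hn hz
  have := finiteDimensional_unramifiedExt A K Ω hn hz
  have := isGalois_unramifiedExt A K Ω hn hz
  exact isUnramifiedExt_of_isCyclotomicExtension A K Ω (unramifiedExt A K Ω n)
    (Teichmuller.natCast_natCard_pow_sub_one_ne_zero (ResidueField A) n hn)

end unramifiedExt

section uniqueness

/-- **Uniqueness**: an unramified subextension of `Ω/K` of degree `d` is `K(μ_{Q^d-1}(Ω))`. -/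
theorem eq_unramifiedExt_of_isUnramifiedExt (E : IntermediateField K Ω) [FiniteDimensional K E]
    [Algebra.IsSeparable K E] (h : IsUnramifiedExt A E) :
    E = unramifiedExt A K Ω (finrank K E) := by
  have hd : finrank K E ≠ 0 := (finrank_pos (R := K) (M := E)).ne'
  have hcyc := (isUnramifiedExt_iff_isCyclotomicExtension A K Ω E).mp h
  have hm : Nat.card (ResidueField A) ^ finrank K E - 1 ≠ 0 := by
    have h1 : 1 < Nat.card (ResidueField A) := Finite.one_lt_card
    have h2 : 1 < Nat.card (ResidueField A) ^ finrank K E := Nat.one_lt_pow hd h1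
    omega
  have : NeZero (Nat.card (ResidueField A) ^ finrank K E - 1) := ⟨hm⟩
  obtain ⟨zE, hzE⟩ := IsCyclotomicExtension.exists_isPrimitiveRoot K E
    (Set.mem_singleton (Nat.card (ResidueField A) ^ finrank K E - 1)) hm
  have hz : IsPrimitiveRoot (zE : Ω) (Nat.card (ResidueField A) ^ finrank K E - 1) :=
    hzE.map_of_injective (f := algebraMap E Ω) (algebraMap E Ω).injective
  rw [unramifiedExt_eq_adjoin A K Ω hd hz]
  exact (IntermediateField.isCyclotomicExtension_singleton_iff_eq_adjoin _ K Ω E hz).mp hcyc

/-- The unramified subextension of degree `d` of `Ω/K` is unique. -/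
theorem eq_of_isUnramifiedExt (E E' : IntermediateField K Ω) [FiniteDimensional K E]
    [Algebra.IsSeparable K E] [FiniteDimensional K E'] [Algebra.IsSeparable K E']
    (h : IsUnramifiedExt A E) (h' : IsUnramifiedExt A E') (hd : finrank K E = finrank K E') :
    E = E' := by
  rw [eq_unramifiedExt_of_isUnramifiedExt A K Ω E h,
    eq_unramifiedExt_of_isUnramifiedExt A K Ω E' h', hd]

omit [IsAdicComplete (maximalIdeal A) A] [IsFractionRing A K] [Finite (ResidueField A)]
  [IsScalarTower A K Ω] in
theorem unramifiedExt_le_of_dvd {a b : ℕ} (hab : a ∣ b) :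
    unramifiedExt A K Ω a ≤ unramifiedExt A K Ω b := by
  apply IntermediateField.adjoin.mono
  intro x hx
  obtain ⟨c, hc⟩ := Nat.pow_sub_one_dvd_pow_sub_one (Nat.card (ResidueField A)) hab
  simp only [Set.mem_ofPred_eq] at hx ⊢
  rw [hc, pow_mul, hx, one_pow]

theorem dvd_of_unramifiedExt_le {a b : ℕ} (ha : a ≠ 0) (hb : b ≠ 0) {za zb : Ω}
    (hza : IsPrimitiveRoot za (Nat.card (ResidueField A) ^ a - 1))
    (hzb : IsPrimitiveRoot zb (Nat.card (ResidueField A) ^ b - 1))
    (h : unramifiedExt A K Ω a ≤ unramifiedExt A K Ω b) : a ∣ b := by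
  have := IntermediateField.finrank_dvd_of_le_right h
  rwa [finrank_unramifiedExt A K Ω ha hza, finrank_unramifiedExt A K Ω hb hzb] at this

/-- Compositum of unramified extensions. -/
theorem unramifiedExt_sup {a b : ℕ} (ha : a ≠ 0) (hb : b ≠ 0) {z : Ω}
    (hz : IsPrimitiveRoot z (Nat.card (ResidueField A) ^ (Nat.lcm a b) - 1)) :
    unramifiedExt A K Ω a ⊔ unramifiedExt A K Ω b = unramifiedExt A K Ω (Nat.lcm a b) := by
  have hl : Nat.lcm a b ≠ 0 := Nat.lcm_ne_zero ha hb
  have hml := card_pow_sub_one_ne_zero A Ω hl hz
  obtain ⟨ca, hca⟩ := Nat.pow_sub_one_dvd_pow_sub_one (Nat.card (ResidueField A))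
    (Nat.dvd_lcm_left a b)
  obtain ⟨cb, hcb⟩ := Nat.pow_sub_one_dvd_pow_sub_one (Nat.card (ResidueField A))
    (Nat.dvd_lcm_right a b)
  have hza : IsPrimitiveRoot (z ^ ca) (Nat.card (ResidueField A) ^ a - 1) :=
    hz.pow (Nat.pos_of_ne_zero hml) (by rw [hca, mul_comm])
  have hzb : IsPrimitiveRoot (z ^ cb) (Nat.card (ResidueField A) ^ b - 1) :=
    hz.pow (Nat.pos_of_ne_zero hml) (by rw [hcb, mul_comm])
  have := finiteDimensional_unramifiedExt A K Ω hl hz
  have hle : unramifiedExt A K Ω a ⊔ unramifiedExt A K Ω b ≤
      unramifiedExt A K Ω (Nat.lcm a b) :=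
    sup_le (unramifiedExt_le_of_dvd A K Ω (Nat.dvd_lcm_left a b))
      (unramifiedExt_le_of_dvd A K Ω (Nat.dvd_lcm_right a b))
  refine IntermediateField.eq_of_le_of_finrank_le hle ?_
  rw [finrank_unramifiedExt A K Ω hl hz]
  have h1 := IntermediateField.finrank_dvd_of_le_right
    (le_sup_left : unramifiedExt A K Ω a ≤ unramifiedExt A K Ω a ⊔ unramifiedExt A K Ω b)
  have h2 := IntermediateField.finrank_dvd_of_le_right
    (le_sup_right : unramifiedExt A K Ω b ≤ unramifiedExt A K Ω a ⊔ unramifiedExt A K Ω b)
  rw [finrank_unramifiedExt A K Ω ha hza] at h1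
  rw [finrank_unramifiedExt A K Ω hb hzb] at h2
  have h3 : finrank K ↥(unramifiedExt A K Ω a ⊔ unramifiedExt A K Ω b) ≠ 0 := by
    have hfd : FiniteDimensional K ↥(unramifiedExt A K Ω a ⊔ unramifiedExt A K Ω b) :=
      FiniteDimensional.of_injective (IntermediateField.inclusion hle).toLinearMap
        (IntermediateField.inclusion hle).injective
    exact (finrank_pos (R := K)).ne'
  exact Nat.le_of_dvd (Nat.pos_of_ne_zero h3) (Nat.lcm_dvd h1 h2)

end uniqueness

end intermediate

section AKLB2

variable (A K L B : Type) [CommRing A] [IsDomain A] [IsDiscreteValuationRing A]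
  [IsAdicComplete (maximalIdeal A) A]
  [Field K] [Algebra A K] [IsFractionRing A K] [Finite (ResidueField A)]
  [Field L] [Algebra K L] [FiniteDimensional K L] [Algebra.IsSeparable K L]
  [Algebra A L] [IsScalarTower A K L]
  [CommRing B] [Algebra A B] [Algebra B L] [IsScalarTower A B L]
  [IsIntegralClosure B A L] [IsLocalRing B] [IsLocalHom (algebraMap A B)]

include A K L B

/-- `L` contains a primitive `(Q^f-1)`-th root of unity, `f` the residue degree of `L/K`. -/
lemma exists_isPrimitiveRoot_L :
    ∃ z : L, IsPrimitiveRoot z (Nat.card (ResidueField A) ^ resDegree A B - 1) := by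
  have := henselian_B A K L B
  obtain ⟨ζ, hζ⟩ := exists_isPrimitiveRoot_B A K L B
  exact ⟨algebraMap B L ζ, hζ.map_of_injective (IsIntegralClosure.algebraMap_injective B A L)⟩

lemma resDegree_ne_zero : resDegree A B ≠ 0 := by
  have := henselian_B A K L B
  exact (resDegree_pos A K L B).ne'

/-- The **maximal unramified subextension** of `L/K`: `K(μ_{Q^f-1}(L))`. -/
noncomputable def maxUnram : IntermediateField K L := unramifiedExt A K L (resDegree A B)

theorem finrank_maxUnram : finrank K (maxUnram A K L B) = resDegree A B := by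
  obtain ⟨z, hz⟩ := exists_isPrimitiveRoot_L A K L B
  exact finrank_unramifiedExt A K L (resDegree_ne_zero A K L B) hz

theorem isUnramifiedExt_maxUnram : IsUnramifiedExt A (maxUnram A K L B) := by
  obtain ⟨z, hz⟩ := exists_isPrimitiveRoot_L A K L B
  exact isUnramifiedExt_unramifiedExt A K L (resDegree_ne_zero A K L B) hz

theorem isGalois_maxUnram : IsGalois K (maxUnram A K L B) := by
  obtain ⟨z, hz⟩ := exists_isPrimitiveRoot_L A K L B
  exact isGalois_unramifiedExt A K L (resDegree_ne_zero A K L B) hz

theorem isCyclotomicExtension_maxUnram :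
    IsCyclotomicExtension {Nat.card (ResidueField A) ^ resDegree A B - 1} K
      (maxUnram A K L B) := by
  obtain ⟨z, hz⟩ := exists_isPrimitiveRoot_L A K L B
  exact isCyclotomicExtension_unramifiedExt A K L (resDegree_ne_zero A K L B) hz

/-- If `L` contains a primitive `(Q^d-1)`-th root of unity then `d` divides the residue degree. -/
theorem dvd_resDegree_of_isPrimitiveRoot {d : ℕ} (hd : d ≠ 0) {z : L}
    (hz : IsPrimitiveRoot z (Nat.card (ResidueField A) ^ d - 1)) : d ∣ resDegree A B := by
  have := henselian_B A K L B
  have := finite_residueField_B A K L B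
  have hm0 := card_pow_sub_one_ne_zero A L hd hz
  obtain ⟨ζ, rfl, hζ⟩ := exists_isPrimitiveRoot_of_isPrimitiveRoot A L B hm0 hz
  have hres := isPrimitiveRoot_residue (natCast_card_pow_sub_one_ne_zero_B A B d hd) hζ
  have h1 : residue B ζ ^ (Nat.card (ResidueField A) ^ resDegree A B - 1) = 1 := by
    rw [← natCard_residueField_B A K L B]
    apply Teichmuller.pow_natCard_sub_one_eq_one
    exact hres.ne_zero hm0
  rw [← pow_sub_one_dvd_pow_sub_one_iff
    (Finite.one_lt_card : 1 < Nat.card (ResidueField A)) d _ hd]
  exact hres.dvd_of_pow_eq_one _ h1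

/-- Every unramified subextension of `L/K` is contained in the maximal one. -/
theorem le_maxUnram (E : IntermediateField K L) (h : IsUnramifiedExt A E) :
    E ≤ maxUnram A K L B := by
  have hd : finrank K E ≠ 0 := (finrank_pos (R := K) (M := E)).ne'
  have hcyc := (isUnramifiedExt_iff_isCyclotomicExtension A K L E).mp h
  have hm : Nat.card (ResidueField A) ^ finrank K E - 1 ≠ 0 := by
    have h1 : 1 < Nat.card (ResidueField A) := Finite.one_lt_card
    have h2 : 1 < Nat.card (ResidueField A) ^ finrank K E := Nat.one_lt_pow hd h1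
    omega
  obtain ⟨zE, hzE⟩ := IsCyclotomicExtension.exists_isPrimitiveRoot K E
    (Set.mem_singleton (Nat.card (ResidueField A) ^ finrank K E - 1)) hm
  have hz : IsPrimitiveRoot (zE : L) (Nat.card (ResidueField A) ^ finrank K E - 1) :=
    hzE.map_of_injective (f := algebraMap E L) (algebraMap E L).injective
  rw [eq_unramifiedExt_of_isUnramifiedExt A K L E h]
  exact unramifiedExt_le_of_dvd A K L (dvd_resDegree_of_isPrimitiveRoot A K L B hd hz)

/-- **Subextensions of unramified extensions are unramified.** -/
theorem isUnramifiedExt_of_isUnram (h : IsUnram A B) (E : IntermediateField K L) :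
    IsUnramifiedExt A E := by
  have := henselian_B A K L B
  have hgal := isGalois_of_isUnram A K L B h
  have hmul : finrank K E * finrank E L = finrank K L := Module.finrank_mul_finrank K E L
  have hd : finrank K E ≠ 0 := (finrank_pos (R := K) (M := E)).ne'
  have hr : finrank E L ≠ 0 := (finrank_pos (R := E) (M := L)).ne'
  have hn : finrank K L ≠ 0 := (finrank_pos (R := K) (M := L)).ne'
  have hcyc := isCyclotomicExtension_of_isUnram A K L B h
  have hmn : Nat.card (ResidueField A) ^ finrank K L - 1 ≠ 0 := by
    have h1 : 1 < Nat.card (ResidueField A) := Finite.one_lt_card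
    have h2 : 1 < Nat.card (ResidueField A) ^ finrank K L := Nat.one_lt_pow hn h1
    omega
  obtain ⟨z, hz⟩ := IsCyclotomicExtension.exists_isPrimitiveRoot K L
    (Set.mem_singleton (Nat.card (ResidueField A) ^ finrank K L - 1)) hmn
  obtain ⟨c, hc⟩ := Nat.pow_sub_one_dvd_pow_sub_one (Nat.card (ResidueField A))
    (Dvd.intro _ hmul : finrank K E ∣ finrank K L)
  have hzd : IsPrimitiveRoot (z ^ c) (Nat.card (ResidueField A) ^ finrank K E - 1) :=
    hz.pow (Nat.pos_of_ne_zero hmn) (by rw [hc, mul_comm])
  have hmd := card_pow_sub_one_ne_zero A L hd hzd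
  have hmem : z ^ c ∈ E := by
    rw [← IsGalois.fixedField_fixingSubgroup E, IntermediateField.mem_fixedField_iff]
    intro σ hσ
    obtain ⟨i, -, rfl⟩ := exists_frob_pow_eq A K L B h σ
    have h1 : (frob A K L B h ^ i) ^ finrank E L = 1 := by
      have h2 := pow_card_eq_one' (G := E.fixingSubgroup) (x := ⟨frob A K L B h ^ i, hσ⟩)
      rw [IsGalois.card_fixingSubgroup_eq_finrank] at h2
      have h3 := congrArg Subtype.val h2
      simpa using h3
    rw [← pow_mul, ← orderOf_dvd_iff_pow_eq_one, orderOf_frob, ← hmul] at h1
    have hdi : finrank K E ∣ i := Nat.dvd_of_mul_dvd_mul_right (Nat.pos_of_ne_zero hr) h1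
    obtain ⟨ζd, hζd_eq, hζd⟩ := exists_isPrimitiveRoot_of_isPrimitiveRoot A L B hmd hzd
    rw [← hζd_eq, ← algebraMap_galRestrict_apply A,
      frob_pow_apply_of_pow_eq_one A K L B h
        (natCast_card_pow_sub_one_ne_zero_B A B _ hd) hζd.pow_eq_one i]
    congr 1
    obtain ⟨c', hc'⟩ := Nat.pow_sub_one_dvd_pow_sub_one (Nat.card (ResidueField A)) hdi
    have hQ : 1 ≤ Nat.card (ResidueField A) ^ i := Nat.one_le_pow _ _ Nat.card_pos
    calc ζd ^ Nat.card (ResidueField A) ^ i
        = ζd ^ (Nat.card (ResidueField A) ^ i - 1 + 1) := by rw [Nat.sub_add_cancel hQ]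
      _ = ζd := by rw [pow_succ, hc', pow_mul, hζd.pow_eq_one, one_pow, one_mul]
  have hle : unramifiedExt A K L (finrank K E) ≤ E := by
    rw [unramifiedExt_eq_adjoin A K L hd hzd, IntermediateField.adjoin_simple_le_iff]
    exact hmem
  have heq : unramifiedExt A K L (finrank K E) = E :=
    IntermediateField.eq_of_le_of_finrank_eq hle (finrank_unramifiedExt A K L hd hzd)
  have key := isUnramifiedExt_unramifiedExt A K L hd hzd
  rw [heq] at key
  exact key

section galois

/-- A Teichmüller generator: `ζ ∈ B` primitive `(Q^f-1)`-th root of unity; its residue generates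
the residue field of `B` over that of `A`. -/
lemma adjoin_residue_eq_top {ζ : B}
    (hζ : IsPrimitiveRoot ζ (Nat.card (ResidueField A) ^ resDegree A B - 1)) :
    Algebra.adjoin (ResidueField A) {residue B ζ} = ⊤ := by
  have := henselian_B A K L B
  have := finite_residueField_B A K L B
  apply adjoin_primitiveRoot_eq_top
  rw [natCard_residueField_B A K L B]
  exact isPrimitiveRoot_residue
    (natCast_card_pow_sub_one_ne_zero_B A B _ (resDegree_ne_zero A K L B)) hζ

/-- An automorphism raising a Teichmüller generator to the `Q^j`-th power induces the `j`-th power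
of the Frobenius on the residue field. -/
lemma residueGalHom_eq_frobRes_pow {ζ : B}
    (hζ : IsPrimitiveRoot ζ (Nat.card (ResidueField A) ^ resDegree A B - 1))
    (σ : L ≃ₐ[K] L) (j : ℕ)
    (hσ : σ (algebraMap B L ζ) = algebraMap B L ζ ^ (Nat.card (ResidueField A) ^ j)) :
    residueGalHom A K L B σ =
      (have := henselian_B A K L B; frobRes A K L B) ^ j := by
  have := henselian_B A K L B
  have hgen := adjoin_residue_eq_top A K L B hζ
  have h1 : galRestrict A K L B σ ζ = ζ ^ (Nat.card (ResidueField A) ^ j) := by
    apply IsIntegralClosure.algebraMap_injective B A L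
    rw [algebraMap_galRestrict_apply, hσ, map_pow]
  apply AlgEquiv.coe_toAlgHom_injective
  refine AlgHom.ext_of_adjoin_eq_top hgen ?_
  intro x hx
  rw [Set.mem_singleton_iff] at hx
  subst hx
  simp only [AlgEquiv.coe_toAlgHom]
  rw [residueGalHom_residue, h1, map_pow]
  clear hσ h1
  induction j with
  | zero => simp
  | succ j ih =>
    rw [pow_succ (frobRes A K L B), AlgEquiv.mul_apply, frobRes_apply, map_pow, ← ih, ← pow_mul,
      ← pow_succ]

/-- For a Galois extension `L/K`, there is `σ ∈ Gal(L/K)` inducing the Frobenius on the residue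
field. -/
theorem exists_residueGalHom_eq_frobRes [IsGalois K L] :
    ∃ σ : L ≃ₐ[K] L, residueGalHom A K L B σ =
      (have := henselian_B A K L B; frobRes A K L B) := by
  have := henselian_B A K L B
  obtain ⟨ζ, hζ⟩ := exists_isPrimitiveRoot_B A K L B
  have hf := resDegree_ne_zero A K L B
  have hz : IsPrimitiveRoot (algebraMap B L ζ)
      (Nat.card (ResidueField A) ^ resDegree A B - 1) :=
    hζ.map_of_injective (IsIntegralClosure.algebraMap_injective B A L)
  have hm0 := card_pow_sub_one_ne_zero A L hf hz
  -- the maximal unramified subextension and its ring of integers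
  have hEeq : maxUnram A K L B = IntermediateField.adjoin K {algebraMap B L ζ} :=
    unramifiedExt_eq_adjoin A K L hf hz
  have hzmem : algebraMap B L ζ ∈ maxUnram A K L B := by
    rw [hEeq]; exact IntermediateField.mem_adjoin_simple_self K _
  have hC := henselian_B A K (maxUnram A K L B) (integralClosure A (maxUnram A K L B))
  have hC' := isLocalHom_B A K (maxUnram A K L B) (integralClosure A (maxUnram A K L B))
  have hun : IsUnram A (integralClosure A (maxUnram A K L B)) :=
    (isUnramifiedExt_iff_isUnram A (maxUnram A K L B)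
      (integralClosure A (maxUnram A K L B))).mp (isUnramifiedExt_maxUnram A K L B)
  have hzE : IsPrimitiveRoot (⟨algebraMap B L ζ, hzmem⟩ : maxUnram A K L B)
      (Nat.card (ResidueField A) ^ resDegree A B - 1) := by
    refine IsPrimitiveRoot.of_map_of_injective (f := algebraMap (maxUnram A K L B) L) ?_
      (algebraMap (maxUnram A K L B) L).injective
    exact hz
  obtain ⟨ζC, hζC_eq, hζC⟩ := exists_isPrimitiveRoot_of_isPrimitiveRoot A
    (maxUnram A K L B) (integralClosure A (maxUnram A K L B)) hm0 hzE
  have hfrobE : frob A K (maxUnram A K L B) (integralClosure A (maxUnram A K L B)) hun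
      ⟨algebraMap B L ζ, hzmem⟩ =
      (⟨algebraMap B L ζ, hzmem⟩ : maxUnram A K L B) ^ Nat.card (ResidueField A) := by
    have h1 := frob_apply_of_pow_eq_one A K (maxUnram A K L B)
      (integralClosure A (maxUnram A K L B)) hun
      (natCast_card_pow_sub_one_ne_zero_B A (integralClosure A (maxUnram A K L B)) _ hf)
      hζC.pow_eq_one
    have h2 := congrArg (algebraMap (integralClosure A (maxUnram A K L B))
      (maxUnram A K L B)) h1
    rw [algebraMap_galRestrict_apply, map_pow, hζC_eq] at h2
    exact h2
  have hnorm : Normal K L := inferInstance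
  refine ⟨(frob A K (maxUnram A K L B) (integralClosure A (maxUnram A K L B)) hun).liftNormal L,
    ?_⟩
  have key := residueGalHom_eq_frobRes_pow A K L B hζ
    ((frob A K (maxUnram A K L B) (integralClosure A (maxUnram A K L B)) hun).liftNormal L) 1 ?_
  · simpa using key
  · have h3 := AlgEquiv.liftNormal_commutes
      (frob A K (maxUnram A K L B) (integralClosure A (maxUnram A K L B)) hun) L
      ⟨algebraMap B L ζ, hzmem⟩
    rw [hfrobE] at h3
    simpa using h3

/-- **For a Galois extension, `Gal(L/K) → Gal(κ_B/κ_A)` is surjective.** -/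
theorem residueGalHom_surjective [IsGalois K L] :
    Function.Surjective (residueGalHom A K L B) := by
  have := henselian_B A K L B
  intro g
  obtain ⟨σ, hσ⟩ := exists_residueGalHom_eq_frobRes A K L B
  obtain ⟨i, -, rfl⟩ := exists_frobRes_pow_eq A K L B g
  exact ⟨σ ^ i, by rw [map_pow, hσ]⟩

/-- The inertia group is the subgroup fixing the maximal unramified subextension. -/
theorem inertiaGroup_eq_fixingSubgroup :
    inertiaGroup A K L B = (maxUnram A K L B).fixingSubgroup := by
  have := henselian_B A K L B
  obtain ⟨ζ, hζ⟩ := exists_isPrimitiveRoot_B A K L B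
  have hf := resDegree_ne_zero A K L B
  have hz : IsPrimitiveRoot (algebraMap B L ζ)
      (Nat.card (ResidueField A) ^ resDegree A B - 1) :=
    hζ.map_of_injective (IsIntegralClosure.algebraMap_injective B A L)
  have hEeq : maxUnram A K L B = IntermediateField.adjoin K {algebraMap B L ζ} :=
    unramifiedExt_eq_adjoin A K L hf hz
  ext σ
  rw [IntermediateField.mem_fixingSubgroup_iff]
  constructor
  · intro hσ
    have h1 : galRestrict A K L B σ ζ = ζ := by
      refine eq_of_pow_eq_one_of_residue_eq
        (natCast_card_pow_sub_one_ne_zero_B A B _ hf) ?_ hζ.pow_eq_one ?_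
      · rw [← map_pow, hζ.pow_eq_one, map_one]
      · rw [inertiaGroup, MonoidHom.mem_ker] at hσ
        rw [← residueGalHom_residue, hσ, AlgEquiv.one_apply]
    have h2 : σ (algebraMap B L ζ) = algebraMap B L ζ := by
      rw [← algebraMap_galRestrict_apply A, h1]
    have h3 : maxUnram A K L B ≤ IntermediateField.fixedField (Subgroup.zpowers σ) := by
      rw [hEeq, IntermediateField.adjoin_simple_le_iff, IntermediateField.mem_fixedField_iff]
      intro τ hτ
      obtain ⟨k, rfl⟩ := Subgroup.mem_zpowers_iff.mp hτ
      have hfix : ∀ k : ℕ, (σ ^ k) (algebraMap B L ζ) = algebraMap B L ζ := by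
        intro k
        induction k with
        | zero => simp
        | succ k ih => rw [pow_succ, AlgEquiv.mul_apply, h2, ih]
      obtain ⟨m, rfl | rfl⟩ := Int.eq_nat_or_neg k
      · rw [zpow_natCast]; exact hfix m
      · rw [zpow_neg, zpow_natCast]
        have := hfix m
        calc (σ ^ m)⁻¹ (algebraMap B L ζ) = (σ ^ m)⁻¹ ((σ ^ m) (algebraMap B L ζ)) := by
              rw [this]
          _ = algebraMap B L ζ := by
              rw [← AlgEquiv.mul_apply, inv_mul_cancel, AlgEquiv.one_apply]
    intro x hx
    have := (IntermediateField.mem_fixedField_iff _ x).mp (h3 hx) σ (Subgroup.mem_zpowers σ)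
    exact this
  · intro hσ
    have h2 : σ (algebraMap B L ζ) = algebraMap B L ζ := by
      apply hσ
      rw [hEeq]
      exact IntermediateField.mem_adjoin_simple_self K _
    have key := residueGalHom_eq_frobRes_pow A K L B hζ σ 0 (by simpa using h2)
    rw [inertiaGroup, MonoidHom.mem_ker, key, pow_zero]

/-- `e · f = n` in group-theoretic form: `#I · f = [L:K]` for Galois `L/K`. -/
theorem card_inertiaGroup_mul_resDegree [IsGalois K L] :
    Nat.card (inertiaGroup A K L B) * resDegree A B = finrank K L := by
  have := henselian_B A K L B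
  have := finite_residueField_B A K L B
  have e := QuotientGroup.quotientKerEquivOfSurjective (residueGalHom A K L B)
    (residueGalHom_surjective A K L B)
  have h1 := Subgroup.card_eq_card_quotient_mul_card_subgroup (inertiaGroup A K L B)
  rw [IsGalois.card_aut_eq_finrank] at h1
  have h2 : Nat.card ((L ≃ₐ[K] L) ⧸ inertiaGroup A K L B) = resDegree A B := by
    rw [← natCard_residueGal A K L B]
    exact Nat.card_congr e.toEquiv
  rw [h1, h2, mul_comm]

end galois

end AKLB2

end Fermat.Agent.Lib.CFT.Local.Unramified
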