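/-
P-CFT (GI-3, helper59): the contract for canonical local invariants in GALOIS FORM.

`LocalInvTheoryGal p` mirrors `Local/LocalInvContract.lean` (`LocalInvTheory p`, action form) for
layers `E ⊆ F` of finite extensions of `ℚ_[p]` given as types with `[Algebra E F]`,
`[IsScalarTower ℚ_[p] E F]`, `[IsGalois E F]`, on `H²(Rep.ofAlgebraAutOnUnits E F)`.

* producers: `Local/LocalBrauer/Inv.lean` (helper43: block-parametrized `invLocal A K L`) plugged
  into the canonical blocks of `Local/LocalBrauer/PadicBlock.lean` (`intRing p E`);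
* consumer: `Local/LocalInvTransport.lean` (helper41): `LocalInvTheoryGal p → LocalInvTheory p`.
-/
import Fermat.Agent.Lib.CFT.Local.LocalBrauer.PadicBlock

set_option autoImplicit false

namespace Fermat.Agent.Lib.CFT.Local

open groupCohomology
open Fermat.Agent.Lib.CFT.Local.LocalBrauer (QZ towerHom)
open Fermat.Agent.Lib.CFT.Local.LocalBrauer.PadicBlock (IsUnramP invUnrP)

/-- A system of canonical local invariants over `ℚ_[p]`, in Galois form: for every finite Galois
extension `F / E` of finite extensions of `ℚ_[p]` an additive map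
`inv E F : H²(Gal(F/E), Fˣ) →+ ℚ/ℤ`, injective with image the `[F:E]`-torsion, compatible with
inflation, multiplied by the degree under restriction, and equal to the explicit unramified
invariant on unramified layers (canonical presentation by the rings of integers `intRing p ·`).

In `inv_infl` / `inv_res` the morphism of coefficients `j` is ANY morphism of representations
whose underlying map is `Units.map (algebraMap F F')` (resp. the identity of `Fˣ`), e.g.
`LocalBrauer.inflUnitsHom E F F'`, `LocalBrauer.towerUnitsHom E F E' F`, helper43's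
`Tower.ι` / `Square.sqι`. -/
structure LocalInvTheoryGal (p : ℕ) [Fact p.Prime] where
  /-- The invariant map of the layer `F / E`. -/
  inv : ∀ (E F : Type) [Field E] [Algebra ℚ_[p] E] [FiniteDimensional ℚ_[p] E]
    [Field F] [Algebra ℚ_[p] F] [FiniteDimensional ℚ_[p] F]
    [Algebra E F] [IsScalarTower ℚ_[p] E F] [FiniteDimensional E F] [IsGalois E F],
    H2 (Rep.ofAlgebraAutOnUnits E F) →+ QZ
  /-- The invariant map is injective. -/
  inv_injective : ∀ (E F : Type) [Field E] [Algebra ℚ_[p] E] [FiniteDimensional ℚ_[p] E]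
    [Field F] [Algebra ℚ_[p] F] [FiniteDimensional ℚ_[p] F]
    [Algebra E F] [IsScalarTower ℚ_[p] E F] [FiniteDimensional E F] [IsGalois E F],
    Function.Injective (inv E F)
  /-- The invariants are killed by the degree. -/
  finrank_nsmul_inv : ∀ (E F : Type) [Field E] [Algebra ℚ_[p] E] [FiniteDimensional ℚ_[p] E]
    [Field F] [Algebra ℚ_[p] F] [FiniteDimensional ℚ_[p] F]
    [Algebra E F] [IsScalarTower ℚ_[p] E F] [FiniteDimensional E F] [IsGalois E F]
    (x : H2 (Rep.ofAlgebraAutOnUnits E F)), Module.finrank E F • inv E F x = 0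
  /-- Every `[F:E]`-torsion element of `ℚ/ℤ` is an invariant. -/
  exists_inv_eq : ∀ (E F : Type) [Field E] [Algebra ℚ_[p] E] [FiniteDimensional ℚ_[p] E]
    [Field F] [Algebra ℚ_[p] F] [FiniteDimensional ℚ_[p] F]
    [Algebra E F] [IsScalarTower ℚ_[p] E F] [FiniteDimensional E F] [IsGalois E F]
    (y : QZ), Module.finrank E F • y = 0 → ∃ x, inv E F x = y
  /-- **Inflation** `E ⊆ F ⊆ F'` (both Galois over `E`) preserves invariants. -/
  inv_infl : ∀ (E F F' : Type) [Field E] [Algebra ℚ_[p] E] [FiniteDimensional ℚ_[p] E]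
    [Field F] [Algebra ℚ_[p] F] [FiniteDimensional ℚ_[p] F]
    [Algebra E F] [IsScalarTower ℚ_[p] E F] [FiniteDimensional E F] [IsGalois E F]
    [Field F'] [Algebra ℚ_[p] F'] [FiniteDimensional ℚ_[p] F']
    [Algebra E F'] [IsScalarTower ℚ_[p] E F'] [FiniteDimensional E F'] [IsGalois E F']
    [Algebra F F'] [IsScalarTower E F F']
    (j : Rep.res (AlgEquiv.restrictNormalHom (F := E) (K₁ := F') F)
      (Rep.ofAlgebraAutOnUnits E F) ⟶ Rep.ofAlgebraAutOnUnits E F')
    (_ : ∀ x : Additive Fˣ, j.hom x =
      (Additive.ofMul (Units.map (algebraMap F F' : F →* F') (Additive.toMul (α := Fˣ) x)) :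
        Additive F'ˣ))
    (x : H2 (Rep.ofAlgebraAutOnUnits E F)),
    inv E F' (groupCohomology.map (AlgEquiv.restrictNormalHom (F := E) (K₁ := F') F) j 2 x) =
      inv E F x
  /-- **Restriction** `E ⊆ E' ⊆ F` (`F / E` Galois) multiplies invariants by `[E' : E]`. -/
  inv_res : ∀ (E E' F : Type) [Field E] [Algebra ℚ_[p] E] [FiniteDimensional ℚ_[p] E]
    [Field F] [Algebra ℚ_[p] F] [FiniteDimensional ℚ_[p] F]
    [Algebra E F] [IsScalarTower ℚ_[p] E F] [FiniteDimensional E F] [IsGalois E F]
    [Field E'] [Algebra ℚ_[p] E'] [FiniteDimensional ℚ_[p] E']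
    [Algebra E' F] [IsScalarTower ℚ_[p] E' F] [FiniteDimensional E' F] [IsGalois E' F]
    [Algebra E E'] [IsScalarTower ℚ_[p] E E'] [IsScalarTower E E' F]
    (j : Rep.res (towerHom E F E' F) (Rep.ofAlgebraAutOnUnits E F) ⟶
      Rep.ofAlgebraAutOnUnits E' F)
    (_ : ∀ x : Additive Fˣ, j.hom x = x)
    (x : H2 (Rep.ofAlgebraAutOnUnits E F)),
    inv E' F (groupCohomology.map (towerHom E F E' F) j 2 x) =
      Module.finrank E E' • inv E F x
  /-- **Unramified formula**: on an unramified layer (for the canonical presentation by the rings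
  of integers) the invariant is the explicit unramified invariant. -/
  inv_unram : ∀ (E F : Type) [Field E] [Algebra ℚ_[p] E] [FiniteDimensional ℚ_[p] E]
    [Field F] [Algebra ℚ_[p] F] [FiniteDimensional ℚ_[p] F]
    [Algebra E F] [IsScalarTower ℚ_[p] E F] [FiniteDimensional E F] [IsGalois E F]
    (h : IsUnramP p E F) (x : H2 (Rep.ofAlgebraAutOnUnits E F)),
    inv E F x = invUnrP p E F h x

end Fermat.Agent.Lib.CFT.Local
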