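/-
P-CFT (GI-3, helper43): the canonical local invariants of finite extensions of `ℚ_[p]` in Galois
form: the term `localInvTheoryGal p : LocalInvTheoryGal p`, obtained by plugging the canonical
blocks `intRing p E` of `Local/LocalBrauer/PadicBlock.lean` into the block-parametrized invariant
`invLocal` of `Local/LocalBrauer/Inv.lean`, `InvChar.lean`, `InvFunct.lean`.
-/
import Fermat.Agent.Lib.CFT.Local.LocalInvGal
import Fermat.Agent.Lib.CFT.Local.LocalBrauer.InvFunct

set_option autoImplicit false
set_option linter.unusedSectionVars false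

namespace Fermat.Agent.Lib.CFT.Local

open groupCohomology
open Fermat.Agent.Lib.CFT.Local.LocalBrauer (QZ towerHom)
open Fermat.Agent.Lib.CFT.Local.LocalBrauer.PadicBlock
open Fermat.Agent.Lib.CFT.Local.LocalBrauer.Inv

variable (p : ℕ) [Fact p.Prime]

section Layer

variable (E F : Type) [Field E] [Algebra ℚ_[p] E] [FiniteDimensional ℚ_[p] E]
  [Field F] [Algebra ℚ_[p] F] [FiniteDimensional ℚ_[p] F]
  [Algebra E F] [IsScalarTower ℚ_[p] E F] [FiniteDimensional E F] [IsGalois E F]

/-- **The canonical invariant** of a finite Galois extension `F / E` of finite extensions of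
`ℚ_[p]`. -/
noncomputable def invP : H2 (Rep.ofAlgebraAutOnUnits E F) →+ QZ :=
  invLocal (intRing p E) E F

theorem invP_def : invP p E F = invLocal (intRing p E) E F := rfl

theorem invP_injective : Function.Injective (invP p E F) :=
  invLocal_injective (intRing p E) E F

theorem finrank_nsmul_invP (x : H2 (Rep.ofAlgebraAutOnUnits E F)) :
    Module.finrank E F • invP p E F x = 0 :=
  finrank_nsmul_invLocal (intRing p E) E F x

theorem exists_invP_eq (y : QZ) (hy : Module.finrank E F • y = 0) :
    ∃ x : H2 (Rep.ofAlgebraAutOnUnits E F), invP p E F x = y :=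
  exists_invLocal_eq (intRing p E) E F y hy

theorem invP_eq_invUnrP (h : IsUnramP p E F) (x : H2 (Rep.ofAlgebraAutOnUnits E F)) :
    invP p E F x = invUnrP p E F h x :=
  invLocal_eq_invUnr (intRing p E) E F (intRing p F) h x

end Layer

section Infl

variable (E F F' : Type) [Field E] [Algebra ℚ_[p] E] [FiniteDimensional ℚ_[p] E]
  [Field F] [Algebra ℚ_[p] F] [FiniteDimensional ℚ_[p] F]
  [Algebra E F] [IsScalarTower ℚ_[p] E F] [FiniteDimensional E F] [IsGalois E F]
  [Field F'] [Algebra ℚ_[p] F'] [FiniteDimensional ℚ_[p] F']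
  [Algebra E F'] [IsScalarTower ℚ_[p] E F'] [FiniteDimensional E F'] [IsGalois E F']
  [Algebra F F'] [IsScalarTower E F F']

theorem invP_infl
    (j : Rep.res (AlgEquiv.restrictNormalHom (F := E) (K₁ := F') F)
      (Rep.ofAlgebraAutOnUnits E F) ⟶ Rep.ofAlgebraAutOnUnits E F')
    (hj : ∀ x : Additive Fˣ, j.hom x =
      (Additive.ofMul (Units.map (algebraMap F F' : F →* F') (Additive.toMul (α := Fˣ) x)) :
        Additive F'ˣ))
    (x : H2 (Rep.ofAlgebraAutOnUnits E F)) :
    invP p E F' (groupCohomology.map (AlgEquiv.restrictNormalHom (F := E) (K₁ := F') F) j 2 x) =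
      invP p E F x :=
  invLocal_infl_of_hom (intRing p E) E F F' j hj x

end Infl

section Res

variable (E E' F : Type) [Field E] [Algebra ℚ_[p] E] [FiniteDimensional ℚ_[p] E]
  [Field F] [Algebra ℚ_[p] F] [FiniteDimensional ℚ_[p] F]
  [Algebra E F] [IsScalarTower ℚ_[p] E F] [FiniteDimensional E F] [IsGalois E F]
  [Field E'] [Algebra ℚ_[p] E'] [FiniteDimensional ℚ_[p] E']
  [Algebra E' F] [IsScalarTower ℚ_[p] E' F] [FiniteDimensional E' F] [IsGalois E' F]
  [Algebra E E'] [IsScalarTower ℚ_[p] E E'] [IsScalarTower E E' F]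

theorem invP_res
    (j : Rep.res (towerHom E F E' F) (Rep.ofAlgebraAutOnUnits E F) ⟶
      Rep.ofAlgebraAutOnUnits E' F)
    (hj : ∀ x : Additive Fˣ, j.hom x = x)
    (x : H2 (Rep.ofAlgebraAutOnUnits E F)) :
    invP p E' F (groupCohomology.map (towerHom E F E' F) j 2 x) =
      Module.finrank E E' • invP p E F x :=
  haveI := finiteDimensional_pair p E E'
  haveI := isSeparable_pair p E E'
  invLocal_rest_of_hom (intRing p E) E F (intRing p E') E' j hj x

end Res

/-- **The canonical local invariants over `ℚ_[p]` in Galois form.** -/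
noncomputable def localInvTheoryGal : LocalInvTheoryGal p where
  inv E F _ _ _ _ _ _ _ _ _ _ := invP p E F
  inv_injective E F _ _ _ _ _ _ _ _ _ _ := invP_injective p E F
  finrank_nsmul_inv E F _ _ _ _ _ _ _ _ _ _ x := finrank_nsmul_invP p E F x
  exists_inv_eq E F _ _ _ _ _ _ _ _ _ _ y hy := exists_invP_eq p E F y hy
  inv_infl E F F' _ _ _ _ _ _ _ _ _ _ _ _ _ _ _ _ _ _ _ j hj x := invP_infl p E F F' j hj x
  inv_res E E' F _ _ _ _ _ _ _ _ _ _ _ _ _ _ _ _ _ _ _ _ j hj x := invP_res p E E' F j hj x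
  inv_unram E F _ _ _ _ _ _ _ _ _ _ h x := invP_eq_invUnrP p E F h x

end Fermat.Agent.Lib.CFT.Local
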