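import Fermat.Agent.Lib.CFT.Local.LocalInvTransport
import Fermat.Agent.Lib.CFT.Local.LocalBrauer.PresentationIndep

/-!
# The unramified formula in action form (helper42, P-CFT (GI-3))

`Local/LocalInvTransport.lean` (helper41) transports canonical local invariants from Galois form
(`T : LocalInvTheoryGal p`) to action form, assuming the unramified formula `UnramFormula p T` for
*arbitrary* presentations `(A, K, B)` of a layer `F / F^D`.  We prove `UnramFormula p T` for every
`T`, from `T.inv_unram` (canonical presentation by rings of integers) and the independence of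
`invUnr` of the presentation (`Local/LocalBrauer/PresentationIndep.lean`).  Hence
`localInvTheoryOfGal p T : LocalInvTheory p` without side conditions.
-/

set_option autoImplicit false
set_option linter.unusedSectionVars false

namespace Fermat.Agent.Lib.CFT.Local.LocalInvTransport

open IsLocalRing
open Fermat.Agent.Lib.CFT.Global.LocalFieldAt (unitsCohomologyIso)
open Fermat.Agent.Lib.CFT.Local.LocalBrauer (QZ invUnr)
open Fermat.Agent.Lib.CFT.Local.LocalBrauer.PadicBlock
open Fermat.Agent.Lib.CFT.Local.LocalBrauer.PresIndep
open Fermat.Agent.Lib.CFT.Local.Unramified (IsUnram)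

attribute [local instance] Units.mulDistribMulActionRight

section unram

variable (p : ℕ) [Fact p.Prime]
  (F : Type) [Field F] [Algebra ℚ_[p] F] [FiniteDimensional ℚ_[p] F]
  (D : Type) [Group D] [Finite D] [MulSemiringAction D F] [FaithfulSMul D F]
  [SMulCommClass D ℚ_[p] F]
  (A K B : Type) [CommRing A] [IsDomain A] [IsDiscreteValuationRing A]
  [IsAdicComplete (maximalIdeal A) A] [Finite (ResidueField A)]
  [Field K] [Algebra A K] [IsFractionRing A K]
  [Algebra K F] [FiniteDimensional K F] [IsGalois K F]
  [Algebra A F] [IsScalarTower A K F]
  [CommRing B] [IsDomain B] [IsDiscreteValuationRing B] [Algebra A B] [Algebra B F]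
  [IsScalarTower A B F] [IsIntegralClosure B A F] [IsFractionRing B F]
  [HenselianLocalRing B] [IsLocalHom (algebraMap A B)]
  [IsGaloisGroup D K F]

include K in
/-- The canonical presentation is unramified as soon as some presentation is. -/
theorem isUnramP_of_isUnram
    (hint : ∀ b : B, ((algebraMap ℚ_[p] F).comp (algebraMap ℤ_[p] ℚ_[p])).IsIntegralElem
      (algebraMap B F b))
    (h : IsUnram A B) : IsUnramP p (fixedField p F D) F :=
  isUnram_of_isIntegralElem_padic D F A K B (intRing p (fixedField p F D)) (fixedField p F D)
    (intRing p F) p hint (fun b => b.2) h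

/-- **The unramified formula in action form** for the transported invariant `invOf`. -/
theorem invOf_unram (T : LocalInvTheoryGal p)
    (hint : ∀ b : B, ((algebraMap ℚ_[p] F).comp (algebraMap ℤ_[p] ℚ_[p])).IsIntegralElem
      (algebraMap B F b))
    (h : IsUnram A B) (x : groupCohomology (Rep.ofMulDistribMulAction D Fˣ) 2) :
    invOf p F D T x = invUnr A K F B h ((unitsCohomologyIso D K F 2).hom x) := by
  have h₀ := isUnramP_of_isUnram p F D A K B hint h
  rw [invOf_apply, T.inv_unram (fixedField p F D) F h₀, invUnrP_def]
  exact (invUnr_unitsCohomologyIso_eq_padic D F A K B (intRing p (fixedField p F D))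
    (fixedField p F D) (intRing p F) p hint (fun b => b.2) h h₀ x).symm

end unram

variable (p : ℕ) [Fact p.Prime]

/-- Every Galois-form theory satisfies the unramified formula for arbitrary presentations. -/
theorem unramFormula (T : LocalInvTheoryGal p) : UnramFormula p T := by
  intro F _ _ _ D _ _ _ _ _ A K B _ _ _ _ _ _ _ _ _ _ _ _ _ _ _ _ _ _ _ _ _ _ _ _ hint h x
  exact invOf_unram p F D A K B T hint h x

/-- **Transport, unconditional**: a Galois-form theory of canonical local invariants gives an
action-form one. -/
noncomputable def localInvTheoryOfGal (T : LocalInvTheoryGal p) : LocalInvTheory p :=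
  localInvTheoryOf p T (unramFormula p T)

end Fermat.Agent.Lib.CFT.Local.LocalInvTransport
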