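/-
P-CFT (GI-3, helper43): the canonical local invariants of finite extensions of `ℚ_[p]` in ACTION
form (the contract `LocalInvTheory p` of `Local/LocalInvContract.lean`), unconditionally:
`localInvTheory p := localInvTheoryOfGal p (localInvTheoryGal p)`
(Galois-form invariant of `Local/LocalInvGalInstance.lean`, transported by helper41's
`Local/LocalInvTransport.lean` and helper42's `Local/LocalInvTransportUnram.lean`).
-/
import Fermat.Agent.Lib.CFT.Local.LocalInvGalInstance
import Fermat.Agent.Lib.CFT.Local.LocalInvTransportUnram

set_option autoImplicit false

namespace Fermat.Agent.Lib.CFT.Local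

/-- **The canonical local invariants over `ℚ_[p]`** (action form, no hypotheses). -/
noncomputable def localInvTheory (p : ℕ) [Fact p.Prime] : LocalInvTheory p :=
  LocalInvTransport.localInvTheoryOfGal p (localInvTheoryGal p)

end Fermat.Agent.Lib.CFT.Local
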