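import Mathlib
import Fermat.Agent.Lib.CFT.Local.UnramNorm
import Fermat.Agent.Lib.CFT.Local.NormUnits.CyclicH2
import Fermat.Agent.Lib.CFT.Coh.TateCyclic
import Fermat.Agent.Lib.CFT.Coh.Induced

/-!
# Cohomological triviality of the unit group of an unramified extension

Abstract setting of `Local/UnramUnits`: `B` a complete local ring with maximal ideal `(π)`,
`π` regular, `G` a finite group acting on `B`, fixing `π`, acting faithfully on the finite
residue field.  Then `G` is cyclic, all Tate cohomology groups of `Bˣ` vanish, for `G` and all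
its subgroups (`unram_isCohTrivial`), and `H¹`, `H²` vanish elementwise.

The action of `G` on `Bˣ` is the local instance `Units.mulDistribMulActionRight`.
-/

set_option autoImplicit false

namespace Fermat.Agent.Lib.CFT.LocalUnits

open IsLocalRing Fermat.Agent.Lib.CFT.Herbrand CategoryTheory CategoryTheory.Limits groupCohomology

section Abstract

/-- A finite group acting faithfully on a finite field is cyclic. -/
theorem isCyclic_of_faithfulSMul_finite_field (H ℓ : Type*) [Group H] [Finite H] [Field ℓ]
    [Finite ℓ] [MulSemiringAction H ℓ] [FaithfulSMul H ℓ] : IsCyclic H := by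
  have e := IsGaloisGroup.mulEquivAlgEquiv H (FixedPoints.subfield H ℓ) ℓ
  exact isCyclic_of_surjective e.symm e.symm.surjective

/-- If both Herbrand indices of a module over a finite cyclic group are `1`, all its Tate
cohomology groups vanish. -/
theorem isZero_tateCohomology_of_hIndexMul_eq_one (H M : Type) [CommGroup H] [Fintype H]
    [CommGroup M] [MulDistribMulAction H M] (s : H) (hs : ∀ x, x ∈ Subgroup.zpowers s)
    (h0 : hIndexMul (subOneMul H M s) (normMul H M) = 1)
    (h1 : hIndexMul (normMul H M) (subOneMul H M s) = 1) (n : ℤ) :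
    IsZero (tateCohomology (Rep.ofMulDistribMulAction H M) n) := by
  have hcard : Nat.card (tateCohomology (Rep.ofMulDistribMulAction H M) n) = 1 := by
    rcases Int.even_or_odd n with hn | hn
    · rw [Coh.TateCyclic.card_tateCohomology_even _ s hs n hn,
        NormUnits.hIndex_repSub_repNorm, h0]
    · rw [Coh.TateCyclic.card_tateCohomology_odd _ s hs n hn,
        NormUnits.hIndex_repNorm_repSub, h1]
  have := (Nat.card_eq_one_iff_unique.mp hcard).1
  exact ModuleCat.isZero_of_subsingleton _

/-- Trivial inertia group means a faithful action on the residue field. -/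
theorem faithfulSMul_residueField_of_inertia_eq_bot {G B : Type*} [Group G] [CommRing B]
    [IsLocalRing B] [MulSemiringAction G B] (h : Ideal.inertia G (maximalIdeal B) = ⊥) :
    FaithfulSMul G (ResidueField B) := by
  refine ⟨fun {g g'} hgg => ?_⟩
  have hmem : g'⁻¹ * g ∈ Ideal.inertia G (maximalIdeal B) := by
    intro b
    show (g'⁻¹ * g) • b - b ∈ maximalIdeal B
    rw [← residue_eq_zero_iff, map_sub, ResidueField.residue_smul, mul_smul, hgg (residue B b),
      inv_smul_smul, sub_self]
  rw [h, Subgroup.mem_bot] at hmem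
  exact (inv_mul_eq_one.mp hmem).symm

end Abstract

section Main

attribute [local instance] Units.mulDistribMulActionRight

section Maps

variable {G B : Type} [Group G] [Fintype G] [CommRing B] [MulSemiringAction G B]

omit [Fintype G] in
theorem subOneMul_units_eq (s : G) : subOneMul G Bˣ s = unitsTwist B s := by
  ext u
  rfl

theorem normMul_units_eq : normMul G Bˣ = unitsNorm G B := by
  ext u
  rw [coe_unitsNorm, normMul_apply, Units.coe_prod]
  rfl

end Maps

variable {G B : Type} [Group G] [CommRing B] [IsLocalRing B] [MulSemiringAction G B]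
  [IsAdicComplete (maximalIdeal B) B] [Finite (ResidueField B)]
  [FaithfulSMul G (ResidueField B)]

/-- All Tate cohomology groups of the unit group of an unramified extension vanish. -/
theorem unram_isZero_tateCohomology [Fintype G] {π : B} (hπ : maximalIdeal B = Ideal.span {π})
    (hfix : ∀ g : G, g • π = π) (hreg : ∀ b : B, π * b = 0 → b = 0) (n : ℤ) :
    IsZero (tateCohomology (Rep.ofMulDistribMulAction G Bˣ) n) := by
  have hcyc : IsCyclic G := isCyclic_of_faithfulSMul_finite_field G (ResidueField B)
  obtain ⟨s, hs⟩ := IsCyclic.exists_generator (α := G)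
  obtain ⟨h0, h1⟩ := unram_hIndexMul_eq_one (G := G) hπ hfix hreg hs
  let _ : CommGroup G := IsCyclic.commGroup
  refine isZero_tateCohomology_of_hIndexMul_eq_one G Bˣ s hs ?_ ?_ n
  · rw [subOneMul_units_eq, normMul_units_eq]; exact h0
  · rw [subOneMul_units_eq, normMul_units_eq]; exact h1

/-- **The unit group of an unramified extension is cohomologically trivial.** -/
theorem unram_isCohTrivial {π : B} (hπ : maximalIdeal B = Ideal.span {π})
    (hfix : ∀ g : G, g • π = π) (hreg : ∀ b : B, π * b = 0 → b = 0) :
    Coh.IsCohTrivial (Rep.ofMulDistribMulAction G Bˣ) := by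
  intro H _ _ φ hφ n
  let _ : MulSemiringAction H B := MulSemiringAction.compHom B φ
  have hfaith : FaithfulSMul H (ResidueField B) := by
    refine ⟨fun {h h'} hh => hφ (FaithfulSMul.eq_of_smul_eq_smul (α := ResidueField B) ?_)⟩
    intro x
    exact hh x
  have hres : Rep.res φ (Rep.ofMulDistribMulAction G Bˣ) = Rep.ofMulDistribMulAction H Bˣ := rfl
  rw [hres]
  exact unram_isZero_tateCohomology (G := H) hπ (fun h => hfix (φ h)) hreg n

variable [Fintype G]

theorem unram_isZero_groupCohomology {π : B} (hπ : maximalIdeal B = Ideal.span {π})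
    (hfix : ∀ g : G, g • π = π) (hreg : ∀ b : B, π * b = 0 → b = 0) (n : ℕ) [NeZero n] :
    IsZero (groupCohomology (Rep.ofMulDistribMulAction G Bˣ) n) :=
  (unram_isZero_tateCohomology hπ hfix hreg n).of_iso
    ((TateCohomology.isoGroupCohomology n).app (Rep.ofMulDistribMulAction G Bˣ)).symm

/-- `H¹(G, U) = 0` for the units of an unramified extension, elementwise. -/
theorem unram_isMulCoboundary₁ {π : B} (hπ : maximalIdeal B = Ideal.span {π})
    (hfix : ∀ g : G, g • π = π) (hreg : ∀ b : B, π * b = 0 → b = 0)
    {f : G → Bˣ} (hf : IsMulCocycle₁ f) : IsMulCoboundary₁ f := by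
  have hz := unram_isZero_groupCohomology (G := G) hπ hfix hreg 1
  have := (ModuleCat.isZero_iff_subsingleton).mp hz
  have h0 : H1π (Rep.ofMulDistribMulAction G Bˣ) (cocyclesOfIsMulCocycle₁ hf) = 0 :=
    Subsingleton.elim _ _
  exact isMulCoboundary₁_of_mem_coboundaries₁ _ ((H1π_eq_zero_iff _).mp h0)

/-- `H²(G, U) = 0` for the units of an unramified extension, elementwise. -/
theorem unram_isMulCoboundary₂ {π : B} (hπ : maximalIdeal B = Ideal.span {π})
    (hfix : ∀ g : G, g • π = π) (hreg : ∀ b : B, π * b = 0 → b = 0)
    {f : G × G → Bˣ} (hf : IsMulCocycle₂ f) : IsMulCoboundary₂ f := by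
  have hz := unram_isZero_groupCohomology (G := G) hπ hfix hreg 2
  have := (ModuleCat.isZero_iff_subsingleton).mp hz
  have h0 : H2π (Rep.ofMulDistribMulAction G Bˣ) (cocyclesOfIsMulCocycle₂ hf) = 0 :=
    Subsingleton.elim _ _
  exact isMulCoboundary₂_of_mem_coboundaries₂ _ ((H2π_eq_zero_iff _).mp h0)

end Main

end Fermat.Agent.Lib.CFT.LocalUnits
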