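import Mathlib

set_option autoImplicit false

/-!
# Index of `n`-th powers from a filtration (abstract group theory)

Pure group theory behind the computation of `[Kˣ : (Kˣ)ⁿ]` for a local field `K`.
-/

namespace Fermat.Agent.Lib.CFT.Local.PowerIndex

open Subgroup

section General

variable {G : Type*} [CommGroup G]

/-- For an endomorphism `φ` of a commutative group, a subgroup `U` containing `ker φ` and a
subgroup `V ≤ U` of finite relative index meeting `ker φ` trivially:
`[U : φ U] = |ker φ| * [V : φ V]`. -/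
theorem relIndex_map_eq_card_ker_mul (φ : G →* G) (U V : Subgroup G) (hVU : V ≤ U)
    (hker : φ.ker ≤ U) (hUU : U.map φ ≤ U) (hVV : V.map φ ≤ V)
    (hfin : V.relIndex U ≠ 0) (hdisj : V ⊓ φ.ker = ⊥) :
    (U.map φ).relIndex U = Nat.card φ.ker * (V.map φ).relIndex V := by
  -- `a = [U : V ker φ] = [φ U : φ V]`
  have h1 : (V.map φ).relIndex (U.map φ) = (V ⊔ φ.ker).relIndex U := by
    rw [relIndex_map_map, sup_eq_left.mpr hker]
  have hVK : V ⊔ φ.ker ≤ U := sup_le hVU hker
  -- chain `φ V ≤ φ U ≤ U`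
  have h2 : (V.map φ).relIndex (U.map φ) * (U.map φ).relIndex U = (V.map φ).relIndex U :=
    relIndex_mul_relIndex (V.map φ) (U.map φ) U (map_mono hVU) hUU
  -- chain `φ V ≤ V ≤ U`
  have h3 : (V.map φ).relIndex V * V.relIndex U = (V.map φ).relIndex U :=
    relIndex_mul_relIndex (V.map φ) V U hVV hVU
  -- chain `V ≤ V ker φ ≤ U`
  have h4 : V.relIndex (V ⊔ φ.ker) * (V ⊔ φ.ker).relIndex U = V.relIndex U :=
    relIndex_mul_relIndex V (V ⊔ φ.ker) U le_sup_left hVK
  have h5 : V.relIndex (V ⊔ φ.ker) = Nat.card φ.ker := by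
    rw [relIndex_sup_left, ← inf_relIndex_right, hdisj, relIndex_bot_left]
  have ha : (V ⊔ φ.ker).relIndex U ≠ 0 := by
    intro h0
    rw [h0, mul_zero] at h4
    exact hfin h4.symm
  rw [h1] at h2
  rw [h5] at h4
  have : (V ⊔ φ.ker).relIndex U * (U.map φ).relIndex U =
      (V ⊔ φ.ker).relIndex U * (Nat.card φ.ker * (V.map φ).relIndex V) := by
    rw [h2, ← h3, ← h4]
    ring
  exact Nat.eq_of_mul_eq_mul_left (Nat.pos_of_ne_zero ha) this

/-- The `n`-th powers in `Multiplicative ℤ` have index `n`. -/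
theorem index_range_pow_multiplicative_int (n : ℕ) :
    (powMonoidHom n : Multiplicative ℤ →* Multiplicative ℤ).range.index = n := by
  have h : (powMonoidHom n : Multiplicative ℤ →* Multiplicative ℤ).range =
      (AddSubgroup.zmultiples (n : ℤ)).toSubgroup := by
    ext x
    simp only [MonoidHom.mem_range, powMonoidHom_apply]
    constructor
    · rintro ⟨y, rfl⟩
      change Multiplicative.toAdd (y ^ n) ∈ AddSubgroup.zmultiples (n : ℤ)
      rw [toAdd_pow, AddSubgroup.mem_zmultiples_iff]
      exact ⟨Multiplicative.toAdd y, by simp [mul_comm]⟩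
    · intro hx
      change Multiplicative.toAdd x ∈ AddSubgroup.zmultiples (n : ℤ) at hx
      rw [AddSubgroup.mem_zmultiples_iff] at hx
      obtain ⟨k, hk⟩ := hx
      refine ⟨Multiplicative.ofAdd k, ?_⟩
      rw [← ofAdd_nsmul, ← ofAdd_toAdd x, ← hk]
      simp [mul_comm]
  rw [h, AddSubgroup.index_toSubgroup, Int.index_zmultiples]
  simp

/-- If `ord : G →* ℤ` is surjective with kernel `U`, then
`[G : Gⁿ] = [U : Uⁿ] * n`. -/
theorem index_range_pow_eq_relIndex_mul (n : ℕ) (hn : n ≠ 0)
    (ord : G →* Multiplicative ℤ) (hord : Function.Surjective ord) :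
    (powMonoidHom n : G →* G).range.index =
      (ord.ker.map (powMonoidHom n : G →* G)).relIndex ord.ker * n := by
  set φ : G →* G := powMonoidHom n with hφ
  set U : Subgroup G := ord.ker with hU
  set P : Subgroup G := φ.range with hP
  -- `P ⊓ U = φ U`
  have hPU : P ⊓ U = U.map φ := by
    ext y
    simp only [mem_inf, mem_map, hP, MonoidHom.mem_range]
    constructor
    · rintro ⟨⟨x, rfl⟩, hy⟩
      refine ⟨x, ?_, rfl⟩
      rw [hU, MonoidHom.mem_ker] at hy ⊢
      rw [hφ, powMonoidHom_apply, map_pow] at hy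
      have h1 : n • Multiplicative.toAdd (ord x) = 0 := by
        rw [← toAdd_pow, hy]; rfl
      have h2 : Multiplicative.toAdd (ord x) = 0 := by
        rcases smul_eq_zero.mp h1 with h | h
        · exact absurd h hn
        · exact h
      exact Multiplicative.toAdd.injective h2
    · rintro ⟨x, hx, rfl⟩
      refine ⟨⟨x, rfl⟩, ?_⟩
      rw [hU, MonoidHom.mem_ker] at hx ⊢
      rw [hφ, powMonoidHom_apply, map_pow, hx, one_pow]
  -- `[G : P U] = n`
  have hidx : (P ⊔ U).index = n := by
    have h1 := index_map (P ⊔ U) ord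
    rw [MonoidHom.range_eq_top.mpr hord, index_top, mul_one, sup_assoc, sup_idem] at h1
    have hbot : ord.ker.map ord = ⊥ := (map_eq_bot_iff ord.ker).mpr le_rfl
    rw [← h1, Subgroup.map_sup, hU, hbot, sup_bot_eq, hP, MonoidHom.map_range]
    have h2 : ord.comp φ = (powMonoidHom n : Multiplicative ℤ →* Multiplicative ℤ).comp ord := by
      ext x
      simp [hφ]
    rw [h2, MonoidHom.range_comp, MonoidHom.range_eq_top.mpr hord, ← MonoidHom.range_eq_map]
    exact index_range_pow_multiplicative_int n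
  calc P.index = P.relIndex (P ⊔ U) * (P ⊔ U).index := (relIndex_mul_index le_sup_left).symm
    _ = (U.map φ).relIndex U * n := by
      rw [hidx, relIndex_sup_left, ← inf_relIndex_right, hPU]

/-- **Index of `n`-th powers from a filtration.** Let `ord : G →* ℤ` be surjective with kernel `U`,
let `V ≤ U` have finite index in `U`, and suppose `x ↦ xⁿ` is injective on `V` with image `W`.
Then `[G : Gⁿ] = n * #{x | xⁿ = 1} * [V : W]`. -/
theorem index_range_pow_of_filtration (n : ℕ) (hn : n ≠ 0)
    (ord : G →* Multiplicative ℤ) (hord : Function.Surjective ord)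
    (V W : Subgroup G) (hVU : V ≤ ord.ker) (hfin : V.relIndex ord.ker ≠ 0)
    (hinj : ∀ x ∈ V, x ^ n = 1 → x = 1)
    (himg : ∀ y, y ∈ W ↔ ∃ x ∈ V, x ^ n = y) (hWV : W ≤ V) :
    (powMonoidHom n : G →* G).range.index =
      n * Nat.card (powMonoidHom n : G →* G).ker * W.relIndex V := by
  set φ : G →* G := powMonoidHom n with hφ
  have hW : W = V.map φ := by
    ext y
    rw [himg y, mem_map]
    rfl
  have hker : φ.ker ≤ ord.ker := by
    intro x hx
    rw [MonoidHom.mem_ker] at hx ⊢
    rw [hφ, powMonoidHom_apply] at hx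
    have h0 : ord x ^ n = 1 := by rw [← map_pow, hx, map_one]
    have h1 : n • Multiplicative.toAdd (ord x) = 0 := by
      rw [← toAdd_pow, h0]; rfl
    have h2 : Multiplicative.toAdd (ord x) = 0 := by
      rcases smul_eq_zero.mp h1 with h | h
      · exact absurd h hn
      · exact h
    exact Multiplicative.toAdd.injective h2
  have hUU : ord.ker.map φ ≤ ord.ker := by
    rintro _ ⟨x, hx, rfl⟩
    rw [SetLike.mem_coe, MonoidHom.mem_ker] at hx
    rw [MonoidHom.mem_ker, hφ, powMonoidHom_apply, map_pow, hx, one_pow]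
  have hdisj : V ⊓ φ.ker = ⊥ := by
    rw [eq_bot_iff]
    intro x hx
    obtain ⟨hxV, hxk⟩ := mem_inf.mp hx
    rw [MonoidHom.mem_ker, hφ, powMonoidHom_apply] at hxk
    exact (mem_bot).mpr (hinj x hxV hxk)
  rw [index_range_pow_eq_relIndex_mul n hn ord hord,
    relIndex_map_eq_card_ker_mul φ ord.ker V hVU hker hUU (hW ▸ hWV) hfin hdisj, ← hW]
  ring

/-- Variant of `index_range_pow_of_filtration` where the filtration lives in a group `H`
embedded in `G` with image `ker ord` (e.g. `H = Bˣ`, `G = Lˣ`). -/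
theorem index_range_pow_of_filtration' {H : Type*} [CommGroup H] (n : ℕ) (hn : n ≠ 0)
    (ord : G →* Multiplicative ℤ) (hord : Function.Surjective ord)
    (ι : H →* G) (hι : Function.Injective ι) (hrange : ι.range = ord.ker)
    (V W : Subgroup H) (hfin : V.index ≠ 0)
    (hinj : ∀ x ∈ V, x ^ n = 1 → x = 1)
    (himg : ∀ y, y ∈ W ↔ ∃ x ∈ V, x ^ n = y) (hWV : W ≤ V) :
    (powMonoidHom n : G →* G).range.index =
      n * Nat.card (powMonoidHom n : G →* G).ker * W.relIndex V := by
  have hVU : V.map ι ≤ ord.ker := by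
    rw [← hrange]
    rintro _ ⟨x, -, rfl⟩
    exact ⟨x, rfl⟩
  have hfin' : (V.map ι).relIndex ord.ker ≠ 0 := by
    rw [← hrange, MonoidHom.range_eq_map, relIndex_map_map_of_injective V ⊤ hι,
      relIndex_top_right]
    exact hfin
  have hinj' : ∀ x ∈ V.map ι, x ^ n = 1 → x = 1 := by
    rintro _ ⟨x, hx, rfl⟩ h
    rw [← map_pow, ← map_one ι] at h
    rw [hinj x hx (hι h), map_one]
  have himg' : ∀ y, y ∈ W.map ι ↔ ∃ x ∈ V.map ι, x ^ n = y := by
    intro y
    constructor
    · rintro ⟨w, hw, rfl⟩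
      obtain ⟨x, hx, rfl⟩ := (himg w).mp hw
      exact ⟨ι x, mem_map_of_mem ι hx, (map_pow ι x n).symm⟩
    · rintro ⟨_, ⟨x, hx, rfl⟩, rfl⟩
      exact ⟨x ^ n, (himg _).mpr ⟨x, hx, rfl⟩, map_pow ι x n⟩
  rw [index_range_pow_of_filtration n hn ord hord (V.map ι) (W.map ι) hVU hfin' hinj' himg'
    (map_mono hWV), relIndex_map_map_of_injective W V hι]

/-- Finiteness of the index of `n`-th powers in the situation of
`index_range_pow_of_filtration'`. -/
theorem index_range_pow_ne_zero_of_filtration' {H : Type*} [CommGroup H] (n : ℕ) (hn : n ≠ 0)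
    (ord : G →* Multiplicative ℤ) (hord : Function.Surjective ord)
    (ι : H →* G) (hι : Function.Injective ι) (hrange : ι.range = ord.ker)
    (V W : Subgroup H) (hfin : V.index ≠ 0)
    (hinj : ∀ x ∈ V, x ^ n = 1 → x = 1)
    (himg : ∀ y, y ∈ W ↔ ∃ x ∈ V, x ^ n = y) (hWV : W ≤ V)
    (hker : Finite (powMonoidHom n : G →* G).ker) (hWfin : W.relIndex V ≠ 0) :
    (powMonoidHom n : G →* G).range.index ≠ 0 := by
  rw [index_range_pow_of_filtration' n hn ord hord ι hι hrange V W hfin hinj himg hWV]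
  exact Nat.mul_ne_zero (Nat.mul_ne_zero hn Nat.card_pos.ne') hWfin

end General

end Fermat.Agent.Lib.CFT.Local.PowerIndex
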