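import Mathlib
import Fermat.Agent.Lib.CFT.Local.DVRVal
import Fermat.Agent.Lib.CFT.Local.FiltExact
import Fermat.Agent.Lib.CFT.Local.PowerIndexAbstract

set_option autoImplicit false

/-!
# The index of `n`-th powers in the multiplicative group of a local field

`R` a complete discrete valuation ring with finite residue field and fraction field `F`,
`n` a natural number which is nonzero in `R`.  Then
`[Fˣ : (Fˣ)ⁿ] = n * #μ_n(F) * #(R / n R)`.
-/

namespace Fermat.Agent.Lib.CFT.Local.PowerIndex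

open IsLocalRing Fermat.Agent.Lib.CFT.LocalUnits

section Ring

variable {R : Type*} [CommRing R]

/-- First order expansion of `(1 + x) ^ n`. -/
theorem exists_one_add_pow_eq (x : R) (n : ℕ) :
    ∃ r : R, (1 + x) ^ n = 1 + n * x + x ^ 2 * r := by
  induction n with
  | zero => exact ⟨0, by simp⟩
  | succ n ih =>
    obtain ⟨r, hr⟩ := ih
    refine ⟨n + r + x * r, ?_⟩
    rw [pow_succ, hr]
    push_cast
    ring

/-- Units congruent to `1` modulo an ideal. -/
def unitsCongr (I : Ideal R) : Subgroup Rˣ :=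
  (Units.map (Ideal.Quotient.mk I : R →* R ⧸ I)).ker

theorem mem_unitsCongr {I : Ideal R} {u : Rˣ} : u ∈ unitsCongr I ↔ (u : R) - 1 ∈ I := by
  rw [unitsCongr, MonoidHom.mem_ker, Units.ext_iff, Units.coe_map, Units.val_one,
    MonoidHom.coe_coe, ← map_one (Ideal.Quotient.mk I), Ideal.Quotient.eq]

theorem unitsCongr_anti {I J : Ideal R} (h : I ≤ J) : unitsCongr I ≤ unitsCongr J :=
  fun _ hu => mem_unitsCongr.mpr (h (mem_unitsCongr.mp hu))

theorem unitsCongr_index_ne_zero (I : Ideal R) [Finite (R ⧸ I)] : (unitsCongr I).index ≠ 0 := by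
  rw [unitsCongr, Subgroup.index_ker]
  exact Nat.card_pos.ne'

/-- Precompleteness in terms of ideal membership. -/
theorem exists_limit_of_isPrecomplete (I : Ideal R) [IsPrecomplete I R] (f : ℕ → R)
    (hf : ∀ m n, m ≤ n → f m - f n ∈ I ^ m) : ∃ L : R, ∀ n, f n - L ∈ I ^ n := by
  have h : ∀ {m n}, m ≤ n → f m ≡ f n [SMOD (I ^ m • ⊤ : Submodule R R)] := by
    intro m n hmn
    rw [SModEq.sub_mem, smul_eq_mul, Ideal.mul_top]
    exact hf m n hmn
  obtain ⟨L, hL⟩ := IsPrecomplete.prec ‹IsPrecomplete I R› h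
  refine ⟨L, fun n => ?_⟩
  have := hL n
  rwa [SModEq.sub_mem, smul_eq_mul, Ideal.mul_top] at this

end Ring

section Complete

variable {R : Type*} [CommRing R] [IsLocalRing R]

/-- The principal units of level `i`. -/
def princUnits (R : Type*) [CommRing R] [IsLocalRing R] (i : ℕ) : Subgroup Rˣ :=
  unitsCongr (maximalIdeal R ^ i)

theorem mem_princUnits {i : ℕ} {u : Rˣ} :
    u ∈ princUnits R i ↔ (u : R) - 1 ∈ maximalIdeal R ^ i := mem_unitsCongr

theorem princUnits_anti {i j : ℕ} (h : i ≤ j) : princUnits R j ≤ princUnits R i :=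
  unitsCongr_anti (Ideal.pow_le_pow_right h)

theorem princUnits_index_ne_zero [IsNoetherianRing R] [Finite (ResidueField R)] (i : ℕ) :
    (princUnits R i).index ≠ 0 := by
  have : Finite (R ⧸ maximalIdeal R) := ‹Finite (ResidueField R)›
  have : Finite (R ⧸ maximalIdeal R ^ i) :=
    Ideal.finite_quotient_pow (IsNoetherian.noetherian _) i
  exact unitsCongr_index_ne_zero _

/-- The filtration by principal units is complete when `R` is adically complete. -/
theorem isFiltComplete_princUnits [IsPrecomplete (maximalIdeal R) R] (i : ℕ) :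
    IsFiltComplete (fun j => princUnits R (i + j)) := by
  intro y hy
  set p : ℕ → Rˣ := fun n => ∏ k ∈ Finset.range n, y k with hp
  have hsucc : ∀ n, p (n + 1) = p n * y n := fun n => Finset.prod_range_succ _ _
  -- Cauchy estimate
  have hcauchy : ∀ m d, ((p m : Rˣ) : R) - p (m + d) ∈ maximalIdeal R ^ (i + m) := by
    intro m d
    induction d with
    | zero => simp
    | succ d ih =>
      have h1 : ((p m : Rˣ) : R) - p (m + (d + 1)) =
          (((p m : Rˣ) : R) - p (m + d)) - (p (m + d) : R) * ((y (m + d) : R) - 1) := by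
        rw [← add_assoc, hsucc]; push_cast; ring
      rw [h1]
      refine sub_mem ih (Ideal.mul_mem_left _ _ ?_)
      exact Ideal.pow_le_pow_right (by omega) (mem_princUnits.mp (hy (m + d)))
  have hcauchy' : ∀ m n, m ≤ n → ((p m : Rˣ) : R) - p n ∈ maximalIdeal R ^ (i + m) := by
    intro m n hmn
    obtain ⟨d, rfl⟩ := Nat.exists_eq_add_of_le hmn
    exact hcauchy m d
  obtain ⟨L, hL⟩ := exists_limit_of_isPrecomplete (maximalIdeal R) (fun n => ((p n : Rˣ) : R))
    (fun m n hmn => Ideal.pow_le_pow_right (Nat.le_add_left m i) (hcauchy' m n hmn))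
  -- `L` is a unit
  have hLunit : IsUnit L := by
    by_contra h
    have h1 : L ∈ maximalIdeal R := (mem_maximalIdeal L).mpr h
    have h2 : ((p 1 : Rˣ) : R) - L ∈ maximalIdeal R := by simpa using hL 1
    have h3 : ((p 1 : Rˣ) : R) ∈ maximalIdeal R := by
      have h4 := add_mem h2 h1
      rwa [sub_add_cancel] at h4
    exact ((mem_maximalIdeal _).mp h3) (p 1).isUnit
  refine ⟨hLunit.unit, fun n => ?_⟩
  rw [mem_princUnits]
  have h1 : L - ((p n : Rˣ) : R) ∈ maximalIdeal R ^ (i + n) := by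
    have h2 : L - ((p n : Rˣ) : R) =
        -(((p (i + n) : Rˣ) : R) - L) - (((p n : Rˣ) : R) - p (i + n)) := by ring
    rw [h2]
    exact sub_mem (neg_mem (hL (i + n))) (hcauchy' n (i + n) (Nat.le_add_left n i))
  have h3 : ((hLunit.unit / p n : Rˣ) : R) - 1 =
      (L - ((p n : Rˣ) : R)) * (((p n)⁻¹ : Rˣ) : R) := by
    have h4 : ((p n : Rˣ) : R) * (((p n)⁻¹ : Rˣ) : R) = 1 := by
      rw [← Units.val_mul, mul_inv_cancel, Units.val_one]
    rw [div_eq_mul_inv, Units.val_mul, IsUnit.unit_spec]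
    linear_combination h4
  rw [h3]
  exact Ideal.mul_mem_right _ _ h1

/-- The filtration by principal units is separated. -/
theorem isFiltSeparated_princUnits [IsNoetherianRing R] (i : ℕ) :
    IsFiltSeparated (fun j => princUnits R (i + j)) := by
  intro u hu
  have h0 : (u : R) - 1 ∈ (⨅ k : ℕ, maximalIdeal R ^ k) := by
    rw [Ideal.mem_iInf]
    intro k
    exact Ideal.pow_le_pow_right (Nat.le_add_left k i) (mem_princUnits.mp (hu k))
  rw [Ideal.iInf_pow_eq_bot_of_isLocalRing _ Ideal.IsPrime.ne_top', Ideal.mem_bot] at h0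
  exact Units.ext (by simpa using sub_eq_zero.mp h0)

end Complete

section DVR

variable {R : Type*} [CommRing R] [IsDomain R] [IsDiscreteValuationRing R]

variable {π : R} (hπ : Irreducible π)
include hπ

theorem mem_maxIdeal_pow_iff (k : ℕ) (x : R) : x ∈ maximalIdeal R ^ k ↔ π ^ k ∣ x := by
  rw [hπ.maximalIdeal_eq, Ideal.span_singleton_pow, Ideal.mem_span_singleton]

theorem mem_princUnits_iff_dvd {i : ℕ} {u : Rˣ} :
    u ∈ princUnits R i ↔ π ^ i ∣ (u : R) - 1 := by
  rw [mem_princUnits, mem_maxIdeal_pow_iff hπ]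

theorem isUnit_one_add_pi_pow_mul {k : ℕ} (hk : 1 ≤ k) (a : R) : IsUnit (1 + π ^ k * a) := by
  apply isUnit_of_mem_nonunits_one_sub_self
  have h1 : (1 : R) - (1 + π ^ k * a) = -(π ^ k * a) := by ring
  rw [h1, ← mem_maximalIdeal]
  refine neg_mem (Ideal.mul_mem_right _ _ ?_)
  have : π ∈ maximalIdeal R := by
    rw [hπ.maximalIdeal_eq]; exact Ideal.mem_span_singleton_self π
  obtain ⟨j, rfl⟩ := Nat.exists_eq_add_of_le hk
  rw [pow_add, pow_one]
  exact Ideal.mul_mem_right _ _ this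

theorem isUnit_add_pi_mul {w : R} (hw : IsUnit w) (a : R) : IsUnit (w + π * a) := by
  have hmem : π * a ∈ maximalIdeal R := by
    refine Ideal.mul_mem_right _ _ ?_
    rw [hπ.maximalIdeal_eq]; exact Ideal.mem_span_singleton_self π
  by_contra h
  have h2 : w + π * a ∈ maximalIdeal R := (mem_maximalIdeal _).mpr h
  have h3 : w ∈ maximalIdeal R := by
    have := sub_mem h2 hmem
    simpa using this
  exact ((mem_maximalIdeal w).mp h3) hw

/-- The coefficient `a` in `u = 1 + π ^ i * a`. -/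
noncomputable def coef {i : ℕ} (u : princUnits R i) : R :=
  ((mem_princUnits_iff_dvd hπ).mp u.2).choose

theorem coef_spec {i : ℕ} (u : princUnits R i) : ((u : Rˣ) : R) - 1 = π ^ i * coef hπ u :=
  ((mem_princUnits_iff_dvd hπ).mp u.2).choose_spec

theorem coef_eq {i : ℕ} (u : princUnits R i) {a : R} (h : ((u : Rˣ) : R) - 1 = π ^ i * a) :
    coef hπ u = a := by
  have h1 := coef_spec hπ u
  rw [h] at h1
  exact (mul_left_cancel₀ (pow_ne_zero i hπ.ne_zero) h1).symm

/-- The homomorphism `U_i → R / m ^ e`, `1 + π ^ i a ↦ a`, for `e ≤ i`. -/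
noncomputable def coefHom {i e : ℕ} (hei : e ≤ i) :
    princUnits R i →* Multiplicative (R ⧸ maximalIdeal R ^ e) where
  toFun u := Multiplicative.ofAdd (Ideal.Quotient.mk _ (coef hπ u))
  map_one' := by
    have : coef hπ (1 : princUnits R i) = 0 := coef_eq hπ 1 (by simp)
    rw [this, map_zero, ofAdd_zero]
  map_mul' u v := by
    rw [← ofAdd_add, ← map_add]
    congr 1
    rw [Ideal.Quotient.eq, mem_maxIdeal_pow_iff hπ]
    have h : coef hπ (u * v) =
        coef hπ u + coef hπ v + π ^ i * (coef hπ u * coef hπ v) := by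
      apply coef_eq
      have hu := coef_spec hπ u
      have hv := coef_spec hπ v
      have : (((u * v : princUnits R i) : Rˣ) : R) = ((u : Rˣ) : R) * ((v : Rˣ) : R) := by
        push_cast; rfl
      rw [this]
      linear_combination ((v : Rˣ) : R) * hu + (1 + π ^ i * coef hπ u) * hv -
        π ^ i * coef hπ u * hv + π ^ i * coef hπ u * hv
    rw [h]
    obtain ⟨d, rfl⟩ := Nat.exists_eq_add_of_le hei
    exact ⟨π ^ d * (coef hπ u * coef hπ v), by ring⟩

theorem coefHom_surjective {i e : ℕ} (hei : e ≤ i) (hi : 1 ≤ i) :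
    Function.Surjective (coefHom hπ hei) := by
  intro x
  obtain ⟨a, ha⟩ := Ideal.Quotient.mk_surjective (Multiplicative.toAdd x)
  have hu : IsUnit (1 + π ^ i * a) := isUnit_one_add_pi_pow_mul hπ hi a
  have hmem : hu.unit ∈ princUnits R i := by
    rw [mem_princUnits_iff_dvd hπ, IsUnit.unit_spec]
    exact ⟨a, by ring⟩
  refine ⟨⟨hu.unit, hmem⟩, ?_⟩
  have : coef hπ ⟨hu.unit, hmem⟩ = a := coef_eq hπ _ (by simp)
  change Multiplicative.ofAdd (Ideal.Quotient.mk _ (coef hπ ⟨hu.unit, hmem⟩)) = x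
  rw [this, ha, ofAdd_toAdd]

theorem coefHom_ker {i e : ℕ} (hei : e ≤ i) :
    (coefHom hπ hei).ker = (princUnits R (i + e)).subgroupOf (princUnits R i) := by
  ext u
  rw [MonoidHom.mem_ker, Subgroup.mem_subgroupOf, mem_princUnits_iff_dvd hπ, coef_spec hπ u]
  change Multiplicative.ofAdd (Ideal.Quotient.mk _ (coef hπ u)) = 1 ↔ _
  rw [← ofAdd_zero, Multiplicative.ofAdd.injective.eq_iff, Ideal.Quotient.eq_zero_iff_mem,
    mem_maxIdeal_pow_iff hπ, pow_add]
  exact (mul_dvd_mul_iff_left (pow_ne_zero i hπ.ne_zero)).symm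

/-- `[U_i : U_(i+e)] = #(R / m ^ e)` for `1 ≤ i`, `e ≤ i`. -/
theorem relIndex_princUnits {i e : ℕ} (hei : e ≤ i) (hi : 1 ≤ i) :
    (princUnits R (i + e)).relIndex (princUnits R i) = Nat.card (R ⧸ maximalIdeal R ^ e) := by
  rw [Subgroup.relIndex, ← coefHom_ker hπ hei, Subgroup.index_ker,
    MonoidHom.range_eq_top.mpr (coefHom_surjective hπ hei hi)]
  rw [Nat.card_congr (Subgroup.topEquiv (G := Multiplicative (R ⧸ maximalIdeal R ^ e))).toEquiv]
  exact Nat.card_congr Multiplicative.toAdd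

variable {n e : ℕ} {u₀ : Rˣ} (hn : (n : R) = u₀ * π ^ e)
include hn

/-- `x ↦ xⁿ` maps `U_k` into `U_(k+e)` when `k ≥ e = v(n)`. -/
theorem pow_mem_princUnits {k : ℕ} (hk : e ≤ k) {v : Rˣ} (hv : v ∈ princUnits R k) :
    v ^ n ∈ princUnits R (k + e) := by
  rw [mem_princUnits_iff_dvd hπ] at hv ⊢
  obtain ⟨a, ha⟩ := hv
  obtain ⟨r, hr⟩ := exists_one_add_pow_eq ((v : R) - 1) n
  obtain ⟨d, rfl⟩ := Nat.exists_eq_add_of_le hk
  refine ⟨u₀ * a + π ^ d * a ^ 2 * r, ?_⟩
  have h1 : ((v ^ n : Rˣ) : R) = (1 + ((v : R) - 1)) ^ n := by push_cast; ring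
  rw [h1, hr, hn, ha]
  ring

/-- Graded surjectivity of `x ↦ xⁿ : U_k → U_(k+e)` for `k > e`. -/
theorem exists_pow_div_mem_princUnits {k : ℕ} (hk : e + 1 ≤ k) {y : Rˣ}
    (hy : y ∈ princUnits R (k + e)) :
    ∃ v ∈ princUnits R k, y / v ^ n ∈ princUnits R (k + e + 1) := by
  rw [mem_princUnits_iff_dvd hπ] at hy
  obtain ⟨b, hb⟩ := hy
  have hk1 : 1 ≤ k := le_trans (Nat.le_add_left 1 e) hk
  set a : R := ((u₀⁻¹ : Rˣ) : R) * b with ha
  have hv : IsUnit (1 + π ^ k * a) := isUnit_one_add_pi_pow_mul hπ hk1 a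
  refine ⟨hv.unit, ?_, ?_⟩
  · rw [mem_princUnits_iff_dvd hπ, IsUnit.unit_spec]
    exact ⟨a, by ring⟩
  · rw [mem_princUnits_iff_dvd hπ]
    obtain ⟨r, hr⟩ := exists_one_add_pow_eq (π ^ k * a) n
    obtain ⟨d, rfl⟩ := Nat.exists_eq_add_of_le hk
    -- `y - vⁿ = - π^(2k) a² r`
    have hvn : ((hv.unit ^ n : Rˣ) : R) = (1 + π ^ (e + 1 + d) * a) ^ n := by
      push_cast; rw [IsUnit.unit_spec]
    have hu : (u₀ : R) * ((u₀⁻¹ : Rˣ) : R) = 1 := by
      rw [← Units.val_mul, mul_inv_cancel, Units.val_one]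
    have hdiff : (y : R) - ((hv.unit ^ n : Rˣ) : R) =
        π ^ (e + 1 + d + e + 1) * (-(π ^ d * a ^ 2 * r)) := by
      have hy' : (y : R) = 1 + π ^ (e + 1 + d + e) * b := by linear_combination hb
      rw [hvn, hr, hn, hy', ha]
      linear_combination (-(π ^ (e + 1 + d + e) * b)) * hu
    have hq : ((y / hv.unit ^ n : Rˣ) : R) - 1 =
        ((y : R) - ((hv.unit ^ n : Rˣ) : R)) * (((hv.unit ^ n)⁻¹ : Rˣ) : R) := by
      have h1 : ((hv.unit ^ n : Rˣ) : R) * (((hv.unit ^ n)⁻¹ : Rˣ) : R) = 1 := by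
        rw [← Units.val_mul, mul_inv_cancel, Units.val_one]
      rw [div_eq_mul_inv, Units.val_mul]
      linear_combination h1
    rw [hq, hdiff]
    exact dvd_mul_of_dvd_left (dvd_mul_right _ _) _

/-- `x ↦ xⁿ` is injective on `U_i` for `i > e = v(n)`. -/
theorem eq_one_of_pow_eq_one {i : ℕ} (hi : e + 1 ≤ i) {u : Rˣ} (hu : u ∈ princUnits R i)
    (hun : u ^ n = 1) : u = 1 := by
  by_contra hne
  have hx : (u : R) - 1 ≠ 0 := by
    intro h
    exact hne (Units.ext (by simpa using sub_eq_zero.mp h))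
  obtain ⟨j, w, hw⟩ := IsDiscreteValuationRing.eq_unit_mul_pow_irreducible hx hπ
  -- `i ≤ j`
  have hij : i ≤ j := by
    rw [mem_princUnits_iff_dvd hπ, hw] at hu
    have h1 : π ^ i ∣ π ^ j := by
      have := (Units.dvd_mul_left (u := w) (a := π ^ i) (b := π ^ j)).mp
      exact this hu
    exact (pow_dvd_pow_iff hπ.ne_zero hπ.not_isUnit).mp h1
  obtain ⟨r, hr⟩ := exists_one_add_pow_eq ((u : R) - 1) n
  have h1 : ((u ^ n : Rˣ) : R) = (1 + ((u : R) - 1)) ^ n := by push_cast; ring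
  have hje : e + 1 ≤ j := le_trans hi hij
  obtain ⟨d, rfl⟩ := Nat.exists_eq_add_of_le hje
  have h2 : ((u ^ n : Rˣ) : R) - 1 =
      π ^ (e + 1 + d + e) * ((u₀ : R) * w + π * (π ^ d * (w : R) ^ 2 * r)) := by
    rw [h1, hr, hn, hw]
    ring
  rw [hun, Units.val_one, sub_self] at h2
  have h3 : IsUnit ((u₀ : R) * w + π * (π ^ d * (w : R) ^ 2 * r)) :=
    isUnit_add_pi_mul hπ ((u₀ * w).isUnit) _
  rcases mul_eq_zero.mp h2.symm with h | h
  · exact pow_ne_zero _ hπ.ne_zero h
  · exact h3.ne_zero h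

/-- `x ↦ xⁿ` maps `U_i` onto `U_(i+e)` for `i > e = v(n)`, when `R` is complete. -/
theorem exists_pow_eq_of_mem_princUnits [IsPrecomplete (maximalIdeal R) R] {i : ℕ}
    (hi : e + 1 ≤ i) {w : Rˣ} (hw : w ∈ princUnits R (i + e)) :
    ∃ v ∈ princUnits R i, v ^ n = w := by
  have key := surj_of_graded_surj (FV := fun j => princUnits R (i + j))
    (FW := fun j => princUnits R (i + e + j)) (powMonoidHom n : Rˣ →* Rˣ)
    (isFiltComplete_princUnits i) (isFiltSeparated_princUnits (i + e))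
    (fun j v hv => by
      have h := pow_mem_princUnits hπ hn (k := i + j) (by omega) hv
      rwa [Nat.add_right_comm] at h)
    (fun j y hy => by
      have hy' : y ∈ princUnits R (i + j + e) := by rwa [Nat.add_right_comm]
      obtain ⟨v, hv, hv'⟩ := exists_pow_div_mem_princUnits hπ hn (k := i + j) (by omega) hy'
      refine ⟨v, hv, ?_⟩
      have : i + j + e + 1 = i + e + (j + 1) := by omega
      rw [this] at hv'
      exact hv')
    w hw
  obtain ⟨v, hv, hvw⟩ := key
  exact ⟨v, hv, hvw⟩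

end DVR

section Main

variable (R : Type*) [CommRing R] [IsDomain R] [IsDiscreteValuationRing R]
  [IsAdicComplete (maximalIdeal R) R] [Finite (ResidueField R)]
  (F : Type*) [Field F] [Algebra R F] [IsFractionRing R F]

/-- **Index of `n`-th powers in a local field.** For a complete discrete valuation ring `R` with
finite residue field and fraction field `F`, and `n` nonzero in `R`:
`[Fˣ : (Fˣ)ⁿ] = n * #μ_n(F) * #(R / n R)`. -/
theorem index_range_pow_units (n : ℕ) (hn : (n : R) ≠ 0) :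
    (powMonoidHom n : Fˣ →* Fˣ).range.index =
      n * Nat.card (rootsOfUnity n F) * Nat.card (R ⧸ Ideal.span {(n : R)}) := by
  obtain ⟨π, hπ⟩ := IsDiscreteValuationRing.exists_irreducible R
  obtain ⟨e, u₀, hn'⟩ := IsDiscreteValuationRing.eq_unit_mul_pow_irreducible hn hπ
  have hn0 : n ≠ 0 := by
    rintro rfl
    exact hn (by simp)
  set ι : Rˣ →* Fˣ := Units.map (algebraMap R F : R →* F) with hι
  have hιinj : Function.Injective ι :=
    Units.map_injective (IsFractionRing.injective R F)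
  have hrange : ι.range = (ordHom R F).ker := by
    ext x
    rw [MonoidHom.mem_range, MonoidHom.mem_ker, ordHom_eq_one_iff]
  have hmain := index_range_pow_of_filtration' n hn0 (ordHom R F) (ordHom_surjective R F) ι hιinj
    hrange (princUnits R (e + 1)) (princUnits R (e + 1 + e)) (princUnits_index_ne_zero (e + 1))
    (fun x hx hxn => eq_one_of_pow_eq_one hπ hn' le_rfl hx hxn)
    (fun y => ⟨fun hy => exists_pow_eq_of_mem_princUnits hπ hn' le_rfl hy,
      fun ⟨x, hx, hxy⟩ => hxy ▸ pow_mem_princUnits hπ hn' (Nat.le_succ e) hx⟩)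
    (princUnits_anti (Nat.le_add_right _ _))
  rw [hmain, relIndex_princUnits hπ (Nat.le_succ e) (Nat.le_add_left 1 e)]
  have hker : (powMonoidHom n : Fˣ →* Fˣ).ker = rootsOfUnity n F := by
    ext x
    rw [MonoidHom.mem_ker, powMonoidHom_apply, mem_rootsOfUnity]
  have hideal : maximalIdeal R ^ e = Ideal.span {(n : R)} := by
    rw [hπ.maximalIdeal_eq, Ideal.span_singleton_pow, hn']
    exact (Ideal.span_singleton_eq_span_singleton.mpr
      ⟨u₀, by rw [mul_comm]⟩)
  rw [hker, hideal]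

/-- The `n`-th powers have finite index in `Fˣ`. -/
theorem index_range_pow_units_ne_zero (n : ℕ) (hn : (n : R) ≠ 0) :
    (powMonoidHom n : Fˣ →* Fˣ).range.index ≠ 0 := by
  rw [index_range_pow_units R F n hn]
  have hn0 : n ≠ 0 := by
    rintro rfl
    exact hn (by simp)
  have : NeZero n := ⟨hn0⟩
  have h1 : Nat.card (rootsOfUnity n F) ≠ 0 := Nat.card_pos.ne'
  have h2 : Nat.card (R ⧸ Ideal.span {(n : R)}) ≠ 0 := by
    obtain ⟨π, hπ⟩ := IsDiscreteValuationRing.exists_irreducible R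
    obtain ⟨e, u₀, hn'⟩ := IsDiscreteValuationRing.eq_unit_mul_pow_irreducible hn hπ
    have hideal : maximalIdeal R ^ e = Ideal.span {(n : R)} := by
      rw [hπ.maximalIdeal_eq, Ideal.span_singleton_pow, hn']
      exact (Ideal.span_singleton_eq_span_singleton.mpr ⟨u₀, by rw [mul_comm]⟩)
    rw [← hideal]
    have : Finite (R ⧸ maximalIdeal R) := ‹Finite (ResidueField R)›
    have : Finite (R ⧸ maximalIdeal R ^ e) :=
      Ideal.finite_quotient_pow (IsNoetherian.noetherian _) e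
    exact Nat.card_pos.ne'
  exact Nat.mul_ne_zero (Nat.mul_ne_zero hn0 h1) h2

/-- If `n` is a unit of `R` (residue characteristic prime to `n`), then
`[Fˣ : (Fˣ)ⁿ] = n * #μ_n(F)`. -/
theorem index_range_pow_units_of_isUnit (n : ℕ) (hn : IsUnit (n : R)) :
    (powMonoidHom n : Fˣ →* Fˣ).range.index = n * Nat.card (rootsOfUnity n F) := by
  rw [index_range_pow_units R F n hn.ne_zero]
  have h : Ideal.span {(n : R)} = ⊤ := Ideal.span_singleton_eq_top.mpr hn
  have : Subsingleton (R ⧸ Ideal.span {(n : R)}) := by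
    rw [h]; exact Ideal.Quotient.subsingleton_iff.mpr rfl
  have h1 : Nat.card (R ⧸ Ideal.span {(n : R)}) = 1 := Nat.card_unique
  rw [h1, mul_one]

/-- The index of `n`-th powers in the unit group `Rˣ`:
`[Rˣ : (Rˣ)ⁿ] = #μ_n(R) * #(R / n R)`. -/
theorem index_range_pow_unitsInt (n : ℕ) (hn : (n : R) ≠ 0) :
    (powMonoidHom n : Rˣ →* Rˣ).range.index =
      Nat.card (rootsOfUnity n R) * Nat.card (R ⧸ Ideal.span {(n : R)}) := by
  obtain ⟨π, hπ⟩ := IsDiscreteValuationRing.exists_irreducible R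
  obtain ⟨e, u₀, hn'⟩ := IsDiscreteValuationRing.eq_unit_mul_pow_irreducible hn hπ
  set φ : Rˣ →* Rˣ := powMonoidHom n with hφ
  have hV : (princUnits R (e + 1)).map φ = princUnits R (e + 1 + e) := by
    ext y
    rw [Subgroup.mem_map]
    exact ⟨fun ⟨x, hx, hxy⟩ => hxy ▸ pow_mem_princUnits hπ hn' (Nat.le_succ e) hx,
      fun hy => exists_pow_eq_of_mem_princUnits hπ hn' le_rfl hy⟩
  have hdisj : princUnits R (e + 1) ⊓ φ.ker = ⊥ := by
    rw [eq_bot_iff]
    intro x hx
    obtain ⟨hxV, hxk⟩ := Subgroup.mem_inf.mp hx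
    rw [MonoidHom.mem_ker, hφ, powMonoidHom_apply] at hxk
    exact Subgroup.mem_bot.mpr (eq_one_of_pow_eq_one hπ hn' le_rfl hxV hxk)
  have key := relIndex_map_eq_card_ker_mul φ ⊤ (princUnits R (e + 1)) le_top le_top le_top
    (by rw [hV]; exact princUnits_anti (Nat.le_add_right _ _))
    (by rw [Subgroup.relIndex_top_right]; exact princUnits_index_ne_zero (e + 1)) hdisj
  rw [Subgroup.relIndex_top_right, ← MonoidHom.range_eq_map, hV,
    relIndex_princUnits hπ (Nat.le_succ e) (Nat.le_add_left 1 e)] at key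
  have hker : φ.ker = rootsOfUnity n R := by
    ext x
    rw [MonoidHom.mem_ker, hφ, powMonoidHom_apply, mem_rootsOfUnity]
  have hideal : maximalIdeal R ^ e = Ideal.span {(n : R)} := by
    rw [hπ.maximalIdeal_eq, Ideal.span_singleton_pow, hn']
    exact (Ideal.span_singleton_eq_span_singleton.mpr ⟨u₀, by rw [mul_comm]⟩)
  rw [key, hker, hideal]

end Main

end Fermat.Agent.Lib.CFT.Local.PowerIndex
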