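/-
helper53 (P-CFT, local base case).  The divisibility hypothesis `(DIV)` of `FormationT.HasDiv`
for the open subgroups of the local Galois groups: every open subgroup `U` of an open subgroup `W`
of `Gal(ℚ̄_q/ℚ_q)` contains an open subgroup, normal in `W`, of index divisible by `p [W : U]`
(there are totally ramified extensions `ℚ_q(q^{1/n})` of every degree, helper77's `LocalDegree`).
-/
import Fermat.Agent.Lib.CFT.Global.SVersion.LocalDegree
import Fermat.Agent.Lib.CFT.Profinite.BridgeLocalLevels
import Fermat.Agent.Lib.CFT.Profinite.LES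
import Fermat.Agent.Lib.CFT.Profinite.Shapiro
import Fermat.Agent.Lib.CFT.Duality.LocDatum

set_option autoImplicit false

namespace Fermat.Agent.Lib.CFT.Local.LocalHasDiv

open Fermat.Agent.Lib.CFT.Profinite Fermat.Agent.Lib.CFT.Profinite.LevelFamily

section Group

variable {G : Type} [Group G]

/-- If a level family has levels of index divisible by any given number, then so does its
restriction to a subgroup of finite index, in the relative form `(DIV)`: every level of the
restricted family contains a normal level whose index is divisible by `p` times its index. -/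
theorem hasDiv_restrict (𝒰 : LevelFamily G)
    (hbig : ∀ n : ℕ, 0 < n → ∃ V ∈ 𝒰.levels, n ∣ V.index)
    (W : Subgroup G) [hW : W.FiniteIndex] (p : ℕ) (hp : 0 < p)
    (U' : Subgroup W) (hU' : U' ∈ (LES.restrict 𝒰 W).levels) :
    ∃ U'' ∈ (LES.restrict 𝒰 W).levels, U''.Normal ∧ U'' ≤ U' ∧ p * U'.index ∣ U''.index := by
  obtain ⟨U, hU, rfl⟩ := hU'
  have hfi : (U.comap W.subtype).FiniteIndex := (LES.restrict 𝒰 W).finiteIndex _ ⟨U, hU, rfl⟩
  have hm : 0 < p * (U.comap W.subtype).index * W.index :=
    Nat.mul_pos (Nat.mul_pos hp (Nat.pos_of_ne_zero hfi.index_ne_zero))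
      (Nat.pos_of_ne_zero hW.index_ne_zero)
  obtain ⟨V, hV, hdvd⟩ := hbig _ hm
  obtain ⟨N, hN, hNU, hNV, hn⟩ := 𝒰.exists_normal_le_inf hU hV
  have := hn
  refine ⟨N.comap W.subtype, ⟨N, hN, rfl⟩, inferInstance, Subgroup.comap_mono hNU, ?_⟩
  have h1 : (N.comap W.subtype).index = (N ⊓ W).relIndex W := by
    rw [Subgroup.inf_relIndex_right]
    rfl
  have h2 : (N ⊓ W).relIndex W * W.index = (N ⊓ W).index :=
    Subgroup.relIndex_mul_index inf_le_right
  have h3 : V.index ∣ (N ⊓ W).index := Subgroup.index_dvd_of_le (inf_le_left.trans hNV)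
  have h4 : p * (U.comap W.subtype).index * W.index ∣ (N.comap W.subtype).index * W.index := by
    rw [h1, h2]
    exact hdvd.trans h3
  exact Nat.dvd_of_mul_dvd_mul_right (Nat.pos_of_ne_zero hW.index_ne_zero) h4

end Group

section Local

variable (q : ℕ) [Fact q.Prime]

local notation "Ωq" => PadicAlgCl q
local notation "Gq" => (PadicAlgCl q ≃ₐ[ℚ_[q]] PadicAlgCl q)

open IntermediateField

/-- The local Galois group has open subgroups of index divisible by any given number. -/
theorem exists_localLevel_dvd_index (n : ℕ) (hn : 0 < n) :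
    ∃ V ∈ (Bridge.localLevels q).levels, n ∣ V.index := by
  obtain ⟨y, hy⟩ := IsAlgClosed.exists_pow_nat_eq (q : Ωq) hn
  have hint : IsIntegral ℚ_[q] y := Algebra.IsIntegral.isIntegral y
  have hfd : FiniteDimensional ℚ_[q] ℚ_[q]⟮y⟯ := adjoin.finiteDimensional hint
  refine ⟨ℚ_[q]⟮y⟯.fixingSubgroup, ⟨ℚ_[q]⟮y⟯, hfd, rfl⟩, ?_⟩
  have hle : ℚ_[q]⟮y⟯.fixingSubgroup ≤ MulAction.stabilizer Gq y := by
    intro σ hσ
    rw [MulAction.mem_stabilizer_iff]
    exact (IntermediateField.mem_fixingSubgroup_iff _ σ).1 hσ y (mem_adjoin_simple_self ℚ_[q] y)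
  have h1 := Subgroup.index_dvd_of_le hle
  rwa [Global.SVersion.LocalDegree.index_stabilizer_of_pow_eq q hn hy] at h1

end Local

section Prime

open Fermat.Agent.Lib.CFT.Duality ExtCitation LES

/-- **(DIV) for the open subgroups of the local Galois groups.** -/
theorem hasDiv_primeLocal (q : Nat.Primes) (W : Subgroup (primeLocalGaloisGroup q))
    (hW : IsOpenSubgroup (primeLocalLevels q) W) (p : ℕ) (hp : 0 < p)
    (U : Subgroup W) (hU : U ∈ (LES.restrict (primeLocalLevels q) W).levels) :
    ∃ U' ∈ (LES.restrict (primeLocalLevels q) W).levels,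
      U'.Normal ∧ U' ≤ U ∧ p * U.index ∣ U'.index := by
  have : Fact (q : ℕ).Prime := ⟨q.2⟩
  have := hW.finiteIndex
  exact hasDiv_restrict (primeLocalLevels q) (exists_localLevel_dvd_index (q : ℕ)) W p hp U hU

end Prime

end Fermat.Agent.Lib.CFT.Local.LocalHasDiv
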