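import Fermat.Agent.Lib.CFT.Local.LqModule
import Fermat.Agent.Lib.CFT.Local.PowerIndex
import Fermat.Agent.Lib.CFT.Local.LocalBrauer.PadicBlock
import Fermat.Agent.Lib.CFT.Profinite.Cores
import Fermat.Agent.Lib.CFT.Profinite.LevelLowDegree
import Fermat.Agent.Lib.CFT.Duality.LocalTateArith

/-!
# The module facts on `Lq q` restricted to an open subgroup

For a prime `q`, an open subgroup `W` of the local Galois group on which the mod `p` cyclotomic
character is trivial, and `L := Rep.res W.subtype (Lq q)` with the level family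
`𝒲 := LES.restrict (primeLocalLevels q) W`: `L` is discrete and `p`-divisible, its `p`-torsion is
generated by a non-zero invariant element, and `H⁰(L)/p` is finite.
-/

set_option autoImplicit false

open CategoryTheory

namespace Fermat.Agent.Lib.CFT.Local.LqKummerFields

open ExtCitation Fermat.Agent.Lib.CFT.Profinite Fermat.Agent.Lib.CFT.Duality
  Fermat.Agent.Lib.CFT.Local.LqModule

/-! ### Generic statements for a prime number `q` -/

section generic

open Fermat.Agent.Lib.CFT.Local Fermat.Agent.Lib.CFT.Local.LocalBrauer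

variable (q : ℕ) [Fact q.Prime]

/-- powers have finite index in a finite extension of `ℚ_q` -/
theorem index_range_pow_ne_zero_of_finite (F : Type) [Field F] [Algebra ℚ_[q] F] [FiniteDimensional ℚ_[q] F]
    (p : ℕ) (hp : p ≠ 0) : (powMonoidHom p : Fˣ →* Fˣ).range.index ≠ 0 := by
  have : CharZero F := (RingHom.charZero_iff (algebraMap ℚ_[q] F).injective).1 inferInstance
  refine PowerIndex.index_range_pow_units_ne_zero (PadicBlock.intRing q F) F p ?_
  intro h
  have h2 : ((p : PadicBlock.intRing q F) : F) = 0 := by rw [h]; rfl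
  have h3 : ((p : PadicBlock.intRing q F) : F) = (p : F) := by simp
  rw [h3] at h2
  exact hp (Nat.cast_eq_zero.mp h2)

theorem exists_finite_pow_reps {F : Type*} [CommGroup F] (p : ℕ)
    (h : (powMonoidHom p : F →* F).range.index ≠ 0) :
    ∃ S : Set F, S.Finite ∧ ∀ u : F, ∃ s ∈ S, ∃ v : F, u = s * v ^ p := by
  have : (powMonoidHom p : F →* F).range.FiniteIndex := ⟨h⟩
  have hfin : Finite (F ⧸ (powMonoidHom p : F →* F).range) := inferInstance
  refine ⟨Set.range (Quotient.out : F ⧸ (powMonoidHom p : F →* F).range → F),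
    Set.finite_range _, fun u => ?_⟩
  refine ⟨(QuotientGroup.mk u : F ⧸ (powMonoidHom p : F →* F).range).out, ⟨_, rfl⟩, ?_⟩
  have h1 : (QuotientGroup.mk (QuotientGroup.mk u : F ⧸ (powMonoidHom p : F →* F).range).out :
      F ⧸ (powMonoidHom p : F →* F).range) = QuotientGroup.mk u := Quotient.out_eq' _
  rw [QuotientGroup.eq] at h1
  obtain ⟨v, hv⟩ := h1
  refine ⟨v, ?_⟩
  rw [powMonoidHom_apply] at hv
  rw [hv, mul_inv_cancel_left]

theorem exists_finite_reps_fixed (W : Subgroup (PadicAlgCl q ≃ₐ[ℚ_[q]] PadicAlgCl q))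
    (hW : ∃ E : IntermediateField ℚ_[q] (PadicAlgCl q),
      FiniteDimensional ℚ_[q] E ∧ E.fixingSubgroup ≤ W)
    (p : ℕ) (hp : p ≠ 0) :
    ∃ S : Set (PadicAlgCl q)ˣ, S.Finite ∧
      ∀ u : (PadicAlgCl q)ˣ, (∀ g ∈ W, g (u : PadicAlgCl q) = u) →
        ∃ s ∈ S, ∃ v : (PadicAlgCl q)ˣ, (∀ g ∈ W, g (v : PadicAlgCl q) = v) ∧ u = s * v ^ p := by
  obtain ⟨E, hE, hle⟩ := hW
  set F : IntermediateField ℚ_[q] (PadicAlgCl q) := IntermediateField.fixedField W
  have hmem : ∀ x : PadicAlgCl q, x ∈ F ↔ ∀ g ∈ W, g x = x := fun x =>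
    IntermediateField.mem_fixedField_iff W x
  have hFE : F ≤ E := by
    have h1 := IntermediateField.fixedField_antitone hle
    rwa [InfiniteGalois.fixedField_fixingSubgroup] at h1
  have hfd : FiniteDimensional ℚ_[q] F :=
    FiniteDimensional.of_injective (IntermediateField.inclusion hFE).toLinearMap
      (IntermediateField.inclusion hFE).injective
  obtain ⟨S, hS, hS'⟩ := exists_finite_pow_reps p (index_range_pow_ne_zero_of_finite q F p hp)
  refine ⟨(Units.map (F.val : F →* PadicAlgCl q)) '' S, hS.image _, fun u hu => ?_⟩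
  have huF : (u : PadicAlgCl q) ∈ F := (hmem _).2 hu
  obtain ⟨s, hs, v, hv⟩ := hS' (Units.mk0 (⟨u, huF⟩ : F) (by
    intro h0
    exact u.ne_zero (congr_arg Subtype.val h0)))
  refine ⟨Units.map (F.val : F →* PadicAlgCl q) s, ⟨s, hs, rfl⟩,
    Units.map (F.val : F →* PadicAlgCl q) v, ?_, ?_⟩
  · intro g hg
    exact (hmem _).1 (v : F).2 g hg
  · apply Units.ext
    have h1 := congr_arg (fun w : Fˣ => ((w : F) : PadicAlgCl q)) hv
    simpa using h1

end generic

/-! ### From invariant elements to `H⁰` -/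

section H0

universe u

variable {k G : Type u} [CommRing k] [Group G] (𝒰 : LevelFamily G) (M : Rep.{u} k G) (p : ℕ)

/-- Finiteness of the invariants modulo `p` in element form implies the same for `H⁰` of the level
complex. -/
theorem fin0_of_elem
    (h : ∃ S : Set M, S.Finite ∧ ∀ c : M, (∀ g, M.ρ g c = c) →
      ∃ s ∈ S, ∃ c' : M, (∀ g, M.ρ g c' = c') ∧ c = s + p • c') :
    ∃ S : Set (𝒰.levelCohomology M 0), S.Finite ∧
      ∀ c, ∃ s ∈ S, ∃ c' : 𝒰.levelCohomology M 0, c = s + p • c' := by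
  obtain ⟨S, hS, hS'⟩ := h
  have hinj : Function.Injective fun x : 𝒰.levelCohomology M 0 => ((𝒰.H0Equiv M x).1 : M) :=
    Subtype.val_injective.comp (𝒰.H0Equiv M).injective
  refine ⟨(fun x : 𝒰.levelCohomology M 0 => ((𝒰.H0Equiv M x).1 : M)) ⁻¹' S,
    hS.preimage hinj.injOn, fun c => ?_⟩
  obtain ⟨s, hs, c', hc', hcs⟩ := hS' (𝒰.H0Equiv M c).1
    (fun g => (Representation.mem_invariants M.ρ _).1 (𝒰.H0Equiv M c).2 g)
  have hsinv : s ∈ M.ρ.invariants := by
    rw [Representation.mem_invariants]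
    intro g
    have h1 : s = (𝒰.H0Equiv M c).1 - p • c' := by rw [hcs]; abel
    rw [h1, map_sub, map_nsmul, hc' g,
      (Representation.mem_invariants M.ρ _).1 (𝒰.H0Equiv M c).2 g]
  have hc'inv : c' ∈ M.ρ.invariants := (Representation.mem_invariants M.ρ _).2 hc'
  refine ⟨(𝒰.H0Equiv M).symm ⟨s, hsinv⟩, ?_, (𝒰.H0Equiv M).symm ⟨c', hc'inv⟩, ?_⟩
  · show ((𝒰.H0Equiv M ((𝒰.H0Equiv M).symm ⟨s, hsinv⟩)).1 : M) ∈ S
    rw [LinearEquiv.apply_symm_apply]
    exact hs
  · apply (𝒰.H0Equiv M).injective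
    rw [map_add, map_nsmul, LinearEquiv.apply_symm_apply, LinearEquiv.apply_symm_apply]
    exact Subtype.ext hcs

end H0

variable (q : Nat.Primes) (p : ℕ) [Fact p.Prime] (W : Subgroup (primeLocalGaloisGroup q))

/-- The module `Lq q` restricted to `W`. -/
noncomputable abbrev LW : Rep ℤ W := Rep.res W.subtype (Lq q)

/-- The level family induced on `W`. -/
noncomputable abbrev levelsW : LevelFamily W := LES.restrict (primeLocalLevels q) W

/-- `disc`: the restriction of `Lq q` to `W` is discrete. -/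
theorem isDiscrete_LW : (levelsW q W).IsDiscrete (LW q W) :=
  LES.isDiscrete_res (primeLocalLevels q) W (Lq q) (isDiscrete_Lq q)

/-- `div`: the restriction of `Lq q` to `W` is `p`-divisible. -/
theorem exists_nsmul_eq_LW (l : LW q W) : ∃ l' : LW q W, p • l' = l :=
  exists_nsmul_eq q (Fact.out : p.Prime).ne_zero l

/-- `tors`: if the mod `p` cyclotomic character is trivial on `W`, the `p`-torsion of `Lq q` is
generated by a non-zero `W`-invariant element. -/
theorem tors_LW (hχ : ∀ s ∈ W, chiLoc q p s = 1) :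
    ∃ ζ : LW q W, p • ζ = 0 ∧ (∀ g, (LW q W).ρ g ζ = ζ) ∧ ζ ≠ 0 ∧
      ∀ a : LW q W, p • a = 0 → ∃ n : ℕ, a = n • ζ := by
  have : NeZero p := ⟨(Fact.out : p.Prime).ne_zero⟩
  refine ⟨torsionMap q p 1, ?_, ?_, ?_, ?_⟩
  · have h : torsionMap q p 1 ∈ {x : Lq q | p • x = 0} := by
      rw [← range_torsionMap]
      exact ⟨1, rfl⟩
    exact h
  · intro g
    show (Lq q).ρ (g : primeLocalGaloisGroup q) (torsionMap q p 1) = torsionMap q p 1
    rw [ρ_torsionMap, hχ g g.2, one_mul]
  · intro h0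
    have h1 : torsionMap q p 1 = torsionMap q p 0 := h0.trans (map_zero _).symm
    exact one_ne_zero (torsionMap_injective q p h1)
  · intro a ha
    have h : a ∈ Set.range (torsionMap q p) := by
      rw [range_torsionMap]
      exact ha
    obtain ⟨b, rfl⟩ := h
    refine ⟨b.val, ?_⟩
    show torsionMap q p b = b.val • torsionMap q p 1
    rw [← map_nsmul, nsmul_eq_mul, mul_one, ZMod.natCast_zmod_val]

/-- `fin0`, element form: the `W`-invariants of `Lq q` modulo `p` are finite. -/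
theorem fin0_LW_elem (hW : LES.IsOpenSubgroup (primeLocalLevels q) W) :
    ∃ S : Set (LW q W), S.Finite ∧ ∀ c : LW q W, (∀ g, (LW q W).ρ g c = c) →
      ∃ s ∈ S, ∃ c' : LW q W, (∀ g, (LW q W).ρ g c' = c') ∧ c = s + p • c' := by
  have : Fact (q : ℕ).Prime := ⟨q.2⟩
  obtain ⟨U, ⟨E, hE, rfl⟩, hle⟩ := hW
  obtain ⟨S, hS, hS'⟩ := exists_finite_reps_fixed (q : ℕ) W ⟨E, hE, hle⟩ p
    (Fact.out : p.Prime).ne_zero
  refine ⟨ofUnit q '' S, hS.image _, fun c hc => ?_⟩
  obtain ⟨s, hs, v, hv, huv⟩ := hS' (toUnit q c) (fun g hg => by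
    have h := hc ⟨g, hg⟩
    exact (ρ_eq_iff q g c c).1 h)
  refine ⟨ofUnit q s, ⟨s, hs, rfl⟩, ofUnit q v, fun g => ?_, ?_⟩
  · exact (ρ_eq_iff q (g : primeLocalGaloisGroup q) (ofUnit q v) (ofUnit q v)).2 (hv (g : primeLocalGaloisGroup q) g.2)
  · rw [← ofUnit_pow, ← ofUnit_mul, ← huv, ofUnit_toUnit]

/-- `fin0`: `H⁰(W, Lq q)` modulo `p` is finite. -/
theorem fin0_LW (hW : LES.IsOpenSubgroup (primeLocalLevels q) W) :
    ∃ S : Set ((levelsW q W).levelCohomology (LW q W) 0), S.Finite ∧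
      ∀ c, ∃ s ∈ S, ∃ c' : (levelsW q W).levelCohomology (LW q W) 0, c = s + p • c' :=
  fin0_of_elem (levelsW q W) (LW q W) p (fin0_LW_elem q p W hW)

/-- The hypothesis on the cyclotomic character in terms of `LocalTate.localCycloChar`. -/
theorem chiLoc_eq_one_of_le_ker (hχ : W ≤ (LocalTate.localCycloChar p q).ker) :
    ∀ s ∈ W, chiLoc q p s = 1 := by
  intro s hs
  have h : LocalTate.localCycloChar p q s = 1 := hχ hs
  show ((LocalTate.localCycloChar p q s : (ZMod p)ˣ) : ZMod p) = 1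
  rw [h, Units.val_one]

end Fermat.Agent.Lib.CFT.Local.LqKummerFields
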