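import Mathlib
import Fermat.Agent.Lib.CFT.Local.UnramifiedCore
import Fermat.Agent.Lib.CFT.Local.UnramNorm

/-!
# Existence of unramified extensions: `K(μ_{Q^n - 1})`

In helper42's AKLB setting (`A` a discrete valuation ring with finite residue field of
cardinality `Q`, `B` Henselian): a cyclotomic extension `L = K(μ_m)` with `m` invertible in the
residue field is unramified (`isUnram_of_cyclotomic`), and for `m = Q ^ n - 1` it has degree `n`
(`finrank_of_cyclotomic_card_pow_sub_one`).
-/

set_option autoImplicit false
set_option linter.unusedSectionVars false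

open IsLocalRing Polynomial Module

namespace Fermat.Agent.Lib.CFT.Local.Unramified

section General

variable (A K L B : Type*)
  [CommRing A] [IsDomain A] [IsDiscreteValuationRing A]
  [Field K] [Algebra A K] [IsFractionRing A K]
  [Field L] [Algebra K L] [FiniteDimensional K L] [Algebra.IsSeparable K L]
  [Algebra A L] [IsScalarTower A K L]
  [CommRing B] [Algebra A B] [Algebra B L] [IsScalarTower A B L] [IsIntegralClosure B A L]

section cyclo

variable [HenselianLocalRing B] [IsLocalHom (algebraMap A B)] [Finite (ResidueField A)]

include A K L B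

/-- A cyclotomic extension has its primitive root in the integral closure. -/
lemma exists_isPrimitiveRoot_B_of_cyclotomic (m : ℕ) (hm : m ≠ 0)
    [IsCyclotomicExtension {m} K L] : ∃ ζ : B, IsPrimitiveRoot ζ m := by
  obtain ⟨z, hz⟩ := IsCyclotomicExtension.exists_isPrimitiveRoot K L (Set.mem_singleton m) hm
  have hint : IsIntegral A z := by
    refine ⟨X ^ m - 1, monic_X_pow_sub_C (1 : A) hm, ?_⟩
    simp [hz.pow_eq_one]
  obtain ⟨ζ, rfl⟩ := (IsIntegralClosure.isIntegral_iff (A := B)).mp hint
  exact ⟨ζ, hz.of_map_of_injective (IsIntegralClosure.algebraMap_injective B A L)⟩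

/-- For a cyclotomic extension of order prime to the residue characteristic the Galois group
acts faithfully on the residue field. -/
theorem residueGalHom_injective_of_cyclotomic (m : ℕ) (hm : (m : ResidueField B) ≠ 0)
    [IsCyclotomicExtension {m} K L] : Function.Injective (residueGalHom A K L B) := by
  intro σ τ hστ
  have hm0 : m ≠ 0 := by rintro rfl; simp at hm
  obtain ⟨ζ, hζ⟩ := exists_isPrimitiveRoot_B_of_cyclotomic A K L B m hm0
  have hζ' : IsPrimitiveRoot (algebraMap B L ζ) m :=
    hζ.map_of_injective (IsIntegralClosure.algebraMap_injective B A L)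
  refine IsCyclotomicExtension.algEquiv_eq_of_apply_eq {m} K L ?_
  intro n hn' _
  rw [Set.mem_singleton_iff] at hn'
  subst hn'
  refine ⟨_, hζ', ?_⟩
  rw [← algebraMap_galRestrict_apply A, ← algebraMap_galRestrict_apply A]
  congr 1
  refine eq_of_pow_eq_one_of_residue_eq hm ?_ ?_ ?_
  · rw [← map_pow, hζ.pow_eq_one, map_one]
  · rw [← map_pow, hζ.pow_eq_one, map_one]
  · have := congrArg (fun e => e (residue B ζ)) hστ
    simpa using this

/-- **Cyclotomic extensions of order prime to the residue characteristic are unramified.** -/
theorem isUnram_of_cyclotomic (m : ℕ) (hm : (m : ResidueField B) ≠ 0)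
    [IsCyclotomicExtension {m} K L] : IsUnram A B := by
  have hgal : IsGalois K L := IsCyclotomicExtension.isGalois {m} K L
  rw [isUnram_iff_resDegree_eq_finrank A K L B]
  refine le_antisymm (resDegree_le_finrank_KL A K L B) ?_
  rw [← IsGalois.card_aut_eq_finrank, ← natCard_residueGal A K L B]
  have := finite_residueField_B A K L B
  exact Nat.card_le_card_of_injective _ (residueGalHom_injective_of_cyclotomic A K L B m hm)

/-- `Q ^ n - 1` is invertible in the residue field of `B`. -/
lemma natCast_card_pow_sub_one_ne_zero_B' (n : ℕ) (hn : n ≠ 0) :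
    ((Nat.card (ResidueField A) ^ n - 1 : ℕ) : ResidueField B) ≠ 0 :=
  natCast_card_pow_sub_one_ne_zero_B A B n hn

/-- **The unramified extension of degree `n`**: `K(μ_{Q^n - 1})` is unramified of degree `n`
over `K`, where `Q` is the cardinality of the residue field. -/
theorem finrank_of_cyclotomic_card_pow_sub_one (n : ℕ) (hn : n ≠ 0)
    [IsCyclotomicExtension {Nat.card (ResidueField A) ^ n - 1} K L] :
    IsUnram A B ∧ finrank K L = n := by
  set q := Nat.card (ResidueField A) with hq
  have hq1 : 1 < q := Finite.one_lt_card
  have hm := natCast_card_pow_sub_one_ne_zero_B A B n hn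
  have hm0 : q ^ n - 1 ≠ 0 := one_le_card_pow_sub_one A K L B n hn
  have hun : IsUnram A B := isUnram_of_cyclotomic A K L B (q ^ n - 1) hm
  refine ⟨hun, ?_⟩
  have hf : resDegree A B = finrank K L := (isUnram_iff_resDegree_eq_finrank A K L B).mp hun
  obtain ⟨ζ, hζ⟩ := exists_isPrimitiveRoot_B_of_cyclotomic A K L B (q ^ n - 1) hm0
  have hresB := finite_residueField_B A K L B
  apply le_antisymm
  · -- the Frobenius to the n fixes the primitive root
    have hgal : IsGalois K L := isGalois_of_isUnram A K L B hun
    have hpow : ∀ i : ℕ, galRestrict A K L B (frob A K L B hun ^ i) ζ = ζ ^ q ^ i := by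
      intro i
      induction i with
      | zero => simp
      | succ i ih =>
        rw [pow_succ', map_mul, AlgEquiv.mul_apply, ih, map_pow,
          frob_apply_of_pow_eq_one A K L B hun hm hζ.pow_eq_one, ← pow_mul, ← pow_succ']
    have hn1 : frob A K L B hun ^ n = 1 := by
      have hζ' : IsPrimitiveRoot (algebraMap B L ζ) (q ^ n - 1) :=
        hζ.map_of_injective (IsIntegralClosure.algebraMap_injective B A L)
      refine IsCyclotomicExtension.algEquiv_eq_of_apply_eq {q ^ n - 1} K L ?_
      intro k hk _
      rw [Set.mem_singleton_iff] at hk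
      subst hk
      refine ⟨_, hζ', ?_⟩
      rw [← algebraMap_galRestrict_apply A, hpow n, AlgEquiv.one_apply]
      congr 1
      have : q ^ n = (q ^ n - 1) + 1 := by omega
      rw [this, pow_succ, hζ.pow_eq_one, one_mul]
    have := orderOf_dvd_of_pow_eq_one hn1
    rw [orderOf_frob] at this
    exact Nat.le_of_dvd (Nat.pos_of_ne_zero hn) this
  · -- the residue of the primitive root has order dividing `q ^ f - 1`
    have hζr : IsPrimitiveRoot (residue B ζ) (q ^ n - 1) := isPrimitiveRoot_residue hm hζ
    have hcard : Nat.card (ResidueField B) = q ^ finrank K L := by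
      rw [natCard_residueField_B A K L B, hf]
    have h1 : (residue B ζ) ^ (q ^ finrank K L - 1) = 1 := by
      rw [← hcard]
      apply Teichmuller.pow_natCard_sub_one_eq_one
      exact hζr.ne_zero hm0
    have hdvd := hζr.dvd_of_pow_eq_one _ h1
    have hN0 : q ^ finrank K L - 1 ≠ 0 :=
      one_le_card_pow_sub_one A K L B _ (finrank_KL_ne_zero A K L B)
    have hle : q ^ n - 1 ≤ q ^ finrank K L - 1 := Nat.le_of_dvd (Nat.pos_of_ne_zero hN0) hdvd
    have hle' : q ^ n ≤ q ^ finrank K L := by omega
    exact (Nat.pow_le_pow_iff_right hq1).mp hle'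

end cyclo

end General

section Complete

variable (A K L B : Type) [CommRing A] [IsDomain A] [IsDiscreteValuationRing A]
  [IsAdicComplete (maximalIdeal A) A]
  [Field K] [Algebra A K] [IsFractionRing A K]
  [Field L] [Algebra K L] [FiniteDimensional K L] [Algebra.IsSeparable K L]
  [Algebra A L] [IsScalarTower A K L]
  [CommRing B] [IsDomain B] [Algebra A B] [Algebra B L] [IsScalarTower A B L]
  [IsIntegralClosure B A L] [Finite (ResidueField A)] [IsLocalRing B]

include K L in
lemma natCast_residueField_ne_zero_of_base {m : ℕ} (hm : (m : ResidueField A) ≠ 0) :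
    (m : ResidueField B) ≠ 0 := by
  have := ext_isLocalHom A K L B
  have h := (algebraMap (ResidueField A) (ResidueField B)).injective
  intro h0
  apply hm
  apply h
  rw [map_natCast, h0, map_zero]

/-- Complete case of `isUnram_of_cyclotomic`. -/
theorem isUnram_of_cyclotomic_of_complete (m : ℕ) (hm : (m : ResidueField A) ≠ 0)
    [IsCyclotomicExtension {m} K L] : IsUnram A B := by
  have := ext_isLocalHom A K L B
  have := ext_isAdicComplete A K L B
  have : HenselianLocalRing B := LocalUnits.henselianLocalRing_of_isAdicComplete B
  exact isUnram_of_cyclotomic A K L B m (natCast_residueField_ne_zero_of_base A K L B hm)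

/-- Complete case of `finrank_of_cyclotomic_card_pow_sub_one`. -/
theorem finrank_of_cyclotomic_of_complete (n : ℕ) (hn : n ≠ 0)
    [IsCyclotomicExtension {Nat.card (ResidueField A) ^ n - 1} K L] :
    IsUnram A B ∧ finrank K L = n := by
  have := ext_isLocalHom A K L B
  have := ext_isAdicComplete A K L B
  have : HenselianLocalRing B := LocalUnits.henselianLocalRing_of_isAdicComplete B
  exact finrank_of_cyclotomic_card_pow_sub_one A K L B n hn

end Complete

section Exists

variable (A K : Type) [CommRing A] [IsDomain A] [IsDiscreteValuationRing A]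
  [IsAdicComplete (maximalIdeal A) A]
  [Field K] [Algebra A K] [IsFractionRing A K] [Finite (ResidueField A)]

lemma natCast_ne_zero_of_residue_ne_zero {m : ℕ} (hm : (m : ResidueField A) ≠ 0) :
    (m : K) ≠ 0 := by
  intro h0
  apply hm
  have h2 : (m : A) = 0 := by
    apply IsFractionRing.injective A K
    rw [map_natCast, map_zero]
    exact h0
  rw [← map_natCast (residue A), h2, map_zero]

/-- **Existence of the unramified extension of degree `n`.** -/
theorem exists_unramified_extension (n : ℕ) (hn : n ≠ 0) :
    ∃ (L : Type) (_ : Field L) (_ : Algebra K L) (_ : Algebra A L) (_ : IsScalarTower A K L)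
      (_ : FiniteDimensional K L) (_ : IsGalois K L) (_ : IsLocalRing (integralClosure A L)),
      IsUnram A (integralClosure A L) ∧ finrank K L = n := by
  set m := Nat.card (ResidueField A) ^ n - 1 with hm
  have hmres : (m : ResidueField A) ≠ 0 :=
    Teichmuller.natCast_natCard_pow_sub_one_ne_zero (ResidueField A) n hn
  have : NeZero (m : K) := ⟨natCast_ne_zero_of_residue_ne_zero A K hmres⟩
  have : NeZero m := ⟨by rintro h0; rw [h0] at hmres; simp at hmres⟩
  have hcyc : IsCyclotomicExtension {m} K (CyclotomicField m K) :=
    CyclotomicField.isCyclotomicExtension m K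
  have hfd : FiniteDimensional K (CyclotomicField m K) :=
    IsCyclotomicExtension.finiteDimensional {m} K _
  have hgal : IsGalois K (CyclotomicField m K) := IsCyclotomicExtension.isGalois {m} K _
  have hloc : IsLocalRing (integralClosure A (CyclotomicField m K)) :=
    ext_isLocalRing A K (CyclotomicField m K) _
  refine ⟨CyclotomicField m K, inferInstance, inferInstance, inferInstance, inferInstance, hfd,
    hgal, hloc, ?_⟩
  exact finrank_of_cyclotomic_of_complete A K (CyclotomicField m K) _ n hn

end Exists

end Fermat.Agent.Lib.CFT.Local.Unramified
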