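/-
P-CFT (GI-3, helper59): derived functoriality of a `LocalInvTheoryGal p`.

* `inv_sqMap`: general square `E ⊆ E'`, `F ⊆ F'` (with `F'/E` Galois), helper43's `Square.sqMap`:
  the invariant is multiplied by `[E' : E]`;
* `inv_map_of_algebra`: the same for an arbitrary compatible pair `(φ, j)`;
* INSTANCE-FREE forms for the transport to action form (`Local/LocalInvTransport.lean`):
  a morphism of layers `(E, F) → (E', F')` given by `ι : F →ₐ[ℚ_[p]] F'`, `ιE : E →+* E'`,
  `φ : Gal(F'/E') →* Gal(F/E)`; `inv_map_of_bijective_base` (inflation type, `ιE` bijective: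
  invariants preserved) and `inv_map_of_bijective_top` (restriction type, `ι` bijective:
  invariants multiplied by `[F:E] / [F':E']`).
-/
import Fermat.Agent.Lib.CFT.Local.LocalInvGal
import Fermat.Agent.Lib.CFT.Local.LocalBrauer.Square
set_option autoImplicit false
set_option linter.unusedSectionVars false
set_option linter.style.haveILetI false

namespace Fermat.Agent.Lib.CFT.Local.LocalInvTheoryGal

open groupCohomology CategoryTheory
open Fermat.Agent.Lib.CFT.Local.LocalBrauer

variable {p : ℕ} [Fact p.Prime] (T : LocalInvTheoryGal p)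

section SquareThm

variable (E F E' F' : Type) [Field E] [Algebra ℚ_[p] E] [FiniteDimensional ℚ_[p] E]
  [Field F] [Algebra ℚ_[p] F] [FiniteDimensional ℚ_[p] F]
  [Algebra E F] [IsScalarTower ℚ_[p] E F] [FiniteDimensional E F] [IsGalois E F]
  [Field E'] [Algebra ℚ_[p] E'] [FiniteDimensional ℚ_[p] E']
  [Field F'] [Algebra ℚ_[p] F'] [FiniteDimensional ℚ_[p] F']
  [Algebra E' F'] [IsScalarTower ℚ_[p] E' F'] [FiniteDimensional E' F'] [IsGalois E' F']
  [Algebra E E'] [IsScalarTower ℚ_[p] E E'] [Algebra F F'] [Algebra E F']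
  [IsScalarTower E F F'] [IsScalarTower E E' F']
  [IsScalarTower ℚ_[p] E F'] [FiniteDimensional E F'] [IsGalois E F']

/-- **General square** `E ⊆ E'`, `F ⊆ F'` (with `F'/E` Galois): restriction after inflation
multiplies the invariant by `[E' : E]`. -/
theorem inv_sqMap (x : H2 (Rep.ofAlgebraAutOnUnits E F)) :
    T.inv E' F' (Square.sqMap E E' F F' 2 x) = Module.finrank E E' • T.inv E F x := by
  rw [← Square.sqMap_comp_apply E E E' F F' F' 2 x]
  have h1 := T.inv_res E E' F' (Square.sqι E E' F' F') (fun x => by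
    refine congrArg Additive.ofMul (Units.ext ?_)
    rfl) (Square.sqMap E E F F' 2 x)
  have h2 := T.inv_infl E F F' (Tower.ι E F F') (fun _ => rfl) x
  rw [Square.sqMap_eq_infl]
  exact h1.trans (congrArg _ h2)

/-- the same for an arbitrary compatible pair `(φ, j)`. -/
theorem inv_map_of_algebra (φ : (F' ≃ₐ[E'] F') →* (F ≃ₐ[E] F))
    (hφ : ∀ (σ' : F' ≃ₐ[E'] F') (x : F), algebraMap F F' (φ σ' x) = σ' (algebraMap F F' x))
    (j : Rep.res φ (Rep.ofAlgebraAutOnUnits E F) ⟶ Rep.ofAlgebraAutOnUnits E' F')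
    (hj : ∀ x : Additive Fˣ, j.hom x =
      (Additive.ofMul (Units.map (algebraMap F F' : F →* F') (Additive.toMul (α := Fˣ) x)) :
        Additive F'ˣ))
    (x : H2 (Rep.ofAlgebraAutOnUnits E F)) :
    T.inv E' F' (groupCohomology.map φ j 2 x) = Module.finrank E E' • T.inv E F x := by
  have hφeq : φ = Square.sqπ E E' F F' := by
    ext σ' y
    apply (algebraMap F F').injective
    rw [hφ, Square.sqπ_apply]
  subst hφeq
  have hmap : groupCohomology.map (Square.sqπ E E' F F') j 2 = Square.sqMap E E' F F' 2 := by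
    unfold Square.sqMap
    refine map_congr rfl ?_ 2
    exact LinearMap.ext hj
  rw [hmap]
  exact inv_sqMap T E F E' F' x

end SquareThm

section InstFree

variable (E F E' F' : Type) [Field E] [Algebra ℚ_[p] E] [FiniteDimensional ℚ_[p] E]
  [Field F] [Algebra ℚ_[p] F] [FiniteDimensional ℚ_[p] F]
  [Algebra E F] [IsScalarTower ℚ_[p] E F] [FiniteDimensional E F] [IsGalois E F]
  [Field E'] [Algebra ℚ_[p] E'] [FiniteDimensional ℚ_[p] E']
  [Field F'] [Algebra ℚ_[p] F'] [FiniteDimensional ℚ_[p] F']
  [Algebra E' F'] [IsScalarTower ℚ_[p] E' F'] [FiniteDimensional E' F'] [IsGalois E' F']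
  (ι : F →ₐ[ℚ_[p]] F') (ιE : E →+* E')
  (hcomp : ∀ e : E, ι (algebraMap E F e) = algebraMap E' F' (ιE e))
  (φ : (F' ≃ₐ[E'] F') →* (F ≃ₐ[E] F))
  (hφ : ∀ (σ' : F' ≃ₐ[E'] F') (x : F), ι (φ σ' x) = σ' (ι x))
  (j : Rep.res φ (Rep.ofAlgebraAutOnUnits E F) ⟶ Rep.ofAlgebraAutOnUnits E' F')
  (hj : ∀ x : Additive Fˣ, j.hom x =
      (Additive.ofMul (Units.map ((ι : F →+* F') : F →* F') (Additive.toMul (α := Fˣ) x)) :
        Additive F'ˣ))

include hcomp in
theorem ιE_algebraMap (a : ℚ_[p]) : ιE (algebraMap ℚ_[p] E a) = algebraMap ℚ_[p] E' a := by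
  apply (algebraMap E' F').injective
  rw [← hcomp, ← IsScalarTower.algebraMap_apply ℚ_[p] E F, ι.commutes,
    ← IsScalarTower.algebraMap_apply ℚ_[p] E' F']

include ι ιE hcomp hφ hj in
/-- **Morphism of layers inducing an isomorphism of the base fields** (inflation type):
invariants are preserved. -/
theorem inv_map_of_bijective_base (hE : Function.Bijective ιE)
    (x : H2 (Rep.ofAlgebraAutOnUnits E F)) :
    T.inv E' F' (groupCohomology.map φ j 2 x) = T.inv E F x := by
  letI algEE' : Algebra E E' := ιE.toAlgebra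
  letI algFF' : Algebra F F' := (ι : F →+* F').toAlgebra
  letI algEF' : Algebra E F' := ((algebraMap E' F').comp ιE).toAlgebra
  haveI t1 : IsScalarTower E E' F' := IsScalarTower.of_algebraMap_eq (fun _ => rfl)
  haveI t2 : IsScalarTower E F F' := IsScalarTower.of_algebraMap_eq (fun e => (hcomp e).symm)
  haveI t3 : IsScalarTower ℚ_[p] E E' :=
    IsScalarTower.of_algebraMap_eq (fun a => (ιE_algebraMap E F E' F' ι ιE hcomp a).symm)
  haveI t4 : IsScalarTower ℚ_[p] E F' := IsScalarTower.of_algebraMap_eq (fun a => by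
    change algebraMap ℚ_[p] F' a = algebraMap E' F' (ιE (algebraMap ℚ_[p] E a))
    rw [ιE_algebraMap E F E' F' ι ιE hcomp, ← IsScalarTower.algebraMap_apply ℚ_[p] E' F'])
  haveI fd : FiniteDimensional E F' := FiniteDimensional.right ℚ_[p] E F'
  haveI gal : IsGalois E F' :=
    IsGalois.of_equiv_equiv (F := E') (E := F') (M := E) (N := F')
      (f := (RingEquiv.ofBijective ιE hE).symm) (g := RingEquiv.refl F') (by
        ext e'
        obtain ⟨e, rfl⟩ := hE.2 e'
        change algebraMap E' F' (ιE ((RingEquiv.ofBijective ιE hE).symm (ιE e))) =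
          algebraMap E' F' (ιE e)
        congr 1
        exact (RingEquiv.ofBijective ιE hE).apply_symm_apply (ιE e))
  have key := inv_map_of_algebra T E F E' F' φ hφ j hj x
  rw [key]
  have h1 : Module.finrank E E' = 1 := by
    have := (LinearEquiv.ofBijective (Algebra.linearMap E E') hE).finrank_eq
    rw [← this, Module.finrank_self]
  rw [h1, one_smul]

include ι ιE hcomp hφ hj in
/-- **Morphism of layers inducing an isomorphism of the top fields** (restriction type):
invariants are multiplied by `[F:E] / [F':E']` (the degree of the extension of base fields). -/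
theorem inv_map_of_bijective_top (hF : Function.Bijective ι)
    (x : H2 (Rep.ofAlgebraAutOnUnits E F)) :
    T.inv E' F' (groupCohomology.map φ j 2 x) =
      (Module.finrank E F / Module.finrank E' F') • T.inv E F x := by
  letI algEE' : Algebra E E' := ιE.toAlgebra
  letI algFF' : Algebra F F' := (ι : F →+* F').toAlgebra
  letI algEF' : Algebra E F' := ((algebraMap E' F').comp ιE).toAlgebra
  haveI t1 : IsScalarTower E E' F' := IsScalarTower.of_algebraMap_eq (fun _ => rfl)
  haveI t2 : IsScalarTower E F F' := IsScalarTower.of_algebraMap_eq (fun e => (hcomp e).symm)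
  haveI t3 : IsScalarTower ℚ_[p] E E' :=
    IsScalarTower.of_algebraMap_eq (fun a => (ιE_algebraMap E F E' F' ι ιE hcomp a).symm)
  haveI t4 : IsScalarTower ℚ_[p] E F' := IsScalarTower.of_algebraMap_eq (fun a => by
    change algebraMap ℚ_[p] F' a = algebraMap E' F' (ιE (algebraMap ℚ_[p] E a))
    rw [ιE_algebraMap E F E' F' ι ιE hcomp, ← IsScalarTower.algebraMap_apply ℚ_[p] E' F'])
  haveI fd : FiniteDimensional E F' := FiniteDimensional.right ℚ_[p] E F'
  let eF : F ≃ₐ[E] F' := AlgEquiv.ofBijective
    ({ (ι : F →+* F') with commutes' := fun e => hcomp e } : F →ₐ[E] F') hF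
  haveI gal : IsGalois E F' := IsGalois.of_algEquiv eF
  have key := inv_map_of_algebra T E F E' F' φ hφ j hj x
  rw [key]
  congr 1
  have h1 : Module.finrank E E' * Module.finrank E' F' = Module.finrank E F' :=
    Module.finrank_mul_finrank E E' F'
  have h2 : Module.finrank E F = Module.finrank E F' := eF.toLinearEquiv.finrank_eq
  have h3 : 0 < Module.finrank E' F' := Module.finrank_pos
  rw [h2, ← h1, Nat.mul_div_cancel _ h3]

end InstFree

end Fermat.Agent.Lib.CFT.Local.LocalInvTheoryGal
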