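/-
P-CFT (GI-3, helper41): transport of a system of canonical local invariants from the GALOIS form
(`LocalInvTheoryGal p`, `Local/LocalInvGal.lean`) to the ACTION form (`LocalInvTheory p`,
`Local/LocalInvContract.lean`).

* `inv_square`: the square formula in Galois form (inflation followed by restriction);
* `transport_square`: the action-form functoriality is the Galois-form one through
  `unitsCohomologyIso`;
* `invOf`: the action-form invariant; `invOf_injective`, `card_nsmul_invOf`, `exists_invOf_eq`,
  `invOf_infl`, `invOf_res`.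
-/
import Fermat.Agent.Lib.CFT.Local.LocalInvContract
import Fermat.Agent.Lib.CFT.Local.LocalInvGal

set_option autoImplicit false
set_option linter.unusedSectionVars false
set_option linter.style.haveILetI false

namespace Fermat.Agent.Lib.CFT.Local.LocalInvTransport

open CategoryTheory groupCohomology
open Fermat.Agent.Lib.CFT.Global (unitsRepHomAlong groupCohomology_map_square)
open Fermat.Agent.Lib.CFT.Global.LocalFieldAt
open Fermat.Agent.Lib.CFT.Local.LocalBrauer (QZ towerHom towerUnitsHom inflUnitsHom unitsResHom
  towerHom_commutes)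

attribute [local instance] Units.mulDistribMulActionRight

section Square

variable {p : ℕ} [Fact p.Prime] (T : LocalInvTheoryGal p)
variable (E F E' F' : Type) [Field E] [Algebra ℚ_[p] E] [FiniteDimensional ℚ_[p] E]
  [Field F] [Algebra ℚ_[p] F] [FiniteDimensional ℚ_[p] F] [Algebra E F]
  [IsScalarTower ℚ_[p] E F] [FiniteDimensional E F] [IsGalois E F]
  [Field E'] [Algebra ℚ_[p] E'] [FiniteDimensional ℚ_[p] E']
  [Field F'] [Algebra ℚ_[p] F'] [FiniteDimensional ℚ_[p] F'] [Algebra E' F']
  [IsScalarTower ℚ_[p] E' F'] [FiniteDimensional E' F'] [IsGalois E' F']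
  [Algebra E E'] [IsScalarTower ℚ_[p] E E'] [Algebra F F'] [Algebra E F']
  [IsScalarTower E F F'] [IsScalarTower E E' F'] [IsScalarTower ℚ_[p] E F']
  [FiniteDimensional E F'] [IsGalois E F']

/-- `towerHom` factors through the big Galois group `Gal(F'/E)`. -/
lemma towerHom_eq_comp :
    towerHom E F E' F' =
      (AlgEquiv.restrictNormalHom (F := E) (K₁ := F') F).comp (towerHom E F' E' F') := by
  unfold towerHom
  rw [AlgEquiv.restrictNormalHom_id E F']
  rfl

/-- **The square formula** in Galois form: for a square of layers `E ⊆ F`, `E' ⊆ F'` with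
`E ⊆ E'`, `F ⊆ F'` and `F' / E` Galois, `inv_{F'/E'} (x|) = [E' : E] • inv_{F/E} x`. -/
theorem inv_square
    (j : Rep.res (towerHom E F E' F') (Rep.ofAlgebraAutOnUnits E F) ⟶
      Rep.ofAlgebraAutOnUnits E' F')
    (hj : ∀ x : Additive Fˣ, j.hom x =
      (Additive.ofMul (Units.map (algebraMap F F' : F →* F') (Additive.toMul (α := Fˣ) x)) :
        Additive F'ˣ))
    (y : H2 (Rep.ofAlgebraAutOnUnits E F)) :
    T.inv E' F' (groupCohomology.map (towerHom E F E' F') j 2 y) =
      Module.finrank E E' • T.inv E F y := by
  have h1 := T.inv_infl E F F' (inflUnitsHom E F F') (fun _ => rfl) y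
  have h2 := T.inv_res E E' F' (towerUnitsHom E F' E' F')
    (fun x => by
      rw [LocalBrauer.towerUnitsHom_apply]
      rfl)
    (groupCohomology.map (AlgEquiv.restrictNormalHom (F := E) (K₁ := F') F)
      (inflUnitsHom E F F') 2 y)
  rw [h1] at h2
  rw [← h2]
  congr 1
  have hc := groupCohomology.map_comp (AlgEquiv.restrictNormalHom (F := E) (K₁ := F') F)
    (towerHom E F' E' F') (inflUnitsHom E F F') (towerUnitsHom E F' E' F') 2
  have hc' := congrArg (fun f => f.hom y) hc
  simp only [ModuleCat.hom_comp, LinearMap.comp_apply] at hc'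
  rw [← hc']
  have hm : groupCohomology.map (towerHom E F E' F') j 2 =
      groupCohomology.map ((AlgEquiv.restrictNormalHom (F := E) (K₁ := F') F).comp
        (towerHom E F' E' F'))
        ((Rep.resFunctor (towerHom E F' E' F')).map (inflUnitsHom E F F') ≫
          towerUnitsHom E F' E' F') 2 := by
    refine groupCohomology.map_congr (towerHom_eq_comp E F E' F') ?_ 2
    ext x
    exact (hj x).trans rfl
  rw [hm]

end Square

section TransportSquare

variable (D E F D' E' F' : Type) [Group D] [Finite D] [Field E] [Field F] [Algebra E F]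
  [MulSemiringAction D F] [IsGaloisGroup D E F]
  [Group D'] [Finite D'] [Field E'] [Field F'] [Algebra E' F']
  [MulSemiringAction D' F'] [IsGaloisGroup D' E' F']
  [Normal E F] [Algebra E E'] [Algebra F F'] [Algebra E F'] [IsScalarTower E F F']
  [IsScalarTower E E' F']

/-- The group-level square: `f ∘ galEquiv'⁻¹ = galEquiv⁻¹ ∘ towerHom`. -/
lemma galEquiv_square (f : D' →* D)
    (hι : ∀ (d : D') (x : F), algebraMap F F' (f d • x) = d • algebraMap F F' x) :
    f.comp (galEquiv D' E' F').symm.toMonoidHom =
      (galEquiv D E F).symm.toMonoidHom.comp (towerHom E F E' F') := by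
  ext σ'
  apply (galEquiv D E F).injective
  simp only [MonoidHom.comp_apply, MulEquiv.coe_toMonoidHom, MulEquiv.apply_symm_apply]
  ext x
  apply (algebraMap F F').injective
  rw [towerHom_commutes, galEquiv_apply, hι]
  have := galEquiv_apply D' E' F' ((galEquiv D' E' F').symm σ') (algebraMap F F' x)
  rw [MulEquiv.apply_symm_apply] at this
  exact this.symm

/-- **Transport of a square** from the action form to the Galois form. -/
theorem transport_square (f : D' →* D)
    (hι : ∀ (d : D') (x : F), algebraMap F F' (f d • x) = d • algebraMap F F' x)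
    (x : groupCohomology (Rep.ofMulDistribMulAction D Fˣ) 2) :
    (unitsCohomologyIso D' E' F' 2).hom.hom
        ((groupCohomology.map f (unitsRepHomAlong f (algebraMap F F') hι) 2).hom x) =
      (groupCohomology.map (towerHom E F E' F') (towerUnitsHom E F E' F') 2).hom
        ((unitsCohomologyIso D E F 2).hom.hom x) := by
  have key := groupCohomology_map_square f (galEquiv D E F).symm.toMonoidHom
    (galEquiv D' E' F').symm.toMonoidHom (towerHom E F E' F')
    (galEquiv_square D E F D' E' F' f hι)
    (unitsRepHomAlong f (algebraMap F F') hι)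
    (Rep.ofHom (ρ := (Rep.res (galEquiv D E F).symm.toMonoidHom
            (Rep.ofMulDistribMulAction D Fˣ)).ρ)
          (σ := (Rep.ofAlgebraAutOnUnits E F).ρ)
          ⟨LinearMap.id, fun h => by
            ext u
            have := galEquiv_smul_units D E F ((galEquiv D E F).symm h) (Additive.toMul u)
            rw [MulEquiv.apply_symm_apply] at this
            exact congrArg Additive.ofMul this.symm⟩)
    (Rep.ofHom (ρ := (Rep.res (galEquiv D' E' F').symm.toMonoidHom
            (Rep.ofMulDistribMulAction D' F'ˣ)).ρ)
          (σ := (Rep.ofAlgebraAutOnUnits E' F').ρ)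
          ⟨LinearMap.id, fun h => by
            ext u
            have := galEquiv_smul_units D' E' F' ((galEquiv D' E' F').symm h) (Additive.toMul u)
            rw [MulEquiv.apply_symm_apply] at this
            exact congrArg Additive.ofMul this.symm⟩)
    (towerUnitsHom E F E' F')
    (by
      ext u
      rfl) 2
  have key' := congrArg (fun g => g.hom x) key
  simp only [ModuleCat.hom_comp, LinearMap.comp_apply] at key'
  exact key'

end TransportSquare

section Defs

variable (p : ℕ) [Fact p.Prime]
variable (F : Type) [Field F] [Algebra ℚ_[p] F] [FiniteDimensional ℚ_[p] F]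
  (D : Type) [Group D] [Finite D] [MulSemiringAction D F] [FaithfulSMul D F]
  [SMulCommClass D ℚ_[p] F]

/-- The fixed field of `D`, as an intermediate field of `F / ℚ_[p]`. -/
noncomputable abbrev fixedField : IntermediateField ℚ_[p] F := FixedPoints.intermediateField D

instance : IsGalois (fixedField p F D) F := IsGaloisGroup.isGalois D (fixedField p F D) F

/-- The action-form invariant attached to a Galois-form theory. -/
noncomputable def invOf (T : LocalInvTheoryGal p) :
    groupCohomology (Rep.ofMulDistribMulAction D Fˣ) 2 →+ QZ :=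
  (T.inv (fixedField p F D) F).comp
    (unitsCohomologyIso D (fixedField p F D) F 2).hom.hom.toAddMonoidHom

lemma invOf_apply (T : LocalInvTheoryGal p) (x : groupCohomology (Rep.ofMulDistribMulAction D Fˣ) 2) :
    invOf p F D T x = T.inv (fixedField p F D) F
      ((unitsCohomologyIso D (fixedField p F D) F 2).hom.hom x) := rfl

lemma iso_bijective (n : ℕ) :
    Function.Bijective (unitsCohomologyIso D (fixedField p F D) F n).hom.hom :=
  (unitsCohomologyIso D (fixedField p F D) F n).toLinearEquiv.bijective

lemma invOf_injective (T : LocalInvTheoryGal p) : Function.Injective (invOf p F D T) := by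
  intro x y hxy
  exact (iso_bijective p F D 2).1 (T.inv_injective _ _ hxy)

lemma card_nsmul_invOf (T : LocalInvTheoryGal p)
    (x : groupCohomology (Rep.ofMulDistribMulAction D Fˣ) 2) :
    Nat.card D • invOf p F D T x = 0 := by
  rw [invOf_apply, ← finrank_eq_card D (fixedField p F D) F]
  exact T.finrank_nsmul_inv _ _ _

lemma exists_invOf_eq (T : LocalInvTheoryGal p) (y : QZ) (hy : Nat.card D • y = 0) :
    ∃ x, invOf p F D T x = y := by
  rw [← finrank_eq_card D (fixedField p F D) F] at hy
  obtain ⟨z, hz⟩ := T.exists_inv_eq (fixedField p F D) F y hy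
  obtain ⟨x, rfl⟩ := (iso_bijective p F D 2).2 z
  exact ⟨x, hz⟩

end Defs

section Core

variable (p : ℕ) [Fact p.Prime] (T : LocalInvTheoryGal p)
variable (F : Type) [Field F] [Algebra ℚ_[p] F] [FiniteDimensional ℚ_[p] F]
  (D : Type) [Group D] [Finite D] [MulSemiringAction D F] [FaithfulSMul D F]
  [SMulCommClass D ℚ_[p] F]
  (F' : Type) [Field F'] [Algebra ℚ_[p] F'] [FiniteDimensional ℚ_[p] F']
  (D' : Type) [Group D'] [Finite D'] [MulSemiringAction D' F'] [FaithfulSMul D' F']
  [SMulCommClass D' ℚ_[p] F']

/-- The square formula in action form, with the auxiliary algebra structures as instance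
arguments. -/
theorem invOf_square_core [Algebra F F'] [Algebra (fixedField p F D) (fixedField p F' D')]
    [IsScalarTower (fixedField p F D) (fixedField p F' D') F']
    [IsScalarTower ℚ_[p] (fixedField p F D) (fixedField p F' D')]
    [IsScalarTower ℚ_[p] (fixedField p F D) F'] [IsGalois (fixedField p F D) F']
    (f : D' →* D)
    (hι : ∀ (d : D') (x : F), algebraMap F F' (f d • x) = d • algebraMap F F' x)
    (x : groupCohomology (Rep.ofMulDistribMulAction D Fˣ) 2) :
    invOf p F' D' T (groupCohomology.map f (unitsRepHomAlong f (algebraMap F F') hι) 2 x) =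
      Module.finrank (fixedField p F D) (fixedField p F' D') • invOf p F D T x := by
  haveI : FiniteDimensional (fixedField p F D) F' :=
    FiniteDimensional.right ℚ_[p] (fixedField p F D) F'
  rw [invOf_apply, invOf_apply]
  rw [transport_square D (fixedField p F D) F D' (fixedField p F' D') F' f hι x]
  exact inv_square T (fixedField p F D) F (fixedField p F' D') F' _ (fun _ => rfl) _

variable {p F D F' D'}

/-- The ring homomorphism between the fixed fields induced by an equivariant `ι`. -/
noncomputable def fixedFieldHom (f : D' →* D) (ι : F →ₐ[ℚ_[p]] F')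
    (hι : ∀ (d : D') (x : F), (ι : F →+* F') (f d • x) = d • (ι : F →+* F') x) :
    fixedField p F D →+* fixedField p F' D' where
  toFun x := ⟨ι x, fun d' => by
    have h := hι d' (x : F)
    have hx : f d' • (x : F) = x := x.2 (f d')
    rw [hx] at h
    exact h.symm⟩
  map_one' := Subtype.ext (map_one ι)
  map_mul' x y := Subtype.ext (map_mul ι (x : F) (y : F))
  map_zero' := Subtype.ext (map_zero ι)
  map_add' x y := Subtype.ext (map_add ι (x : F) (y : F))

lemma fixedFieldHom_coe (f : D' →* D) (ι : F →ₐ[ℚ_[p]] F')
    (hι : ∀ (d : D') (x : F), (ι : F →+* F') (f d • x) = d • (ι : F →+* F') x)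
    (x : fixedField p F D) : ((fixedFieldHom f ι hι x : fixedField p F' D') : F') = ι x := rfl

lemma fixedFieldHom_bijective (f : D' →* D) (hf : Function.Surjective f) (ι : F →ₐ[ℚ_[p]] F')
    (hι : ∀ (d : D') (x : F), (ι : F →+* F') (f d • x) = d • (ι : F →+* F') x)
    (hfix : ∀ y : F', (∀ d : D', d • y = y) → ∃ x : F, ι x = y) :
    Function.Bijective (fixedFieldHom f ι hι) := by
  refine ⟨(fixedFieldHom f ι hι).injective, fun y => ?_⟩
  obtain ⟨x, hx⟩ := hfix (y : F') (fun d => y.2 d)
  refine ⟨⟨x, fun d => ?_⟩, Subtype.ext hx⟩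
  obtain ⟨d', rfl⟩ := hf d
  apply ι.toRingHom.injective
  have h := hι d' x
  have hy : d' • (y : F') = y := y.2 d'
  show (ι : F →+* F') (f d' • x) = (ι : F →+* F') x
  rw [h]
  show d' • ι x = ι x
  rw [hx, hy]

/-- **Inflation** for the transported invariants. -/
theorem invOf_infl (f : D' →* D) (hf : Function.Surjective f) (ι : F →ₐ[ℚ_[p]] F')
    (hι : ∀ (d : D') (x : F), (ι : F →+* F') (f d • x) = d • (ι : F →+* F') x)
    (hfix : ∀ y : F', (∀ d : D', d • y = y) → ∃ x : F, ι x = y)
    (x : groupCohomology (Rep.ofMulDistribMulAction D Fˣ) 2) :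
    invOf p F' D' T (groupCohomology.map f (unitsRepHomAlong f (ι : F →+* F') hι) 2 x) =
      invOf p F D T x := by
  letI : Algebra F F' := (ι : F →+* F').toAlgebra
  letI : Algebra (fixedField p F D) (fixedField p F' D') := (fixedFieldHom f ι hι).toAlgebra
  haveI : IsScalarTower (fixedField p F D) (fixedField p F' D') F' :=
    IsScalarTower.of_algebraMap_eq (fun _ => rfl)
  haveI : IsScalarTower ℚ_[p] (fixedField p F D) (fixedField p F' D') :=
    IsScalarTower.of_algebraMap_eq (fun c => Subtype.ext (ι.commutes c).symm)
  haveI : IsScalarTower ℚ_[p] (fixedField p F D) F' :=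
    IsScalarTower.of_algebraMap_eq (fun c => (ι.commutes c).symm)
  have hbij : Function.Bijective (algebraMap (fixedField p F D) (fixedField p F' D')) :=
    fixedFieldHom_bijective f hf ι hι hfix
  let e : fixedField p F D ≃+* fixedField p F' D' := RingEquiv.ofBijective _ hbij
  haveI : IsGalois (fixedField p F' D') F' :=
    IsGaloisGroup.isGalois D' (fixedField p F' D') F'
  haveI : IsGalois (fixedField p F D) F' :=
    IsGalois.of_equiv_equiv (F := fixedField p F' D') (E := F') (f := e.symm)
      (g := RingEquiv.refl F') (by
        ext y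
        obtain ⟨x, rfl⟩ := e.surjective y
        simp only [RingHom.comp_apply, RingEquiv.coe_toRingHom, RingEquiv.symm_apply_apply,
          RingEquiv.refl_apply]
        rfl)
  have hrank : Module.finrank (fixedField p F D) (fixedField p F' D') = 1 := by
    have e' : fixedField p F D ≃ₗ[fixedField p F D] fixedField p F' D' :=
      (AlgEquiv.ofBijective (Algebra.ofId _ _) hbij).toLinearEquiv
    rw [← e'.finrank_eq, Module.finrank_self]
  have key := invOf_square_core p T F D F' D' f hι x
  rw [hrank, one_smul] at key
  exact key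

/-- **Restriction** for the transported invariants. -/
theorem invOf_res (f : D' →* D) (ι : F →ₐ[ℚ_[p]] F')
    (hι : ∀ (d : D') (x : F), (ι : F →+* F') (f d • x) = d • (ι : F →+* F') x)
    (hbij : Function.Bijective ι)
    (x : groupCohomology (Rep.ofMulDistribMulAction D Fˣ) 2) :
    invOf p F' D' T (groupCohomology.map f (unitsRepHomAlong f (ι : F →+* F') hι) 2 x) =
      (Nat.card D / Nat.card D') • invOf p F D T x := by
  letI : Algebra F F' := (ι : F →+* F').toAlgebra
  letI : Algebra (fixedField p F D) (fixedField p F' D') := (fixedFieldHom f ι hι).toAlgebra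
  haveI : IsScalarTower (fixedField p F D) (fixedField p F' D') F' :=
    IsScalarTower.of_algebraMap_eq (fun _ => rfl)
  haveI : IsScalarTower ℚ_[p] (fixedField p F D) (fixedField p F' D') :=
    IsScalarTower.of_algebraMap_eq (fun c => Subtype.ext (ι.commutes c).symm)
  haveI : IsScalarTower ℚ_[p] (fixedField p F D) F' :=
    IsScalarTower.of_algebraMap_eq (fun c => (ι.commutes c).symm)
  let eF : F ≃ₐ[fixedField p F D] F' :=
    AlgEquiv.ofBijective (IsScalarTower.toAlgHom (fixedField p F D) F F') hbij
  haveI : IsGalois (fixedField p F D) F' := IsGalois.of_algEquiv eF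
  haveI : FiniteDimensional (fixedField p F D) F' :=
    FiniteDimensional.right ℚ_[p] (fixedField p F D) F'
  have hrank : Module.finrank (fixedField p F D) (fixedField p F' D') =
      Nat.card D / Nat.card D' := by
    have h1 : Module.finrank (fixedField p F D) F' = Nat.card D := by
      rw [← eF.toLinearEquiv.finrank_eq]
      exact finrank_eq_card D (fixedField p F D) F
    have h2 : Module.finrank (fixedField p F' D') F' = Nat.card D' :=
      finrank_eq_card D' (fixedField p F' D') F'
    have h3 := Module.finrank_mul_finrank (fixedField p F D) (fixedField p F' D') F'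
    rw [h1, h2] at h3
    have hD' : 0 < Nat.card D' := Nat.card_pos
    exact (Nat.div_eq_of_eq_mul_left hD' h3.symm).symm
  have key := invOf_square_core p T F D F' D' f hι x
  rw [hrank] at key
  exact key

end Core

section Assembly

open IsLocalRing
open Fermat.Agent.Lib.CFT.Local.LocalBrauer (invUnr)
open Fermat.Agent.Lib.CFT.Local.Unramified (IsUnram)

variable (p : ℕ) [Fact p.Prime]

/-- The unramified formula for the transported invariants (the last field of the contract), as a
property of a Galois-form theory.  It follows from `LocalInvTheoryGal.inv_unram` and the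
independence of `invUnr` of the presentation (`Local/LocalBrauer/PresentationIndep.lean`). -/
def UnramFormula (T : LocalInvTheoryGal p) : Prop :=
  ∀ (F : Type) [Field F] [Algebra ℚ_[p] F] [FiniteDimensional ℚ_[p] F]
    (D : Type) [Group D] [Finite D] [MulSemiringAction D F] [FaithfulSMul D F]
    [SMulCommClass D ℚ_[p] F]
    (A K B : Type) [CommRing A] [IsDomain A] [IsDiscreteValuationRing A]
    [IsAdicComplete (maximalIdeal A) A] [Finite (ResidueField A)]
    [Field K] [Algebra A K] [IsFractionRing A K]
    [Algebra K F] [FiniteDimensional K F] [IsGalois K F]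
    [Algebra A F] [IsScalarTower A K F]
    [CommRing B] [IsDomain B] [IsDiscreteValuationRing B] [Algebra A B] [Algebra B F]
    [IsScalarTower A B F] [IsIntegralClosure B A F] [IsFractionRing B F]
    [HenselianLocalRing B] [IsLocalHom (algebraMap A B)]
    [IsGaloisGroup D K F]
    (_ : ∀ b : B, ((algebraMap ℚ_[p] F).comp (algebraMap ℤ_[p] ℚ_[p])).IsIntegralElem
      (algebraMap B F b))
    (h : IsUnram A B)
    (x : groupCohomology (Rep.ofMulDistribMulAction D Fˣ) 2),
    invOf p F D T x = invUnr A K F B h ((unitsCohomologyIso D K F 2).hom x)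

/-- **Transport**: a Galois-form theory of canonical local invariants gives an action-form one. -/
noncomputable def localInvTheoryOf (T : LocalInvTheoryGal p) (hunr : UnramFormula p T) :
    LocalInvTheory p where
  inv F _ _ _ D _ _ _ _ _ := invOf p F D T
  inv_injective F _ _ _ D _ _ _ _ _ := invOf_injective p F D T
  card_nsmul_inv F _ _ _ D _ _ _ _ _ x := card_nsmul_invOf p F D T x
  exists_inv_eq F _ _ _ D _ _ _ _ _ y hy := exists_invOf_eq p F D T y hy
  inv_infl F _ _ _ D _ _ _ _ _ F' _ _ _ D' _ _ _ _ _ f hf ι hι hfix x :=
    invOf_infl T f hf ι hι hfix x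
  inv_res F _ _ _ D _ _ _ _ _ F' _ _ _ D' _ _ _ _ _ f _ ι hι hbij x :=
    invOf_res T f ι hι hbij x
  inv_unram F _ _ _ D _ _ _ _ _ A K B _ _ _ _ _ _ _ _ _ _ _ _ _ _ _ _ _ _ _ _ _ _ _ _ hint h x :=
    hunr F D A K B hint h x

end Assembly

end Fermat.Agent.Lib.CFT.Local.LocalInvTransport
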