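/-
helper53 (P-CFT, task 209, WP Local/LocalRec).  Local reciprocity and local existence modulo `p`
for a local field `K` (fraction field of a complete discrete valuation ring with finite residue
field, `p ≠ 0` in `K`) containing the `p`-th roots of unity.

* `perfect_of_right_nondegenerate`: a bimultiplicative pairing `A × B → μ_p` with `A` finite and
  killed by `p`, trivial kernel on the `B` side and `|A| ≤ |B|` is perfect.
* `norm_index_of_isCyclic'`, `exists_forall_norm_ne`: the norm index theorem of Local/NormUnits with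
  the integral closure supplied internally; nontrivial cyclic extensions have non-norms.
* `charField χ`: the field cut out by a character `χ : Gal(Ω/K) → μ_p` of finite level; it is
  finite Galois, cyclic, of degree `p` when `χ ≠ 1`.
* `perfect_of_cyclic_norm`, `perfect_levelChars`: any pairing `ψ : Kˣ × X → μ_p` such that
  `ψ(a, χ) = 1` forces `a` to be a norm from the cyclic extension attached to `χ` induces a perfect
  pairing `Kˣ/(Kˣ)ᵖ × X → μ_p` (the count `|X| = [Kˣ : (Kˣ)ᵖ]` comes from Kummer theory).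
* `mem_powSubgroup_of_forall_norm`: the intersection of the norm groups of the cyclic extensions of
  degree `p` is `(Kˣ)ᵖ`.
* `perfect_of_right_nondegenerate_of_card`, `perfect_of_cyclic_norm_gen`: the same for pairings with
  values in an arbitrary group of order `p` (no roots of unity needed in `K`, count supplied).
-/
import Mathlib
import Fermat.Agent.Lib.CFT.Kummer.Subfield
import Fermat.Agent.Lib.CFT.Local.PowerIndex
import Fermat.Agent.Lib.CFT.Local.NormUnits.UnitsHerbrand

set_option autoImplicit false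
set_option linter.style.haveILetI false

namespace Fermat.Agent.Lib.CFT.Local.LocalRec

open Fermat.Agent.Lib.CFT.Kummer IsLocalRing

section Abstract

variable {F : Type*} [Field F] {p : ℕ} [NeZero p]

/-- Characters with values in `μ_p(F)` separate the points of a finite commutative group killed
by `p`. -/
theorem exists_monoidHom_rootsOfUnity_ne_one (hζ : (primitiveRoots p F).Nonempty)
    {A : Type*} [CommGroup A] [Finite A] (hexp : ∀ a : A, a ^ p = 1) {a : A} (ha : a ≠ 1) :
    ∃ f : A →* rootsOfUnity p F, f a ≠ 1 := by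
  have h1 : HasEnoughRootsOfUnity F p := hasEnoughRootsOfUnity_of_primitiveRoots hζ
  have hdvd : Monoid.exponent A ∣ p := Monoid.exponent_dvd_of_forall_pow_eq_one hexp
  have h2 : HasEnoughRootsOfUnity F (Monoid.exponent A) := HasEnoughRootsOfUnity.of_dvd F hdvd
  obtain ⟨g, hg⟩ := CommGroup.exists_apply_ne_one_of_hasEnoughRootsOfUnity A F ha
  refine ⟨g.codRestrict _ (fun x => by rw [mem_rootsOfUnity, ← map_pow, hexp, map_one]), ?_⟩
  intro h
  apply hg
  exact congrArg Subtype.val h

/-- **One-sided criterion for perfectness.** Let `A` be a finite commutative group killed by `p`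
and `φ : A × B → μ_p(F)` a bimultiplicative pairing whose kernel on the `B`-side is trivial.  If
`|A| ≤ |B|` then the pairing is perfect. -/
theorem perfect_of_right_nondegenerate (hζ : (primitiveRoots p F).Nonempty)
    {A B : Type*} [CommGroup A] [Finite A] [CommGroup B] (hAexp : ∀ a : A, a ^ p = 1)
    (φ : A →* B →* rootsOfUnity p F)
    (hr : ∀ b, (∀ a, φ a b = 1) → b = 1) (hcard : Nat.card A ≤ Nat.card B) :
    Finite B ∧ Nat.card A = Nat.card B ∧ (∀ b : B, b ^ p = 1) ∧
      Function.Bijective φ ∧ Function.Bijective φ.flip := by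
  have hμ : ∀ ζ : rootsOfUnity p F, ζ ^ p = 1 := fun ζ => by
    apply Subtype.ext
    simpa using (mem_rootsOfUnity _ _).mp ζ.2
  have hφ' : Function.Injective φ.flip := (injective_iff_map_eq_one φ.flip).mpr fun b hb =>
    hr b fun a => by
      have := congrArg (fun f => f a) hb
      simpa using this
  have finA : Finite (A →* rootsOfUnity p F) :=
    Finite.of_injective (fun f => (f : A → rootsOfUnity p F)) DFunLike.coe_injective
  have hBfin : Finite B := Finite.of_injective _ hφ'
  have hBexp : ∀ b : B, b ^ p = 1 := fun b => hφ' <| by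
    rw [map_pow, map_one]
    ext a : 1
    rw [MonoidHom.pow_apply, hμ, MonoidHom.one_apply]
  have cA : Nat.card (A →* rootsOfUnity p F) = Nat.card A :=
    card_monoidHom_rootsOfUnity hζ A (fun a b => mul_comm a b) hAexp
  have cB : Nat.card (B →* rootsOfUnity p F) = Nat.card B :=
    card_monoidHom_rootsOfUnity hζ B (fun a b => mul_comm a b) hBexp
  have c2 : Nat.card B ≤ Nat.card A := by
    rw [← cA]
    exact Nat.card_le_card_of_injective _ hφ'
  have hcardeq : Nat.card A = Nat.card B := le_antisymm hcard c2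
  have hbij' : Function.Bijective φ.flip :=
    (Nat.bijective_iff_injective_and_card _).mpr ⟨hφ', by rw [cA, hcardeq]⟩
  have hl : ∀ a, (∀ b, φ a b = 1) → a = 1 := by
    intro a ha
    by_contra hne
    obtain ⟨f, hf⟩ := exists_monoidHom_rootsOfUnity_ne_one hζ hAexp hne
    obtain ⟨b, rfl⟩ := hbij'.2 f
    exact hf (ha b)
  have hφ : Function.Injective φ := (injective_iff_map_eq_one φ).mpr fun a ha =>
    hl a fun b => by rw [ha]; rfl
  have finB : Finite (B →* rootsOfUnity p F) :=
    Finite.of_injective (fun f => (f : B → rootsOfUnity p F)) DFunLike.coe_injective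
  exact ⟨hBfin, hcardeq, hBexp,
    (Nat.bijective_iff_injective_and_card _).mpr ⟨hφ, by rw [cB, hcardeq]⟩, hbij'⟩

end Abstract

section NormIndex

variable (A K : Type) [CommRing A] [IsDomain A] [IsDiscreteValuationRing A]
  [IsAdicComplete (maximalIdeal A) A] [Finite (ResidueField A)]
  [Field K] [Algebra A K] [IsFractionRing A K]

include A in
/-- The norm index `[Kˣ : N Lˣ] = [L : K]` for a cyclic extension of local fields, stated with
the base ring only (the integral closure is supplied internally). -/
theorem norm_index_of_isCyclic' (L : Type) [Field L] [Algebra K L] [FiniteDimensional K L]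
    [IsGalois K L] [IsCyclic Gal(L/K)] :
    (Herbrand.unitsNorm K L).range.index = Module.finrank K L := by
  letI : Algebra A L := ((algebraMap K L).comp (algebraMap A K)).toAlgebra
  haveI : IsScalarTower A K L := IsScalarTower.of_algebraMap_eq' rfl
  exact NormUnits.norm_index_of_isCyclic A K L (integralClosure A L)

include A in
/-- A nontrivial cyclic extension of local fields has elements of the base which are not norms. -/
theorem exists_forall_norm_ne (L : Type) [Field L] [Algebra K L] [FiniteDimensional K L]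
    [IsGalois K L] [IsCyclic Gal(L/K)] (hL : Module.finrank K L ≠ 1) :
    ∃ a : Kˣ, ∀ y : L, Algebra.norm K y ≠ (a : K) := by
  have hidx := norm_index_of_isCyclic' A K L
  have hne : (Herbrand.unitsNorm K L).range ≠ ⊤ := by
    intro h
    rw [h, Subgroup.index_top] at hidx
    exact hL hidx.symm
  obtain ⟨a, -, ha⟩ := SetLike.exists_of_lt (lt_top_iff_ne_top.mpr hne)
  refine ⟨a, fun y hy => ha ?_⟩
  have hy0 : y ≠ 0 := by
    rintro rfl
    rw [Algebra.norm_zero] at hy
    exact a.ne_zero hy.symm
  refine ⟨Units.mk0 y hy0, ?_⟩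
  apply Units.ext
  exact hy

end NormIndex

section CharField

variable {K Ω : Type*} [Field K] [Field Ω] [Algebra K Ω] {p : ℕ}

/-- The field cut out by a character of the Galois group: the fixed field of its kernel. -/
def charField (χ : (Ω ≃ₐ[K] Ω) →* rootsOfUnity p K) : IntermediateField K Ω :=
  IntermediateField.fixedField χ.ker

variable {χ : (Ω ≃ₐ[K] Ω) →* rootsOfUnity p K}

theorem isClosed_ker_of_mem_levelChars (hχ : χ ∈ levelChars K Ω p) :
    IsClosed (χ.ker : Set (Ω ≃ₐ[K] Ω)) :=
  Subgroup.isClosed_of_isOpen _ (mem_levelChars_iff_isOpen.mp hχ)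

variable [IsGalois K Ω]

theorem fixingSubgroup_charField (hχ : χ ∈ levelChars K Ω p) :
    (charField χ).fixingSubgroup = χ.ker :=
  InfiniteGalois.fixingSubgroup_fixedField ⟨χ.ker, isClosed_ker_of_mem_levelChars hχ⟩

theorem finiteDimensional_charField (hχ : χ ∈ levelChars K Ω p) :
    FiniteDimensional K (charField χ) := by
  rw [← InfiniteGalois.isOpen_iff_finite]
  change IsOpen ((charField χ).fixingSubgroup : Set (Ω ≃ₐ[K] Ω))
  rw [fixingSubgroup_charField hχ]
  exact mem_levelChars_iff_isOpen.mp hχ

theorem isGalois_charField (hχ : χ ∈ levelChars K Ω p) : IsGalois K (charField χ) := by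
  rw [← InfiniteGalois.normal_iff_isGalois, fixingSubgroup_charField hχ]
  infer_instance

/-- The Galois group of the field cut out by `χ` is the image of `χ`. -/
noncomputable def galCharFieldEquiv (hχ : χ ∈ levelChars K Ω p) :
    Gal(charField χ/K) ≃* χ.range :=
  (InfiniteGalois.normalAutEquivQuotient
    (⟨χ.ker, isClosed_ker_of_mem_levelChars hχ⟩ : ClosedSubgroup (Ω ≃ₐ[K] Ω))).symm.trans
    (QuotientGroup.quotientKerEquivRange χ)

theorem isCyclic_gal_charField (hχ : χ ∈ levelChars K Ω p) [NeZero p] :
    IsCyclic Gal(charField χ/K) := by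
  have : IsCyclic χ.range := inferInstance
  exact isCyclic_of_surjective (galCharFieldEquiv hχ).symm (galCharFieldEquiv hχ).symm.surjective

theorem finrank_charField (hp : p.Prime) (hζ : (primitiveRoots p K).Nonempty)
    (hχ : χ ∈ levelChars K Ω p) (hχ1 : χ ≠ 1) : Module.finrank K (charField χ) = p := by
  have := finiteDimensional_charField hχ
  have := isGalois_charField hχ
  have : NeZero p := ⟨hp.ne_zero⟩
  rw [← IsGalois.card_aut_eq_finrank, Nat.card_congr (galCharFieldEquiv hχ).toEquiv]
  obtain ⟨ζ, hζ'⟩ := hζ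
  rw [mem_primitiveRoots hp.pos] at hζ'
  have hcard : Nat.card (rootsOfUnity p K) = p := hζ'.card_rootsOfUnity
  have hdvd : Nat.card χ.range ∣ p := by
    have := Subgroup.card_subgroup_dvd_card χ.range
    rwa [hcard] at this
  rcases (Nat.dvd_prime hp).mp hdvd with h1 | h1
  · exfalso
    apply hχ1
    have hbot : χ.range = ⊥ := Subgroup.card_eq_one.mp h1
    ext1 σ
    have : χ σ ∈ χ.range := ⟨σ, rfl⟩
    rw [hbot, Subgroup.mem_bot] at this
    rw [this]
    rfl
  · exact h1

end CharField

section Main

variable (A K : Type) [CommRing A] [IsDomain A] [IsDiscreteValuationRing A]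
  [IsAdicComplete (maximalIdeal A) A] [Finite (ResidueField A)]
  [Field K] [Algebra A K] [IsFractionRing A K]
  {p : ℕ}

variable {K} in
/-- A pairing of `Kˣ` with values in a group killed by `p` descends to `Kˣ / (Kˣ)ᵖ`. -/
noncomputable def pairingQuot {B : Type*} [CommGroup B] (ψ : Kˣ →* B →* rootsOfUnity p K) :
    Kˣ ⧸ powSubgroup K p →* B →* rootsOfUnity p K :=
  QuotientGroup.lift _ ψ (by
    rintro _ ⟨y, rfl⟩
    ext b
    rw [powMonoidHom_apply, map_pow, MonoidHom.pow_apply, MonoidHom.one_apply]
    have := (mem_rootsOfUnity _ _).mp (ψ y b).2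
    rw [← Subgroup.coe_pow] at this
    exact_mod_cast this)

variable {K} in
@[simp] theorem pairingQuot_mk {B : Type*} [CommGroup B] (ψ : Kˣ →* B →* rootsOfUnity p K)
    (a : Kˣ) : pairingQuot ψ (QuotientGroup.mk a) = ψ a := rfl

include A in
/-- **Local reciprocity mod `p`, abstract form.**  Let `K` be a local field containing the `p`-th
roots of unity and let `ψ : Kˣ × B → μ_p` be a bimultiplicative pairing such that every nontrivial
`b` comes with a nontrivial cyclic extension `L / K` with the property that `ψ(a, b) = 1` forces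
`a` to be a norm from `L`.  If `[Kˣ : (Kˣ)ᵖ] ≤ |B|` then `ψ` induces a perfect pairing between
`Kˣ / (Kˣ)ᵖ` and `B`. -/
theorem perfect_of_cyclic_norm (hp : p.Prime) (hpA : (p : A) ≠ 0)
    (hζ : (primitiveRoots p K).Nonempty) {B : Type*} [CommGroup B]
    (ψ : Kˣ →* B →* rootsOfUnity p K)
    (hψ : ∀ b : B, b ≠ 1 → ∃ (L : Type) (_ : Field L) (_ : Algebra K L)
      (_ : FiniteDimensional K L) (_ : IsGalois K L) (_ : IsCyclic Gal(L/K)),
        Module.finrank K L ≠ 1 ∧ ∀ a : Kˣ, ψ a b = 1 → ∃ y : L, Algebra.norm K y = (a : K))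
    (hcard : (powSubgroup K p).index ≤ Nat.card B) :
    Finite B ∧ (powSubgroup K p).index = Nat.card B ∧ (∀ b : B, b ^ p = 1) ∧
      Function.Bijective (pairingQuot ψ) ∧ Function.Bijective (pairingQuot ψ).flip := by
  have : NeZero p := ⟨hp.ne_zero⟩
  have hidx : (powSubgroup K p).index ≠ 0 :=
    PowerIndex.index_range_pow_units_ne_zero A K p hpA
  have hfi : (powSubgroup K p).FiniteIndex := ⟨hidx⟩
  have hfin : Finite (Kˣ ⧸ powSubgroup K p) := Subgroup.finite_quotient_of_finiteIndex
  have hexp : ∀ x : Kˣ ⧸ powSubgroup K p, x ^ p = 1 := by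
    intro x
    obtain ⟨a, rfl⟩ := QuotientGroup.mk_surjective x
    rw [← QuotientGroup.mk_pow, QuotientGroup.eq_one_iff]
    exact ⟨a, rfl⟩
  have hr : ∀ b, (∀ x, pairingQuot ψ x b = 1) → b = 1 := by
    intro b hb
    by_contra hne
    obtain ⟨L, _, _, _, _, _, hL, hnorm⟩ := hψ b hne
    obtain ⟨a, ha⟩ := exists_forall_norm_ne A K L hL
    obtain ⟨y, hy⟩ := hnorm a (hb (QuotientGroup.mk a))
    exact ha y hy
  have hcard' : Nat.card (Kˣ ⧸ powSubgroup K p) ≤ Nat.card B := hcard
  obtain ⟨h1, h2, h3, h4, h5⟩ :=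
    perfect_of_right_nondegenerate hζ hexp (pairingQuot ψ) hr hcard'
  exact ⟨h1, h2, h3, h4, h5⟩

end Main

section LevelChars

variable (A K : Type) [CommRing A] [IsDomain A] [IsDiscreteValuationRing A]
  [IsAdicComplete (maximalIdeal A) A] [Finite (ResidueField A)]
  [Field K] [Algebra A K] [IsFractionRing A K]
  (Ω : Type) [Field Ω] [Algebra K Ω] [IsGalois K Ω]
  {p : ℕ}

include A in
/-- **Local reciprocity mod `p` for Kummer characters.**  Let `K` be a local field containing the
`p`-th roots of unity, `Ω / K` a Galois extension in which every element of `K` has a `p`-th root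
(e.g. a separable closure), and `ψ` a bimultiplicative pairing between `Kˣ` and the characters
`Gal(Ω/K) → μ_p` of finite level such that `ψ(a, χ) = 1` forces `a` to be a norm from the cyclic
extension cut out by `χ`.  Then `ψ` induces a perfect pairing between `Kˣ / (Kˣ)ᵖ` and the group of
characters. -/
theorem perfect_levelChars (hp : p.Prime) (hpA : (p : A) ≠ 0)
    (hζ : (primitiveRoots p K).Nonempty)
    (hroots : haveI : NeZero p := ⟨hp.ne_zero⟩; HasRoots Ω p (⊤ : Subgroup Kˣ))
    (ψ : Kˣ →* levelChars K Ω p →* rootsOfUnity p K)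
    (hψ : ∀ χ : levelChars K Ω p, χ ≠ 1 → ∀ a : Kˣ, ψ a χ = 1 →
      ∃ y : charField χ.1, Algebra.norm K y = (a : K)) :
    Function.Bijective (pairingQuot ψ) ∧ Function.Bijective (pairingQuot ψ).flip := by
  have : NeZero p := ⟨hp.ne_zero⟩
  have hcard : (powSubgroup K p).index ≤ Nat.card (levelChars K Ω p) :=
    (Nat.card_congr (kummerH1Equiv hζ hroots).toEquiv).le
  obtain ⟨-, -, -, h4, h5⟩ := perfect_of_cyclic_norm A K hp hpA hζ ψ (fun χ hχ => by
    have hχ1 : χ.1 ≠ 1 := fun h => hχ (Subtype.ext h)
    have h1 := finiteDimensional_charField χ.2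
    have h2 := isGalois_charField χ.2
    have h3 := isCyclic_gal_charField χ.2
    refine ⟨charField χ.1, inferInstance, inferInstance, h1, h2, h3, ?_, hψ χ hχ⟩
    rw [finrank_charField hp hζ χ.2 hχ1]
    exact hp.one_lt.ne') hcard
  exact ⟨h4, h5⟩

include A in
/-- **Local existence mod `p`, norm group form.**  In the situation of `perfect_levelChars`, if
moreover norms from the field cut out by `χ` pair trivially with `χ`, then an element of `Kˣ`
which is a norm from every cyclic extension of degree `p` inside `Ω` is a `p`-th power. -/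
theorem mem_powSubgroup_of_forall_norm (hp : p.Prime) (hpA : (p : A) ≠ 0)
    (hζ : (primitiveRoots p K).Nonempty)
    (hroots : haveI : NeZero p := ⟨hp.ne_zero⟩; HasRoots Ω p (⊤ : Subgroup Kˣ))
    (ψ : Kˣ →* levelChars K Ω p →* rootsOfUnity p K)
    (hψ : ∀ χ : levelChars K Ω p, χ ≠ 1 → ∀ a : Kˣ, ψ a χ = 1 ↔
      ∃ y : charField χ.1, Algebra.norm K y = (a : K))
    (a : Kˣ) (ha : ∀ χ : levelChars K Ω p, χ ≠ 1 →
      ∃ y : charField χ.1, Algebra.norm K y = (a : K)) : a ∈ powSubgroup K p := by
  obtain ⟨h1, -⟩ := perfect_levelChars A K Ω hp hpA hζ hroots ψ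
    (fun χ hχ a h => (hψ χ hχ a).mp h)
  rw [← QuotientGroup.eq_one_iff]
  apply h1.1
  rw [map_one]
  ext1 χ
  rw [pairingQuot_mk, MonoidHom.one_apply]
  by_cases hχ : χ = 1
  · rw [hχ, map_one]
  · exact (hψ χ hχ a).mpr (ha χ hχ)

end LevelChars

section General

variable {p : ℕ}

/-- Postcomposition with a multiplicative equivalence, as a bijection of `Hom` groups. -/
def postcompEquiv {B M M' : Type*} [CommGroup B] [CommGroup M] [CommGroup M'] (e : M ≃* M') :
    (B →* M) ≃ (B →* M') where
  toFun f := e.toMonoidHom.comp f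
  invFun f := e.symm.toMonoidHom.comp f
  left_inv f := by ext b; simp
  right_inv f := by ext b; simp

/-- **One-sided criterion for perfectness**, for pairings with values in any group of prime
order `p`. -/
theorem perfect_of_right_nondegenerate_of_card (hp : p.Prime)
    {A B M : Type*} [CommGroup A] [Finite A] [CommGroup B] [CommGroup M] (hM : Nat.card M = p)
    (hAexp : ∀ a : A, a ^ p = 1) (φ : A →* B →* M)
    (hr : ∀ b, (∀ a, φ a b = 1) → b = 1) (hcard : Nat.card A ≤ Nat.card B) :
    Finite B ∧ Nat.card A = Nat.card B ∧ (∀ b : B, b ^ p = 1) ∧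
      Function.Bijective φ ∧ Function.Bijective φ.flip := by
  have : NeZero p := ⟨hp.ne_zero⟩
  have : Fact p.Prime := ⟨hp⟩
  have hζ : (primitiveRoots p ℂ).Nonempty :=
    ⟨_, (mem_primitiveRoots hp.pos).mpr (Complex.isPrimitiveRoot_exp p hp.ne_zero)⟩
  have h2 : Nat.card (rootsOfUnity p ℂ) = p := Complex.card_rootsOfUnity p
  let e : M ≃* rootsOfUnity p ℂ := mulEquivOfPrimeCardEq hM h2
  let φ' : A →* B →* rootsOfUnity p ℂ := (MonoidHom.compHom e.toMonoidHom).comp φ
  have hφ' : ∀ a b, φ' a b = e (φ a b) := fun a b => rfl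
  have hr' : ∀ b, (∀ a, φ' a b = 1) → b = 1 := by
    intro b hb
    apply hr b
    intro a
    have := hb a
    rw [hφ', map_eq_one_iff e e.injective] at this
    exact this
  obtain ⟨h1, h3, h4, h5, h6⟩ := perfect_of_right_nondegenerate hζ hAexp φ' hr' hcard
  refine ⟨h1, h3, h4, ?_, ?_⟩
  · have : (φ' : A → B →* rootsOfUnity p ℂ) = (postcompEquiv e) ∘ φ := rfl
    rw [this] at h5
    exact (Function.Bijective.of_comp_iff' (postcompEquiv e).bijective φ).mp h5
  · have : (φ'.flip : B → A →* rootsOfUnity p ℂ) = (postcompEquiv e) ∘ φ.flip := rfl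
    rw [this] at h6
    exact (Function.Bijective.of_comp_iff' (postcompEquiv e).bijective φ.flip).mp h6

end General

section MainGen

variable (A K : Type) [CommRing A] [IsDomain A] [IsDiscreteValuationRing A]
  [IsAdicComplete (maximalIdeal A) A] [Finite (ResidueField A)]
  [Field K] [Algebra A K] [IsFractionRing A K]
  {p : ℕ}

variable {K} in
/-- A pairing of `Kˣ` with values in a group killed by `p` descends to `Kˣ / (Kˣ)ᵖ`. -/
noncomputable def pairingQuotGen {B M : Type*} [CommGroup B] [CommGroup M]
    (hM : ∀ m : M, m ^ p = 1) (ψ : Kˣ →* B →* M) : Kˣ ⧸ powSubgroup K p →* B →* M :=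
  QuotientGroup.lift _ ψ (by
    rintro _ ⟨y, rfl⟩
    ext b
    rw [powMonoidHom_apply, map_pow, MonoidHom.pow_apply, MonoidHom.one_apply, hM])

variable {K} in
@[simp] theorem pairingQuotGen_mk {B M : Type*} [CommGroup B] [CommGroup M]
    (hM : ∀ m : M, m ^ p = 1) (ψ : Kˣ →* B →* M) (a : Kˣ) :
    pairingQuotGen hM ψ (QuotientGroup.mk a) = ψ a := rfl

include A in
/-- **Local reciprocity mod `p`, abstract form, general target.**  Same as
`perfect_of_cyclic_norm`, for a pairing with values in any group `M` of order `p`; the field `K`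
is not required to contain the `p`-th roots of unity (but the count `hcard` has to be supplied). -/
theorem perfect_of_cyclic_norm_gen (hp : p.Prime) (hpA : (p : A) ≠ 0)
    {B M : Type*} [CommGroup B] [CommGroup M] (hMcard : Nat.card M = p)
    (hM : ∀ m : M, m ^ p = 1) (ψ : Kˣ →* B →* M)
    (hψ : ∀ b : B, b ≠ 1 → ∃ (L : Type) (_ : Field L) (_ : Algebra K L)
      (_ : FiniteDimensional K L) (_ : IsGalois K L) (_ : IsCyclic Gal(L/K)),
        Module.finrank K L ≠ 1 ∧ ∀ a : Kˣ, ψ a b = 1 → ∃ y : L, Algebra.norm K y = (a : K))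
    (hcard : (powSubgroup K p).index ≤ Nat.card B) :
    Finite B ∧ (powSubgroup K p).index = Nat.card B ∧ (∀ b : B, b ^ p = 1) ∧
      Function.Bijective (pairingQuotGen hM ψ) ∧
      Function.Bijective (pairingQuotGen hM ψ).flip := by
  have hidx : (powSubgroup K p).index ≠ 0 :=
    PowerIndex.index_range_pow_units_ne_zero A K p hpA
  have hfi : (powSubgroup K p).FiniteIndex := ⟨hidx⟩
  have hfin : Finite (Kˣ ⧸ powSubgroup K p) := Subgroup.finite_quotient_of_finiteIndex
  have hexp : ∀ x : Kˣ ⧸ powSubgroup K p, x ^ p = 1 := by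
    intro x
    obtain ⟨a, rfl⟩ := QuotientGroup.mk_surjective x
    rw [← QuotientGroup.mk_pow, QuotientGroup.eq_one_iff]
    exact ⟨a, rfl⟩
  have hr : ∀ b, (∀ x, pairingQuotGen hM ψ x b = 1) → b = 1 := by
    intro b hb
    by_contra hne
    obtain ⟨L, _, _, _, _, _, hL, hnorm⟩ := hψ b hne
    obtain ⟨a, ha⟩ := exists_forall_norm_ne A K L hL
    obtain ⟨y, hy⟩ := hnorm a (hb (QuotientGroup.mk a))
    exact ha y hy
  have hcard' : Nat.card (Kˣ ⧸ powSubgroup K p) ≤ Nat.card B := hcard
  exact perfect_of_right_nondegenerate_of_card hp hMcard hexp (pairingQuotGen hM ψ) hr hcard'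

end MainGen

end Fermat.Agent.Lib.CFT.Local.LocalRec
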