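import Fermat.Agent.Lib.CFT.Duality.BaseCase.LocalModPArith
import Fermat.Agent.Lib.CFT.Duality.BaseCase.TransferTop

/-!
# Hilbert 90 in the limit for the module `Lq q`

`H¹` of the local Galois group at `q` with values in `Lq q = (PadicAlgCl q)ˣ`, computed with the
level family `primeLocalLevels q`, vanishes.
-/

set_option autoImplicit false
set_option linter.unusedSectionVars false

open CategoryTheory

namespace Fermat.Agent.Lib.CFT.Local.LqHilbert90

open Fermat.Agent.Lib.CFT.Profinite Fermat.Agent.Lib.CFT.Profinite.LevelFamily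
open Fermat.Agent.Lib.CFT.Profinite.LES
open Fermat.Agent.Lib.CFT.Duality Fermat.Agent.Lib.CFT.Duality.KummerLocalOfFormation
open Fermat.Agent.Lib.CFT.Duality.LocalModPArith
open Fermat.Agent.Lib.CFT.Local Fermat.Agent.Lib.CFT.Local.LqModule
open Fermat.Agent.Lib.CFT.Global.SVersion.LocalFormation
open Fermat.Agent.Lib.CFT.Coh.ClassFormation ExtCitation

variable (q : Nat.Primes)

/-- The whole local Galois group is an open subgroup. -/
theorem isOpenSubgroup_top :
    IsOpenSubgroup (primeLocalLevels q) (⊤ : Subgroup (primeLocalGaloisGroup q)) := by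
  obtain ⟨U₀, hU₀⟩ := (primeLocalLevels q).nonempty
  exact ⟨U₀, hU₀, le_top⟩

/-- Hilbert 90 for an open subgroup `W` of the local Galois group: `H¹(W, Lq q) = 0` for the level
family induced on `W`. -/
theorem subsingleton_H1_LW (W : Subgroup (primeLocalGaloisGroup q))
    (hW : IsOpenSubgroup (primeLocalLevels q) W) :
    Subsingleton ((LES.restrict (primeLocalLevels q) W).levelCohomology
      (Rep.res W.subtype (Lq q)) 1) := by
  have hWl := mem_primeLocalLevels_of_isOpenSubgroup q W hW
  refine subsingleton_levelCohomology (LES.restrict (primeLocalLevels q) W)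
    (Rep.res W.subtype (Lq q)) 1 ?_
  intro U _ hU
  have := levelFintype (LES.restrict (primeLocalLevels q) W) U hU
  exact ModuleCat.subsingleton_of_isZero
    (Global.SVersion.FormationSub.isZero_H1_of_isClassLayer
      (isClassLayer_localFormation q (@Local.localInvTheory (q : ℕ) ⟨q.2⟩) W hWl U hU))

/-- **Local Hilbert 90 in the limit**: `H¹(G_q, Lq q) = 0` for the level family
`primeLocalLevels q`. -/
theorem subsingleton_H1_Lq :
    Subsingleton ((primeLocalLevels q).levelCohomology (Lq q) 1) := by
  have h := subsingleton_H1_LW q ⊤ (isOpenSubgroup_top q)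
  exact (map_top_bijective (primeLocalLevels q) (Lq q) 1).1.subsingleton

end Fermat.Agent.Lib.CFT.Local.LqHilbert90
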