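/-
Copyright (c) 2026. Released under Apache 2.0 license.

# `μ_p → Lq q` as a morphism of `ℤ`-linear representations

The additive map `torsionMap q p : ZMod p →+ Lq q` of `Local/LqModule.lean`, upgraded to a
morphism of `ℤ`-linear representations of the local Galois group

  `torsionHom q p : Rep.res (primeLocalToGlobal q) (ChangeRing.intRep (muRep p)) ⟶ Lq q`,

injective, with range the `p`-torsion of `Lq q`.
-/
import Mathlib
import Fermat.Agent.Lib.CFT.Local.LqModule
import Fermat.Agent.Lib.CFT.Duality.BaseCase.ChangeRing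

set_option autoImplicit false

namespace Fermat.Agent.Lib.CFT.Local.LqModule

open CategoryTheory
open ExtCitation Fermat.Agent.Lib.CFT.Profinite Fermat.Agent.Lib.CFT.Duality
open Fermat.Agent.Lib.CFT.Duality.ChangeRing

variable (q : Nat.Primes) (p : ℕ) [Fact p.Prime]

local notation "Γℚ" => (AlgebraicClosure ℚ ≃ₐ[ℚ] AlgebraicClosure ℚ)

/-- The `ℤ`-linear representation of the local Galois group at `q` underlying `μ_p`. -/
noncomputable abbrev muLoc : Rep.{0} ℤ (primeLocalGaloisGroup q) :=
  Rep.res (primeLocalToGlobal q) (intRep (muRep p))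

/-- The local Galois group acts on `μ_p` through (the restriction of) the mod `p` cyclotomic
character. -/
theorem muLoc_ρ_apply (s : primeLocalGaloisGroup q) (a : ZMod p) :
    (muLoc q p).ρ s a = chiLoc q p s * a := rfl

/-- The global Galois group acts on `μ_p` through the mod `p` cyclotomic character. -/
theorem muRep_ρ_apply (σ : Γℚ) (a : ZMod p) :
    (muRep p).ρ σ a = ((cycloChar p σ : (ZMod p)ˣ) : ZMod p) * a := rfl

/-- The embedding `μ_p → Lq q`, `a ↦ ζ ^ a`, as a morphism of `ℤ`-linear representations of the
local Galois group at `q`. -/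
noncomputable def torsionHom : muLoc q p ⟶ Lq q :=
  Rep.ofHom ⟨(torsionMap q p).toIntLinearMap, fun s =>
    LinearMap.ext fun a => (ρ_torsionMap q p s a).symm⟩

@[simp]
theorem torsionHom_hom_apply (a : ZMod p) : (torsionHom q p).hom a = torsionMap q p a := rfl

theorem torsionHom_injective : Function.Injective (torsionHom q p).hom :=
  torsionMap_injective q p

instance mono_torsionHom : CategoryTheory.Mono (torsionHom q p) :=
  (Rep.mono_iff_injective _).2 (torsionHom_injective q p)

theorem range_torsionHom :
    Set.range (torsionHom q p).hom = {x : Lq q | p • x = 0} :=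
  range_torsionMap q p

theorem mem_range_torsionHom_iff (x : Lq q) :
    (∃ a : ZMod p, (torsionHom q p).hom a = x) ↔ p • x = 0 := by
  have h := range_torsionHom q p
  rw [Set.ext_iff] at h
  exact h x

/-- Equivariance of `torsionHom`, elementwise. -/
theorem torsionHom_ρ (s : primeLocalGaloisGroup q) (a : ZMod p) :
    (torsionHom q p).hom ((muLoc q p).ρ s a) = (Lq q).ρ s ((torsionHom q p).hom a) :=
  (ρ_torsionMap q p s a).symm

/-- The value of `torsionHom` as a unit of `Qqbar q`: `a ↦ ζ ^ a`. -/
theorem coe_toUnit_torsionHom (a : ZMod p) :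
    ((toUnit q ((torsionHom q p).hom a) : (Qqbar q)ˣ) : Qqbar q) = zetaLoc q p ^ a.val :=
  coe_toUnit_torsionMap q p a

/-! ### The Kummer sequence `0 → μ_p → Lq q → Lq q → 0` -/

/-- Multiplication by `p` on `Lq q` (i.e. `x ↦ x ^ p` on units), as a morphism of
representations. -/
noncomputable def powHom : Lq q ⟶ Lq q := (p : ℤ) • 𝟙 (Lq q)

omit [Fact p.Prime] in
@[simp]
theorem powHom_hom_apply (x : Lq q) : (powHom q p).hom x = p • x := by
  have h : (powHom q p).hom x = (p : ℤ) • x := rfl
  rw [h, natCast_zsmul]

theorem powHom_surjective : Function.Surjective (powHom q p).hom := by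
  intro x
  obtain ⟨y, hy⟩ := exists_nsmul_eq q (Fact.out : p.Prime).ne_zero x
  exact ⟨y, by rw [powHom_hom_apply, hy]⟩

instance epi_powHom : CategoryTheory.Epi (powHom q p) :=
  (Rep.epi_iff_surjective _).2 (powHom_surjective q p)

theorem torsionHom_powHom : torsionHom q p ≫ powHom q p = 0 := by
  ext a
  change (powHom q p).hom ((torsionHom q p).hom a) = 0
  rw [powHom_hom_apply]
  exact (mem_range_torsionHom_iff q p _).1 ⟨a, rfl⟩

/-- The Kummer sequence `0 → μ_p → Lq q → Lq q → 0` of `ℤ`-linear representations of the local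
Galois group at `q`. -/
noncomputable def kummerSeq : CategoryTheory.ShortComplex (Rep.{0} ℤ (primeLocalGaloisGroup q)) :=
  CategoryTheory.ShortComplex.mk (torsionHom q p) (powHom q p) (torsionHom_powHom q p)

theorem kummerSeq_shortExact : (kummerSeq q p).ShortExact where
  exact := by
    rw [rep_exact_iff]
    intro y hy
    have hy' : p • (y : Lq q) = 0 := (powHom_hom_apply q p y).symm.trans hy
    exact (mem_range_torsionHom_iff q p y).2 hy'
  mono_f := mono_torsionHom q p
  epi_g := epi_powHom q p

end Fermat.Agent.Lib.CFT.Local.LqModule
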