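import Fermat.Agent.Lib.CFT.Local.UnitsFiltration

/-! P-CFT Local/UnitsIndex (helper44): indices of the higher unit groups for a finite residue field. -/

set_option autoImplicit false
set_option linter.unusedSectionVars false

namespace Fermat.Agent.Lib.CFT.Local.UnitsFiltration

open IsLocalRing

section Index

variable {B : Type*} [CommRing B] [IsDomain B] [IsDiscreteValuationRing B]
variable [Finite (ResidueField B)]

/-- `[U^(i) : U^(i+1)] = q` for `i ≥ 1`. -/
theorem relIndex_principalUnits_succ (i : ℕ) (hi : 1 ≤ i) :
    (principalUnits B (i + 1)).relIndex (principalUnits B i) = Nat.card (ResidueField B) := by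
  obtain ⟨ϖ, hϖ⟩ := IsDiscreteValuationRing.exists_irreducible B
  rw [Subgroup.relIndex, Subgroup.index]
  rw [Nat.card_congr (gradedEquiv hϖ i hi).toEquiv]
  rfl

/-- `[U : U^(1)] = q - 1`. -/
theorem index_principalUnits_one :
    (principalUnits B 1).index = Nat.card (ResidueField B) - 1 := by
  rw [Subgroup.index, Nat.card_congr (unitsQuotientEquiv B).toEquiv, Nat.card_units]

/-- `[U^(i) : U^(i+e)] = q^e` for `i ≥ 1`. -/
theorem relIndex_principalUnits_add (i : ℕ) (hi : 1 ≤ i) (e : ℕ) :
    (principalUnits B (i + e)).relIndex (principalUnits B i) = Nat.card (ResidueField B) ^ e := by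
  induction e with
  | zero => simp
  | succ e ih =>
    have h1 : principalUnits B (i + (e + 1)) ≤ principalUnits B (i + e) :=
      principalUnits_le (by omega)
    have h2 : principalUnits B (i + e) ≤ principalUnits B i := principalUnits_le (by omega)
    rw [← Subgroup.relIndex_mul_relIndex _ _ _ h1 h2, ih,
      show i + (e + 1) = (i + e) + 1 by ring, relIndex_principalUnits_succ (i + e) (by omega),
      pow_succ, mul_comm]

/-- `[U : U^(i)] = (q - 1) q^(i-1)` for `i ≥ 1`. -/
theorem index_principalUnits (i : ℕ) (hi : 1 ≤ i) :
    (principalUnits B i).index = (Nat.card (ResidueField B) - 1) * Nat.card (ResidueField B) ^ (i - 1) := by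
  obtain ⟨e, rfl⟩ : ∃ e, i = 1 + e := ⟨i - 1, by omega⟩
  have h1 : principalUnits B (1 + e) ≤ principalUnits B 1 := principalUnits_le (by omega)
  rw [← Subgroup.relIndex_mul_index h1, relIndex_principalUnits_add 1 le_rfl e,
    index_principalUnits_one, mul_comm]
  simp

theorem index_principalUnits_ne_zero (i : ℕ) : (principalUnits B i).index ≠ 0 := by
  rcases Nat.eq_zero_or_pos i with rfl | hi
  · rw [principalUnits_zero]; simp
  · rw [index_principalUnits i hi]
    have hq : 2 ≤ Nat.card (ResidueField B) := by
      have : Nontrivial (ResidueField B) := inferInstance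
      exact Finite.one_lt_card
    have : 0 < Nat.card (ResidueField B) ^ (i - 1) := pow_pos (by omega) _
    have h2 : 0 < Nat.card (ResidueField B) - 1 := by omega
    exact (Nat.mul_pos h2 this).ne'

instance finiteIndex_principalUnits (i : ℕ) : (principalUnits B i).FiniteIndex :=
  ⟨index_principalUnits_ne_zero i⟩

end Index

end Fermat.Agent.Lib.CFT.Local.UnitsFiltration
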