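import Mathlib
import Fermat.Agent.Lib.CFT.Local.DVRVal
import Fermat.Agent.Lib.CFT.Local.UnramExists

/-!
# A power of the uniformizer of `K` is a norm from `L(μ_{Q^m - 1})` to `L`

`L / K` a finite separable extension of degree `n` of complete discretely valued fields with
finite residue field of cardinality `Q`, `M = L(μ_{Q^m - 1})` with `n ∣ m`.  Then `M / L` is
unramified of degree `m / f` and `π_K ^ (m / n)` is a norm from `M` to `L`.
-/

set_option autoImplicit false
set_option linter.unusedSectionVars false

open IsLocalRing Module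

namespace Fermat.Agent.Lib.CFT.Local

section Bridge

variable (A B : Type*) [CommRing A] [IsDomain A] [IsDiscreteValuationRing A]
  [CommRing B] [IsDomain B] [IsDiscreteValuationRing B] [Algebra A B]
  [Module.Finite A B] [Module.IsTorsionFree A B]

/-- helper59's `resDeg` (Mathlib inertia degree) is helper42's `resDegree`. -/
theorem resDeg_eq_resDegree [IsLocalHom (algebraMap A B)] :
    resDeg A B = Unramified.resDegree A B := by
  unfold resDeg Unramified.resDegree
  rw [Ideal.inertiaDeg_eq_of_isMaximal (maximalIdeal A) (maximalIdeal B)]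
  rfl

end Bridge

namespace Unramified

variable (A K L B : Type) [CommRing A] [IsDomain A] [IsDiscreteValuationRing A]
  [IsAdicComplete (maximalIdeal A) A]
  [Field K] [Algebra A K] [IsFractionRing A K]
  [Field L] [Algebra K L] [FiniteDimensional K L] [Algebra.IsSeparable K L]
  [Algebra A L] [IsScalarTower A K L]
  [CommRing B] [IsDomain B] [Algebra A B] [Algebra B L] [IsScalarTower A B L]
  [IsIntegralClosure B A L] [Finite (ResidueField A)]

/-- `e * f = n` with helper42's residue degree. -/
theorem ramIdx_mul_resDegree [IsDiscreteValuationRing B] :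
    haveI := ext_finite A K L B
    haveI := ext_isTorsionFree A K L B
    ramIdx A B * resDegree A B = finrank K L := by
  have := ext_finite A K L B
  have := ext_isTorsionFree A K L B
  have := ext_isLocalHom A K L B
  rw [← resDeg_eq_resDegree, ramIdx_mul_resDeg, ext_finrank A K L B]


include B in
/-- **A power of the uniformizer is a norm from the unramified extension.**
If `[L : K] ∣ m` and `M = L(μ_{Q^m - 1})` then `π ^ (m / [L : K])` is a norm from `M` to `L`. -/
theorem exists_norm_eq_uniformizer_pow (M : Type) [Field M] [Algebra L M] (m : ℕ) (hm : m ≠ 0)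
    (hnm : finrank K L ∣ m)
    [IsCyclotomicExtension {Nat.card (ResidueField A) ^ m - 1} L M] {π : A}
    (hπ : Irreducible π) :
    ∃ t : M, Algebra.norm L t = algebraMap K L (algebraMap A K π) ^ (m / finrank K L) := by
  classical
  have hlocB : IsLocalRing B := ext_isLocalRing A K L B
  have hdvrB : IsDiscreteValuationRing B := ext_isDiscreteValuationRing A K L B
  have hcompB := ext_isAdicComplete A K L B
  have hfinAB := ext_finite A K L B
  have htfAB := ext_isTorsionFree A K L B
  have hlochom := ext_isLocalHom A K L B
  have hfrB := ext_isFractionRing A K L B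
  have hens : HenselianLocalRing B := LocalUnits.henselianLocalRing_of_isAdicComplete B
  have hresB : Finite (ResidueField B) := finite_residueField_B A K L B
  set q := Nat.card (ResidueField A) with hq
  set n := finrank K L with hn
  have hn0 : n ≠ 0 := finrank_KL_ne_zero A K L B
  have hef : ramIdx A B * resDegree A B = n := ramIdx_mul_resDegree A K L B
  set e := ramIdx A B with he
  set f := resDegree A B with hf
  have hf0 : f ≠ 0 := (resDegree_pos A K L B).ne'
  have hcardB : Nat.card (ResidueField B) = q ^ f := natCard_residueField_B A K L B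
  have hfm : f ∣ m := dvd_trans ⟨e, by rw [← hef, mul_comm]⟩ hnm
  obtain ⟨k, hk⟩ := hnm
  have hk' : m / n = k := by rw [hk, Nat.mul_div_cancel_left _ (Nat.pos_of_ne_zero hn0)]
  have hd : m / f = e * k := by
    rw [hk, ← hef, mul_assoc, mul_comm e, mul_assoc, Nat.mul_div_cancel_left _ (Nat.pos_of_ne_zero hf0),
      mul_comm]
  have hd0 : m / f ≠ 0 := by
    intro h0
    have := Nat.div_mul_cancel hfm
    rw [h0, zero_mul] at this
    exact hm this.symm
  have hcyc : IsCyclotomicExtension {Nat.card (ResidueField B) ^ (m / f) - 1} L M := by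
    rw [hcardB, ← pow_mul, Nat.mul_div_cancel' hfm]
    infer_instance
  have hfdM : FiniteDimensional L M :=
    IsCyclotomicExtension.finiteDimensional {Nat.card (ResidueField B) ^ (m / f) - 1} L M
  have hsepM : Algebra.IsSeparable L M :=
    IsCyclotomicExtension.isSeparable {Nat.card (ResidueField B) ^ (m / f) - 1} L M
  let _ : Algebra B M := ((algebraMap L M).comp (algebraMap B L)).toAlgebra
  have : IsScalarTower B L M := IsScalarTower.of_algebraMap_eq (fun _ => rfl)
  have hlocC : IsLocalRing (integralClosure B M) := ext_isLocalRing B L M (integralClosure B M)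
  obtain ⟨hunr, hdeg⟩ := finrank_of_cyclotomic_of_complete B L M (integralClosure B M) (m / f) hd0
  -- decompose the uniformizer
  obtain ⟨ϖ, hϖ⟩ := IsDiscreteValuationRing.exists_irreducible B
  have h1 := map_maximalIdeal_eq_pow A B
  rw [hπ.maximalIdeal_eq, hϖ.maximalIdeal_eq, Ideal.map_span, Set.image_singleton,
    Ideal.span_singleton_pow, Ideal.span_singleton_eq_span_singleton] at h1
  obtain ⟨u, hu⟩ := h1
  -- `algebraMap A B π * u = ϖ ^ e`
  obtain ⟨v, hv⟩ := LocalUnits.exists_norm_eq_of_isUnram B L M (integralClosure B M) hunr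
    ((u⁻¹) ^ k)
  refine ⟨algebraMap (integralClosure B M) M v * algebraMap L M (algebraMap B L ϖ), ?_⟩
  rw [map_mul, hv, Algebra.norm_algebraMap, hdeg, hd, hk', ← map_pow, ← map_mul,
    ← IsScalarTower.algebraMap_apply A K L, IsScalarTower.algebraMap_apply A B L, ← map_pow]
  congr 1
  rw [pow_mul, he, ← hu, mul_pow, Units.val_pow_eq_pow_val]
  calc ((u⁻¹ : Bˣ) : B) ^ k * (algebraMap A B π ^ k * (u : B) ^ k)
      = algebraMap A B π ^ k * (((u⁻¹ : Bˣ) : B) * u) ^ k := by ring
    _ = algebraMap A B π ^ k := by rw [Units.inv_mul, one_pow, mul_one]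

include B in
/-- Unit version of `exists_norm_eq_uniformizer_pow`. -/
theorem exists_units_norm_eq_uniformizer_pow (M : Type) [Field M] [Algebra L M] (m : ℕ)
    (hm : m ≠ 0) (hnm : finrank K L ∣ m)
    [IsCyclotomicExtension {Nat.card (ResidueField A) ^ m - 1} L M] {π : A}
    (hπ : Irreducible π) :
    ∃ t : Mˣ, Algebra.norm L (t : M) =
      algebraMap K L (algebraMap A K π) ^ (m / finrank K L) := by
  obtain ⟨t, ht⟩ := exists_norm_eq_uniformizer_pow A K L B M m hm hnm hπ
  have hπ0 : algebraMap K L (algebraMap A K π) ≠ 0 := by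
    rw [Ne, map_eq_zero_iff _ (algebraMap K L).injective,
      map_eq_zero_iff _ (IsFractionRing.injective A K)]
    exact hπ.ne_zero
  have ht0 : t ≠ 0 := by
    rintro rfl
    have hfd : FiniteDimensional L M :=
      IsCyclotomicExtension.finiteDimensional {Nat.card (ResidueField A) ^ m - 1} L M
    rw [Algebra.norm_zero] at ht
    exact pow_ne_zero _ hπ0 ht.symm
  exact ⟨Units.mk0 t ht0, ht⟩

end Unramified

end Fermat.Agent.Lib.CFT.Local
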