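import Mathlib

/-!
# Small field-theoretic lemmas on cyclotomic towers

Pure field theory used by the common-overfield construction of the local invariant
(`LocalBrauer/Inv`).

* `fieldRange_le_adjoin_of_cyclotomic` : the image of an `N₁`-cyclotomic extension in any
  extension lies in the field generated by the `N₃`-th roots of unity, `N₁ ∣ N₃`.
* `pow_sub_one_dvd_pow_mul_sub_one` : `q ^ a - 1 ∣ q ^ (a * b) - 1`.
* `nonempty_algHom_cyclotomicField` : an `N`-cyclotomic extension of `L` embeds over `L` into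
  `CyclotomicField N₃ M` for any extension `M` of `L`, `N ∣ N₃`, `N₃ ≠ 0` in `M`.
-/

namespace Fermat.Agent.Lib.CFT.Local.UnramTower

open Polynomial

/-- (L1) The image of an `N₁`-cyclotomic extension lies in the field generated by the `N₃`-th
roots of unity when `N₁ ∣ N₃`. -/
theorem fieldRange_le_adjoin_of_cyclotomic {K E F : Type*} [Field K] [Field E] [Field F]
    [Algebra K E] [Algebra K F] {N₁ N₃ : ℕ} [IsCyclotomicExtension {N₁} K E] (φ : E →ₐ[K] F)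
    (hdvd : N₁ ∣ N₃) (hN₃ : N₃ ≠ 0) :
    φ.fieldRange ≤
      IntermediateField.adjoin K {x : F | ∃ n ∈ ({N₃} : Set ℕ), n ≠ 0 ∧ x ^ n = 1} := by
  rintro _ ⟨e, rfl⟩
  have he := IsCyclotomicExtension.adjoin_roots (S := {N₁}) (A := K) (B := E) e
  have h1 : φ e ∈ (Algebra.adjoin K {b : E | ∃ n : ℕ, n ∈ ({N₁} : Set ℕ) ∧ n ≠ 0 ∧ b ^ n = 1}).map
      φ := ⟨e, he, rfl⟩
  rw [AlgHom.map_adjoin] at h1
  have h2 : Algebra.adjoin K (φ '' {b : E | ∃ n : ℕ, n ∈ ({N₁} : Set ℕ) ∧ n ≠ 0 ∧ b ^ n = 1}) ≤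
      (IntermediateField.adjoin K
        {x : F | ∃ n ∈ ({N₃} : Set ℕ), n ≠ 0 ∧ x ^ n = 1}).toSubalgebra := by
    apply Algebra.adjoin_le
    rintro _ ⟨b, ⟨n, hn, -, hb⟩, rfl⟩
    apply IntermediateField.subset_adjoin
    rw [Set.mem_singleton_iff] at hn
    subst hn
    refine ⟨N₃, rfl, hN₃, ?_⟩
    obtain ⟨c, rfl⟩ := hdvd
    rw [pow_mul, ← map_pow, hb, map_one, one_pow]
  exact h2 h1

/-- (L2) `q ^ a - 1` divides `q ^ (a * b) - 1`. -/
theorem pow_sub_one_dvd_pow_mul_sub_one (q a b : ℕ) : q ^ a - 1 ∣ q ^ (a * b) - 1 := by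
  simpa only [one_pow, pow_mul] using Nat.sub_dvd_pow_sub_pow (q ^ a) 1 b

/-- A primitive `N`-th root of unity in `CyclotomicField N₃ M` for `N ∣ N₃`. -/
theorem exists_isPrimitiveRoot_cyclotomicField {M : Type*} [Field M] {N N₃ : ℕ} (hdvd : N ∣ N₃)
    (hN₃ : (N₃ : M) ≠ 0) : ∃ ζ : CyclotomicField N₃ M, IsPrimitiveRoot ζ N := by
  have hN₃0 : N₃ ≠ 0 := by
    rintro rfl
    exact hN₃ Nat.cast_zero
  have : NeZero N₃ := ⟨hN₃0⟩
  have : NeZero (N₃ : M) := ⟨hN₃⟩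
  obtain ⟨ζ, hζ⟩ := IsCyclotomicExtension.exists_isPrimitiveRoot M (CyclotomicField N₃ M)
    (Set.mem_singleton N₃) hN₃0
  obtain ⟨c, rfl⟩ := hdvd
  have hc : c ≠ 0 := by
    rintro rfl
    exact hN₃0 (mul_zero N)
  have hN : N ≠ 0 := by
    rintro rfl
    exact hN₃0 (zero_mul c)
  refine ⟨ζ ^ c, ?_⟩
  have := hζ.pow (Nat.pos_of_ne_zero hN₃0) (mul_comm c N ▸ rfl : N * c = c * N)
  exact this

/-- (L3) An `N`-cyclotomic extension `Mc` of `L` embeds over `L` into `CyclotomicField N₃ M`, for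
any field extension `M` of `L`, when `N ∣ N₃` and `N₃ ≠ 0` in `M`. -/
theorem nonempty_algHom_cyclotomicField {L M Mc : Type*} [Field L] [Field M] [Field Mc]
    [Algebra L M] [Algebra L Mc] {N N₃ : ℕ} [IsCyclotomicExtension {N} L Mc] (hdvd : N ∣ N₃)
    (hN₃ : (N₃ : M) ≠ 0) : Nonempty (Mc →ₐ[L] CyclotomicField N₃ M) := by
  have hN₃0 : N₃ ≠ 0 := by
    rintro rfl
    exact hN₃ Nat.cast_zero
  have hN : N ≠ 0 := by
    rintro rfl
    exact hN₃0 (Nat.eq_zero_of_zero_dvd hdvd)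
  have : NeZero N := ⟨hN⟩
  obtain ⟨ζ, hζ⟩ := exists_isPrimitiveRoot_cyclotomicField (M := M) hdvd hN₃
  have : IsSplittingField L Mc (X ^ N - 1) :=
    IsCyclotomicExtension.isSplittingField_X_pow_sub_one N L Mc
  have hsplit : ((X ^ N - 1 : L[X]).map (algebraMap L (CyclotomicField N₃ M))).Splits := by
    rw [Polynomial.map_sub, Polynomial.map_one, Polynomial.map_pow, Polynomial.map_X]
    exact X_pow_sub_one_splits hζ
  exact ⟨IsSplittingField.lift Mc (X ^ N - 1 : L[X]) hsplit⟩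

end Fermat.Agent.Lib.CFT.Local.UnramTower
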