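import Mathlib
import Fermat.Agent.Lib.CFT.Local.Unramified

/-!
# Base change of unramified extensions inside a common overfield (helper42, P-CFT)

`K ⊆ K'` two complete discretely valued fields with finite residue fields (rings of integers
`A`, `A'`), both inside a field `Ω`.  If `E = K(ζ) ⊆ Ω` is the unramified extension of `K` of
degree `n` (`ζ` a primitive `(Q^n-1)`-th root of unity) then the compositum `E K' = K'(ζ) ⊆ Ω` is
unramified and Galois over `K'`, of degree `n / gcd(n, f)` when `#κ_{A'} = Q ^ f`.
-/

set_option autoImplicit false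
set_option linter.unusedSectionVars false

open IsLocalRing Polynomial Module

namespace Fermat.Agent.Lib.CFT.Local.Unramified

section baseChange

variable (A K : Type) [CommRing A] [IsDomain A] [IsDiscreteValuationRing A]
  [IsAdicComplete (maximalIdeal A) A] [Field K] [Algebra A K] [IsFractionRing A K]
  [Finite (ResidueField A)]
  (A' K' : Type) [CommRing A'] [IsDomain A'] [IsDiscreteValuationRing A']
  [IsAdicComplete (maximalIdeal A') A'] [Field K'] [Algebra A' K'] [IsFractionRing A' K']
  [Finite (ResidueField A')]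
  (Ω : Type) [Field Ω] [Algebra K Ω] [Algebra A Ω] [IsScalarTower A K Ω]
  [Algebra K' Ω] [Algebra A' Ω] [IsScalarTower A' K' Ω]
  [Algebra K K'] [IsScalarTower K K' Ω]

section simple

variable {n : ℕ} (hn : n ≠ 0) {z : Ω}
  (hz : IsPrimitiveRoot z (Nat.card (ResidueField A) ^ n - 1))

include hn hz

/-- The compositum of `K'` with the unramified extension `K(ζ)` is `K'(ζ)`. -/
theorem adjoin_unramifiedExt :
    IntermediateField.adjoin K' (unramifiedExt A K Ω n : Set Ω) =
      IntermediateField.adjoin K' {z} := by
  rw [unramifiedExt_eq_adjoin A K Ω hn hz]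
  apply le_antisymm
  · rw [IntermediateField.adjoin_le_iff]
    have h1 : IntermediateField.adjoin K {z} ≤
        (IntermediateField.adjoin K' {z}).restrictScalars K := by
      rw [IntermediateField.adjoin_simple_le_iff]
      exact IntermediateField.mem_adjoin_simple_self K' z
    exact fun x hx => h1 hx
  · rw [IntermediateField.adjoin_simple_le_iff]
    exact IntermediateField.subset_adjoin K' _ (IntermediateField.mem_adjoin_simple_self K z)

theorem isCyclotomicExtension_adjoin_baseChange :
    IsCyclotomicExtension {Nat.card (ResidueField A) ^ n - 1} K'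
      (IntermediateField.adjoin K' {z}) := by
  have : NeZero (Nat.card (ResidueField A) ^ n - 1) := ⟨card_pow_sub_one_ne_zero A Ω hn hz⟩
  exact (IntermediateField.isCyclotomicExtension_singleton_iff_eq_adjoin _ K' Ω _ hz).mpr rfl

theorem finiteDimensional_adjoin_baseChange :
    FiniteDimensional K' (IntermediateField.adjoin K' {z}) := by
  have := isCyclotomicExtension_adjoin_baseChange A K' Ω hn hz
  exact IsCyclotomicExtension.finiteDimensional {Nat.card (ResidueField A) ^ n - 1} K' _

theorem isGalois_adjoin_baseChange :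
    IsGalois K' (IntermediateField.adjoin K' {z}) := by
  have := isCyclotomicExtension_adjoin_baseChange A K' Ω hn hz
  have : NeZero (Nat.card (ResidueField A) ^ n - 1) := ⟨card_pow_sub_one_ne_zero A Ω hn hz⟩
  exact IsCyclotomicExtension.isGalois {Nat.card (ResidueField A) ^ n - 1} K' _

/-- **Base change**: `K'(ζ)/K'` is unramified (`ζ` of order `Q^n - 1` prime to the residue
characteristic of `A'`). -/
theorem isUnramifiedExt_adjoin_baseChange
    (hchar : ((Nat.card (ResidueField A) ^ n - 1 : ℕ) : ResidueField A') ≠ 0) :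
    IsUnramifiedExt A' (IntermediateField.adjoin K' {z}) := by
  have := isCyclotomicExtension_adjoin_baseChange A K' Ω hn hz
  have := finiteDimensional_adjoin_baseChange A K' Ω hn hz
  have := isGalois_adjoin_baseChange A K' Ω hn hz
  exact isUnramifiedExt_of_isCyclotomicExtension A' K' Ω (IntermediateField.adjoin K' {z}) hchar

/-- Degree of the base change: `[K'(ζ):K'] ∣ j ↔ n ∣ f j` when `#κ_{A'} = Q ^ f`. -/
theorem finrank_adjoin_baseChange_dvd_iff
    (hchar : ((Nat.card (ResidueField A) ^ n - 1 : ℕ) : ResidueField A') ≠ 0)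
    {f : ℕ} (hf : Nat.card (ResidueField A') = Nat.card (ResidueField A) ^ f) (j : ℕ) :
    finrank K' (IntermediateField.adjoin K' {z}) ∣ j ↔ n ∣ f * j := by
  have := isCyclotomicExtension_adjoin_baseChange A K' Ω hn hz
  have := finiteDimensional_adjoin_baseChange A K' Ω hn hz
  have := isGalois_adjoin_baseChange A K' Ω hn hz
  rw [finrank_dvd_iff_of_isCyclotomicExtension' A' K' Ω (IntermediateField.adjoin K' {z}) hchar j,
    hf, ← pow_mul,
    pow_sub_one_dvd_pow_sub_one_iff (Finite.one_lt_card : 1 < Nat.card (ResidueField A)) n _ hn]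

/-- `[K'(ζ):K'] · gcd(n, f) = n`. -/
theorem finrank_adjoin_baseChange_mul_gcd
    (hchar : ((Nat.card (ResidueField A) ^ n - 1 : ℕ) : ResidueField A') ≠ 0)
    {f : ℕ} (hf : Nat.card (ResidueField A') = Nat.card (ResidueField A) ^ f) :
    finrank K' (IntermediateField.adjoin K' {z}) * Nat.gcd n f = n := by
  have key := finrank_adjoin_baseChange_dvd_iff A A' K' Ω hn hz hchar hf
  have hg : 0 < Nat.gcd n f := Nat.gcd_pos_of_pos_left f (Nat.pos_of_ne_zero hn)
  obtain ⟨n', hn'⟩ := Nat.gcd_dvd_left n f
  obtain ⟨f', hf'⟩ := Nat.gcd_dvd_right n f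
  have hcop : Nat.Coprime n' f' := by
    have := Nat.coprime_div_gcd_div_gcd hg
    rwa [Nat.div_eq_of_eq_mul_right hg hn', Nat.div_eq_of_eq_mul_right hg hf'] at this
  -- `d ∣ j ↔ n' ∣ j`
  have key' : ∀ j, finrank K' (IntermediateField.adjoin K' {z}) ∣ j ↔ n' ∣ j := by
    intro j
    rw [key j]
    constructor
    · intro h
      have h1 : Nat.gcd n f * n' ∣ Nat.gcd n f * (f' * j) := by
        rw [← hn', ← mul_assoc, ← hf']; exact h
      have h2 : n' ∣ f' * j := Nat.dvd_of_mul_dvd_mul_left hg h1
      exact hcop.dvd_of_dvd_mul_left h2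
    · intro h
      obtain ⟨c, rfl⟩ := h
      refine ⟨f' * c, ?_⟩
      conv_lhs => rw [hf']
      conv_rhs => rw [hn']
      ring
  have hd : finrank K' (IntermediateField.adjoin K' {z}) = n' :=
    Nat.dvd_antisymm ((key' n').mpr dvd_rfl) ((key' _).mp dvd_rfl)
  rw [hd, mul_comm]
  exact hn'.symm

end simple

section general

variable (E : IntermediateField K Ω) [FiniteDimensional K E] [Algebra.IsSeparable K E]

/-- An unramified `E/K` inside `Ω` is generated by a primitive `(Q^n-1)`-th root of unity. -/
theorem exists_isPrimitiveRoot_of_isUnramifiedExt (hE : IsUnramifiedExt A E) :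
    ∃ z : Ω, IsPrimitiveRoot z (Nat.card (ResidueField A) ^ finrank K E - 1) ∧
      E = IntermediateField.adjoin K {z} := by
  have hd : finrank K E ≠ 0 := (finrank_pos (R := K) (M := E)).ne'
  have hcyc := (isUnramifiedExt_iff_isCyclotomicExtension A K Ω E).mp hE
  have hm : Nat.card (ResidueField A) ^ finrank K E - 1 ≠ 0 := by
    have h1 : 1 < Nat.card (ResidueField A) := Finite.one_lt_card
    have h2 : 1 < Nat.card (ResidueField A) ^ finrank K E := Nat.one_lt_pow hd h1
    omega
  have : NeZero (Nat.card (ResidueField A) ^ finrank K E - 1) := ⟨hm⟩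
  obtain ⟨zE, hzE⟩ := IsCyclotomicExtension.exists_isPrimitiveRoot K E
    (Set.mem_singleton (Nat.card (ResidueField A) ^ finrank K E - 1)) hm
  have hz : IsPrimitiveRoot (zE : Ω) (Nat.card (ResidueField A) ^ finrank K E - 1) :=
    hzE.map_of_injective (f := algebraMap E Ω) (algebraMap E Ω).injective
  exact ⟨zE, hz,
    (IntermediateField.isCyclotomicExtension_singleton_iff_eq_adjoin _ K Ω E hz).mp hcyc⟩

/-- **Base change of an unramified extension inside `Ω`**: the compositum `E K'` is finite,
Galois and unramified over `K'`. -/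
theorem baseChange_of_isUnramifiedExt (hE : IsUnramifiedExt A E)
    (hchar : ((Nat.card (ResidueField A) ^ finrank K E - 1 : ℕ) : ResidueField A') ≠ 0) :
    FiniteDimensional K' (IntermediateField.adjoin K' (E : Set Ω)) ∧
      IsGalois K' (IntermediateField.adjoin K' (E : Set Ω)) ∧
      IsUnramifiedExt A' (IntermediateField.adjoin K' (E : Set Ω)) := by
  have hd : finrank K E ≠ 0 := (finrank_pos (R := K) (M := E)).ne'
  obtain ⟨z, hz, hEz⟩ := exists_isPrimitiveRoot_of_isUnramifiedExt A K Ω E hE
  have h1 : IntermediateField.adjoin K' (E : Set Ω) = IntermediateField.adjoin K' {z} := by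
    rw [← adjoin_unramifiedExt A K K' Ω hd hz, unramifiedExt_eq_adjoin A K Ω hd hz, ← hEz]
  rw [h1]
  exact ⟨finiteDimensional_adjoin_baseChange A K' Ω hd hz, isGalois_adjoin_baseChange A K' Ω hd hz,
    isUnramifiedExt_adjoin_baseChange A A' K' Ω hd hz hchar⟩

end general

section charTransfer

variable [Algebra A A'] [IsLocalHom (algebraMap A A')]

/-- If `A → A'` is a local homomorphism then `Q^n - 1` is nonzero in the residue field of `A'`. -/
theorem natCast_card_pow_sub_one_ne_zero_of_isLocalHom (n : ℕ) (hn : n ≠ 0) :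
    ((Nat.card (ResidueField A) ^ n - 1 : ℕ) : ResidueField A') ≠ 0 :=
  natCast_residue_ne_zero A A'
    (Teichmuller.natCast_natCard_pow_sub_one_ne_zero (ResidueField A) n hn)

end charTransfer

end baseChange

end Fermat.Agent.Lib.CFT.Local.Unramified
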