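import Mathlib
import Fermat.Agent.Lib.CFT.Local.Basic
import Fermat.Agent.Lib.CFT.Local.DVRVal
import Fermat.Agent.Lib.CFT.Local.UnramifiedCore
import Fermat.Agent.Lib.CFT.Local.Unramified

/-!
# Unramified extensions of local fields: towers, base change and bridges (helper42, P-CFT)

* bridges between `resDegree`/`inertiaGroup` of `UnramifiedCore` and `resDeg`/`ramIdx` of `DVRVal`;
* `fixedField (inertiaGroup) = maxUnram`;
* the base change square for Frobenius elements: `Frob_{K'}|_L = Frob_K ^ f(K'/K)`;
* inertia groups in towers: `I(E/F) = I(E/K) ∩ Gal(E/F)`.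
-/

set_option autoImplicit false

open IsLocalRing Polynomial Module

namespace Fermat.Agent.Lib.CFT.Local.Unramified

section bridge

variable (A B : Type*) [CommRing A] [IsDomain A] [IsDiscreteValuationRing A]
  [CommRing B] [IsDomain B] [IsDiscreteValuationRing B] [Algebra A B]
  [Module.Finite A B] [Module.IsTorsionFree A B]

/-- The residue degree of `UnramifiedCore` agrees with the one of `DVRVal`. -/
theorem resDegree_eq_resDeg [IsLocalHom (algebraMap A B)] :
    resDegree A B = Local.resDeg A B := by
  unfold resDegree Local.resDeg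
  rw [Ideal.inertiaDeg_eq_of_isMaximal (maximalIdeal A) (maximalIdeal B)]
  rfl

/-- Unramified means ramification index one. -/
theorem isUnram_iff_ramIdx_eq_one : IsUnram A B ↔ Local.ramIdx A B = 1 := by
  unfold IsUnram
  rw [Local.map_maximalIdeal_eq_pow]
  have hinj : Function.Injective (fun n : ℕ => maximalIdeal B ^ n) :=
    (Ideal.pow_right_strictAnti (maximalIdeal B) (IsDiscreteValuationRing.not_a_field B)
      (Ideal.IsPrime.ne_top inferInstance)).injective
  constructor
  · intro h
    apply hinj
    simp only [pow_one]
    exact h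
  · intro h
    rw [h, pow_one]

end bridge

section AKLB3

variable (A K L B : Type) [CommRing A] [IsDomain A] [IsDiscreteValuationRing A]
  [IsAdicComplete (maximalIdeal A) A]
  [Field K] [Algebra A K] [IsFractionRing A K] [Finite (ResidueField A)]
  [Field L] [Algebra K L] [FiniteDimensional K L] [Algebra.IsSeparable K L]
  [Algebra A L] [IsScalarTower A K L]
  [CommRing B] [Algebra A B] [Algebra B L] [IsScalarTower A B L]
  [IsIntegralClosure B A L] [IsLocalRing B] [IsLocalHom (algebraMap A B)]

include A K L B

/-- The fixed field of the inertia group is the maximal unramified subextension. -/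
theorem fixedField_inertiaGroup [IsGalois K L] :
    IntermediateField.fixedField (inertiaGroup A K L B) = maxUnram A K L B := by
  rw [inertiaGroup_eq_fixingSubgroup, IsGalois.fixedField_fixingSubgroup]

theorem finrank_fixedField_inertiaGroup [IsGalois K L] :
    finrank K (IntermediateField.fixedField (inertiaGroup A K L B)) = resDegree A B := by
  rw [fixedField_inertiaGroup, finrank_maxUnram]

theorem isUnramifiedExt_fixedField_inertiaGroup [IsGalois K L] :
    IsUnramifiedExt A (IntermediateField.fixedField (inertiaGroup A K L B)) := by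
  rw [fixedField_inertiaGroup]
  exact isUnramifiedExt_maxUnram A K L B

/-- `#I = e`: the inertia group has order the ramification index (of `DVRVal`). -/
theorem card_inertiaGroup_eq_ramIdx [IsGalois K L] [IsDomain B] [IsDiscreteValuationRing B]
    [Module.Finite A B] [Module.IsTorsionFree A B] :
    Nat.card (inertiaGroup A K L B) = Local.ramIdx A B := by
  have h1 := card_inertiaGroup_mul_resDegree A K L B
  have h2 := Local.ramIdx_mul_resDeg A B
  rw [finrank_B A K L B, ← resDegree_eq_resDeg A B, ← h1] at h2
  exact (Nat.eq_of_mul_eq_mul_right (Nat.pos_of_ne_zero (resDegree_ne_zero A K L B)) h2).symm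

/-- The inertia group is trivial iff the extension is unramified. -/
theorem inertiaGroup_eq_bot_iff [IsGalois K L] :
    inertiaGroup A K L B = ⊥ ↔ IsUnram A B := by
  have := henselian_B A K L B
  rw [isUnram_iff_resDegree_eq_finrank A K L B, ← card_inertiaGroup_mul_resDegree A K L B,
    ← Subgroup.card_eq_one]
  have hf := resDegree_ne_zero A K L B
  constructor
  · intro h; rw [h, one_mul]
  · intro h
    have h3 : 1 * resDegree A B = Nat.card (inertiaGroup A K L B) * resDegree A B := by
      rw [one_mul]; exact h
    exact (Nat.eq_of_mul_eq_mul_right (Nat.pos_of_ne_zero hf) h3).symm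

end AKLB3

section arithFrob

/-! ### Bridge to Mathlib's `AlgHom.IsArithFrobAt` -/

variable (A K L B : Type*)
  [CommRing A] [IsDomain A] [IsDiscreteValuationRing A]
  [Field K] [Algebra A K] [IsFractionRing A K]
  [Field L] [Algebra K L] [FiniteDimensional K L] [Algebra.IsSeparable K L]
  [Algebra A L] [IsScalarTower A K L]
  [CommRing B] [Algebra A B] [Algebra B L] [IsScalarTower A B L] [IsIntegralClosure B A L]
  [HenselianLocalRing B] [IsLocalHom (algebraMap A B)] [Finite (ResidueField A)]

omit [IsDomain A] [IsDiscreteValuationRing A] [HenselianLocalRing B] [Finite (ResidueField A)] in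
lemma natCard_quotient_under [IsLocalRing A] [IsLocalRing B] :
    Nat.card (A ⧸ (maximalIdeal B).under A) = Nat.card (ResidueField A) := by
  rw [← Ideal.over_def (maximalIdeal B) (maximalIdeal A)]
  rfl

/-- The Frobenius element of an unramified extension is an arithmetic Frobenius at the maximal
ideal in the sense of Mathlib. -/
theorem isArithFrobAt_frob (h : IsUnram A B) :
    (galRestrict A K L B (frob A K L B h) : B →ₐ[A] B).IsArithFrobAt (maximalIdeal B) := by
  intro b
  rw [natCard_quotient_under A B]
  exact frob_sub_pow_mem A K L B h b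

/-- Conversely an automorphism which is an arithmetic Frobenius at the maximal ideal is the
Frobenius element. -/
theorem eq_frob_of_isArithFrobAt (h : IsUnram A B) (σ : L ≃ₐ[K] L)
    (hσ : (galRestrict A K L B σ : B →ₐ[A] B).IsArithFrobAt (maximalIdeal B)) :
    σ = frob A K L B h := by
  rw [eq_frob_iff]
  intro b
  have := hσ b
  rw [natCard_quotient_under A B, ← residue_eq_zero_iff, map_sub, sub_eq_zero, map_pow] at this
  exact this

end arithFrob

section square

/-! ### The base change square

`(A, K, L, B)` an unramified block, `(A', K', L', B')` any block (`B'` local), with compatible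
maps `K → K'`, `L → L'`, `B → B'`.  An automorphism of `L'/K'` inducing `x ↦ x ^ (Q ^ j)` on the
residue field of `B'` restricts to `Frob ^ j` on `L`. -/

variable (A K L B : Type*)
  [CommRing A] [IsDomain A] [IsDiscreteValuationRing A]
  [Field K] [Algebra A K] [IsFractionRing A K]
  [Field L] [Algebra K L] [FiniteDimensional K L] [Algebra.IsSeparable K L]
  [Algebra A L] [IsScalarTower A K L]
  [CommRing B] [Algebra A B] [Algebra B L] [IsScalarTower A B L] [IsIntegralClosure B A L]
  [HenselianLocalRing B] [IsLocalHom (algebraMap A B)] [Finite (ResidueField A)]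
  (A' K' L' B' : Type*)
  [CommRing A'] [Field K'] [Algebra A' K'] [IsFractionRing A' K']
  [Field L'] [Algebra K' L'] [Algebra.IsAlgebraic K' L']
  [Algebra A' L'] [IsScalarTower A' K' L']
  [CommRing B'] [Algebra A' B'] [Algebra B' L'] [IsScalarTower A' B' L']
  [IsIntegralClosure B' A' L'] [IsLocalRing B']
  [Algebra K K'] [Algebra L L'] [Algebra K L'] [IsScalarTower K K' L'] [IsScalarTower K L L']
  [Algebra B B'] [Algebra B L'] [IsScalarTower B B' L'] [IsScalarTower B L L']
  [IsLocalHom (algebraMap B B')]

/-- Compatibility of `galRestrict` with a map of blocks. -/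
lemma algebraMap_galRestrict_restrictNormal [Normal K L] (σ' : L' ≃ₐ[K'] L') (b : B) :
    algebraMap B B' (galRestrict A K L B ((σ'.restrictScalars K).restrictNormal L) b) =
      galRestrict A' K' L' B' σ' (algebraMap B B' b) := by
  apply IsIntegralClosure.algebraMap_injective B' A' L'
  rw [algebraMap_galRestrict_apply, ← IsScalarTower.algebraMap_apply B B' L',
    ← IsScalarTower.algebraMap_apply B B' L', IsScalarTower.algebraMap_apply B L L',
    IsScalarTower.algebraMap_apply B L L', algebraMap_galRestrict_apply,
    AlgEquiv.restrictNormal_commutes]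
  rfl

/-- **Base change of Frobenius, general form**: if `σ' ∈ Gal(L'/K')` induces `x ↦ x ^ (Q ^ j)` on
the residue field of `B'` (`Q = #κ_A`), then `σ'|_L = Frob_{L/K} ^ j`. -/
theorem restrictNormal_eq_frob_pow [Normal K L] (h : IsUnram A B) (σ' : L' ≃ₐ[K'] L') (j : ℕ)
    (hσ' : ∀ b' : B', residue B' (galRestrict A' K' L' B' σ' b') =
      residue B' b' ^ (Nat.card (ResidueField A) ^ j)) :
    (σ'.restrictScalars K).restrictNormal L = frob A K L B h ^ j := by
  rw [eq_frob_pow_iff]
  intro b
  apply (ResidueField.map (algebraMap B B')).injective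
  rw [ResidueField.map_residue, algebraMap_galRestrict_restrictNormal A K L B A' K' L' B', hσ',
    map_pow, ResidueField.map_residue]

/-- Pointwise form of `restrictNormal_eq_frob_pow`. -/
theorem apply_algebraMap_eq_frob_pow (h : IsUnram A B) (σ' : L' ≃ₐ[K'] L') (j : ℕ)
    (hσ' : ∀ b' : B', residue B' (galRestrict A' K' L' B' σ' b') =
      residue B' b' ^ (Nat.card (ResidueField A) ^ j)) (x : L) :
    σ' (algebraMap L L' x) = algebraMap L L' ((frob A K L B h ^ j) x) := by
  have := isGalois_of_isUnram A K L B h
  rw [← restrictNormal_eq_frob_pow A K L B A' K' L' B' h σ' j hσ',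
    AlgEquiv.restrictNormal_commutes]
  rfl

end square

section squareFrob

/-! ### The base change square for two unramified blocks: `Frob_{L'/K'}|_L = Frob_{L/K} ^ f`. -/

variable (A K L B : Type*)
  [CommRing A] [IsDomain A] [IsDiscreteValuationRing A]
  [Field K] [Algebra A K] [IsFractionRing A K]
  [Field L] [Algebra K L] [FiniteDimensional K L] [Algebra.IsSeparable K L]
  [Algebra A L] [IsScalarTower A K L]
  [CommRing B] [Algebra A B] [Algebra B L] [IsScalarTower A B L] [IsIntegralClosure B A L]
  [HenselianLocalRing B] [IsLocalHom (algebraMap A B)] [Finite (ResidueField A)]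
  (A' K' L' B' : Type*)
  [CommRing A'] [IsDomain A'] [IsDiscreteValuationRing A']
  [Field K'] [Algebra A' K'] [IsFractionRing A' K']
  [Field L'] [Algebra K' L'] [FiniteDimensional K' L'] [Algebra.IsSeparable K' L']
  [Algebra A' L'] [IsScalarTower A' K' L']
  [CommRing B'] [Algebra A' B'] [Algebra B' L'] [IsScalarTower A' B' L']
  [IsIntegralClosure B' A' L']
  [HenselianLocalRing B'] [IsLocalHom (algebraMap A' B')] [Finite (ResidueField A')]
  [Algebra K K'] [Algebra L L'] [Algebra K L'] [IsScalarTower K K' L'] [IsScalarTower K L L']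
  [Algebra B B'] [Algebra B L'] [IsScalarTower B B' L'] [IsScalarTower B L L']
  [IsLocalHom (algebraMap B B')]

/-- **Base change of Frobenius**: if `#κ_{A'} = (#κ_A) ^ f` then the Frobenius of the unramified
`L'/K'` restricts to the `f`-th power of the Frobenius of the unramified `L/K`. -/
theorem frob_restrictNormal [Normal K L] (h : IsUnram A B) (h' : IsUnram A' B') (f : ℕ)
    (hf : Nat.card (ResidueField A') = Nat.card (ResidueField A) ^ f) :
    ((frob A' K' L' B' h').restrictScalars K).restrictNormal L = frob A K L B h ^ f := by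
  apply restrictNormal_eq_frob_pow A K L B A' K' L' B' h
  intro b'
  rw [residue_frob, hf]

/-- Pointwise form of `frob_restrictNormal`. -/
theorem frob_algebraMap (h : IsUnram A B) (h' : IsUnram A' B') (f : ℕ)
    (hf : Nat.card (ResidueField A') = Nat.card (ResidueField A) ^ f) (x : L) :
    frob A' K' L' B' h' (algebraMap L L' x) = algebraMap L L' ((frob A K L B h ^ f) x) := by
  apply apply_algebraMap_eq_frob_pow A K L B A' K' L' B' h
  intro b'
  rw [residue_frob, hf]

/-- `frob_algebraMap` with `f` the residue degree of a finite extension `A'/A` of the bases. -/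
theorem frob_algebraMap_resDegree [Algebra A A'] [IsLocalHom (algebraMap A A')]
    [Module.Finite A A'] (h : IsUnram A B) (h' : IsUnram A' B') (x : L) :
    frob A' K' L' B' h' (algebraMap L L' x) =
      algebraMap L L' ((frob A K L B h ^ resDegree A A') x) :=
  frob_algebraMap A K L B A' K' L' B' h h' _ (natCard_residueField (R := A) (S := A')) x

end squareFrob

section tower

/-! ### Inertia groups in towers

`(A, K, E, B)` and `(C, F, E, B)` two blocks with the same top, `K → F`. -/

variable (A K C F E B : Type*)
  [CommRing A] [IsDomain A] [IsDiscreteValuationRing A]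
  [Field K] [Algebra A K] [IsFractionRing A K]
  [CommRing C] [IsDomain C] [IsDiscreteValuationRing C]
  [Field F] [Algebra C F] [IsFractionRing C F]
  [Field E] [Algebra K E] [FiniteDimensional K E] [Algebra.IsSeparable K E]
  [Algebra A E] [IsScalarTower A K E]
  [Algebra F E] [FiniteDimensional F E] [Algebra.IsSeparable F E]
  [Algebra C E] [IsScalarTower C F E]
  [CommRing B] [Algebra A B] [Algebra B E] [IsScalarTower A B E] [IsIntegralClosure B A E]
  [Algebra C B] [IsScalarTower C B E] [IsIntegralClosure B C E]
  [IsLocalRing B] [IsLocalHom (algebraMap A B)] [IsLocalHom (algebraMap C B)]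
  [Algebra K F] [IsScalarTower K F E]

lemma galRestrict_restrictScalars (σ : E ≃ₐ[F] E) (b : B) :
    galRestrict A K E B (σ.restrictScalars K) b = galRestrict C F E B σ b := by
  apply IsIntegralClosure.algebraMap_injective B A E
  rw [algebraMap_galRestrict_apply, algebraMap_galRestrict_apply]
  rfl

/-- **Inertia in towers**: `σ ∈ Gal(E/F)` is in the inertia group of `E/F` iff it is in the
inertia group of `E/K`. -/
theorem restrictScalars_mem_inertiaGroup_iff (σ : E ≃ₐ[F] E) :
    σ.restrictScalars K ∈ inertiaGroup A K E B ↔ σ ∈ inertiaGroup C F E B := by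
  rw [mem_inertiaGroup_iff, mem_inertiaGroup_iff]
  simp only [galRestrict_restrictScalars A K C F E B]

end tower

section towerIntermediate

variable (A K E B : Type*)
  [CommRing A] [IsDomain A] [IsDiscreteValuationRing A]
  [Field K] [Algebra A K] [IsFractionRing A K]
  [Field E] [Algebra K E] [FiniteDimensional K E] [Algebra.IsSeparable K E]
  [Algebra A E] [IsScalarTower A K E]
  [CommRing B] [Algebra A B] [Algebra B E] [IsScalarTower A B E] [IsIntegralClosure B A E]
  [IsLocalRing B] [IsLocalHom (algebraMap A B)]
  (F : IntermediateField K E) (C : Type*)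
  [CommRing C] [IsDomain C] [IsDiscreteValuationRing C] [Algebra C F] [IsFractionRing C F]
  [Algebra C E] [IsScalarTower C F E]
  [Algebra C B] [IsScalarTower C B E] [IsIntegralClosure B C E] [IsLocalHom (algebraMap C B)]

/-- The inertia group of `E/F` corresponds to `I(E/K) ∩ Gal(E/F)`. -/
noncomputable def inertiaGroupTowerEquiv :
    inertiaGroup C F E B ≃ ↥(inertiaGroup A K E B ⊓ F.fixingSubgroup) where
  toFun σ := ⟨σ.1.restrictScalars K,
    ⟨(restrictScalars_mem_inertiaGroup_iff A K C F E B σ.1).mpr σ.2,
      (IntermediateField.mem_fixingSubgroup_iff _ _).mpr fun x hx => σ.1.commutes ⟨x, hx⟩⟩⟩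
  invFun τ := ⟨IntermediateField.fixingSubgroupEquiv F ⟨τ.1, τ.2.2⟩,
    (restrictScalars_mem_inertiaGroup_iff A K C F E B _).mp τ.2.1⟩
  left_inv σ := by ext; rfl
  right_inv τ := by ext; rfl

/-- `#I(E/F) = #(I(E/K) ∩ Gal(E/F))`. -/
theorem card_inertiaGroup_tower :
    Nat.card (inertiaGroup C F E B) = Nat.card ↥(inertiaGroup A K E B ⊓ F.fixingSubgroup) :=
  Nat.card_congr (inertiaGroupTowerEquiv A K E B F C)

end towerIntermediate

section towerFixedField

variable (A K E B : Type*)
  [CommRing A] [IsDomain A] [IsDiscreteValuationRing A]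
  [Field K] [Algebra A K] [IsFractionRing A K]
  [Field E] [Algebra K E] [FiniteDimensional K E] [Algebra.IsSeparable K E]
  [Algebra A E] [IsScalarTower A K E]
  [CommRing B] [Algebra A B] [Algebra B E] [IsScalarTower A B E] [IsIntegralClosure B A E]
  [IsLocalRing B] [IsLocalHom (algebraMap A B)]
  (H : Subgroup (E ≃ₐ[K] E)) (C : Type*)
  [CommRing C] [IsDomain C] [IsDiscreteValuationRing C]
  [Algebra C (IntermediateField.fixedField H)] [IsFractionRing C (IntermediateField.fixedField H)]
  [Algebra C E] [IsScalarTower C (IntermediateField.fixedField H) E]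
  [Algebra C B] [IsScalarTower C B E] [IsIntegralClosure B C E] [IsLocalHom (algebraMap C B)]

/-- `#I(E/E^H) = #(I(E/K) ∩ H)`. -/
theorem card_inertiaGroup_fixedField :
    Nat.card (inertiaGroup C (IntermediateField.fixedField H) E B) =
      Nat.card ↥(inertiaGroup A K E B ⊓ H) := by
  rw [card_inertiaGroup_tower A K E B (IntermediateField.fixedField H) C,
    IntermediateField.fixingSubgroup_fixedField]

end towerFixedField

section resDegreeTower

variable (R S T : Type*) [CommRing R] [CommRing S] [CommRing T]
  [IsLocalRing R] [IsLocalRing S] [IsLocalRing T]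
  [Algebra R S] [Algebra S T] [Algebra R T] [IsScalarTower R S T]
  [IsLocalHom (algebraMap R S)] [IsLocalHom (algebraMap S T)] [IsLocalHom (algebraMap R T)]

/-- Residue degrees are multiplicative in towers. -/
theorem resDegree_tower : resDegree R T = resDegree R S * resDegree S T :=
  (Module.finrank_mul_finrank (ResidueField R) (ResidueField S) (ResidueField T)).symm

end resDegreeTower

section towerComplete

/-! ### Ramification index of `E/F` inside a Galois `E/K` (complete case) -/

variable (A K E B : Type) [CommRing A] [IsDomain A] [IsDiscreteValuationRing A]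
  [Field K] [Algebra A K] [IsFractionRing A K]
  [Field E] [Algebra K E] [FiniteDimensional K E] [IsGalois K E]
  [Algebra A E] [IsScalarTower A K E]
  [CommRing B] [Algebra A B] [Algebra B E] [IsScalarTower A B E]
  [IsIntegralClosure B A E] [IsDomain B] [IsDiscreteValuationRing B]
  [IsLocalHom (algebraMap A B)]
  (F : IntermediateField K E) (C : Type)
  [CommRing C] [IsDomain C] [IsDiscreteValuationRing C] [IsAdicComplete (maximalIdeal C) C]
  [Finite (ResidueField C)] [Algebra C F] [IsFractionRing C F]
  [Algebra C E] [IsScalarTower C F E]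
  [Algebra C B] [IsScalarTower C B E] [IsIntegralClosure B C E] [IsLocalHom (algebraMap C B)]
  [Module.Finite C B] [Module.IsTorsionFree C B]

/-- `e(E/F) = #(I(E/K) ∩ Gal(E/F))` for `K ≤ F ≤ E`, `E/K` Galois. -/
theorem ramIdx_eq_card_inf_fixingSubgroup :
    Local.ramIdx C B = Nat.card ↥(inertiaGroup A K E B ⊓ F.fixingSubgroup) := by
  rw [← card_inertiaGroup_eq_ramIdx C F E B, card_inertiaGroup_tower A K E B F C]

end towerComplete

end Fermat.Agent.Lib.CFT.Local.Unramified
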